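import Fermat.Prelude.Def_CuspForm_HeckeLocal
import Fermat.Prelude.Def_GaloisRep_DeformationRingData
import Fermat.Prelude.Def_GaloisRep_StrictOrdinary
import Fermat.Prelude.Def_GaloisRep_Flat
import Fermat.Prelude.Def_WeierstrassCurve_Mlc1RowStatement
import Fermat.Prelude.Def_WeierstrassCurve_PeuRamifiee

/-!
# Modularity lifting at 3 and 5: shared definitions

* `Kind`: the local condition at `p` (flat, strict ordinary, ordinary).
* `cond`: the deformation conditions of the minimal and enlarged problems.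
* `IsHeckeGenerated`: the deformation ring is a quotient of a Hecke algebra.
* `ResidualSetup`, `MinLevel`: the residual data of a semistable curve.
-/

set_option autoImplicit false

noncomputable section

open IsLocalRing

namespace Fermat.Agent.R59

local notation "Γℚ" => (AlgebraicClosure ℚ ≃ₐ[ℚ] AlgebraicClosure ℚ)

/-- The kinds of local condition at `p`. -/
inductive Kind
  | flat
  | strict
  | ord
  deriving DecidableEq

/-- The part of a condition at `p`, together with the ramification set. -/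
def baseCond (k : Kind) (𝒪 : Type) [CommRing 𝒪] (p : ℕ) (S : Finset ℕ) :
    ∀ ⦃A : Type⦄ [CommRing A] [IsLocalRing A] [Algebra 𝒪 A], GaloisRepAdic A → Prop :=
  match k with
  | .flat => GaloisRep.flatCondition 𝒪 p S
  | .strict => GaloisRep.strictOrdinaryCondition 𝒪 p S
  | .ord => GaloisRep.ordinaryCondition 𝒪 p S

/-- Unramified outside `S`, of kind `k` at `p`, unipotent on inertia at `Smin \ {p}`. -/
def cond (k : Kind) (𝒪 : Type) [CommRing 𝒪] (p : ℕ) (S Smin : Finset ℕ) :
    ∀ ⦃A : Type⦄ [CommRing A] [IsLocalRing A] [Algebra 𝒪 A], GaloisRepAdic A → Prop :=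
  fun _A _ _ _ ρ => baseCond k 𝒪 p S ρ ∧
    ∀ q ∈ Smin, q.Prime → q ≠ p → ρ.IsUnipotentOnInertiaAt q

variable {𝒪 : Type} [CommRing 𝒪] [IsDomain 𝒪] [IsDiscreteValuationRing 𝒪]
  [IsAdicComplete (maximalIdeal 𝒪) 𝒪]
  {ρbar : ResidualGaloisRep (ResidueField 𝒪)}
  {𝒟 : ∀ ⦃A : Type⦄ [CommRing A] [IsLocalRing A] [Algebra 𝒪 A], GaloisRepAdic A → Prop}

/-- The deformation ring receives the Hecke algebra of level `N` away from `S`, sending `T_ℓ` to
the trace of Frobenius. With `R = T` this is the inverse of `R → T`. -/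
def IsHeckeGenerated (D : GaloisRep.DeformationRingData 𝒪 ρbar 𝒟) (N : ℕ) [NeZero N]
    (S : Set ℕ) : Prop :=
  ∃ τ : CuspForm.heckeAlgebra N 2 S →+* D.R,
    ∀ (ℓ : ℕ) (hℓ : ℓ.Prime) (hℓN : ¬ ℓ ∣ N) (hℓS : ℓ ∉ S),
      ∀ A : ValuationSubring (AlgebraicClosure ℚ), A.LiesOverPrime ℓ →
        ∀ σ : Γℚ, A.IsFrobeniusAt σ ℓ →
          LinearMap.trace D.R D.ρ.V (D.ρ.ρ σ) = τ (CuspForm.heckeAlgebra.T hℓ hℓN hℓS)

/-- `ρ` is a lift of `ρbar` with the Frobenius traces of the model `W`. -/
structure IsCurveLift (W : WeierstrassCurve ℤ) (p : ℕ)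
    (ρbar : ResidualGaloisRep (ResidueField 𝒪)) (ρ : GaloisRepAdic 𝒪) : Prop where
  residual : ρ.residual.IsEquiv
    (ρbar.baseChangeAlong (ResidueField.map (algebraMap 𝒪 𝒪)))
  trace : ∀ ℓ : ℕ, ℓ.Prime → W.IsGoodPrimeFor ℓ → ℓ ≠ p →
    ∀ A : ValuationSubring (AlgebraicClosure ℚ), A.LiesOverPrime ℓ →
      ∀ σ : Γℚ, A.IsFrobeniusAt σ ℓ →
        LinearMap.trace 𝒪 ρ.V (ρ.ρ σ) = ((W.apOfModel ℓ : ℤ) : 𝒪)

/-- The mod `p` representation of an integral model. -/
def modRep (W : WeierstrassCurve ℤ) (p : ℕ) :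
    Γℚ →* Module.End (ZMod p) (Submodule.torsionBy ℤ
      (WeierstrassCurve.toAffine
        ((W.map (Int.castRingHom ℚ)).baseChange (AlgebraicClosure ℚ))).Point (p : ℤ)) :=
  WeierstrassCurve.Affine.Point.galoisRepModuleEnd (K := AlgebraicClosure ℚ) ℚ
    (W.map (Int.castRingHom ℚ)) p

/-- The mod `p` representation of the model is unramified at `q`. -/
def ModUnramified (W : WeierstrassCurve ℤ) (p q : ℕ) : Prop :=
  ∀ A : ValuationSubring (AlgebraicClosure ℚ), A.LiesOverPrime q →
    ∀ σ ∈ A.inertiaSubgroupIn ℚ, modRep W p σ = 1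

/-- The primes `q ≠ p` of bad reduction at which `E[p]` ramifies. -/
def ramPrimes (W : WeierstrassCurve ℤ) (p : ℕ) : Finset ℕ :=
  open scoped Classical in
  W.Δ.natAbs.primeFactors.filter fun q => q ≠ p ∧ ¬ ModUnramified W p q

/-- The primes `q ≠ p` of bad reduction at which `E[p]` is unramified: those to be raised. -/
def raisePrimes (W : WeierstrassCurve ℤ) (p : ℕ) : Finset ℕ :=
  open scoped Classical in
  W.Δ.natAbs.primeFactors.filter fun q => q ≠ p ∧ ModUnramified W p q

/-- The prime-to-`p` part of the minimal level. -/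
def minLevel (W : WeierstrassCurve ℤ) (p : ℕ) : ℕ := ∏ q ∈ ramPrimes W p, q

/-- The ramification set of the minimal problem. -/
def minSet (W : WeierstrassCurve ℤ) (p : ℕ) : Finset ℕ := insert p (ramPrimes W p)

/-- The ramification set of the full problem. -/
def fullSet (W : WeierstrassCurve ℤ) (p : ℕ) : Finset ℕ :=
  insert p (ramPrimes W p ∪ raisePrimes W p)

/-- The exponent of `p` in the level attached to a kind of local condition. -/
def Kind.pExp : Kind → ℕ
  | .flat => 0
  | .strict => 1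
  | .ord => 1

/-- The level of the full problem: squares at the primes to be raised. -/
def fullLevel (W : WeierstrassCurve ℤ) (p : ℕ) (k : Kind) : ℕ :=
  minLevel W p * (∏ q ∈ raisePrimes W p, q) ^ 2 * p ^ k.pExp

end Fermat.Agent.R59
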