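import Mathlib

/-!
# The group ring of `(ℤ/p^m)^r` over a complete discrete valuation ring

`TWAlg 𝒪 p m r = 𝒪[(ℤ/p^m)^r]` is local, finite free and torsion-free over `𝒪`, with augmentation
`twAug` and generators `twGen j`.
-/

set_option autoImplicit false

noncomputable section

open IsLocalRing

namespace Fermat.Agent.R59

/-- The group `(ℤ/p^m)^r`. -/
abbrev TWGroup (p m r : ℕ) : Type := Fin r → Multiplicative (ZMod (p ^ m))

/-- The group ring of `TWGroup p m r`. -/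
abbrev TWAlg (𝒪 : Type) [CommRing 𝒪] (p m r : ℕ) : Type := MonoidAlgebra 𝒪 (TWGroup p m r)

variable (𝒪 : Type) [CommRing 𝒪] (p m r : ℕ)

/-- The augmentation. -/
def twAug : TWAlg 𝒪 p m r →ₐ[𝒪] 𝒪 := MonoidAlgebra.lift 𝒪 𝒪 (TWGroup p m r) 1

/-- The standard generators. -/
def twGen (j : Fin r) : TWAlg 𝒪 p m r :=
  MonoidAlgebra.of 𝒪 (TWGroup p m r) (Pi.mulSingle j (Multiplicative.ofAdd 1))

@[simp] theorem twAug_of (g : TWGroup p m r) :
    twAug 𝒪 p m r (MonoidAlgebra.of 𝒪 _ g) = 1 := by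
  simp [twAug]

theorem twAug_twGen (j : Fin r) : twAug 𝒪 p m r (twGen 𝒪 p m r j) = 1 := twAug_of ..

theorem pow_eq_one_of_twGroup (g : TWGroup p m r) : g ^ p ^ m = 1 := by
  funext j
  show g j ^ p ^ m = 1
  apply Multiplicative.toAdd.injective
  rw [toAdd_pow, toAdd_one, nsmul_eq_mul, ZMod.natCast_self, zero_mul]

theorem twGen_pow (j : Fin r) : twGen 𝒪 p m r j ^ p ^ m = 1 := by
  rw [twGen, ← map_pow, pow_eq_one_of_twGroup, map_one]

theorem mem_span_twGen_of_twAug_eq_zero [NeZero p] {x : TWAlg 𝒪 p m r}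
    (hx : twAug 𝒪 p m r x = 0) :
    x ∈ Ideal.span (Set.range fun j => twGen 𝒪 p m r j - 1) := by
  set I := Ideal.span (Set.range fun j => twGen 𝒪 p m r j - 1)
  have hof : ∀ g : TWGroup p m r, MonoidAlgebra.of 𝒪 _ g - 1 ∈ I := by
    intro g
    rw [← Ideal.Quotient.eq, map_one]
    let φ : TWGroup p m r →* TWAlg 𝒪 p m r ⧸ I :=
      (Ideal.Quotient.mk I).toMonoidHom.comp (MonoidAlgebra.of 𝒪 _)
    have hφ : ∀ j, φ (Pi.mulSingle j (Multiplicative.ofAdd 1)) = 1 := fun j =>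
      (Ideal.Quotient.eq.mpr (Ideal.subset_span ⟨j, rfl⟩ :
        twGen 𝒪 p m r j - 1 ∈ I)).trans (map_one _)
    show φ g = 1
    rw [← Finset.univ_prod_mulSingle g, map_prod]
    refine Finset.prod_eq_one fun j _ => ?_
    have : g j = Multiplicative.ofAdd (1 : ZMod (p ^ m)) ^ (Multiplicative.toAdd (g j)).val := by
      apply Multiplicative.toAdd.injective
      rw [toAdd_pow, toAdd_ofAdd, nsmul_eq_mul, mul_one, ZMod.natCast_zmod_val]
    rw [this, Pi.mulSingle_pow, map_pow, hφ, one_pow]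
  have key : ∀ y : TWAlg 𝒪 p m r, y - algebraMap 𝒪 _ (twAug 𝒪 p m r y) ∈ I := by
    intro y
    induction y using MonoidAlgebra.induction_on with
    | of g => rw [twAug_of, map_one]; exact hof g
    | add a b ha hb => rw [map_add, map_add, add_sub_add_comm]; exact add_mem ha hb
    | smul c a ha =>
      rw [map_smul, smul_eq_mul, map_mul, ← Algebra.smul_def, ← smul_sub, Algebra.smul_def]
      exact I.mul_mem_left _ ha
  simpa [hx] using key x

theorem ker_twAug [NeZero p] : RingHom.ker (twAug 𝒪 p m r) =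
    Ideal.span (Set.range fun j => twGen 𝒪 p m r j - 1) := by
  refine le_antisymm (fun x hx => mem_span_twGen_of_twAug_eq_zero 𝒪 p m r hx) ?_
  rw [Ideal.span_le]
  rintro _ ⟨j, rfl⟩
  simp [twAug_twGen]

section Local

variable [IsLocalRing 𝒪] [NeZero p]

/-- Elements with unit augmentation are units. -/
theorem isUnit_of_isUnit_twAug (hp : (p : 𝒪) ∈ maximalIdeal 𝒪) [hpp : Fact p.Prime]
    {x : TWAlg 𝒪 p m r} (hx : IsUnit (twAug 𝒪 p m r x)) : IsUnit x := by
  by_contra hnu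
  obtain ⟨P, hP, hxP⟩ := Ideal.exists_le_maximal (Ideal.span {x})
    (fun h => hnu (Ideal.span_singleton_eq_top.mp h))
  have : Module.Finite 𝒪 (TWAlg 𝒪 p m r) := Module.Finite.of_basis (MonoidAlgebra.basis _ _)
  have hcomap : P.comap (algebraMap 𝒪 (TWAlg 𝒪 p m r)) = maximalIdeal 𝒪 :=
    IsLocalRing.eq_maximalIdeal (Ideal.isMaximal_comap_of_isIntegral_of_isMaximal P)
  have hpP : ((p : ℕ) : TWAlg 𝒪 p m r) ∈ P := by
    rw [← map_natCast (algebraMap 𝒪 (TWAlg 𝒪 p m r)), ← Ideal.mem_comap, hcomap]; exact hp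
  have hgen : ∀ j, twGen 𝒪 p m r j - 1 ∈ P := fun j => by
    refine (Ideal.IsMaximal.isPrime hP).mem_of_pow_mem (p ^ m) ?_
    have : CharP (TWAlg 𝒪 p m r ⧸ P) p := by
      refine (CharP.charP_iff_prime_eq_zero hpp.out).mpr ?_
      rw [← map_natCast (Ideal.Quotient.mk P), Ideal.Quotient.eq_zero_iff_mem]; exact hpP
    rw [← Ideal.Quotient.eq_zero_iff_mem, map_pow, map_sub, map_one, sub_pow_char_pow, one_pow,
      ← map_pow, twGen_pow, map_one, sub_self]
  have hker : x - algebraMap 𝒪 _ (twAug 𝒪 p m r x) ∈ P := by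
    refine (Ideal.span_le.mpr (by rintro _ ⟨j, rfl⟩; exact hgen j) :
      Ideal.span (Set.range fun j => twGen 𝒪 p m r j - 1) ≤ P) ?_
    exact mem_span_twGen_of_twAug_eq_zero 𝒪 p m r
      (by rw [map_sub, AlgHom.commutes, Algebra.algebraMap_self, RingHom.id_apply, sub_self])
  have : algebraMap 𝒪 (TWAlg 𝒪 p m r) (twAug 𝒪 p m r x) ∈ P := by
    have := P.sub_mem (hxP (Ideal.mem_span_singleton_self x)) hker
    simpa using this
  rw [← Ideal.mem_comap, hcomap] at this
  exact (mem_maximalIdeal _).mp this hx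

/-- The group ring is local. -/
theorem isLocalRing_twAlg (hp : (p : 𝒪) ∈ maximalIdeal 𝒪) [Fact p.Prime] :
    IsLocalRing (TWAlg 𝒪 p m r) := by
  have : Nontrivial (TWAlg 𝒪 p m r) :=
    (twAug 𝒪 p m r).toRingHom.domain_nontrivial
  refine IsLocalRing.of_nonunits_add fun a b ha hb hu => ?_
  have h : IsUnit (twAug 𝒪 p m r a + twAug 𝒪 p m r b) := by
    rw [← map_add]; exact hu.map _
  rcases IsLocalRing.isUnit_or_isUnit_of_isUnit_add h with h | h
  · exact ha (isUnit_of_isUnit_twAug 𝒪 p m r hp h)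
  · exact hb (isUnit_of_isUnit_twAug 𝒪 p m r hp h)

end Local

instance instFiniteTWAlg [NeZero p] : Module.Finite 𝒪 (TWAlg 𝒪 p m r) :=
  Module.Finite.of_basis (MonoidAlgebra.basis _ _)

instance instTorsionFreeTWAlg [IsAddTorsionFree 𝒪] : IsAddTorsionFree (TWAlg 𝒪 p m r) :=
  Function.Injective.isAddTorsionFree
    (MonoidAlgebra.basis (TWGroup p m r) 𝒪).repr.toLinearMap.toAddMonoidHom
    (MonoidAlgebra.basis (TWGroup p m r) 𝒪).repr.injective

end Fermat.Agent.R59
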