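import Fermat.Agent.R59.Interfaces
import Fermat.Agent.NumCrit.Packaged
import Fermat.Agent.Deform.MatRep
import Fermat.Agent.Tangent.Conditions

/-!
# The `R = T` core from its named pieces

`stmtCore_of` proves `StmtCore` from `StmtSetup`, `StmtDefRing`, `StmtMinimal`, `StmtRaise`,
`StmtTop` and `StmtCotBound` by the numerical criterion.
-/

set_option autoImplicit false
set_option linter.unusedSectionVars false

noncomputable section

open IsLocalRing
open scoped TensorProduct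

namespace Fermat.Agent.R59

local notation "Γℚ" => (AlgebraicClosure ℚ ≃ₐ[ℚ] AlgebraicClosure ℚ)

section BaseChange

variable {A B C : Type} [CommRing A] [IsLocalRing A] [CommRing B] [IsLocalRing B]
  [CommRing C] [IsLocalRing C]

/-- Base change along a composite. -/
theorem baseChangeAlong_comp_isEquiv (φ : A →+* B) (hφ : IsLocalHom φ) (ψ : B →+* C)
    (hψ : IsLocalHom ψ) (h : IsLocalHom (ψ.comp φ)) (ρ : GaloisRepAdic A) :
    ((ρ.baseChangeAlong φ hφ).baseChangeAlong ψ hψ).IsEquiv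
      (ρ.baseChangeAlong (ψ.comp φ) h) := by
  let b := Module.finBasisOfFinrankEq A ρ.V ρ.finrank_eq
  let : Algebra A B := φ.toAlgebra
  let : Algebra B C := ψ.toAlgebra
  let : Algebra A C := (ψ.comp φ).toAlgebra
  refine Deform.isEquiv_of_toMatrix_eq
    (Algebra.TensorProduct.basis C (Algebra.TensorProduct.basis B b))
    (Algebra.TensorProduct.basis C b) fun σ => ?_
  exact (LinearMap.toMatrix_baseChange C ((ρ.ρ σ).baseChange B)
      (Algebra.TensorProduct.basis B b) (Algebra.TensorProduct.basis B b)).trans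
    ((congrArg (fun X : Matrix (Fin 2) (Fin 2) B => X.map (algebraMap B C))
      (LinearMap.toMatrix_baseChange B (ρ.ρ σ) b b)).trans
      ((Matrix.map_map).trans (LinearMap.toMatrix_baseChange C (ρ.ρ σ) b b).symm))

end BaseChange

/-- The image of a ring map into an `𝒪`-algebra generated by Hecke operators contains them all once
it contains the generators. -/
theorem range_eq_top_of_generators {N : ℕ} [NeZero N] {S : Set ℕ} {𝒪 R T : Type} [CommRing 𝒪]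
    [CommRing R] [Algebra 𝒪 R] [CommRing T] [Algebra 𝒪 T]
    (hNS : ∀ q : ℕ, q.Prime → q ∣ N → q ∈ S)
    (τ : CuspForm.heckeAlgebra N 2 S →+* T) (hτ : Algebra.adjoin 𝒪 (Set.range τ) = ⊤)
    (φ : R →ₐ[𝒪] T)
    (h : ∀ (ℓ : ℕ) (hℓ : ℓ.Prime) (hℓN : ¬ ℓ ∣ N) (hℓS : ℓ ∉ S),
      τ (CuspForm.heckeAlgebra.T hℓ hℓN hℓS) ∈ φ.range) :
    φ.range = ⊤ := by
  rw [eq_top_iff, ← hτ, Algebra.adjoin_le_iff]
  rintro _ ⟨⟨t, ht⟩, rfl⟩
  show τ ⟨t, ht⟩ ∈ φ.range
  induction ht using Algebra.adjoin_induction with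
  | mem g hg =>
    rcases hg with ⟨ℓ, hℓ, hℓN, hℓS, rfl⟩ | ⟨q, hqN, hq, hqS, rfl⟩
    · exact h ℓ hℓ hℓN hℓS
    · exact absurd (hNS q hq hqN) hqS
  | algebraMap r =>
    change τ (algebraMap ℤ _ r) ∈ φ.range
    rw [eq_intCast, map_intCast]
    exact intCast_mem _ r
  | add x y hx hy hx' hy' =>
    change τ (⟨x, hx⟩ + ⟨y, hy⟩) ∈ φ.range
    rw [map_add]; exact add_mem hx' hy'
  | mul x y hx hy hx' hy' =>
    change τ (⟨x, hx⟩ * ⟨y, hy⟩) ∈ φ.range
    rw [map_mul]; exact mul_mem hx' hy'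

/-- The primes of the full level lie in the ramification set of the full problem. -/
theorem mem_fullSet_of_dvd {W : WeierstrassCurve ℤ} {p : ℕ} (hp : p.Prime) {k : Kind} {q : ℕ}
    (hq : q.Prime) (hd : q ∣ fullLevel W p k) : q ∈ fullSet W p := by
  rcases (dvd_fullLevel_iff W p hp k hq).mp hd with h | ⟨rfl, -⟩
  · exact Finset.mem_insert_of_mem h
  · exact Finset.mem_insert_self _ _

theorem baseLevel_ne_zero (W : WeierstrassCurve ℤ) {p : ℕ} (hp : p.Prime) (k : Kind) :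
    baseLevel W p k ≠ 0 :=
  mul_ne_zero (minLevel_ne_zero W p) (pow_ne_zero _ hp.ne_zero)

/-- `R = T` for one problem. -/
theorem hasLiftingData_of (hS : StmtSetup) (hD : StmtDefRing) (hmin : StmtMinimal)
    (hraise : StmtRaise) (htop : StmtTop) (hcot : StmtCotBound) (W : WeierstrassCurve ℤ) (p : ℕ)
    (k : Kind) (h : CoreHyp W p k) : HasLiftingData W p k := by
  have hp : p.Prime := by rcases h.1 with rfl | rfl <;> decide
  have : NeZero (fullLevel W p k) := ⟨fullLevel_ne_zero W p hp k⟩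
  have : NeZero (baseLevel W p k) := ⟨baseLevel_ne_zero W hp k⟩
  obtain ⟨U⟩ := hS W p k h
  obtain ⟨⟨D₀⟩, ⟨D₁⟩⟩ := hD W p k h U
  obtain ⟨L⟩ := htop W p k h U
  obtain ⟨hd, hψ₀⟩ := hmin W p k h U
  obtain ⟨hrank, hψ₁⟩ := hraise W p k h U
  -- the point of the minimal ring
  have hsurj : Function.Surjective (IsLocalRing.residue U.𝒪 ∘ algebraMap U.𝒪 U.𝒪) :=
    IsLocalRing.residue_surjective
  have hloc : IsLocalHom (algebraMap U.𝒪 U.𝒪) := ⟨fun _ h => h⟩
  obtain ⟨π₀, ⟨hπ₀, he₀⟩, -⟩ := D₀.universal U.𝒪 hsurj U.base U.base_cond U.base_residual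
  -- the map to the Hecke ring
  obtain ⟨φ, ⟨hφ, heφ⟩, -⟩ := D₁.universal L.T L.residue_surjective L.ρ L.ρ_cond L.ρ_residual
  have htrace : ∀ (ℓ : ℕ) (hℓ : ℓ.Prime) (hℓN : ¬ ℓ ∣ fullLevel W p k)
      (hℓS : ℓ ∉ (↑(fullSet W p) : Set ℕ)),
      ∀ A : ValuationSubring (AlgebraicClosure ℚ), A.LiesOverPrime ℓ →
        ∀ σ : Γℚ, A.IsFrobeniusAt σ ℓ →
          φ (LinearMap.trace D₁.R D₁.ρ.V (D₁.ρ.ρ σ)) =
            L.tau (CuspForm.heckeAlgebra.T hℓ hℓN hℓS) := by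
    intro ℓ hℓ hℓN hℓS A hA σ hσ
    rw [← L.trace_frob ℓ hℓ hℓN hℓS A hA σ hσ, ← trace_eq_of_isEquiv heφ σ]
    exact (trace_baseChangeAlong (φ : D₁.R →+* L.T) hφ D₁.ρ σ).symm
  have hφsurj : Function.Surjective φ := by
    rw [← AlgHom.range_eq_top]
    refine range_eq_top_of_generators (fun q hq hd => ?_) L.tau L.adjoin_range φ
      fun ℓ hℓ hℓN hℓS => ?_
    · exact Finset.mem_coe.mpr (mem_fullSet_of_dvd hp hq hd)
    · obtain ⟨A, hA⟩ := Fermat.Agent.Deform.exists_valuationSubring_liesOverPrime hℓ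
      obtain ⟨σ, hσ⟩ := Fermat.Agent.Deform.exists_isFrobeniusAt hℓ hA
      exact ⟨_, htrace ℓ hℓ hℓN hℓS A hA σ hσ⟩
  -- the criterion
  obtain ⟨hπ, heπ⟩ := L.base_equiv
  have hπ₁ : IsLocalHom ((L.π.comp φ : D₁.R →ₐ[U.𝒪] U.𝒪) : D₁.R →+* U.𝒪) :=
    @RingHom.isLocalHom_comp _ _ _ _ _ _ (L.π : L.T →+* U.𝒪) (φ : D₁.R →+* L.T) hπ hφ
  have he₁ : (D₁.ρ.baseChangeAlong ((L.π.comp φ : D₁.R →ₐ[U.𝒪] U.𝒪) : D₁.R →+* U.𝒪) hπ₁).IsEquiv
      U.base := by
    obtain ⟨e⟩ := heφ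
    exact Deform.isEquiv_trans'
      (Deform.isEquiv_symm' (baseChangeAlong_comp_isEquiv _ hφ _ hπ hπ₁ D₁.ρ))
      (Deform.isEquiv_trans' ⟨e.baseChangeAlong _ hπ⟩ heπ)
  have hbij : Function.Bijective φ := by
    refine NumCrit.bijective_of_growth φ hφsurj L.π L.congIdeal_ne_bot L.B L.adj L.surj hd
      (L.finrank_eigenSub.trans hrank) U.raiseFactor (hψ₀ D₀ π₀ hπ₀ he₀)
      (L.length_congModule.trans hψ₁) (hcot W p k h U D₀ D₁ π₀ hπ₀ _ hπ₁ he₀ he₁)
  let e : D₁.R ≃+* L.T := RingEquiv.ofBijective (φ : D₁.R →+* L.T) hbij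
  refine ⟨‹_›, U.𝒪, inferInstance, inferInstance, inferInstance, inferInstance, inferInstance,
    U.ρbar, D₁, U.curve, U.isCurveLift, U.curve_cond, e.symm.toRingHom.comp L.tau,
    fun ℓ hℓ hℓN hℓS A hA σ hσ => ?_⟩
  refine hbij.1 ?_
  rw [htrace ℓ hℓ hℓN hℓS A hA σ hσ]
  exact (RingEquiv.apply_symm_apply e _).symm

/-- The `R = T` core. -/
theorem stmtCore_of (hS : StmtSetup) (hD : StmtDefRing) (hmin : StmtMinimal)
    (hraise : StmtRaise) (htop : StmtTop) (hcot : StmtCotBound) : StmtCore :=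
  fun p hp W hΔ hW hirr k hk =>
    hasLiftingData_of hS hD hmin hraise htop hcot W p k ⟨hp, hΔ, hW, hirr, hk⟩

end Fermat.Agent.R59
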