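import Fermat.Agent.HK.HLattice
import Fermat.Agent.HK.HeckeStar
import Fermat.Agent.LR.Pairing.Functorial
import Fermat.Agent.LR.Pairing.Gamma0

/-!
# The Fricke twist of the intersection pairing

`fricke N : H(R) → H(R)` is composition with conjugation by `!![0, -1; N, 0]`, and
`twistedPairing x y = P(x, W y)`. Hecke operators are self-adjoint for the twisted pairing.
-/

set_option autoImplicit false

noncomputable section

open CongruenceSubgroup Matrix
open scoped MatrixGroups
open ModularCurve.Period (parabolicHoms)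

namespace Fermat.Agent.R59

variable (N : ℕ) [NeZero N]

/-- The Fricke matrix. -/
def frickeMat : Matrix (Fin 2) (Fin 2) ℤ := !![0, -1; (N : ℤ), 0]

/-- Conjugation by the Fricke matrix on `SL(2, ℤ)` elements of `Γ₀(N)`. -/
def frickeSL (γ : Gamma0 N) : SL(2, ℤ) :=
  ⟨!![(γ : SL(2, ℤ)) 1 1, -((γ : SL(2, ℤ)) 1 0 / N);
      -((N : ℤ) * (γ : SL(2, ℤ)) 0 1), (γ : SL(2, ℤ)) 0 0], by
    obtain ⟨m, hm⟩ := HK.dvd_gamma0_lower_left N γ
    have hdet := (γ : SL(2, ℤ)).2
    rw [Matrix.det_fin_two] at hdet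
    rw [Matrix.det_fin_two_of, hm, Int.mul_ediv_cancel_left _ (Int.natCast_ne_zero.mpr (NeZero.ne N))]
    linear_combination hdet + (γ : SL(2, ℤ)) 0 1 * hm⟩

theorem frickeSL_mem (γ : Gamma0 N) : frickeSL N γ ∈ Gamma0 N :=
  HK.mem_Gamma0_of_dvd N ⟨-((γ : SL(2, ℤ)) 0 1), by simp [frickeSL]⟩

theorem frickeSL_mul_frickeMat (γ : Gamma0 N) :
    (frickeSL N γ).1 * frickeMat N = frickeMat N * (γ : SL(2, ℤ)).1 := by
  obtain ⟨m, hm⟩ := HK.dvd_gamma0_lower_left N γ
  have hm' : ((γ : SL(2, ℤ)) 1 0 / (N : ℤ)) * N = (γ : SL(2, ℤ)) 1 0 := by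
    rw [hm, Int.mul_ediv_cancel_left _ (Int.natCast_ne_zero.mpr (NeZero.ne N)), mul_comm]
  ext i j
  fin_cases i <;> fin_cases j <;>
    simp [frickeSL, frickeMat, Matrix.mul_apply, Fin.sum_univ_two] <;>
    grind

omit [NeZero N] in
theorem det_frickeMat : (frickeMat N).det = N := by simp [frickeMat, Matrix.det_fin_two_of]

theorem frickeMat_mul_left_cancel {a b : Matrix (Fin 2) (Fin 2) ℤ}
    (h : a * frickeMat N = b * frickeMat N) : a = b := by
  have h' := congrArg (· * (frickeMat N).adjugate) h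
  simp only [Matrix.mul_assoc, Matrix.mul_adjugate, det_frickeMat, Matrix.mul_smul,
    Matrix.mul_one] at h'
  exact smul_right_injective _ (Int.natCast_ne_zero.mpr (NeZero.ne N)) h'

/-- Conjugation by the Fricke matrix, as an endomorphism of `Γ₀(N)`. -/
def frickeHom : Gamma0 N →* Gamma0 N where
  toFun γ := ⟨frickeSL N γ, frickeSL_mem N γ⟩
  map_one' := Subtype.ext (Subtype.ext (frickeMat_mul_left_cancel N (by
    rw [frickeSL_mul_frickeMat]; simp)))
  map_mul' γ δ := Subtype.ext (Subtype.ext (frickeMat_mul_left_cancel N (by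
    show (frickeSL N (γ * δ)).1 * _ = (frickeSL N γ).1 * (frickeSL N δ).1 * _
    rw [Matrix.mul_assoc, frickeSL_mul_frickeMat, frickeSL_mul_frickeMat, ← Matrix.mul_assoc,
      frickeSL_mul_frickeMat, Matrix.mul_assoc]
    simp)))

theorem frickeHom_frickeHom (γ : Gamma0 N) : frickeHom N (frickeHom N γ) = γ := by
  obtain ⟨m, hm⟩ := HK.dvd_gamma0_lower_left N γ
  refine Subtype.ext (Subtype.ext ?_)
  have hN := Int.natCast_ne_zero.mpr (NeZero.ne N)
  ext i j
  fin_cases i <;> fin_cases j <;>
    simp [frickeHom, frickeSL, hm, Int.neg_ediv_of_dvd, Int.mul_ediv_cancel_left _ hN]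

/-- Conjugation by the Fricke matrix, as an automorphism of `Γ₀(N)`. -/
def frickeEquiv : Gamma0 N ≃* Gamma0 N :=
  { frickeHom N with
    invFun := frickeHom N
    left_inv := frickeHom_frickeHom N
    right_inv := frickeHom_frickeHom N }

theorem isConjBy_frickeEquiv : Pairing.IsConjBy (frickeMat N) (frickeEquiv N) :=
  ⟨by rw [det_frickeMat]; exact_mod_cast NeZero.pos N, frickeSL_mul_frickeMat N⟩

variable (R : Type) [CommRing R]

/-- The Fricke involution on `H(R)`. -/
def fricke : Module.End R (HK.HSpace N R) where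
  toFun x := HK.HSpace.mk (x.hom.comp (frickeEquiv N).toMonoidHom.toAdditive)
    ((isConjBy_frickeEquiv N).mem_parabolicHoms (HK.HSpace.toParHom N R x).2)
  map_add' _ _ := HK.HSpace.hom_injective rfl
  map_smul' _ _ := HK.HSpace.hom_injective rfl

theorem fricke_fricke (x : HK.HSpace N R) : fricke N R (fricke N R x) = x := by
  refine HK.HSpace.hom_injective (AddMonoidHom.ext fun g => ?_)
  obtain ⟨g, rfl⟩ := Additive.ofMul.surjective g
  show x.hom (Additive.ofMul (frickeHom N (frickeHom N g))) = _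
  rw [frickeHom_frickeHom]

variable [IsAddTorsionFree R]

/-- The intersection pairing on `H(R)`. -/
def basicPairing : HK.HSpace N R →ₗ[R] HK.HSpace N R →ₗ[R] R :=
  (Pairing.pairing (Gamma0 N) R).compl₁₂ (HK.HSpace.toParHom N R).toLinearMap
    (HK.HSpace.toParHom N R).toLinearMap

/-- The pairing `P(x, W y)`. -/
def twistedPairing : HK.HSpace N R →ₗ[R] HK.HSpace N R →ₗ[R] R :=
  (basicPairing N R).compl₂ (fricke N R)

theorem twistedPairing_apply (x y : HK.HSpace N R) :
    twistedPairing N R x y = basicPairing N R x (fricke N R y) := rfl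

theorem basicPairing_fricke (x y : HK.HSpace N R) :
    basicPairing N R (fricke N R x) (fricke N R y) = basicPairing N R x y :=
  Pairing.pairing_conj (isConjBy_frickeEquiv N) (HK.HSpace.toParHom N R x)
    (HK.HSpace.toParHom N R y) _ _ (fun _ => rfl) fun _ => rfl

theorem twistedPairing_skew (x y : HK.HSpace N R) :
    twistedPairing N R y x = - twistedPairing N R x y := by
  rw [twistedPairing_apply, twistedPairing_apply, ← basicPairing_fricke N R y, fricke_fricke]
  exact Pairing.pairing_skew _ _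

end Fermat.Agent.R59
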