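import Fermat.Agent.R59.Defs
import Fermat.Agent.R59.Twist
import Fermat.Agent.NumCrit.Defs

/-!
# The data of a lifting problem and its eigen lattices

`Setup W p k` packages the coefficient ring, the residual representation, the lift given by the
curve and a base point: an eigen system of the base level with its Galois representation.
-/

set_option autoImplicit false

noncomputable section

open IsLocalRing Polynomial CongruenceSubgroup

namespace Fermat.Agent.R59

local notation "Γℚ" => (AlgebraicClosure ℚ ≃ₐ[ℚ] AlgebraicClosure ℚ)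

/-- The kind of the minimal problem: ordinary problems are raised from flat ones. -/
def Kind.base : Kind → Kind
  | .flat => .flat
  | .strict => .strict
  | .ord => .flat

/-- The level of the minimal problem. -/
def baseLevel (W : WeierstrassCurve ℤ) (p : ℕ) (k : Kind) : ℕ :=
  minLevel W p * p ^ k.base.pExp

/-- `ρ` at `p` is ordinary with Frobenius acting on the unramified quotient by `α`. -/
def HasUnitRootFrob {A : Type} [CommRing A] [IsLocalRing A] (ρ : GaloisRepAdic A) (p : ℕ)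
    (α : A) : Prop :=
  ∀ P : ValuationSubring (AlgebraicClosure ℚ), P.LiesOverPrime p →
    ∃ L : Submodule A ρ.V,
      (∃ b : Module.Basis (Fin 2) A ρ.V, L = A ∙ b 0) ∧
      (∀ σ ∈ P.decompositionSubgroup ℚ, ∀ v ∈ L, ρ.ρ σ v ∈ L) ∧
      (∀ σ ∈ P.inertiaSubgroupIn ℚ, ∀ v : ρ.V, ρ.ρ σ v - v ∈ L) ∧
      ∀ σ : Γℚ, P.IsFrobeniusAt σ p → ∀ v : ρ.V, ρ.ρ σ v - α • v ∈ L

/-- The data of the lifting problem of kind `k`. -/
structure Setup (W : WeierstrassCurve ℤ) (p : ℕ) (k : Kind) : Type 1 where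
  𝒪 : Type
  [instCommRing : CommRing 𝒪]
  [instIsDomain : IsDomain 𝒪]
  [instDVR : IsDiscreteValuationRing 𝒪]
  [instComplete : IsAdicComplete (maximalIdeal 𝒪) 𝒪]
  [instFinite : Finite (ResidueField 𝒪)]
  [instCharZero : CharZero 𝒪]
  [instTorsionFree : IsAddTorsionFree 𝒪]
  p_mem : (p : 𝒪) ∈ maximalIdeal 𝒪
  ρbar : ResidualGaloisRep (ResidueField 𝒪)
  absIrr : ρbar.IsAbsolutelyIrreducible
  detCyc : (GaloisRepAdic.ofResidualGaloisRep ρbar).DetIsCyclotomic p
  split : ∀ σ : Γℚ, ∃ a b : ResidueField 𝒪,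
    LinearMap.charpoly (ρbar.ρ σ) = (X - C a) * (X - C b)
  tw : ∀ (K : Type) [Field K] [Algebra (ResidueField 𝒪) K] (G : Subgroup Γℚ), G.index = 2 →
    ∀ V : Submodule K (ρbar.baseChange K).V,
      (∀ σ ∈ G, ∀ x ∈ V, (ρbar.baseChange K).ρ σ x ∈ V) → V = ⊥ ∨ V = ⊤
  ramified_iff : ∀ q : ℕ, q.Prime → q ≠ p → (q ∈ minSet W p ↔ ¬ ρbar.IsUnramifiedAt q)
  curve : GaloisRepAdic 𝒪
  isCurveLift : IsCurveLift W p ρbar curve
  curve_cond : cond k 𝒪 p (fullSet W p) (minSet W p) curve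
  /-- The eigenvalues of the base point. -/
  a : ℕ → 𝒪
  /-- The unit root at `p` of the base point. -/
  α : 𝒪
  point : ∀ [NeZero (baseLevel W p k)],
    ∃ χ : CuspForm.heckeAlgebra (baseLevel W p k) 2 (↑(baseLevel W p k).primeFactors) →+* 𝒪,
      ∀ (ℓ : ℕ) (hℓ : ℓ.Prime) (hℓN : ¬ ℓ ∣ baseLevel W p k)
        (hℓS : ℓ ∉ (↑(baseLevel W p k).primeFactors : Set ℕ)),
        χ (CuspForm.heckeAlgebra.T hℓ hℓN hℓS) = a ℓ
  a_congr : ∀ ℓ : ℕ, ℓ.Prime → ℓ ∉ fullSet W p →
    residue 𝒪 (a ℓ) = ((W.apOfModel ℓ : ℤ) : ResidueField 𝒪)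
  base : GaloisRepAdic 𝒪
  base_residual : base.residual.IsEquiv
    (ρbar.baseChangeAlong (ResidueField.map (algebraMap 𝒪 𝒪)))
  base_cond : cond k.base 𝒪 p (minSet W p) (minSet W p) base
  base_charpoly : ∀ ℓ : ℕ, ℓ.Prime → ℓ ∉ minSet W p →
    ∀ A : ValuationSubring (AlgebraicClosure ℚ), A.LiesOverPrime ℓ →
      ∀ σ : Γℚ, A.IsFrobeniusAt σ ℓ →
        LinearMap.charpoly (base.ρ σ) = X ^ 2 - C (a ℓ) * X + C ((ℓ : 𝒪))
  alpha_spec : k = .ord → IsUnit α ∧ α ^ 2 + (p : 𝒪) = a p * α ∧ HasUnitRootFrob base p α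

attribute [instance] Setup.instCommRing Setup.instIsDomain Setup.instDVR Setup.instComplete
  Setup.instFinite Setup.instCharZero Setup.instTorsionFree

variable {W : WeierstrassCurve ℤ} {p : ℕ} {k : Kind}

/-- The element by which congruence modules grow from the base level to the full level. -/
def Setup.raiseFactor (U : Setup W p k) : U.𝒪 :=
  (∏ q ∈ raisePrimes W p, ((q : U.𝒪) - 1) * (U.a q ^ 2 - ((q : U.𝒪) + 1) ^ 2)) *
    if k = .ord then U.α ^ 2 - 1 else 1

section Lattice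

variable (N : ℕ) [NeZero N] (R : Type) [CommRing R]

/-- The classes on which the Hecke operator at the prime `ℓ` is multiplication by `e ℓ`, for every
prime `ℓ` in `T`. -/
def eigenClasses (T : Set ℕ) (e : ℕ → R) : Submodule R (HK.HSpace N R) :=
  ⨅ (ℓ : ℕ) (hℓ : ℓ.Prime) (_ : ℓ ∈ T),
    LinearMap.ker ((haveI := Fact.mk hℓ; HK.heckeEnd N ℓ R) - e ℓ • LinearMap.id)

theorem mem_eigenClasses {T : Set ℕ} {e : ℕ → R} {x : HK.HSpace N R} :
    x ∈ eigenClasses N R T e ↔
      ∀ ℓ ∈ T, ∀ [Fact ℓ.Prime], HK.heckeEnd N ℓ R x = e ℓ • x := by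
  simp only [eigenClasses, Submodule.mem_iInf, LinearMap.mem_ker, LinearMap.sub_apply,
    LinearMap.smul_apply, LinearMap.id_apply, sub_eq_zero]
  exact ⟨fun h ℓ hℓ hf => h ℓ hf.out hℓ, fun h ℓ hp hℓ => @h ℓ hℓ ⟨hp⟩⟩

end Lattice

variable (U : Setup W p k)

/-- The eigen lattice of the base point. -/
def Setup.baseEigen [NeZero (baseLevel W p k)] :
    Submodule U.𝒪 (HK.HSpace (baseLevel W p k) U.𝒪) :=
  eigenClasses _ _ {ℓ | ¬ ℓ ∣ baseLevel W p k} U.a

/-- The eigenvalues at full level: `0` at the raised primes, the unit root at `p`. -/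
def Setup.topValue (ℓ : ℕ) : U.𝒪 :=
  if ℓ ∈ raisePrimes W p then 0 else if k = .ord ∧ ℓ = p then U.α else U.a ℓ

/-- The eigen lattice of the base point pushed to full level. -/
def Setup.topEigen [NeZero (fullLevel W p k)] :
    Submodule U.𝒪 (HK.HSpace (fullLevel W p k) U.𝒪) :=
  eigenClasses _ _ {ℓ | ¬ ℓ ∣ baseLevel W p k} U.topValue

/-- Length of the congruence module at the base level. -/
def Setup.basePsi [NeZero (baseLevel W p k)] : ℕ∞ :=
  Module.length U.𝒪 (NumCrit.CongModule (twistedPairing (baseLevel W p k) U.𝒪) U.baseEigen)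

/-- Length of the congruence module at full level. -/
def Setup.topPsi [NeZero (fullLevel W p k)] : ℕ∞ :=
  Module.length U.𝒪 (NumCrit.CongModule (twistedPairing (fullLevel W p k) U.𝒪) U.topEigen)

end Fermat.Agent.R59
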