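import Fermat.Agent.R59.Assembly
import Fermat.Agent.R59.Setup
import Fermat.Prelude.Def_GaloisRep_DeformationRingData

/-!
# The named pieces of the `R = T` core

* `StmtSetup`: the data of a lifting problem exist.
* `StmtDefRing`: the deformation rings of the minimal and of the full problem exist.
* `StmtMinimal`: at the base level the congruence module has length `d` times the cotangent length.
* `StmtRaise`: congruence modules grow by exactly `d * ord c`.
* `StmtTop`: the Hecke algebra and module of full level, with their Galois representation.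
* `StmtCotBound`: cotangent spaces grow by at most `ord c`.
-/

set_option autoImplicit false

noncomputable section

open IsLocalRing

namespace Fermat.Agent.R59

local notation "Γℚ" => (AlgebraicClosure ℚ ≃ₐ[ℚ] AlgebraicClosure ℚ)

variable {W : WeierstrassCurve ℤ} {p : ℕ} {k : Kind}

/-- A Hecke ring of full level acting on a module with pairing, with its Galois representation and
the point given by the base point. -/
structure TopData (U : Setup W p k) [NeZero (fullLevel W p k)] : Type 1 where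
  T : Type
  [instCommRing : CommRing T]
  [instIsLocalRing : IsLocalRing T]
  [instIsNoetherianRing : IsNoetherianRing T]
  [instIsAdicComplete : IsAdicComplete (maximalIdeal T) T]
  [instAlgebra : Algebra U.𝒪 T]
  [instIsLocalHom : IsLocalHom (algebraMap U.𝒪 T)]
  residue_surjective : Function.Surjective (IsLocalRing.residue T ∘ algebraMap U.𝒪 T)
  tau : CuspForm.heckeAlgebra (fullLevel W p k) 2 (↑(fullSet W p) : Set ℕ) →+* T
  adjoin_range : Algebra.adjoin U.𝒪 (Set.range tau) = ⊤
  ρ : GaloisRepAdic T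
  ρ_cond : cond k U.𝒪 p (fullSet W p) (minSet W p) ρ
  ρ_residual : ρ.residual.IsEquiv
    (U.ρbar.baseChangeAlong (ResidueField.map (algebraMap U.𝒪 T)))
  trace_frob : ∀ (ℓ : ℕ) (hℓ : ℓ.Prime) (hℓN : ¬ ℓ ∣ fullLevel W p k)
    (hℓS : ℓ ∉ (↑(fullSet W p) : Set ℕ)),
    ∀ A : ValuationSubring (AlgebraicClosure ℚ), A.LiesOverPrime ℓ →
      ∀ σ : Γℚ, A.IsFrobeniusAt σ ℓ →
        LinearMap.trace T ρ.V (ρ.ρ σ) = tau (CuspForm.heckeAlgebra.T hℓ hℓN hℓS)
  M : Type
  [instAddCommGroupM : AddCommGroup M]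
  [instModuleM : Module U.𝒪 M]
  [instModuleTM : Module T M]
  [instTower : IsScalarTower U.𝒪 T M]
  [instFiniteM : Module.Finite U.𝒪 M]
  [instFreeM : Module.Free U.𝒪 M]
  [instFaithful : FaithfulSMul T M]
  B : M →ₗ[U.𝒪] M →ₗ[U.𝒪] U.𝒪
  π : T →ₐ[U.𝒪] U.𝒪
  congIdeal_ne_bot : NumCrit.congIdeal π ≠ ⊥
  base_equiv : ∃ hπ : IsLocalHom (π : T →+* U.𝒪),
    (ρ.baseChangeAlong (π : T →+* U.𝒪) hπ).IsEquiv U.base
  adj : ∀ t : T, (∀ y : T, π y = 0 → t * y = 0) → ∀ m, ∀ l ∈ NumCrit.eigenSub π M,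
    B (t • m) l = B m (t • l)
  surj : Function.Surjective fun m => (B m).comp (NumCrit.eigenSub π M).subtype
  finrank_eigenSub :
    Module.finrank U.𝒪 (NumCrit.eigenSub π M) = Module.finrank U.𝒪 U.topEigen
  length_congModule :
    Module.length U.𝒪 (NumCrit.CongModule B (NumCrit.eigenSub π M)) = U.topPsi

attribute [instance] TopData.instCommRing TopData.instIsLocalRing TopData.instIsNoetherianRing
  TopData.instIsAdicComplete TopData.instAlgebra TopData.instIsLocalHom
  TopData.instAddCommGroupM TopData.instModuleM TopData.instModuleTM TopData.instTower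
  TopData.instFiniteM TopData.instFreeM TopData.instFaithful

/-- The hypotheses under which the pieces are proved. -/
def CoreHyp (W : WeierstrassCurve ℤ) (p : ℕ) (k : Kind) : Prop :=
  (p = 3 ∨ p = 5) ∧ W.Δ ≠ 0 ∧ W.IsSemistableModel ∧ W.ModRepIsIrreducible p ∧ Admissible W p k

/-- Existence of the data of the lifting problem. -/
def StmtSetup : Prop :=
  ∀ (W : WeierstrassCurve ℤ) (p : ℕ) (k : Kind), CoreHyp W p k → Nonempty (Setup W p k)

/-- Existence of the two deformation rings. -/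
def StmtDefRing : Prop :=
  ∀ (W : WeierstrassCurve ℤ) (p : ℕ) (k : Kind), CoreHyp W p k → ∀ U : Setup W p k,
    Nonempty (GaloisRep.DeformationRingData U.𝒪 U.ρbar
      (cond k.base U.𝒪 p (minSet W p) (minSet W p))) ∧
    Nonempty (GaloisRep.DeformationRingData U.𝒪 U.ρbar
      (cond k U.𝒪 p (fullSet W p) (minSet W p)))

/-- The minimal level: freeness and complete intersection from patching. -/
def StmtMinimal : Prop :=
  ∀ (W : WeierstrassCurve ℤ) (p : ℕ) (k : Kind), CoreHyp W p k → ∀ U : Setup W p k,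
    ∀ [NeZero (baseLevel W p k)],
    Module.finrank U.𝒪 U.baseEigen ≠ 0 ∧
    ∀ (D : GaloisRep.DeformationRingData U.𝒪 U.ρbar
        (cond k.base U.𝒪 p (minSet W p) (minSet W p)))
      (π : D.R →ₐ[U.𝒪] U.𝒪) (hπ : IsLocalHom (π : D.R →+* U.𝒪)),
      (D.ρ.baseChangeAlong (π : D.R →+* U.𝒪) hπ).IsEquiv U.base →
        U.basePsi = Module.finrank U.𝒪 U.baseEigen *
          Module.length U.𝒪 (RingHom.ker π).Cotangent

/-- Level raising on congruence modules. -/
def StmtRaise : Prop :=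
  ∀ (W : WeierstrassCurve ℤ) (p : ℕ) (k : Kind), CoreHyp W p k → ∀ U : Setup W p k,
    ∀ [NeZero (baseLevel W p k)] [NeZero (fullLevel W p k)],
    Module.finrank U.𝒪 U.topEigen = Module.finrank U.𝒪 U.baseEigen ∧
    U.topPsi = U.basePsi + Module.finrank U.𝒪 U.baseEigen * Ring.ord U.𝒪 U.raiseFactor

/-- The Hecke ring and module of full level. -/
def StmtTop : Prop :=
  ∀ (W : WeierstrassCurve ℤ) (p : ℕ) (k : Kind), CoreHyp W p k → ∀ U : Setup W p k,
    ∀ [NeZero (fullLevel W p k)], Nonempty (TopData U)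

/-- The growth of cotangent spaces. -/
def StmtCotBound : Prop :=
  ∀ (W : WeierstrassCurve ℤ) (p : ℕ) (k : Kind), CoreHyp W p k → ∀ U : Setup W p k,
    ∀ (D₀ : GaloisRep.DeformationRingData U.𝒪 U.ρbar
        (cond k.base U.𝒪 p (minSet W p) (minSet W p)))
      (D₁ : GaloisRep.DeformationRingData U.𝒪 U.ρbar
        (cond k U.𝒪 p (fullSet W p) (minSet W p)))
      (π₀ : D₀.R →ₐ[U.𝒪] U.𝒪) (hπ₀ : IsLocalHom (π₀ : D₀.R →+* U.𝒪))
      (π₁ : D₁.R →ₐ[U.𝒪] U.𝒪) (hπ₁ : IsLocalHom (π₁ : D₁.R →+* U.𝒪)),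
      (D₀.ρ.baseChangeAlong (π₀ : D₀.R →+* U.𝒪) hπ₀).IsEquiv U.base →
      (D₁.ρ.baseChangeAlong (π₁ : D₁.R →+* U.𝒪) hπ₁).IsEquiv U.base →
        Module.length U.𝒪 (RingHom.ker π₁).Cotangent ≤
          Module.length U.𝒪 (RingHom.ker π₀).Cotangent + Ring.ord U.𝒪 U.raiseFactor

end Fermat.Agent.R59
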