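import Fermat.Agent.R59.Defs
import Fermat.Agent.Deform.FrobExist
import Fermat.Agent.Eigen.Points
import Fermat.Agent.Newforms.Eigen

/-!
# From `R = T` to modularity

If the deformation ring receives the Hecke algebra of level `N` away from `S` (compatibly with
traces of Frobenius) and the curve gives a point of the deformation ring, then the curve is
modular of any multiple of `N` divisible by the primes of `S`.
-/

set_option autoImplicit false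

noncomputable section

open IsLocalRing
open scoped IsMulCommutative

namespace Fermat.Agent.R59

local notation "Γℚ" => (AlgebraicClosure ℚ ≃ₐ[ℚ] AlgebraicClosure ℚ)

section Trace

variable {A B : Type} [CommRing A] [IsLocalRing A] [CommRing B] [IsLocalRing B]

theorem trace_baseChangeAlong (φ : A →+* B) (hφ : IsLocalHom φ) (ρ : GaloisRepAdic A) (σ : Γℚ) :
    LinearMap.trace B (ρ.baseChangeAlong φ hφ).V ((ρ.baseChangeAlong φ hφ).ρ σ) =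
      φ (LinearMap.trace A ρ.V (ρ.ρ σ)) := by
  let : Algebra A B := φ.toAlgebra
  exact LinearMap.trace_baseChange (ρ.ρ σ) B

theorem trace_eq_of_isEquiv {ρ ρ' : GaloisRepAdic A} (h : ρ.IsEquiv ρ') (σ : Γℚ) :
    LinearMap.trace A ρ.V (ρ.ρ σ) = LinearMap.trace A ρ'.V (ρ'.ρ σ) := by
  obtain ⟨e⟩ := h
  have he : ρ'.ρ σ = e.toLinearEquiv.conj (ρ.ρ σ) := by
    refine LinearMap.ext fun x => ?_
    obtain ⟨y, rfl⟩ := e.toLinearEquiv.surjective x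
    rw [LinearEquiv.conj_apply_apply, LinearEquiv.symm_apply_apply]
    exact (e.map_apply σ y).symm
  rw [he, LinearMap.trace_conj']

end Trace

/-- A character of the Hecke algebra away from `S` with integral values on the generators takes
integral values everywhere. -/
theorem exists_int_eq_of_generators {N : ℕ} [NeZero N] {S : Set ℕ} {R : Type} [CommRing R]
    (hNS : ∀ q : ℕ, q.Prime → q ∣ N → q ∈ S)
    (χ : CuspForm.heckeAlgebra N 2 S →+* R)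
    (h : ∀ (ℓ : ℕ) (hℓ : ℓ.Prime) (hℓN : ¬ ℓ ∣ N) (hℓS : ℓ ∉ S),
      ∃ a : ℤ, χ (CuspForm.heckeAlgebra.T hℓ hℓN hℓS) = (a : R))
    (t : CuspForm.heckeAlgebra N 2 S) : ∃ a : ℤ, χ t = (a : R) := by
  obtain ⟨t, ht⟩ := t
  induction ht using Algebra.adjoin_induction with
  | mem g hg =>
    rcases hg with ⟨ℓ, hℓ, hℓN, hℓS, rfl⟩ | ⟨q, hqN, hq, hqS, rfl⟩
    · exact h ℓ hℓ hℓN hℓS
    · exact absurd (hNS q hq hqN) hqS
  | algebraMap r =>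
    refine ⟨r, ?_⟩
    show χ (algebraMap ℤ ↥(CuspForm.heckeAlgebra N 2 S) r) = _
    rw [eq_intCast, map_intCast]
  | add x y hx hy ihx ihy =>
    obtain ⟨a, ha⟩ := ihx
    obtain ⟨b, hb⟩ := ihy
    refine ⟨a + b, ?_⟩
    show χ ((⟨x, hx⟩ : ↥(CuspForm.heckeAlgebra N 2 S)) + ⟨y, hy⟩) = _
    rw [map_add, ha, hb, Int.cast_add]
  | mul x y hx hy ihx ihy =>
    obtain ⟨a, ha⟩ := ihx
    obtain ⟨b, hb⟩ := ihy
    refine ⟨a * b, ?_⟩
    show χ ((⟨x, hx⟩ : ↥(CuspForm.heckeAlgebra N 2 S)) * ⟨y, hy⟩) = _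
    rw [map_mul, ha, hb, Int.cast_mul]

variable {𝒪 : Type} [CommRing 𝒪] [IsDomain 𝒪] [IsDiscreteValuationRing 𝒪]
  [IsAdicComplete (maximalIdeal 𝒪) 𝒪]
  {ρbar : ResidualGaloisRep (ResidueField 𝒪)}
  {𝒟 : ∀ ⦃A : Type⦄ [CommRing A] [IsLocalRing A] [Algebra 𝒪 A], GaloisRepAdic A → Prop}

/-- The curve gives an integral character of the Hecke algebra. -/
theorem exists_heckeChar_of_isHeckeGenerated (D : GaloisRep.DeformationRingData 𝒪 ρbar 𝒟)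
    (N : ℕ) [NeZero N] (S : Set ℕ) (hD : IsHeckeGenerated D N S)
    (hNS : ∀ q : ℕ, q.Prime → q ∣ N → q ∈ S)
    (W : WeierstrassCurve ℤ) (p : ℕ) (hpS : p ∈ S)
    (hbad : ∀ ℓ : ℕ, ℓ.Prime → (ℓ : ℤ) ∣ W.Δ → ℓ ∈ S)
    [CharZero 𝒪] (ρ : GaloisRepAdic 𝒪) (hρ : IsCurveLift W p ρbar ρ) (h𝒟 : 𝒟 ρ) :
    ∃ χ : CuspForm.heckeAlgebra N 2 S →+* ℤ,
      ∀ (ℓ : ℕ) (hℓ : ℓ.Prime) (hℓN : ¬ ℓ ∣ N) (hℓS : ℓ ∉ S),
        χ (CuspForm.heckeAlgebra.T hℓ hℓN hℓS) = W.apOfModel ℓ := by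
  have hloc : IsLocalHom (algebraMap 𝒪 𝒪) := ⟨fun _ h => h⟩
  have hsurj : Function.Surjective (IsLocalRing.residue 𝒪 ∘ algebraMap 𝒪 𝒪) :=
    IsLocalRing.residue_surjective
  obtain ⟨φ, ⟨hφ, he⟩, -⟩ := D.universal 𝒪 hsurj ρ h𝒟 hρ.residual
  obtain ⟨τ, hτ⟩ := hD
  let χ0 : CuspForm.heckeAlgebra N 2 S →+* 𝒪 := (φ : D.R →+* 𝒪).comp τ
  have hT : ∀ (ℓ : ℕ) (hℓ : ℓ.Prime) (hℓN : ¬ ℓ ∣ N) (hℓS : ℓ ∉ S),
      χ0 (CuspForm.heckeAlgebra.T hℓ hℓN hℓS) = ((W.apOfModel ℓ : ℤ) : 𝒪) := by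
    intro ℓ hℓ hℓN hℓS
    obtain ⟨A, hA⟩ := Fermat.Agent.Deform.exists_valuationSubring_liesOverPrime hℓ
    obtain ⟨σ, hσ⟩ := Fermat.Agent.Deform.exists_isFrobeniusAt hℓ hA
    have hgood : W.IsGoodPrimeFor ℓ := fun h => hℓS (hbad ℓ hℓ h)
    have hne : ℓ ≠ p := fun h => hℓS (h ▸ hpS)
    rw [RingHom.comp_apply, ← hτ ℓ hℓ hℓN hℓS A hA σ hσ,
      ← trace_baseChangeAlong (φ : D.R →+* 𝒪) hφ D.ρ σ, trace_eq_of_isEquiv he σ]
    exact hρ.trace ℓ hℓ hgood hne A hA σ hσ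
  have hint : ∀ t, ∃ a : ℤ, χ0 t = (a : 𝒪) :=
    exists_int_eq_of_generators hNS χ0 fun ℓ hℓ hℓN hℓS => ⟨_, hT ℓ hℓ hℓN hℓS⟩
  choose a ha using hint
  have inj : Function.Injective (Int.cast : ℤ → 𝒪) := Int.cast_injective
  refine ⟨{ toFun := a, map_one' := inj ?_, map_mul' := fun x y => inj ?_,
            map_zero' := inj ?_, map_add' := fun x y => inj ?_ }, fun ℓ hℓ hℓN hℓS => inj ?_⟩
  · rw [← ha, map_one, Int.cast_one]
  · rw [← ha, map_mul, ha, ha, Int.cast_mul]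
  · rw [← ha, map_zero, Int.cast_zero]
  · rw [← ha, map_add, ha, ha, Int.cast_add]
  · show ((a (CuspForm.heckeAlgebra.T hℓ hℓN hℓS) : ℤ) : 𝒪) = _
    rw [← ha, hT]

/-- An integral character with the traces of `W` gives modularity of every multiple of the level
divisible by the primes of `S`. -/
theorem isModularModelOfLevel_of_heckeChar (N : ℕ) [NeZero N] (S : Set ℕ)
    (hint : CuspForm.HasIntegralStructure N 2) (W : WeierstrassCurve ℤ)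
    (χ : CuspForm.heckeAlgebra N 2 S →+* ℤ)
    (hχ : ∀ (ℓ : ℕ) (hℓ : ℓ.Prime) (hℓN : ¬ ℓ ∣ N) (hℓS : ℓ ∉ S),
      χ (CuspForm.heckeAlgebra.T hℓ hℓN hℓS) = W.apOfModel ℓ)
    (N' : ℕ) [NeZero N'] (hNN' : N ∣ N') (hSN' : ∀ ℓ : ℕ, ℓ.Prime → ℓ ∈ S → ℓ ∣ N') :
    W.IsModularModelOfLevel N' := by
  obtain ⟨f, hf, hfχ⟩ :=
    Fermat.Agent.Eigen.exists_eigenform_of_char hint ((Int.castRingHom ℂ).comp χ)
  obtain ⟨g, hg, hgf⟩ := Fermat.Agent.Newforms.exists_eigenform_of_dvd hNN' hf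
  refine ⟨g, hg, fun ℓ hℓ _ hℓN' => ?_⟩
  have hℓN : ¬ ℓ ∣ N := fun h => hℓN' (h.trans hNN')
  have hℓS : ℓ ∉ S := fun h => hℓN' (hSN' ℓ hℓ h)
  rw [hgf ℓ hℓ hℓN', ← Fermat.Agent.Eigen.eigenChar_T hf S hℓ hℓN hℓS, hfχ, RingHom.comp_apply,
    hχ, eq_intCast]

end Fermat.Agent.R59
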