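import Fermat.Agent.Datum.Residual
import Fermat.Agent.DefCond.Cyclotomic
import Fermat.Agent.DefCond.Basic
import Fermat.Agent.Density.Qbar
import Fermat.Agent.R59.Final
import Fermat.Agent.Tangent.Conditions
import Fermat.Agent.TWGal.Augmentation
import Fermat.Prelude.Def_GaloisRep_DeformationRingData
import Fermat.Prelude.Def_GaloisRep_ComplexConjugation

/-!
# Deformations are determined by their traces of Frobenius

Carayol's lemma for deformations with cyclotomic determinant of an absolutely irreducible residual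
representation: equal traces at Frobenius elements outside a finite set give equivalent
representations; in particular two maps out of a deformation ring with the same Frobenius traces
are equal.
-/

set_option autoImplicit false

noncomputable section

open IsLocalRing Matrix

namespace Fermat.Agent.R59

local notation "Γℚ" => (AlgebraicClosure ℚ ≃ₐ[ℚ] AlgebraicClosure ℚ)

/-- Complex conjugation acts on roots of unity of order `m` by `μ ↦ μ ^ (m - 1)`. -/
theorem complexConjugation_rootOfUnity {m : ℕ} (hm : m ≠ 0) {μ : AlgebraicClosure ℚ}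
    (h : μ ^ m = 1) : complexConjugation μ = μ ^ (m - 1) := by
  apply complexEmbedding.toRingHom.injective
  show complexEmbedding (complexConjugation μ) = complexEmbedding (μ ^ (m - 1))
  rw [complexEmbedding_complexConjugation, map_pow, ← Complex.inv_eq_conj
    (Complex.norm_eq_one_of_pow_eq_one (by rw [← map_pow, h, map_one]) hm)]
  refine inv_eq_of_mul_eq_one_right ?_
  rw [← pow_succ', Nat.sub_add_cancel (Nat.one_le_iff_ne_zero.mpr hm), ← map_pow, h, map_one]

variable {A : Type} [CommRing A] [IsLocalRing A] [IsNoetherianRing A] {p : ℕ} [hp : Fact p.Prime]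
  {ρ ρ' : GaloisRepAdic A}

omit [IsNoetherianRing A] hp in
theorem span_natCast_pow_le (h : (p : A) ∈ maximalIdeal A) (n : ℕ) :
    Ideal.span {((p ^ n : ℕ) : A)} ≤ maximalIdeal A ^ n := by
  rw [Nat.cast_pow, ← Ideal.span_singleton_pow]
  exact Ideal.pow_right_mono ((Ideal.span_singleton_le_iff_mem _).mpr h) n

/-- Two representations with cyclotomic determinant have the same determinant. -/
theorem det_eq_of_detIsCyclotomic (h : ρ.DetIsCyclotomic p) (h' : ρ'.DetIsCyclotomic p) (σ : Γℚ) :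
    LinearMap.det (ρ.ρ σ) = LinearMap.det (ρ'.ρ σ) := by
  refine DefCond.eq_of_forall_mk_eq fun n => Ideal.Quotient.eq.mpr ?_
  obtain ⟨a, ha⟩ := DefCond.exists_actsBy p (n + 1) σ
  have h1 := span_natCast_pow_le h.1 (n + 1) (h.2 (n + 1) σ a ha)
  have h2 := span_natCast_pow_le h.1 (n + 1) (h'.2 (n + 1) σ a ha)
  have h3 := sub_mem h1 h2
  rwa [sub_sub_sub_cancel_right] at h3

/-- Cyclotomic determinant is odd. -/
theorem det_complexConjugation (h : ρ.DetIsCyclotomic p) :
    LinearMap.det (ρ.ρ complexConjugation) = -1 := by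
  refine DefCond.eq_of_forall_mk_eq fun n => Ideal.Quotient.eq.mpr ?_
  have hm : p ^ (n + 1) ≠ 0 := pow_ne_zero _ hp.out.ne_zero
  have h1 := h.2 (n + 1) complexConjugation (p ^ (n + 1) - 1)
    fun μ hμ => complexConjugation_rootOfUnity hm hμ
  have h2 := add_mem h1 (Ideal.mem_span_singleton_self ((p ^ (n + 1) : ℕ) : A))
  rw [Nat.cast_sub (Nat.one_le_iff_ne_zero.mpr hm), Nat.cast_one] at h2
  have h3 := span_natCast_pow_le h.1 (n + 1) h2
  rw [sub_neg_eq_add]
  convert h3 using 1
  ring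

/-- Complex conjugation has trace zero. -/
theorem trace_complexConjugation (h : ρ.DetIsCyclotomic p) :
    LinearMap.trace A ρ.V (ρ.ρ complexConjugation) = 0 := by
  let b := Module.finBasisOfFinrankEq A ρ.V ρ.finrank_eq
  set M := LinearMap.toMatrix b b (ρ.ρ complexConjugation) with hM
  have hsq : M * M = 1 := by
    rw [hM, ← LinearMap.toMatrix_mul, ← map_mul, complexConjugation_mul_self, map_one,
      LinearMap.toMatrix_one]
  have hdet : M.det = -1 := by rw [hM, LinearMap.det_toMatrix, det_complexConjugation h]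
  rw [LinearMap.trace_eq_matrix_trace A b, ← hM, Matrix.trace_fin_two]
  have e : (M 0 0 + M 1 1) • M = 0 := by
    rw [Matrix.det_fin_two] at hdet
    ext i j
    have := congrFun (congrFun hsq i) j
    fin_cases i <;> fin_cases j <;>
      simp [Matrix.mul_apply, Fin.sum_univ_two] at this ⊢ <;>
      first | linear_combination this + hdet | linear_combination this
  have := congrArg (fun X => (X * M) 0 0) e
  simpa [smul_mul_assoc, hsq] using this

/-- Equal traces of Frobenius outside a finite set give equal traces. -/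
theorem trace_eq_of_frobenius (h : ρ.DetIsCyclotomic p) (h' : ρ'.DetIsCyclotomic p) (S : Finset ℕ)
    (hF : ∀ ℓ : ℕ, ℓ.Prime → ℓ ∉ S → ∀ P : ValuationSubring (AlgebraicClosure ℚ),
      P.LiesOverPrime ℓ → ∀ σ : Γℚ, P.IsFrobeniusAt σ ℓ →
        LinearMap.trace A ρ.V (ρ.ρ σ) = LinearMap.trace A ρ'.V (ρ'.ρ σ)) (σ : Γℚ) :
    LinearMap.trace A ρ.V (ρ.ρ σ) = LinearMap.trace A ρ'.V (ρ'.ρ σ) := by
  refine DefCond.eq_of_forall_mk_eq fun n => ?_
  obtain ⟨L₁, hL₁, hL₁'⟩ := ρ.isAdicContinuous (n + 1)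
  obtain ⟨L₂, hL₂, hL₂'⟩ := ρ'.isAdicContinuous (n + 1)
  let b := Module.finBasisOfFinrankEq A ρ.V ρ.finrank_eq
  let b' := Module.finBasisOfFinrankEq A ρ'.V ρ'.finrank_eq
  set q := Ideal.Quotient.mk (maximalIdeal A ^ (n + 1)) with hq
  have key : ∀ (r : GaloisRepAdic A) (c : Module.Basis (Fin 2) A r.V)
      (L : IntermediateField ℚ (AlgebraicClosure ℚ)),
      (∀ τ : Γℚ, (∀ x ∈ L, τ x = x) → ∀ v, r.ρ τ v - v ∈
        maximalIdeal A ^ (n + 1) • (⊤ : Submodule A r.V)) →
      ∀ g g' : Γℚ, (∀ x ∈ L, g x = g' x) →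
        q (LinearMap.trace A r.V (r.ρ g)) = q (LinearMap.trace A r.V (r.ρ g')) := by
    intro r c L hL g g' hgg
    rw [LinearMap.trace_eq_matrix_trace A c, LinearMap.trace_eq_matrix_trace A c, hq,
      Ideal.Quotient.eq, Matrix.trace, Matrix.trace, ← Finset.sum_sub_distrib]
    refine Ideal.sum_mem _ fun i _ => ?_
    simp only [Matrix.diag_apply, LinearMap.toMatrix_apply]
    rw [← Finsupp.sub_apply, ← map_sub]
    have h1 := hL (g'⁻¹ * g) (fun x hx => by
      rw [AlgEquiv.mul_apply, hgg x hx]; exact g'.symm_apply_apply x)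
    have h2 : r.ρ g (c i) - r.ρ g' (c i) =
        r.ρ g' (r.ρ (g'⁻¹ * g) (c i) - c i) := by
      rw [map_sub, ← Module.End.mul_apply, ← map_mul, mul_inv_cancel_left]
    rw [h2]
    generalize r.ρ (g'⁻¹ * g) (c i) - c i = w, h1 (c i) = hw
    refine Submodule.smul_induction_on hw (fun a ha v _ => ?_) (fun x y hx hy => ?_)
    · rw [map_smul, map_smul, Finsupp.smul_apply, smul_eq_mul]
      exact Ideal.mul_mem_right _ _ ha
    · rw [map_add, map_add, Finsupp.add_apply]
      exact Ideal.add_mem _ hx hy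
  refine Density.forall_of_forall_frobenius_pow
    (P := fun g => q (LinearMap.trace A ρ.V (ρ.ρ g)) = q (LinearMap.trace A ρ'.V (ρ'.ρ g)))
    (L₁ ⊔ L₂) (fun g g' hgg hg => ?_) S (fun ℓ hℓ hℓS P hP τ hτ i => ?_) σ
  · rw [← key ρ b L₁ hL₁' g g' fun x hx => hgg x (le_sup_left (a := L₁) (b := L₂) hx), hg,
      key ρ' b' L₂ hL₂' g g' fun x hx => hgg x (le_sup_right (a := L₁) (b := L₂) hx)]
  · refine congrArg q ?_
    rw [map_pow ρ.ρ, map_pow ρ'.ρ, LinearMap.trace_eq_matrix_trace A b,
      LinearMap.trace_eq_matrix_trace A b', ← LinearMap.toMatrix_pow, ← LinearMap.toMatrix_pow,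
      Datum.trace_pow_eq_powTr, Datum.trace_pow_eq_powTr, LinearMap.det_toMatrix,
      LinearMap.det_toMatrix, det_eq_of_detIsCyclotomic h h' τ,
      ← LinearMap.trace_eq_matrix_trace A b, ← LinearMap.trace_eq_matrix_trace A b',
      hF ℓ hℓ hℓS P hP τ hτ]

omit [IsNoetherianRing A] hp in
/-- A split involution of trace zero is conjugate to `diag(1, -1)`. -/
theorem exists_diag_conj (h2 : IsUnit (2 : A)) {C : Matrix (Fin 2) (Fin 2) A} (hC : C * C = 1)
    (htr : C.trace = 0) :
    ∃ g : (Matrix (Fin 2) (Fin 2) A)ˣ, g.val * C * g.inv = !![1, 0; 0, -1] := by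
  obtain ⟨i2, hi2⟩ := h2.exists_left_inv
  rw [Matrix.trace_fin_two] at htr
  have h00 := congrFun (congrFun hC 0) 0
  simp [Matrix.mul_apply, Fin.sum_univ_two] at h00
  set x := i2 * (1 + C 0 0) with hx
  set y := i2 * C 0 1 with hy
  set z := i2 * C 1 0 with hz
  have e00 : C 0 0 = 2 * x - 1 := by rw [hx]; linear_combination -(1 + C 0 0) * hi2
  have e01 : C 0 1 = 2 * y := by rw [hy]; linear_combination -(C 0 1) * hi2
  have e10 : C 1 0 = 2 * z := by rw [hz]; linear_combination -(C 1 0) * hi2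
  have e11 : C 1 1 = 1 - 2 * x := by linear_combination htr - e00
  have hxyz : x * (1 - x) = y * z := by
    have h4 : (2 * 2) * (x * (1 - x) - y * z) = 0 := by
      rw [e00, e01, e10] at h00; linear_combination -h00
    have := congrArg (fun v => i2 * i2 * v) h4
    simp only [mul_zero] at this
    linear_combination this - (x * (1 - x) - y * z) * (i2 * 2 + 1) * hi2
  have mk : ∀ g : Matrix (Fin 2) (Fin 2) A, IsUnit g.det → g * C = !![1, 0; 0, -1] * g →
      ∃ u : (Matrix (Fin 2) (Fin 2) A)ˣ, u.val * C * u.inv = !![1, 0; 0, -1] := by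
    intro g hg h
    obtain ⟨u, rfl⟩ := g.isUnit_iff_isUnit_det.mpr hg
    exact ⟨u, by rw [h, mul_assoc, u.val_inv, mul_one]⟩
  rcases IsLocalRing.isUnit_or_isUnit_one_sub_self x with hu | hu
  · refine mk !![x, y; -z, x] ?_ ?_
    · rw [Matrix.det_fin_two_of, show x * x - y * -z = x by linear_combination -hxyz]
      exact hu
    · ext i j
      fin_cases i <;> fin_cases j <;>
        simp [Matrix.mul_apply, Fin.sum_univ_two, e00, e01, e10, e11] <;>
        first | linear_combination 2 * hxyz | linear_combination -2 * hxyz | ring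
  · refine mk !![z, 1 - x; 1 - x, -y] ?_ ?_
    · rw [Matrix.det_fin_two_of,
        show z * -y - (1 - x) * (1 - x) = -(1 - x) by linear_combination hxyz]
      exact hu.neg
    · ext i j
      fin_cases i <;> fin_cases j <;>
        simp [Matrix.mul_apply, Fin.sum_univ_two, e00, e01, e10, e11] <;>
        first | linear_combination 2 * hxyz | linear_combination -2 * hxyz | ring

omit [IsNoetherianRing A] hp in
/-- A representation with a split involution of trace zero and a unit off-diagonal product is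
conjugate to the pseudo-representation of its trace. -/
theorem exists_conj_psMat (h2 : IsUnit (2 : A)) (R : Γℚ →* Matrix (Fin 2) (Fin 2) A) {c : Γℚ}
    (hcc : c * c = 1) (hc : (R c).trace = 0) {σ₀ τ₀ : Γℚ}
    (hu : IsUnit (Datum.psX (fun g => (R g).trace) c σ₀ τ₀)) :
    ∃ g : (Matrix (Fin 2) (Fin 2) A)ˣ, ∀ σ,
      g.val * R σ = Datum.psMat (fun g => (R g).trace) c σ₀ τ₀ σ * g.val := by
  obtain ⟨g, hg⟩ := exists_diag_conj h2 (C := R c) (by rw [← map_mul, hcc, map_one]) hc
  set t := fun g => (R g).trace with ht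
  let R' : Γℚ →* Matrix (Fin 2) (Fin 2) A :=
    { toFun := fun σ => g.val * R σ * g.inv
      map_one' := by rw [map_one, mul_one, g.val_inv]
      map_mul' := fun a b => by
        rw [map_mul]; simp only [mul_assoc, ← mul_assoc g.inv, g.inv_val, one_mul] }
  have htr : ∀ σ, (RingHom.id A) (t σ) = (R' σ).trace := fun σ => by
    show (R σ).trace = (g.val * R σ * g.inv).trace
    rw [Matrix.trace_mul_cycle, g.inv_val, one_mul]
  have hA := Datum.map_psA (RingHom.id A) R' t c h2 hg htr
  have hD := Datum.map_psD (RingHom.id A) R' t c h2 hg htr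
  have hX := Datum.map_psX (RingHom.id A) R' t c h2 hg htr
  simp only [RingHom.id_apply] at hA hD hX
  rw [hX] at hu
  obtain ⟨γ, hγ⟩ := (IsUnit.mul_iff.1 hu).2
  let D : (Matrix (Fin 2) (Fin 2) A)ˣ :=
    ⟨!![(γ : A), 0; 0, 1], !![((γ⁻¹ : Aˣ) : A), 0; 0, 1],
      by simp [Matrix.one_fin_two], by simp [Matrix.one_fin_two]⟩
  refine ⟨D * g, fun σ => ?_⟩
  obtain ⟨β, hβ⟩ := (IsUnit.mul_iff.1 hu).1
  have key : D.val * R' σ = Datum.psMat t c σ₀ τ₀ σ * D.val := by
    have hinv : Ring.inverse (R' σ₀ 0 1 * R' τ₀ 1 0) * (R' σ₀ 0 1 * R' τ₀ 1 0) = 1 :=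
      Ring.inverse_mul_cancel _ hu
    ext i j
    fin_cases i <;> fin_cases j <;>
      simp [Datum.psMat, D, hA, hD, hX, Matrix.mul_apply, Fin.sum_univ_two, hγ]
    · ring
    · ring
    · linear_combination -(R' σ 1 0) * hinv
  rw [Units.val_mul, ← mul_assoc, ← key]
  show D.val * g.val * R σ = D.val * (g.val * R σ * g.inv) * g.val
  simp only [mul_assoc, g.inv_val, mul_one]

/-- **Carayol's lemma.** -/
theorem isEquiv_of_frobenius_trace {𝒪 : Type} [CommRing 𝒪] [IsLocalRing 𝒪] [Algebra 𝒪 A]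
    [IsLocalHom (algebraMap 𝒪 A)] (hp2 : p ≠ 2)
    {ρbar : ResidualGaloisRep (ResidueField 𝒪)} (habs : ρbar.IsAbsolutelyIrreducible)
    (hres : ρ.residual.IsEquiv (ρbar.baseChangeAlong (ResidueField.map (algebraMap 𝒪 A))))
    (h : ρ.DetIsCyclotomic p) (h' : ρ'.DetIsCyclotomic p) (S : Finset ℕ)
    (hF : ∀ ℓ : ℕ, ℓ.Prime → ℓ ∉ S → ∀ P : ValuationSubring (AlgebraicClosure ℚ),
      P.LiesOverPrime ℓ → ∀ σ : Γℚ, P.IsFrobeniusAt σ ℓ →
        LinearMap.trace A ρ.V (ρ.ρ σ) = LinearMap.trace A ρ'.V (ρ'.ρ σ)) :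
    ρ.IsEquiv ρ' := by
  classical
  have h2 : IsUnit (2 : A) := by
    by_contra hn
    obtain ⟨m, hm⟩ : ∃ m, p = 2 * m + 1 :=
      (hp.out.eq_two_or_odd'.resolve_left hp2).exists_bit1
    have hp' : (p : A) ∈ maximalIdeal A := h.1
    refine (IsLocalRing.maximalIdeal.isMaximal A).ne_top ((Ideal.eq_top_iff_one _).mpr ?_)
    have := sub_mem hp' (Ideal.mul_mem_right (m : A) _ hn)
    convert this using 1
    rw [hm]; push_cast; ring
  set κ := ResidueField.map (algebraMap 𝒪 A) with hκ
  let tb := fun g => LinearMap.trace (ResidueField 𝒪) ρbar.V (ρbar.ρ g)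
  let t := fun g => LinearMap.trace A ρ.V (ρ.ρ g)
  have hmod : ∀ g, residue A (t g) = κ (tb g) := by
    intro g
    obtain ⟨e⟩ := hres
    have e1 : LinearMap.trace (ResidueField A) ρ.residual.V (ρ.residual.ρ g) =
        residue A (t g) := LinearMap.trace_baseChange (ρ.ρ g) (ResidueField A)
    have e2 : LinearMap.trace (ResidueField A) (ρbar.baseChangeAlong κ).V
        ((ρbar.baseChangeAlong κ).ρ g) = κ (tb g) := by
      let : Algebra (ResidueField 𝒪) (ResidueField A) := κ.toAlgebra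
      exact LinearMap.trace_baseChange (ρbar.ρ g) (ResidueField A)
    have e3 : (ρbar.baseChangeAlong κ).ρ g = e.toLinearEquiv.conj (ρ.residual.ρ g) := by
      refine LinearMap.ext fun x => ?_
      obtain ⟨y, rfl⟩ := e.toLinearEquiv.surjective x
      rw [LinearEquiv.conj_apply_apply, LinearEquiv.symm_apply_apply]
      exact (e.map_apply g y).symm
    rw [← e1, ← e2, e3, LinearMap.trace_conj']
  have htc : t complexConjugation = 0 := trace_complexConjugation h
  have htbc : tb complexConjugation = 0 :=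
    κ.injective (by rw [← hmod, htc, map_zero, map_zero])
  have h2k : (2 : ResidueField 𝒪) ≠ 0 := fun h0 => by
    have : (2 : ResidueField A) = 0 := by simpa [map_ofNat] using congrArg κ h0
    exact (h2.map (residue A)).ne_zero (by simpa [map_ofNat] using this)
  have hcc : ρbar.ρ complexConjugation * ρbar.ρ complexConjugation = 1 := by
    rw [← map_mul, complexConjugation_mul_self, map_one]
  obtain ⟨σ₀, τ₀, -, hx, -, -⟩ :=
    Datum.exists_basis_psMat ρbar habs h2k complexConjugation hcc htbc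
  have hu : IsUnit (Datum.psX t complexConjugation σ₀ τ₀) := by
    refine notMem_maximalIdeal.1 fun hm => hx ?_
    rw [← residue_eq_zero_iff, Datum.psX_map (residue A) h2] at hm
    simp only [hmod] at hm
    rw [← Datum.psX_map κ (isUnit_iff_ne_zero.2 h2k)] at hm
    exact κ.injective (hm.trans (map_zero κ).symm)
  let b := Module.finBasisOfFinrankEq A ρ.V ρ.finrank_eq
  let b' := Module.finBasisOfFinrankEq A ρ'.V ρ'.finrank_eq
  have ht : t = fun g => (Deform.matOf ρ b g).trace := funext fun g =>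
    (LinearMap.trace_eq_matrix_trace A b (ρ.ρ g)).trans rfl
  have ht' : t = fun g => (Deform.matOf ρ' b' g).trace := funext fun g =>
    ((trace_eq_of_frobenius h h' S hF g).trans (LinearMap.trace_eq_matrix_trace A b' _)).trans rfl
  obtain ⟨g, hg⟩ := exists_conj_psMat h2 (Deform.matOf ρ b) complexConjugation_mul_self
    ((congrFun ht _).symm.trans htc) (ht ▸ hu)
  obtain ⟨g', hg'⟩ := exists_conj_psMat h2 (Deform.matOf ρ' b') complexConjugation_mul_self
    ((congrFun ht' _).symm.trans htc) (ht' ▸ hu)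
  rw [← ht] at hg
  rw [← ht'] at hg'
  have hiff := (Deform.toAdic_isEquiv_iff (Deform.matOf ρ b) (Deform.matOf ρ' b')
    (Deform.isContRep_matOf ρ b) (Deform.isContRep_matOf ρ' b')).mpr ⟨g'⁻¹ * g, fun σ => by
      rw [Units.val_mul, mul_assoc, hg σ, ← mul_assoc, ← mul_assoc]
      congr 1
      calc (g'⁻¹).val * Datum.psMat t complexConjugation σ₀ τ₀ σ
          = (g'⁻¹).val * (Datum.psMat t complexConjugation σ₀ τ₀ σ * g'.val) * (g'⁻¹).val := by
            rw [mul_assoc, mul_assoc _ g'.val, Units.mul_inv, mul_one]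
        _ = Deform.matOf ρ' b' σ * (g'⁻¹).val := by
            rw [← hg' σ, ← mul_assoc, Units.inv_mul, one_mul]⟩
  exact Deform.isEquiv_trans' (Deform.isEquiv_toAdic_matOf ρ b)
    (Deform.isEquiv_trans' hiff (Deform.isEquiv_symm' (Deform.isEquiv_toAdic_matOf ρ' b')))

/-- Maps out of a deformation ring with equal traces of Frobenius are equal. -/
theorem algHom_ext_of_frobenius_trace {𝒪 : Type} [CommRing 𝒪] [IsDomain 𝒪]
    [IsDiscreteValuationRing 𝒪] [IsAdicComplete (maximalIdeal 𝒪) 𝒪]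
    {ρbar : ResidualGaloisRep (ResidueField 𝒪)}
    {𝒟 : ∀ ⦃A : Type⦄ [CommRing A] [IsLocalRing A] [Algebra 𝒪 A], GaloisRepAdic A → Prop}
    (D : GaloisRep.DeformationRingData 𝒪 ρbar 𝒟) (hdet : D.ρ.DetIsCyclotomic p) (hp2 : p ≠ 2)
    [Algebra 𝒪 A] [IsLocalHom (algebraMap 𝒪 A)] [IsAdicComplete (maximalIdeal A) A]
    (hres : Function.Surjective (IsLocalRing.residue A ∘ algebraMap 𝒪 A))
    (f g : D.R →ₐ[𝒪] A) (hf : IsLocalHom (f : D.R →+* A)) (hg : IsLocalHom (g : D.R →+* A))
    (h𝒟 : 𝒟 (D.ρ.baseChangeAlong (f : D.R →+* A) hf)) (S : Finset ℕ)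
    (hF : ∀ ℓ : ℕ, ℓ.Prime → ℓ ∉ S → ∀ P : ValuationSubring (AlgebraicClosure ℚ),
      P.LiesOverPrime ℓ → ∀ σ : Γℚ, P.IsFrobeniusAt σ ℓ →
        f (LinearMap.trace D.R D.ρ.V (D.ρ.ρ σ)) = g (LinearMap.trace D.R D.ρ.V (D.ρ.ρ σ))) :
    f = g := by
  have hresid := TWGal.residual_baseChangeAlong_isEquiv D.ρ D.residual_isEquiv f hf
  obtain ⟨e⟩ := isEquiv_of_frobenius_trace hp2 D.absIrr hresid
    (Tangent.detIsCyclotomic_baseChangeAlong _ hf hdet)
    (Tangent.detIsCyclotomic_baseChangeAlong _ hg hdet) S fun ℓ hℓ hℓS P hP σ hσ => by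
      rw [trace_baseChangeAlong, trace_baseChangeAlong]
      exact hF ℓ hℓ hℓS P hP σ hσ
  exact (D.universal A hres _ h𝒟 hresid).unique ⟨hf, ⟨GaloisRepAdic.Equiv.refl _⟩⟩ ⟨hg, ⟨e.symm⟩⟩

end Fermat.Agent.R59
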