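import Fermat.Agent.R59.Setup
import Fermat.Agent.TWGal.Diamond
import Fermat.Agent.Density.Qbar
import Fermat.Agent.LR.NonEisenstein
import Mathlib.RingTheory.RootsOfUnity.PrimitiveRoots

/-!
# Primes `ℓ ≡ 1 (mod L)` at which a lifting problem is not Eisenstein

An absolutely irreducible plane representation cannot have every element of `Gal(ℚ̄/ℚ(μ_L))`
unipotent.
-/

set_option autoImplicit false

noncomputable section

open IsLocalRing Polynomial

namespace Fermat.Agent.R59

local notation "Γℚ" => (AlgebraicClosure ℚ ≃ₐ[ℚ] AlgebraicClosure ℚ)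

section Plane

/-- If all elements fixing a root of unity act unipotently on a plane, some line is stable. -/
theorem exists_stable_of_unipotent {K V : Type} [Field K] [IsAlgClosed K] [AddCommGroup V]
    [Module K V] (hV : Module.finrank K V = 2) (ρ : Γℚ →* Module.End K V)
    {L : ℕ} [NeZero L] {ζ : AlgebraicClosure ℚ} (hζ : IsPrimitiveRoot ζ L)
    (hu : ∀ g : Γℚ, g ζ = ζ → (ρ g - 1) * (ρ g - 1) = 0) :
    ∃ W : Submodule K V, W ≠ ⊥ ∧ W ≠ ⊤ ∧ ∀ g, ∀ x ∈ W, ρ g x ∈ W := by
  classical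
  have : FiniteDimensional K V := FiniteDimensional.of_finrank_pos (by omega)
  have : Nontrivial V := Module.nontrivial_of_finrank_pos (R := K) (by omega)
  have hline : ∀ v : V, v ≠ 0 →
      Submodule.span K {v} ≠ ⊤ ∧ Submodule.span K {v} ≠ ⊥ := fun v hv => by
    refine ⟨fun ht => ?_, by simpa using hv⟩
    have := finrank_span_singleton (K := K) hv
    rw [ht, finrank_top, hV] at this
    omega
  have hpow : ∀ g : Γℚ, ∃ a : ℕ, g ζ = ζ ^ a := fun g => by
    obtain ⟨a, -, ha⟩ := hζ.eq_pow_of_pow_eq_one (ξ := g ζ) (by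
      rw [← map_pow, hζ.pow_eq_one, map_one])
    exact ⟨a, ha.symm⟩
  let G : Subgroup Γℚ :=
    { carrier := {g | g ζ = ζ}
      one_mem' := rfl
      mul_mem' := fun {a b} (ha : a ζ = ζ) (hb : b ζ = ζ) => by
        show a (b ζ) = ζ
        rw [hb, ha]
      inv_mem' := fun {a} (ha : a ζ = ζ) => by
        show a⁻¹ ζ = ζ
        conv_lhs => rw [← ha]
        exact a.symm_apply_apply ζ }
  have hfix : ∀ g ∈ G, ∃ v : V, v ≠ 0 ∧ ρ g v = v := fun g hg => by
    by_contra hne
    push Not at hne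
    have hinj : Function.Injective (ρ g - 1 : Module.End K V) := by
      rw [← LinearMap.ker_eq_bot, Submodule.eq_bot_iff]
      intro v hv
      by_contra hv0
      exact hne v hv0 (sub_eq_zero.mp hv)
    obtain ⟨v, hv⟩ := exists_ne (0 : V)
    exact hv (hinj (hinj (by
      rw [map_zero, map_zero]
      exact LinearMap.congr_fun (hu g hg) v)))
  set P : Submodule K V := ⨅ h : G, LinearMap.ker (ρ h - 1) with hP
  have memP : ∀ x, x ∈ P ↔ ∀ h ∈ G, ρ h x = x := fun x => by
    simp [hP, Submodule.mem_iInf, sub_eq_zero, Subtype.forall]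
  have hPstab : ∀ g, ∀ x ∈ P, ρ g x ∈ P := by
    intro g x hx
    rw [memP] at hx ⊢
    intro h hh
    have hmem : g⁻¹ * h * g ∈ G := by
      show g⁻¹ (h (g ζ)) = ζ
      obtain ⟨a, ha⟩ := hpow g
      rw [ha, map_pow, show h ζ = ζ from hh, ← ha]
      exact g.symm_apply_apply ζ
    conv_rhs => rw [← hx _ hmem]
    rw [← Module.End.mul_apply, ← Module.End.mul_apply, ← map_mul, ← map_mul]
    congr 2
    group
  have hPbot : P ≠ ⊥ := by
    obtain ⟨W, hW0, hW1, hW⟩ := LR.exists_stable_of_forall_fixed hV (ρ.comp G.subtype)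
      fun g => hfix g.1 g.2
    obtain ⟨x, hx, hx0⟩ := (Submodule.ne_bot_iff W).mp hW0
    refine (Submodule.ne_bot_iff P).mpr ⟨x, (memP x).mpr fun h hh => ?_, hx0⟩
    by_cases hsp : ∃ c : K, ρ h x = c • x
    · obtain ⟨c, hc⟩ := hsp
      have h2 := LinearMap.congr_fun (hu h hh) x
      simp only [Module.End.mul_apply, LinearMap.sub_apply, Module.End.one_apply, hc, map_sub,
        map_smul, LinearMap.zero_apply] at h2
      have h3 : ((c - 1) * (c - 1)) • x = 0 := by
        rw [← h2]; module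
      have h4 := (smul_eq_zero.mp h3).resolve_right hx0
      rw [hc, show c = 1 from sub_eq_zero.mp (mul_self_eq_zero.mp h4), one_smul]
    · exfalso
      push Not at hsp
      have hspan : Submodule.span K {x} = W := by
        refine Submodule.eq_of_le_of_finrank_le
          ((Submodule.span_singleton_le_iff_mem x W).mpr hx) ?_
        rw [finrank_span_singleton hx0]
        by_contra hlt
        exact hW1 (Submodule.eq_top_of_finrank_eq (le_antisymm W.finrank_le (by omega)))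
      obtain ⟨c, hc⟩ := Submodule.mem_span_singleton.mp (hspan ▸ hW ⟨h, hh⟩ x hx)
      exact hsp c hc.symm
  by_cases hPtop : P = ⊤
  swap
  · exact ⟨P, hPbot, hPtop, hPstab⟩
  have htriv : ∀ h ∈ G, ρ h = 1 := fun h hh =>
    LinearMap.ext fun x => (memP x).mp (hPtop ▸ Submodule.mem_top) h hh
  have hcomm : ∀ a b, Commute (ρ a) (ρ b) := fun a b => by
    have hmem : (b * a)⁻¹ * (a * b) ∈ G := by
      show (b * a)⁻¹ ((a * b) ζ) = ζ
      obtain ⟨i, hi⟩ := hpow a
      obtain ⟨j, hj⟩ := hpow b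
      have : (a * b) ζ = (b * a) ζ := by
        rw [AlgEquiv.mul_apply, AlgEquiv.mul_apply, hj, map_pow, hi, map_pow, hj, ← pow_mul,
          ← pow_mul, mul_comm i j]
      rw [this]
      exact (b * a).symm_apply_apply ζ
    show ρ a * ρ b = ρ b * ρ a
    rw [← map_mul, ← map_mul]
    calc ρ (a * b) = ρ ((b * a) * ((b * a)⁻¹ * (a * b))) := by rw [mul_inv_cancel_left]
      _ = ρ (b * a) * 1 := by rw [map_mul, htriv _ hmem]
      _ = ρ (b * a) := mul_one _
  by_cases hscal : ∀ g, ∃ c : K, ρ g = c • 1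
  · obtain ⟨v, hv⟩ := exists_ne (0 : V)
    refine ⟨Submodule.span K {v}, (hline v hv).2, (hline v hv).1, fun g x hx => ?_⟩
    obtain ⟨c, hc⟩ := hscal g
    rw [hc]
    exact Submodule.smul_mem _ c hx
  push Not at hscal
  obtain ⟨g₀, hg₀⟩ := hscal
  obtain ⟨c, hc⟩ := Module.End.exists_eigenvalue (ρ g₀)
  refine ⟨Module.End.eigenspace (ρ g₀) c, hc, fun ht => hg₀ c ?_, fun g x hx => ?_⟩
  · refine LinearMap.ext fun x => ?_
    exact Module.End.mem_eigenspace_iff.mp (ht ▸ Submodule.mem_top : x ∈ _)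
  · rw [Module.End.mem_eigenspace_iff] at hx ⊢
    rw [← Module.End.mul_apply, (hcomm g₀ g).eq, Module.End.mul_apply, hx, map_smul]

end Plane

variable {W : WeierstrassCurve ℤ} {p : ℕ} {k : Kind}

/-- The residual characteristic polynomial at a good Frobenius element. -/
theorem Setup.charpoly_rhobar (U : Setup W p k) {ℓ : ℕ} (hℓ : ℓ.Prime) (hℓS : ℓ ∉ minSet W p)
    {A : ValuationSubring (AlgebraicClosure ℚ)} (hA : A.LiesOverPrime ℓ) {σ : Γℚ}
    (hσ : A.IsFrobeniusAt σ ℓ) :
    LinearMap.charpoly (U.ρbar.ρ σ) =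
      X ^ 2 - C (residue U.𝒪 (U.a ℓ)) * X + C (ℓ : ResidueField U.𝒪) := by
  letI : Algebra (ResidueField U.𝒪) (ResidueField U.𝒪) :=
    (ResidueField.map (algebraMap U.𝒪 U.𝒪)).toAlgebra
  have h := TWGal.charpoly_map_residue (ρbar := U.ρbar) (ρ := U.base) U.base_residual σ
  have hid : algebraMap (ResidueField U.𝒪) (ResidueField U.𝒪) = RingHom.id _ := by
    show ResidueField.map (algebraMap U.𝒪 U.𝒪) = RingHom.id _
    exact ResidueField.map_id
  rw [hid, Polynomial.map_id, U.base_charpoly ℓ hℓ hℓS A hA σ hσ] at h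
  rw [← h]
  simp [Polynomial.map_add, Polynomial.map_sub, Polynomial.map_mul, Polynomial.map_pow]

/-- There is a prime `ℓ ≡ 1 (mod L)` at which the base point is not Eisenstein. -/
theorem Setup.exists_prime_one_mod (U : Setup W p k) (hp : p.Prime) (L : ℕ) [NeZero L]
    (S : Finset ℕ) :
    ∃ ℓ : ℕ, ℓ.Prime ∧ ℓ ∉ S ∧ L ∣ ℓ - 1 ∧
      residue U.𝒪 (U.a ℓ) ≠ (ℓ : ResidueField U.𝒪) + 1 := by
  classical
  by_contra hcon
  push Not at hcon
  have : NeZero p := ⟨hp.ne_zero⟩
  set L' := L * p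
  have hL' : NeZero L' := ⟨mul_ne_zero (NeZero.ne L) hp.ne_zero⟩
  obtain ⟨ζ, hζ⟩ := HasEnoughRootsOfUnity.exists_primitiveRoot (AlgebraicClosure ℚ) L'
  obtain ⟨F, hF, hF1⟩ := U.ρbar.factorsThroughFiniteLevel
  have : FiniteDimensional ℚ ↥(IntermediateField.adjoin ℚ {ζ}) :=
    IntermediateField.adjoin.finiteDimensional
      (IsIntegral.of_pow (NeZero.pos L') (by rw [hζ.pow_eq_one]; exact isIntegral_one))
  set M := IntermediateField.normalClosure ℚ ↥(F ⊔ IntermediateField.adjoin ℚ {ζ})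
    (AlgebraicClosure ℚ)
  have : Normal ℚ (AlgebraicClosure ℚ) := Density.normal_qbar
  have : Normal ℚ M := normalClosure.normal ℚ _ _
  have hFM : F ≤ M := le_trans le_sup_left (IntermediateField.le_normalClosure _)
  have hζM : ζ ∈ M := le_trans le_sup_right (IntermediateField.le_normalClosure _)
    (IntermediateField.mem_adjoin_simple_self ℚ ζ)
  let K := AlgebraicClosure (ResidueField U.𝒪)
  have hu : ∀ g : Γℚ, g ζ = ζ →
      ((U.ρbar.baseChange K).ρ g - 1) * ((U.ρbar.baseChange K).ρ g - 1) = 0 := by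
    intro g hg
    obtain ⟨ℓ, hℓ, hℓS, A, hA, σ, hσ, hz⟩ := Density.exists_frobenius_zpowers_restrictNormal M g
      (S ∪ minSet W p ∪ L'.primeFactors)
    simp only [Finset.mem_union, not_or] at hℓS
    have hℓL : ¬ ℓ ∣ L' := fun h => hℓS.2 (Nat.mem_primeFactors.mpr ⟨hℓ, h, NeZero.ne L'⟩)
    have hres : ∀ τ : Γℚ, ∀ x (hx : x ∈ M), ((τ.restrictNormal M) ⟨x, hx⟩ : AlgebraicClosure ℚ) =
        τ x := fun τ x hx => AlgEquiv.restrictNormal_commutes τ M ⟨x, hx⟩
    -- the Frobenius element fixes `ζ`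
    obtain ⟨i, hi⟩ := Subgroup.mem_zpowers_iff.mp
      (hz ▸ Subgroup.mem_zpowers (σ.restrictNormal M) :
        σ.restrictNormal M ∈ Subgroup.zpowers (g.restrictNormal M))
    have hσζ : σ ζ = ζ := by
      have hgζ : (g.restrictNormal M) ⟨ζ, hζM⟩ = ⟨ζ, hζM⟩ :=
        Subtype.ext ((hres g ζ hζM).trans hg)
      have hmem : g.restrictNormal M ∈
          MulAction.stabilizer (↥M ≃ₐ[ℚ] ↥M) (⟨ζ, hζM⟩ : M) := hgζ
      have hσmem := Subgroup.zpow_mem _ hmem i
      rw [hi] at hσmem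
      rw [← hres σ ζ hζM]
      exact congrArg Subtype.val hσmem
    have hℓ1 : L' ∣ ℓ - 1 := by
      have := Galois.isFrobeniusAt_apply_rootOfUnity hA hℓ hσ hℓL hζ.pow_eq_one
      rw [hσζ] at this
      refine hζ.dvd_of_pow_eq_one (ℓ - 1) ?_
      refine mul_right_cancel₀ (hζ.ne_zero (NeZero.ne L')) ?_
      rw [← pow_succ, Nat.sub_add_cancel hℓ.one_le, one_mul, ← this]
    have hℓk : (ℓ : ResidueField U.𝒪) = 1 := by
      have hp0 : ((p : ℕ) : ResidueField U.𝒪) = 0 := by
        rw [← map_natCast (residue U.𝒪)]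
        exact (residue_eq_zero_iff _).mpr U.p_mem
      obtain ⟨t, ht⟩ := (dvd_mul_left p L).trans hℓ1
      have h' : ℓ = p * t + 1 := by have := hℓ.one_le; omega
      rw [h']
      simp [hp0]
    have hchar := U.charpoly_rhobar hℓ hℓS.1.2 hA hσ
    rw [hcon ℓ hℓ hℓS.1.1 ((dvd_mul_right L p).trans hℓ1), hℓk] at hchar
    have hK : ((U.ρbar.baseChange K).ρ σ - 1) * ((U.ρbar.baseChange K).ρ σ - 1) = 0 := by
      have hc : LinearMap.charpoly ((U.ρbar.baseChange K).ρ σ) = (X - C (1 : K)) * (X - C 1) := by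
        show LinearMap.charpoly ((U.ρbar.ρ σ).baseChange K) = _
        rw [LinearMap.charpoly_baseChange, hchar]
        simp only [Polynomial.map_add, Polynomial.map_sub, Polynomial.map_mul, Polynomial.map_pow,
          Polynomial.map_X, Polynomial.map_one, map_one, map_add]
        ring
      have := LinearMap.aeval_self_charpoly ((U.ρbar.baseChange K).ρ σ)
      rw [hc] at this
      simpa using this
    -- `g` is a power of it at the level `M`
    obtain ⟨j, hj⟩ := mem_powers_iff_mem_zpowers.mpr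
      (hz ▸ Subgroup.mem_zpowers (g.restrictNormal M) :
        g.restrictNormal M ∈ Subgroup.zpowers (σ.restrictNormal M))
    have hρ : U.ρbar.ρ g = U.ρbar.ρ σ ^ j := by
      have h1 : U.ρbar.ρ ((σ ^ j)⁻¹ * g) = 1 := hF1 _ fun x hx => by
        have hx' := hFM hx
        have e1 := hres g x hx'
        rw [← hj] at e1
        have e2 : ((σ ^ j).restrictNormal M) = σ.restrictNormal M ^ j :=
          map_pow (AlgEquiv.restrictNormalHom M) σ j
        have e3 := hres (σ ^ j) x hx'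
        rw [e2] at e3
        show (σ ^ j)⁻¹ (g x) = x
        rw [← e1]
        simp only at e3 ⊢
        rw [e3]
        exact (σ ^ j).symm_apply_apply x
      calc U.ρbar.ρ g = U.ρbar.ρ (σ ^ j * ((σ ^ j)⁻¹ * g)) := by rw [mul_inv_cancel_left]
        _ = U.ρbar.ρ σ ^ j := by rw [map_mul, h1, mul_one, map_pow]
    have hρK : (U.ρbar.baseChange K).ρ g = (U.ρbar.baseChange K).ρ σ ^ j := by
      show (U.ρbar.ρ g).baseChange K = ((U.ρbar.ρ σ).baseChange K) ^ j
      rw [hρ, LinearMap.baseChange_pow]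
    rw [hρK]
    set f := (U.ρbar.baseChange K).ρ σ
    obtain ⟨q, hq⟩ : ∃ q, f ^ j - 1 = (f - 1) * q :=
      ⟨_, (mul_geom_sum f j).symm⟩
    have hc : Commute (f ^ j - 1) (f - 1) :=
      (((Commute.refl f).pow_left j).sub_left (Commute.one_left _)).sub_right (Commute.one_right _)
    conv_lhs => arg 2; rw [hq]
    rw [← mul_assoc, hc.eq, hq, ← mul_assoc, hK, zero_mul, zero_mul]
  obtain ⟨Z, h0, h1, hst⟩ := exists_stable_of_unipotent (U.ρbar.baseChange K).finrank_eq
    (U.ρbar.baseChange K).ρ hζ hu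
  exact (U.absIrr Z hst).elim h0 h1

end Fermat.Agent.R59
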