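import Fermat.Agent.TW.Mod.LocPart
import Fermat.Prelude.Def_CuspForm_HeckeLocal
import Fermat.Agent.MF.IntStruct.Main

/-!
# Modules over a local Hecke algebra

A finite module on which `T_ℓ - c_ℓ` is nilpotent modulo `𝔪` carries an action of the local Hecke
algebra at the system `c mod 𝔪`.
-/

set_option autoImplicit false
set_option synthInstance.maxHeartbeats 400000

noncomputable section

open IsLocalRing
open scoped TensorProduct

namespace Fermat.Agent.R59

section Nilp

variable {𝒪 : Type} [CommRing 𝒪] [IsLocalRing 𝒪] {R : Type} [CommRing R] [Algebra 𝒪 R]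
  {X : Type} [AddCommGroup X] [Module R X] [Module 𝒪 X] [IsScalarTower 𝒪 R X]

variable (𝒪 R X) in
/-- Endomorphisms modulo the maximal ideal of `𝒪`. -/
def redEnd : Module.End R X →+*
    Module.End 𝒪 (X ⧸ maximalIdeal 𝒪 • (⊤ : Submodule 𝒪 X)) where
  toFun f := Submodule.mapQ _ _ (f.restrictScalars 𝒪) (Submodule.map_le_iff_le_comap.1 (by
    rw [Submodule.map_smul'']; exact Submodule.smul_mono le_rfl le_top))
  map_one' := by ext; rfl
  map_mul' f g := by ext; rfl
  map_zero' := by ext; rfl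
  map_add' f g := by ext; rfl

/-- Nilpotent modulo the maximal ideal of `𝒪`. -/
def NilpModM (f : Module.End R X) : Prop := IsNilpotent (redEnd 𝒪 R X f)

namespace NilpModM

theorem zero : NilpModM (𝒪 := 𝒪) (0 : Module.End R X) := by
  rw [NilpModM, map_zero]; exact IsNilpotent.zero

theorem add {f g : Module.End R X} (hc : Commute f g) (hf : NilpModM (𝒪 := 𝒪) f)
    (hg : NilpModM (𝒪 := 𝒪) g) : NilpModM (𝒪 := 𝒪) (f + g) := by
  rw [NilpModM, map_add]; exact (hc.map _).isNilpotent_add hf hg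

theorem mul_right {f g : Module.End R X} (hc : Commute f g) (hf : NilpModM (𝒪 := 𝒪) f) :
    NilpModM (𝒪 := 𝒪) (f * g) := by
  rw [NilpModM, map_mul]; exact (hc.map _).isNilpotent_mul_right hf

theorem mul_left {f g : Module.End R X} (hc : Commute f g) (hg : NilpModM (𝒪 := 𝒪) g) :
    NilpModM (𝒪 := 𝒪) (f * g) := by
  rw [NilpModM, map_mul]; exact (hc.map _).isNilpotent_mul_left hg

theorem algebraMap_of_mem {c : 𝒪} (hc : c ∈ maximalIdeal 𝒪) :
    NilpModM (𝒪 := 𝒪) (algebraMap 𝒪 (Module.End R X) c) := by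
  refine ⟨1, ?_⟩
  rw [pow_one]
  refine LinearMap.ext fun x => ?_
  obtain ⟨x, rfl⟩ := Submodule.Quotient.mk_surjective _ x
  show Submodule.Quotient.mk (c • x) = 0
  rw [Submodule.Quotient.mk_eq_zero]
  exact Submodule.smul_mem_smul hc Submodule.mem_top

/-- An element of `R` which is nilpotent modulo `𝔪`. -/
theorem smul_one_of_mem {a : R} {j : ℕ}
    (ha : a ^ j ∈ (maximalIdeal 𝒪).map (algebraMap 𝒪 R)) :
    NilpModM (𝒪 := 𝒪) (a • (1 : Module.End R X)) := by
  refine ⟨j, ?_⟩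
  rw [← map_pow, smul_pow, one_pow]
  refine LinearMap.ext fun x => ?_
  obtain ⟨x, rfl⟩ := Submodule.Quotient.mk_surjective _ x
  show Submodule.Quotient.mk (a ^ j • x) = 0
  rw [Submodule.Quotient.mk_eq_zero]
  generalize a ^ j = b at ha ⊢
  clear * - ha
  induction ha using Submodule.span_induction generalizing x with
  | mem b hb =>
    obtain ⟨c, hc, rfl⟩ := hb
    rw [IsScalarTower.algebraMap_smul]
    exact Submodule.smul_mem_smul hc Submodule.mem_top
  | zero => rw [zero_smul]; exact zero_mem _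
  | add a b _ _ ha hb => rw [add_smul]; exact add_mem (ha x) (hb x)
  | smul c b _ hb => rw [smul_eq_mul, mul_comm, mul_smul]; exact hb _

variable [Module.Finite 𝒪 X]

theorem isUnit_of_sub {f : Module.End R X} {c : 𝒪} (hc : IsUnit c)
    (h : NilpModM (𝒪 := 𝒪) (f - algebraMap 𝒪 _ c)) : IsUnit f := by
  have hu : IsUnit (redEnd 𝒪 R X f) := by
    have hcu : IsUnit (redEnd 𝒪 R X (algebraMap 𝒪 _ c)) := (hc.map (algebraMap 𝒪 _)).map _
    have hcomm : Commute (redEnd 𝒪 R X (f - algebraMap 𝒪 _ c))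
        (redEnd 𝒪 R X (algebraMap 𝒪 _ c)) := (show Commute (f - algebraMap 𝒪 (Module.End R X) c) (algebraMap 𝒪 (Module.End R X) c) from
          (Algebra.commutes c _).symm).map (redEnd 𝒪 R X)
    have := h.isUnit_add_left_of_commute hcu hcomm
    rwa [← map_add, add_sub_cancel] at this
  have hsurj : Function.Surjective f := by
    have hs := ((Module.End.isUnit_iff _).1 hu).2
    intro y
    suffices hy : (⊤ : Submodule 𝒪 X) ≤ LinearMap.range (f.restrictScalars 𝒪) from hy trivial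
    refine Submodule.le_of_le_smul_of_le_jacobson_bot Module.Finite.fg_top
      (IsLocalRing.maximalIdeal_le_jacobson ⊥) fun x _ => ?_
    obtain ⟨z, hz⟩ := hs (Submodule.Quotient.mk x)
    obtain ⟨z, rfl⟩ := Submodule.Quotient.mk_surjective _ z
    have hxz := (Submodule.Quotient.eq (maximalIdeal 𝒪 • (⊤ : Submodule 𝒪 X))).1 hz
    rw [show x = f z - (f z - x) by abel]
    exact Submodule.sub_mem _ (Submodule.mem_sup_left ⟨z, rfl⟩) (Submodule.mem_sup_right hxz)
  have : Module.Finite R X := Module.Finite.of_restrictScalars_finite 𝒪 R X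
  exact (Module.End.isUnit_iff f).2
    ⟨OrzechProperty.injective_of_surjective_endomorphism f hsurj, hsurj⟩

theorem residue_eq [Nontrivial X] {f : Module.End R X} {c d : 𝒪}
    (hc : NilpModM (𝒪 := 𝒪) (f - algebraMap 𝒪 _ c))
    (hd : NilpModM (𝒪 := 𝒪) (f - algebraMap 𝒪 _ d)) : residue 𝒪 c = residue 𝒪 d := by
  rw [← sub_eq_zero, ← map_sub, residue_eq_zero_iff]
  by_contra hcd
  have hu : IsUnit (c - d) := by
    by_contra h; exact hcd ((mem_maximalIdeal _).2 h)
  have hn : NilpModM (𝒪 := 𝒪) (algebraMap 𝒪 (Module.End R X) (c - d)) := by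
    have hcomm : Commute (f - algebraMap 𝒪 _ d) (-(f - algebraMap 𝒪 (Module.End R X) c)) := by
      exact ((((Commute.refl f).sub_left (Algebra.commutes d f))).sub_right
        ((Algebra.commutes c _).symm)).neg_right
    have h' : NilpModM (𝒪 := 𝒪) (-(f - algebraMap 𝒪 (Module.End R X) c)) := by
      rw [NilpModM, map_neg]; exact hc.neg
    rw [show algebraMap 𝒪 (Module.End R X) (c - d) =
      (f - algebraMap 𝒪 _ d) + -(f - algebraMap 𝒪 _ c) by rw [map_sub]; abel]
    exact hd.add hcomm h'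
  have hz : NilpModM (𝒪 := 𝒪) ((0 : Module.End R X) - algebraMap 𝒪 _ (-(c - d))) := by
    simpa using hn
  obtain ⟨x, hx⟩ := exists_ne (0 : X)
  exact hx (((Module.End.isUnit_iff _).1 (isUnit_of_sub hu.neg hz)).1 rfl)

end NilpModM

section Idem

open Fermat.Agent.TW.Mod

variable {ι : Type} {F : ι → Module.End R X} {lam : ι → ResidueField 𝒪} [IsNoetherianRing 𝒪]
  [IsAdicComplete (maximalIdeal 𝒪) 𝒪] [Module.Finite 𝒪 (Module.End R X)]

/-- What the character kills is nilpotent modulo `𝔪` on the localised part. -/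
theorem exists_pow_idem_mem (hc : ∀ i j, Commute (F i) (F j)) (h : Occurs 𝒪 F lam)
    {a : famAlg 𝒪 F} (ha : h.char a = 0) :
    ∃ j : ℕ, ∀ x, ((a : Module.End R X) ^ j) (h.idem hc x) ∈
      maximalIdeal 𝒪 • (LinearMap.range (h.idem hc)).restrictScalars 𝒪 := by
  have := Algebra.isMulCommutative_adjoin 𝒪 (s := Set.range F)
    (by rintro _ ⟨i, rfl⟩ _ ⟨j, rfl⟩; exact hc i j)
  let _ : CommRing (famAlg 𝒪 F) :=
    { (inferInstance : Ring (famAlg 𝒪 F)) with mul_comm := mul_comm' }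
  have : Module.Finite 𝒪 (famAlg 𝒪 F) :=
    Module.Finite.of_injective (famAlg 𝒪 F).val.toLinearMap Subtype.val_injective
  let e : famAlg 𝒪 F := ⟨h.idem hc, h.idem_mem hc⟩
  set I : Ideal (famAlg 𝒪 F) := (maximalIdeal 𝒪).map (algebraMap 𝒪 _) with hI
  obtain ⟨j, hj⟩ : a * e ∈ I.radical := by
    rw [Ideal.radical_eq_sInf, Submodule.mem_sInf]
    intro P' hP₀
    obtain ⟨P, rfl⟩ : ∃ P : Ideal (famAlg 𝒪 F), P = P' := ⟨P', rfl⟩
    obtain ⟨hIP, hP⟩ := hP₀
    by_contra hae
    have hP' : P.IsPrime := hP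
    have hmax : P.IsMaximal := by
      refine Ideal.isMaximal_of_isIntegral_of_isMaximal_comap (R := 𝒪) P ?_
      have hle : maximalIdeal 𝒪 ≤ P.comap (algebraMap 𝒪 _) := Ideal.map_le_iff_le_comap.1 hIP
      rw [← (maximalIdeal.isMaximal 𝒪).eq_of_le (Ideal.IsPrime.ne_top inferInstance) hle]
      exact maximalIdeal.isMaximal 𝒪
    -- outside `ker char` elements act invertibly on the idempotent
    have hker : P ≤ RingHom.ker h.char.toRingHom := fun b hb => by
      rw [RingHom.mem_ker]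
      by_contra hb0
      obtain ⟨v, hv, hve⟩ := h.exists_inv hc b.2 hb0
      have : e = ⟨v, hv⟩ * b * e := Subtype.ext hve.symm
      exact hae (P.mul_mem_left a (this ▸ P.mul_mem_right _ (P.mul_mem_left _ hb)))
    have := hmax.eq_of_le (RingHom.ker_ne_top _) hker
    exact hae (P.mul_mem_right _ (this ▸ (RingHom.mem_ker (f := h.char.toRingHom)).2 ha))
  refine ⟨j + 1, fun x => ?_⟩
  have hj' : (a * e) ^ (j + 1) ∈ I := by rw [pow_succ]; exact I.mul_mem_right _ hj
  have he : e * e = e := Subtype.ext (h.idem_mul_idem hc)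
  have hpow : (a * e) ^ (j + 1) = e * (a ^ (j + 1) * e) := by
    rw [mul_pow, (IsIdempotentElem.pow_succ_eq j he), mul_left_comm, he]
  have key : ∀ b ∈ I, ∀ y, ((e * b : famAlg 𝒪 F) : Module.End R X) y ∈
      maximalIdeal 𝒪 • (LinearMap.range (h.idem hc)).restrictScalars 𝒪 := by
    intro b hb
    induction hb using Submodule.span_induction with
    | mem b hb =>
      obtain ⟨c, hcm, rfl⟩ := hb
      intro y
      show h.idem hc (c • y) ∈ _
      rw [LinearMap.map_smul_of_tower]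
      exact Submodule.smul_mem_smul hcm ⟨y, rfl⟩
    | zero => intro y; simp
    | add b b' _ _ hb hb' => intro y; rw [mul_add]; exact add_mem (hb y) (hb' y)
    | smul c b _ hb =>
      intro y
      rw [smul_eq_mul, mul_comm c b, ← mul_assoc]
      exact hb ((c : Module.End R X) y)
  have := key _ (hpow ▸ hj') x
  rwa [← mul_assoc e e, he, mul_comm e, mul_assoc, he] at this

end Idem

end Nilp

section Action

open CuspForm

variable {N : ℕ} [NeZero N] {S : Set ℕ} {𝒪 : Type} [CommRing 𝒪] [IsDomain 𝒪]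
  [IsDiscreteValuationRing 𝒪] [IsAdicComplete (maximalIdeal 𝒪) 𝒪]
  {R : Type} [CommRing R] [Algebra 𝒪 R]
  {X : Type} [AddCommGroup X] [Module R X] [Module 𝒪 X] [IsScalarTower 𝒪 R X]
  [Module.Finite 𝒪 X] [Nontrivial X]

/-- A finite module on which `T_ℓ - c_ℓ` is nilpotent mod `𝔪` has an action of the local Hecke
algebra. -/
theorem exists_heckeLocal_action (hSN : ∀ q : ℕ, q.Prime → q ∣ N → q ∈ S)
    (Φ : ↥(heckeAlgebra N 2 S) →+* Module.End R X) (lam : ℕ → ResidueField 𝒪)
    (hnil : ∀ (ℓ : ℕ) (hℓ : ℓ.Prime) (hℓN : ¬ ℓ ∣ N) (hℓS : ℓ ∉ S),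
      ∃ c : 𝒪, residue 𝒪 c = lam ℓ ∧
        NilpModM (𝒪 := 𝒪) (Φ (heckeAlgebra.T hℓ hℓN hℓS) - algebraMap 𝒪 _ c)) :
    ∃ θ : ↥(heckeAlgebra N 2 S) →+* ResidueField 𝒪,
      (∀ (ℓ : ℕ) (hℓ : ℓ.Prime) (hℓN : ¬ ℓ ∣ N) (hℓS : ℓ ∉ S),
        θ (heckeAlgebra.T hℓ hℓN hℓS) = lam ℓ) ∧
      ∃ Ψ : heckeLocal N S 𝒪 θ →ₐ[𝒪] Module.End R X,
        ∀ t, Ψ (heckeLocal.π N S 𝒪 θ t) = Φ t := by
  -- every element is a scalar plus a nilpotent
  have hH : ∀ t : ↥(heckeAlgebra N 2 S), ∃ c : 𝒪,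
      NilpModM (𝒪 := 𝒪) (Φ t - algebraMap 𝒪 _ c) := by
    rintro ⟨t, ht⟩
    induction ht using Algebra.adjoin_induction with
    | mem x hx =>
      rcases hx with ⟨ℓ, hℓ, hℓN, hℓS, rfl⟩ | ⟨q, hqN, hq, hqS, rfl⟩
      · obtain ⟨c, -, hc⟩ := hnil ℓ hℓ hℓN hℓS
        exact ⟨c, hc⟩
      · exact absurd (hSN q hq hqN) hqS
    | algebraMap n =>
      refine ⟨n, ?_⟩
      rw [show (⟨algebraMap ℤ _ n, _⟩ : ↥(heckeAlgebra N 2 S)) =
        (n : ↥(heckeAlgebra N 2 S)) from Subtype.ext (by simp), map_intCast, map_intCast, sub_self]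
      exact NilpModM.zero
    | add x y hx hy ihx ihy =>
      obtain ⟨a, ha⟩ := ihx
      obtain ⟨b, hb⟩ := ihy
      refine ⟨a + b, ?_⟩
      rw [show (⟨x + y, _⟩ : ↥(heckeAlgebra N 2 S)) = ⟨x, hx⟩ + ⟨y, hy⟩ from rfl, map_add,
        map_add, add_sub_add_comm]
      exact ha.add ((((Commute.all (⟨x, hx⟩ : ↥(heckeAlgebra N 2 S)) ⟨y, hy⟩).map Φ).sub_left (Algebra.commutes a _)).sub_right
          (Algebra.commutes b _).symm) hb
    | mul x y hx hy ihx ihy =>
      obtain ⟨a, ha⟩ := ihx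
      obtain ⟨b, hb⟩ := ihy
      refine ⟨a * b, ?_⟩
      rw [show (⟨x * y, _⟩ : ↥(heckeAlgebra N 2 S)) = ⟨x, hx⟩ * ⟨y, hy⟩ from rfl, map_mul,
        map_mul]
      set u := Φ ⟨x, hx⟩
      set v := Φ ⟨y, hy⟩
      have huv : Commute u v := (Commute.all (⟨x, hx⟩ : ↥(heckeAlgebra N 2 S)) ⟨y, hy⟩).map Φ
      have hu : Commute (u - algebraMap 𝒪 (Module.End R X) a) v :=
        huv.sub_left (Algebra.commutes a v)
      rw [show u * v - algebraMap 𝒪 _ a * algebraMap 𝒪 _ b =
        (u - algebraMap 𝒪 _ a) * v + algebraMap 𝒪 _ a * (v - algebraMap 𝒪 _ b) by noncomm_ring]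
      refine (ha.mul_right hu).add ?_ (hb.mul_left (Algebra.commutes a _))
      exact Commute.mul_right (Commute.mul_left (Algebra.commutes a _).symm
          (Algebra.commutes a _).symm)
        (Commute.mul_left (hu.sub_right (Algebra.commutes b _).symm)
          ((Commute.refl v).sub_right (Algebra.commutes b _).symm))
  choose c hc using hH
  have hcomm : ∀ s t, Commute (Φ s) (Φ t) := fun s t => (Commute.all s t).map Φ
  have hcommc : ∀ s t (a b : 𝒪), Commute (Φ s - algebraMap 𝒪 _ a)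
      (Φ t - algebraMap 𝒪 (Module.End R X) b) := fun s t a b =>
    ((hcomm s t).sub_left (Algebra.commutes a _)).sub_right (Algebra.commutes b _).symm
  let θ : ↥(heckeAlgebra N 2 S) →+* ResidueField 𝒪 :=
    { toFun := fun t => residue 𝒪 (c t)
      map_one' := by
        rw [← map_one (residue 𝒪)]
        refine NilpModM.residue_eq (hc 1) ?_
        rw [map_one, map_one, sub_self]; exact NilpModM.zero
      map_zero' := by
        rw [← map_zero (residue 𝒪)]
        refine NilpModM.residue_eq (hc 0) ?_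
        rw [map_zero, map_zero, sub_self]; exact NilpModM.zero
      map_add' := fun s t => by
        rw [← map_add]
        refine NilpModM.residue_eq (hc (s + t)) ?_
        rw [map_add, map_add, add_sub_add_comm]
        exact (hc s).add (hcommc s t _ _) (hc t)
      map_mul' := fun s t => by
        rw [← map_mul]
        refine NilpModM.residue_eq (hc (s * t)) ?_
        have hu : Commute (Φ s - algebraMap 𝒪 (Module.End R X) (c s)) (Φ t) :=
          (hcomm s t).sub_left (Algebra.commutes _ _)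
        rw [map_mul, map_mul, show Φ s * Φ t - algebraMap 𝒪 _ (c s) * algebraMap 𝒪 _ (c t) =
          (Φ s - algebraMap 𝒪 _ (c s)) * Φ t +
            algebraMap 𝒪 _ (c s) * (Φ t - algebraMap 𝒪 _ (c t)) by noncomm_ring]
        refine ((hc s).mul_right hu).add ?_ ((hc t).mul_left (Algebra.commutes _ _))
        exact Commute.mul_right (Commute.mul_left (Algebra.commutes _ _).symm
            (Algebra.commutes _ _).symm)
          (Commute.mul_left (hcommc s t _ _) ((hcomm t t).sub_right (Algebra.commutes _ _).symm)) }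
  refine ⟨θ, fun ℓ hℓ hℓN hℓS => ?_, ?_⟩
  · obtain ⟨d, hd, hd'⟩ := hnil ℓ hℓ hℓN hℓS
    exact (NilpModM.residue_eq (hc _) hd').trans hd
  -- the commutative algebra receiving the localisation
  let B : Subalgebra 𝒪 (Module.End R X) :=
    Subalgebra.centralizer 𝒪 (Subalgebra.centralizer 𝒪 (Set.range Φ) : Set (Module.End R X))
  have hrange : ∀ t, Φ t ∈ B := fun t => Subalgebra.mem_centralizer_iff 𝒪 |>.2 fun g hg =>
    ((Subalgebra.mem_centralizer_iff 𝒪).1 hg _ ⟨t, rfl⟩).symm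
  have hB : ∀ a ∈ B, ∀ b ∈ B, a * b = b * a := fun a ha b hb => by
    have hsub : (B : Set (Module.End R X)) ⊆ Subalgebra.centralizer 𝒪 (Set.range Φ) := by
      intro z hz
      refine (Subalgebra.mem_centralizer_iff 𝒪).2 ?_
      rintro _ ⟨t, rfl⟩
      exact (Subalgebra.mem_centralizer_iff 𝒪).1 hz _ ((Subalgebra.mem_centralizer_iff 𝒪).2 (by
        rintro _ ⟨s, rfl⟩; exact hcomm s t))
    exact ((Subalgebra.mem_centralizer_iff 𝒪).1 hb a (hsub ha))
  let _ : CommRing B :=
    { (inferInstance : Ring B) with mul_comm := fun a b => Subtype.ext (hB _ a.2 _ b.2) }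
  let Φ' : ↥(heckeAlgebra N 2 S) →+* B := Φ.codRestrict B hrange
  let φ : 𝒪 ⊗[ℤ] ↥(heckeAlgebra N 2 S) →+* B :=
    (Algebra.TensorProduct.productMap (algebraMap 𝒪 B).toIntAlgHom Φ'.toIntAlgHom).toRingHom
  have hφt : ∀ a t, (φ (a ⊗ₜ t) : Module.End R X) = algebraMap 𝒪 _ a * Φ t := fun _ _ => rfl
  have hφ : ∀ x, ∃ d : 𝒪, residue 𝒪 d = residualCharacter N S 𝒪 θ x ∧
      NilpModM (𝒪 := 𝒪) ((φ x : Module.End R X) - algebraMap 𝒪 _ d) := by
    intro x
    induction x using TensorProduct.induction_on with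
    | zero =>
      exact ⟨0, by rw [map_zero, map_zero], by
        rw [map_zero, map_zero, ZeroMemClass.coe_zero, sub_self]; exact NilpModM.zero⟩
    | tmul a t =>
      refine ⟨a * c t, by rw [residualCharacter_tmul, map_mul]; rfl, ?_⟩
      rw [hφt, map_mul, ← mul_sub]
      exact (hc t).mul_left (Algebra.commutes a _)
    | add x y hx hy =>
      obtain ⟨a, ha, ha'⟩ := hx
      obtain ⟨b, hb, hb'⟩ := hy
      refine ⟨a + b, by rw [map_add, map_add, ha, hb], ?_⟩
      rw [map_add, map_add, Subalgebra.coe_add, add_sub_add_comm]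
      exact ha'.add (((show Commute (φ x : Module.End R X) (φ y : Module.End R X) from
        hB _ (φ x).2 _ (φ y).2).sub_left
        (Algebra.commutes a _)).sub_right (Algebra.commutes b _).symm) hb'
  have hint : CuspForm.HasIntegralStructure N 2 := MF.IntStruct.hasIntegralStructure N 2
  let e : (𝒪 ⊗[ℤ] ↥(heckeAlgebra N 2 S)) ≃+* heckeBaseAlgebra N S 𝒪 :=
    RingEquiv.ofBijective (latticeBaseChange N S 𝒪)
      ⟨latticeBaseChange_injective N S 𝒪 hint, latticeBaseChange_surjective N S 𝒪⟩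
  have hunits : ∀ y : heckeLocalSubmonoid N S 𝒪 θ,
      IsUnit ((φ.comp e.symm.toRingHom) (y : heckeBaseAlgebra N S 𝒪)) := by
    rintro ⟨_, x, hx, rfl⟩
    show IsUnit (φ (e.symm (e x)))
    rw [e.symm_apply_apply]
    obtain ⟨d, hd, hd'⟩ := hφ x
    have hd0 : IsUnit d := by
      refine notMem_maximalIdeal.1 fun hm => hx ?_
      rw [SetLike.mem_coe, mem_heckeCharKernel_iff, ← hd, residue_eq_zero_iff]
      exact hm
    obtain ⟨w, hw⟩ := NilpModM.isUnit_of_sub hd0 hd'
    have hwB : (↑w⁻¹ : Module.End R X) ∈ B := (Subalgebra.mem_centralizer_iff 𝒪).2 fun g hg => by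
      have hgw : Commute g (w : Module.End R X) := by
        rw [hw]; exact (Subalgebra.mem_centralizer_iff 𝒪).1 (φ x).2 g hg
      exact hgw.units_inv_right.eq
    refine ⟨⟨φ x, ⟨_, hwB⟩, Subtype.ext ?_, Subtype.ext ?_⟩, rfl⟩
    · show (φ x : Module.End R X) * ↑w⁻¹ = 1
      rw [← hw]; exact w.mul_inv
    · show ↑w⁻¹ * (φ x : Module.End R X) = 1
      rw [← hw]; exact w.inv_mul
  let ψ : heckeLocal N S 𝒪 θ →+* B :=
    IsLocalization.lift (M := heckeLocalSubmonoid N S 𝒪 θ) hunits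
  have hψ : ∀ x, ψ (algebraMap _ _ (latticeBaseChange N S 𝒪 x)) = φ x := fun x => by
    rw [IsLocalization.lift_eq hunits]
    exact congrArg φ (e.symm_apply_apply x)
  refine ⟨{ (B.val : B →+* Module.End R X).comp ψ with commutes' := fun a => ?_ }, fun t => ?_⟩
  · show (ψ (algebraMap 𝒪 (heckeLocal N S 𝒪 θ) a) : Module.End R X) = _
    rw [IsScalarTower.algebraMap_apply 𝒪 (heckeBaseAlgebra N S 𝒪) (heckeLocal N S 𝒪 θ),
      ← latticeBaseChange_algebraMap, hψ, Algebra.TensorProduct.algebraMap_apply,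
      Algebra.algebraMap_self, RingHom.id_apply, hφt, map_one, mul_one]
  · show (ψ (heckeLocal.π N S 𝒪 θ t) : Module.End R X) = Φ t
    rw [show ψ (heckeLocal.π N S 𝒪 θ t) = φ (1 ⊗ₜ t) from hψ _, hφt, map_one, one_mul]

end Action

end Fermat.Agent.R59
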