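import Fermat.Agent.R59.Final
import Fermat.Agent.MF.IntStruct.Main
import Fermat.Agent.ECTorsion.Galois
import Fermat.Agent.ECLocal.Main
import Fermat.Prelude.Def_WeierstrassCurve_ConductorLevel

/-!
# Assembly of S59 from level lowering, the `R = T` core and S58

`stmt59_of` proves the type of S59 from:
* `StmtLower`: residual modularity at a cube-free level gives it at a squarefree one, without
  introducing `p`;
* the types of S38 (remove an unramified `q ≠ p`), S58, and the case of S40 needed (remove `p` at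
  good reduction; for `p = 3` with an auxiliary prime `q ≡ 2 (mod 3)` in the level);
* `StmtCore`: for each admissible kind of local condition, the deformation ring of the full
  problem is generated by the Hecke algebra and the curve gives a point.
-/

set_option autoImplicit false

noncomputable section

open IsLocalRing WeierstrassCurve
open scoped WeierstrassCurve.Affine

namespace Fermat.Agent.R59

/-- Level lowering from cube-free to squarefree levels. -/
def StmtLower : Prop :=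
  ∀ (p : ℕ), p = 3 ∨ p = 5 → ∀ (W : WeierstrassCurve ℤ), W.Δ ≠ 0 → W.IsSemistableModel →
    W.ModRepIsIrreducible p → ∀ M₀ : ℕ, 0 < M₀ → W.IsResiduallyModularOfLevel p M₀ →
      ¬ p ^ 2 ∣ M₀ → (∀ q : ℕ, q.Prime → q ≠ p → ¬ q ^ 3 ∣ M₀) →
      ∃ M : ℕ, (p ∣ M → p ∣ M₀) ∧ Squarefree M ∧ W.IsResiduallyModularOfLevel p M

/-- The type of S38. -/
def Stmt38 : Prop :=
  ∀ (p : ℕ) [Fact p.Prime], p ≠ 2 → ∀ (W : WeierstrassCurve ℤ), W.Δ ≠ 0 → W.IsSemistableModel →
    ∀ (hcard : Nat.card (Submodule.torsionBy ℤ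
      ((W.map (Int.castRingHom ℚ))⁄(AlgebraicClosure ℚ)).Point p) = p ^ 2)
    (hker : GaloisFactorsThroughFiniteLevel
      (WeierstrassCurve.Affine.Point.galoisRepModuleEnd (K := AlgebraicClosure ℚ) ℚ
        (W.map (Int.castRingHom ℚ)) p)),
    W.ModRepIsIrreducible p → ∀ (M q : ℕ), q.Prime → q ≠ p → q ∣ M → ¬ q ^ 2 ∣ M → Squarefree M →
      ((W.map (Int.castRingHom ℚ)).residualGaloisRepOf p hcard hker).IsUnramifiedAt q →
      W.IsResiduallyModularOfLevel p M → W.IsResiduallyModularOfLevel p (M / q)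

/-- The type of S40, with an auxiliary prime in the level for `p = 3`. -/
def Stmt40 : Prop :=
  ∀ (W : WeierstrassCurve ℤ), W.Δ ≠ 0 → ∀ {p : ℕ}, p.Prime → p ≠ 2 → W.IsGoodPrimeFor p →
    W.ModRepIsIrreducible p → ∀ {M : ℕ}, 0 < M → p ∣ M → ¬ p ^ 2 ∣ M →
    (p = 3 → ∃ q : ℕ, q.Prime ∧ q ∣ M ∧ q % 3 = 2) →
      W.IsResiduallyModularOfLevel p M → W.IsResiduallyModularOfLevel p (M / p)

/-- The type of S58. -/
def Stmt58 : Prop :=
  ∀ (W : WeierstrassCurve ℤ), W.IsSemistableModel → ∀ (N p : ℕ) [Fact p.Prime], p ≠ 2 →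
    W.ModRepIsIrreducible p → ¬ p ^ 2 ∣ N → W.IsModularModelOfLevel N →
    (∀ ℓ : ℕ, ℓ.Prime → (ℓ : ℤ) ∣ W.Δ → ℓ ∣ N) → (∀ q : ℕ, q.Prime → ¬ q ^ 3 ∣ N) →
    W.IsModularModelOfLevel W.conductorLevel

/-- When each kind of local condition is used, together with what is known about the level. -/
def Admissible (W : WeierstrassCurve ℤ) (p : ℕ) : Kind → Prop
  | .flat => ¬ (p : ℤ) ∣ W.Δ ∧ W.IsResiduallyModularOfLevel p (minLevel W p)
  | .ord => (p : ℤ) ∣ W.Δ ∧ W.IsResiduallyModularOfLevel p (minLevel W p)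
  | .strict => (p : ℤ) ∣ W.Δ ∧ W.IsResiduallyModularOfLevel p (minLevel W p * p) ∧
      ∀ M : ℕ, 0 < M → ¬ p ∣ M → (∀ q : ℕ, q.Prime → ¬ q ^ 3 ∣ M) →
        ¬ W.IsResiduallyModularOfLevel p M

/-- The curve gives a point of a deformation ring generated by the Hecke algebra. -/
def HasLiftingData (W : WeierstrassCurve ℤ) (p : ℕ) (k : Kind) : Prop :=
  ∃ (_ : NeZero (fullLevel W p k)) (𝒪 : Type) (_ : CommRing 𝒪) (_ : IsDomain 𝒪)
    (_ : IsDiscreteValuationRing 𝒪) (_ : IsAdicComplete (maximalIdeal 𝒪) 𝒪) (_ : CharZero 𝒪)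
    (ρbar : ResidualGaloisRep (ResidueField 𝒪))
    (D : GaloisRep.DeformationRingData 𝒪 ρbar (cond k 𝒪 p (fullSet W p) (minSet W p)))
    (ρ : GaloisRepAdic 𝒪),
      IsCurveLift W p ρbar ρ ∧ cond k 𝒪 p (fullSet W p) (minSet W p) ρ ∧
      IsHeckeGenerated D (fullLevel W p k) (↑(fullSet W p) : Set ℕ)

/-- The `R = T` core. -/
def StmtCore : Prop :=
  ∀ (p : ℕ), p = 3 ∨ p = 5 → ∀ (W : WeierstrassCurve ℤ), W.Δ ≠ 0 → W.IsSemistableModel →
    W.ModRepIsIrreducible p → ∀ k : Kind, Admissible W p k → HasLiftingData W p k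

section Levels

variable (W : WeierstrassCurve ℤ) (p : ℕ)

theorem mem_ramPrimes {q : ℕ} (hΔ : W.Δ ≠ 0) :
    q ∈ ramPrimes W p ↔ q.Prime ∧ (q : ℤ) ∣ W.Δ ∧ q ≠ p ∧ ¬ ModUnramified W p q := by
  classical
  simp only [ramPrimes, Finset.mem_filter, Nat.mem_primeFactors, Int.natAbs_ne_zero.mpr hΔ,
    Int.natCast_dvd, ne_eq, not_false_eq_true, and_true, and_assoc]

theorem mem_raisePrimes {q : ℕ} (hΔ : W.Δ ≠ 0) :
    q ∈ raisePrimes W p ↔ q.Prime ∧ (q : ℤ) ∣ W.Δ ∧ q ≠ p ∧ ModUnramified W p q := by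
  classical
  simp only [raisePrimes, Finset.mem_filter, Nat.mem_primeFactors, Int.natAbs_ne_zero.mpr hΔ,
    Int.natCast_dvd, ne_eq, not_false_eq_true, and_true, and_assoc]

theorem prime_of_mem_ramPrimes {q : ℕ} (h : q ∈ ramPrimes W p) : q.Prime := by
  classical
  exact Nat.prime_of_mem_primeFactors (Finset.mem_filter.mp h).1

theorem prime_of_mem_raisePrimes {q : ℕ} (h : q ∈ raisePrimes W p) : q.Prime := by
  classical
  exact Nat.prime_of_mem_primeFactors (Finset.mem_filter.mp h).1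

/-- A product of distinct primes has factorization the indicator of the set. -/
theorem factorization_prod_primes {s : Finset ℕ} (hs : ∀ x ∈ s, x.Prime) (q : ℕ) :
    (∏ x ∈ s, x).factorization q = if q ∈ s then 1 else 0 := by
  classical
  rw [Nat.factorization_prod fun x hx => (hs x hx).ne_zero, Finset.sum_apply']
  rw [Finset.sum_congr rfl fun x hx => by rw [(hs x hx).factorization, Finsupp.single_apply]]
  simp

theorem minLevel_ne_zero : minLevel W p ≠ 0 :=
  Finset.prod_ne_zero_iff.mpr fun _ hx => (prime_of_mem_ramPrimes W p hx).ne_zero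

theorem dvd_minLevel_iff {q : ℕ} (hq : q.Prime) : q ∣ minLevel W p ↔ q ∈ ramPrimes W p := by
  refine ⟨fun h => ?_, Finset.dvd_prod_of_mem _⟩
  obtain ⟨x, hx, hqx⟩ := (hq.prime.dvd_finset_prod_iff _).mp h
  rwa [(Nat.prime_dvd_prime_iff_eq hq (prime_of_mem_ramPrimes W p hx)).mp hqx]

theorem fullLevel_ne_zero (hp : p.Prime) (k : Kind) : fullLevel W p k ≠ 0 :=
  mul_ne_zero (mul_ne_zero (minLevel_ne_zero W p) (pow_ne_zero _
    (Finset.prod_ne_zero_iff.mpr fun _ hx => (prime_of_mem_raisePrimes W p hx).ne_zero)))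
    (pow_ne_zero _ hp.ne_zero)

theorem dvd_fullLevel_iff (hp : p.Prime) (k : Kind) {q : ℕ} (hq : q.Prime) :
    q ∣ fullLevel W p k ↔ q ∈ ramPrimes W p ∪ raisePrimes W p ∨ (q = p ∧ k ≠ .flat) := by
  have hr : q ∣ ∏ x ∈ raisePrimes W p, x ↔ q ∈ raisePrimes W p := by
    refine ⟨fun h => ?_, Finset.dvd_prod_of_mem _⟩
    obtain ⟨x, hx, hqx⟩ := (hq.prime.dvd_finset_prod_iff _).mp h
    rwa [(Nat.prime_dvd_prime_iff_eq hq (prime_of_mem_raisePrimes W p hx)).mp hqx]
  rw [fullLevel, hq.dvd_mul, hq.dvd_mul, dvd_minLevel_iff W p hq, sq, hq.dvd_mul, hr,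
    Finset.mem_union]
  cases k <;> simp [Kind.pExp, Nat.prime_dvd_prime_iff_eq hq hp, hq.ne_one]

theorem factorization_fullLevel_le (hΔ : W.Δ ≠ 0) (hp : p.Prime) (k : Kind) (q : ℕ) :
    (fullLevel W p k).factorization q ≤ if q = p then 1 else 2 := by
  classical
  have hs : ∀ {x : ℕ}, x ∈ raisePrimes W p → x.Prime := fun h => prime_of_mem_raisePrimes W p h
  rw [fullLevel, Nat.factorization_mul, Nat.factorization_mul, Nat.factorization_pow,
    Nat.factorization_pow, hp.factorization]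
  rotate_left
  · exact minLevel_ne_zero W p
  · exact pow_ne_zero _ (Finset.prod_ne_zero_iff.mpr fun _ hx => (hs hx).ne_zero)
  · exact mul_ne_zero (minLevel_ne_zero W p)
      (pow_ne_zero _ (Finset.prod_ne_zero_iff.mpr fun _ hx => (hs hx).ne_zero))
  · exact pow_ne_zero _ hp.ne_zero
  simp only [Finsupp.add_apply, Finsupp.smul_apply, smul_eq_mul, minLevel,
    factorization_prod_primes (fun _ => prime_of_mem_ramPrimes W p),
    factorization_prod_primes (fun _ => hs), Finsupp.single_apply]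
  have hk : k.pExp ≤ 1 := by cases k <;> simp [Kind.pExp]
  by_cases h : q = p
  · subst h
    simp [mem_ramPrimes W q hΔ, mem_raisePrimes W q hΔ, hk]
  · have hne : ¬ p = q := fun e => h e.symm
    simp only [if_neg h, if_neg hne, mul_zero, add_zero]
    have : q ∈ ramPrimes W p → q ∉ raisePrimes W p := fun h1 h2 =>
      ((mem_ramPrimes W p hΔ).mp h1).2.2.2 ((mem_raisePrimes W p hΔ).mp h2).2.2.2
    split_ifs with h1 h2 <;> simp_all

theorem not_pow_dvd_of_factorization_lt {n q e : ℕ} (hn : n ≠ 0) (hq : q.Prime)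
    (h : n.factorization q < e) : ¬ q ^ e ∣ n := fun hd =>
  absurd ((hq.pow_dvd_iff_le_factorization hn).mp hd) (by omega)

end Levels

/-- Residual modularity passes to multiples of the level. -/
theorem isResiduallyModularOfLevel_of_dvd {W : WeierstrassCurve ℤ} {p M M' : ℕ} [NeZero M']
    (hMM' : M ∣ M') (h : W.IsResiduallyModularOfLevel p M) :
    W.IsResiduallyModularOfLevel p M' := by
  obtain ⟨f, 𝔪, hf, h𝔪, hp𝔪, hc⟩ := h
  obtain ⟨g, hg, hgf⟩ := Fermat.Agent.Newforms.exists_eigenform_of_dvd hMM' hf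
  refine ⟨g, 𝔪, hg, h𝔪, hp𝔪, fun ℓ hℓ hgood hℓM hℓp => ?_⟩
  obtain ⟨a, ha, hca⟩ := hc ℓ hℓ hgood (fun d => hℓM (d.trans hMM')) hℓp
  exact ⟨a, ha.trans (hgf ℓ hℓ hℓM).symm, hca⟩

theorem modUnramified_of_good (W : WeierstrassCurve ℤ) {p q : ℕ} (hp : p.Prime) (hq : q.Prime)
    (hqp : q ≠ p) (hgood : ¬ (q : ℤ) ∣ W.Δ) : ModUnramified W p q := fun A hA σ hσ =>
  LinearMap.ext fun x => Fermat.Agent.ECLocal.galoisRepUnramifiedAt_of_good W hq hgood
    (fun h => hqp ((Nat.prime_dvd_prime_iff_eq hq hp).mp h)) A hA σ hσ x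

/-- Squarefree levels reduce to levels whose primes other than `p` ramify in `E[p]`. -/
theorem exists_level_ramified (h38 : Stmt38) {p : ℕ} [Fact p.Prime] (hp2 : p ≠ 2)
    {W : WeierstrassCurve ℤ} (hΔ : W.Δ ≠ 0) (hW : W.IsSemistableModel)
    (hirr : W.ModRepIsIrreducible p) :
    ∀ M : ℕ, Squarefree M → W.IsResiduallyModularOfLevel p M →
      ∃ M' : ℕ, M' ∣ M ∧ Squarefree M' ∧ W.IsResiduallyModularOfLevel p M' ∧
        ∀ q : ℕ, q.Prime → q ∣ M' → q ≠ p → q ∈ ramPrimes W p := by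
  have hp : p.Prime := Fact.out
  intro M
  induction M using Nat.strong_induction_on with
  | _ M ih =>
    intro hsf hres
    by_cases h : ∃ q : ℕ, q.Prime ∧ q ∣ M ∧ q ≠ p ∧ q ∉ ramPrimes W p
    · obtain ⟨q, hq, hqM, hqp, hnot⟩ := h
      have hur : ModUnramified W p q := by
        by_cases hbad : (q : ℤ) ∣ W.Δ
        · by_contra hr
          exact hnot ((mem_ramPrimes W p hΔ).mpr ⟨hq, hbad, hqp, hr⟩)
        · exact modUnramified_of_good W hp hq hqp hbad
      have hq2 : ¬ q ^ 2 ∣ M := fun hd =>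
        Nat.squarefree_iff_prime_squarefree.mp hsf q hq (by rwa [← pow_two])
      have hstep := h38 p hp2 W hΔ hW
        (Fermat.Agent.ECTorsion.natCard_torsionBy_qbar_of_int W hΔ hp.ne_zero)
        (Fermat.Agent.ECTorsion.galoisFactorsThroughFiniteLevel_galoisRepModuleEnd _
          (Fermat.Agent.ECTorsion.map_castRingHom_Δ_ne_zero W hΔ) hp.ne_zero)
        hirr M q hq hqp hqM hq2 hsf hur hres
      have hdiv : M / q ∣ M := Nat.div_dvd_of_dvd hqM
      obtain ⟨M', hM', hrest⟩ := ih (M / q)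
        (Nat.div_lt_self (Nat.pos_of_ne_zero hsf.ne_zero) hq.one_lt)
        (hsf.squarefree_of_dvd hdiv) hstep
      exact ⟨M', hM'.trans hdiv, hrest⟩
    · push Not at h
      exact ⟨M, dvd_rfl, hsf, hres, h⟩

theorem dvd_of_squarefree {a b : ℕ} (ha : Squarefree a) (hb : b ≠ 0)
    (h : ∀ q : ℕ, q.Prime → q ∣ a → q ∣ b) : a ∣ b := by
  rw [← Nat.factorization_le_iff_dvd ha.ne_zero hb]
  intro q
  by_cases hq : q.Prime ∧ q ∣ a
  · exact le_trans (Squarefree.natFactorization_le_one q ha)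
      ((hq.1.dvd_iff_one_le_factorization hb).mp (h q hq.1 hq.2))
  · rw [Nat.factorization_eq_zero_iff a q |>.mpr (by tauto)]
    exact Nat.zero_le _

/-- Some kind of local condition is admissible. -/
theorem exists_admissible (hLS : StmtLower) (h38 : Stmt38) (h40 : Stmt40) {p : ℕ}
    (hp35 : p = 3 ∨ p = 5) {W : WeierstrassCurve ℤ} (hΔ : W.Δ ≠ 0) (hW : W.IsSemistableModel)
    (hirr : W.ModRepIsIrreducible p) {M₀ : ℕ} [NeZero M₀]
    (hres₀ : W.IsResiduallyModularOfLevel p M₀) (hM₀ : ¬ p ^ 2 ∣ M₀)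
    (hM₀3 : ∀ q : ℕ, q.Prime → q ≠ p → ¬ q ^ 3 ∣ M₀) :
    ∃ k : Kind, Admissible W p k := by
  have hp : p.Prime := by rcases hp35 with rfl | rfl <;> decide
  have : Fact p.Prime := ⟨hp⟩
  have hp2 : p ≠ 2 := by omega
  have : NeZero (minLevel W p) := ⟨minLevel_ne_zero W p⟩
  by_cases hfree : ∃ M : ℕ, 0 < M ∧ ¬ p ∣ M ∧ (∀ q : ℕ, q.Prime → ¬ q ^ 3 ∣ M) ∧
      W.IsResiduallyModularOfLevel p M
  · obtain ⟨M, hM0, hpM, hM3, hres⟩ := hfree
    obtain ⟨M1, hd1, hsf, hres1⟩ := hLS p hp35 W hΔ hW hirr M hM0 hres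
      (fun h => hpM ((dvd_pow_self p two_ne_zero).trans h)) (fun q hq _ => hM3 q hq)
    obtain ⟨M2, hd2, hsf2, hres2, hram⟩ := exists_level_ramified h38 hp2 hΔ hW hirr M1 hsf hres1
    have hdvd : M2 ∣ minLevel W p := dvd_of_squarefree hsf2 (minLevel_ne_zero W p) fun q hq hd =>
      (dvd_minLevel_iff W p hq).mpr
        (hram q hq hd fun e => hpM (hd1 (e ▸ hd.trans hd2)))
    have hmin := isResiduallyModularOfLevel_of_dvd hdvd hres2
    by_cases hbad : (p : ℤ) ∣ W.Δ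
    · exact ⟨.ord, hbad, hmin⟩
    · exact ⟨.flat, hbad, hmin⟩
  · push Not at hfree
    obtain ⟨M1, -, hsf, hres1⟩ := hLS p hp35 W hΔ hW hirr M₀ (NeZero.pos M₀) hres₀ hM₀ hM₀3
    obtain ⟨M2, -, hsf2, hres2, hram⟩ := exists_level_ramified h38 hp2 hΔ hW hirr M1 hsf hres1
    have hnocube : ∀ n : ℕ, Squarefree n → ∀ q : ℕ, q.Prime → ¬ q ^ 3 ∣ n := fun n hn q hq hd =>
      Nat.squarefree_iff_prime_squarefree.mp hn q hq (dvd_trans ⟨q, by ring⟩ hd)
    have hbad : (p : ℤ) ∣ W.Δ := by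
      by_contra hgood
      by_cases hpM : p ∣ M2
      · obtain ⟨q, hqgt, hq, hq3⟩ := Nat.forall_exists_prime_gt_and_modEq
          (max (max M2 p) W.Δ.natAbs) (q := 3) (a := 2) (by norm_num) (by norm_num)
        simp only [max_lt_iff] at hqgt
        have hqp : q ≠ p := hqgt.1.2.ne'
        have hqM : ¬ q ∣ M2 := fun h => absurd
          (Nat.le_of_dvd (Nat.pos_of_ne_zero hsf2.ne_zero) h) (by omega)
        have hqΔ : ¬ (q : ℤ) ∣ W.Δ := fun h => absurd (Nat.le_of_dvd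
          (Int.natAbs_pos.mpr hΔ) (Int.natCast_dvd.mp h)) (by omega)
        have hMq0 : M2 * q ≠ 0 := mul_ne_zero hsf2.ne_zero hq.ne_zero
        have : NeZero (M2 * q) := ⟨hMq0⟩
        have hsfq : Squarefree (M2 * q) :=
          (Nat.squarefree_mul ((hq.coprime_iff_not_dvd.mpr hqM).symm)).mpr ⟨hsf2, hq.squarefree⟩
        have hp2M : ¬ p ^ 2 ∣ M2 * q := fun hd =>
          Nat.squarefree_iff_prime_squarefree.mp hsfq p hp (by rwa [← pow_two])
        have h1 := h40 W hΔ hp hp2 hgood hirr (Nat.pos_of_ne_zero hMq0)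
          (hpM.mul_right q) hp2M (fun _ => ⟨q, hq, dvd_mul_left q M2, hq3⟩)
          (isResiduallyModularOfLevel_of_dvd (dvd_mul_right M2 q) hres2)
        rw [Nat.mul_div_right_comm hpM] at h1
        have hq2 : ¬ q ^ 2 ∣ M2 / p * q := fun hd => hqM (dvd_trans
          ((Nat.mul_dvd_mul_iff_right hq.pos).mp (by rwa [pow_two] at hd))
          (Nat.div_dvd_of_dvd hpM))
        have h2 := h38 p hp2 W hΔ hW
          (Fermat.Agent.ECTorsion.natCard_torsionBy_qbar_of_int W hΔ hp.ne_zero)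
          (Fermat.Agent.ECTorsion.galoisFactorsThroughFiniteLevel_galoisRepModuleEnd _
            (Fermat.Agent.ECTorsion.map_castRingHom_Δ_ne_zero W hΔ) hp.ne_zero)
          hirr (M2 / p * q) q hq hqp (dvd_mul_left q _) hq2
          (hsfq.squarefree_of_dvd (mul_dvd_mul_right (Nat.div_dvd_of_dvd hpM) q))
          (modUnramified_of_good W hp hq hqp hqΔ) h1
        rw [Nat.mul_div_cancel _ hq.pos] at h2
        refine hfree (M2 / p) (Nat.div_pos (Nat.le_of_dvd
          (Nat.pos_of_ne_zero hsf2.ne_zero) hpM) hp.pos) ?_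
          (hnocube _ (hsf2.squarefree_of_dvd (Nat.div_dvd_of_dvd hpM))) h2
        intro hd
        exact Nat.squarefree_iff_prime_squarefree.mp hsf2 p hp
          (Nat.mul_dvd_of_dvd_div hpM hd)
      · exact hfree M2 (Nat.pos_of_ne_zero hsf2.ne_zero) hpM (hnocube _ hsf2) hres2
    have : NeZero (minLevel W p * p) := ⟨mul_ne_zero (minLevel_ne_zero W p) hp.ne_zero⟩
    refine ⟨.strict, hbad, isResiduallyModularOfLevel_of_dvd ?_ hres2, hfree⟩
    refine dvd_of_squarefree hsf2 (NeZero.ne _) fun q hq hd => ?_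
    by_cases hqp : q = p
    · subst hqp; exact dvd_mul_left q _
    · exact dvd_mul_of_dvd_left ((dvd_minLevel_iff W p hq).mpr (hram q hq hd hqp)) p

/-- Lifting data give modularity of a cube-free level divisible by the bad primes. -/
theorem exists_modular_of_liftingData {p : ℕ} (hp : p.Prime) {W : WeierstrassCurve ℤ}
    (hΔ : W.Δ ≠ 0) {k : Kind} (hbad : k = .flat → ¬ (p : ℤ) ∣ W.Δ)
    (h : HasLiftingData W p k) :
    ∃ N : ℕ, W.IsModularModelOfLevel N ∧ ¬ p ^ 2 ∣ N ∧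
      (∀ ℓ : ℕ, ℓ.Prime → (ℓ : ℤ) ∣ W.Δ → ℓ ∣ N) ∧ ∀ q : ℕ, q.Prime → ¬ q ^ 3 ∣ N := by
  classical
  obtain ⟨_, 𝒪, _, _, _, _, _, ρbar, D, ρ, hρ, h𝒟, hD⟩ := h
  have hpfull : p ∈ fullSet W p := Finset.mem_insert_self _ _
  have hbadmem : ∀ ℓ : ℕ, ℓ.Prime → (ℓ : ℤ) ∣ W.Δ → ℓ ≠ p →
      ℓ ∈ ramPrimes W p ∪ raisePrimes W p := fun ℓ hℓ hd hne => by
    rw [Finset.mem_union, mem_ramPrimes W p hΔ, mem_raisePrimes W p hΔ]
    tauto
  obtain ⟨χ, hχ⟩ := exists_heckeChar_of_isHeckeGenerated D (fullLevel W p k) _ hD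
    (fun q hq hd => by
      rcases (dvd_fullLevel_iff W p hp k hq).mp hd with h | ⟨rfl, -⟩
      · exact Finset.mem_coe.mpr (Finset.mem_insert_of_mem h)
      · exact Finset.mem_coe.mpr hpfull)
    W p (Finset.mem_coe.mpr hpfull)
    (fun ℓ hℓ hd => by
      by_cases hne : ℓ = p
      · subst hne; exact Finset.mem_coe.mpr hpfull
      · exact Finset.mem_coe.mpr (Finset.mem_insert_of_mem (hbadmem ℓ hℓ hd hne)))
    ρ hρ h𝒟
  -- the target level: force `p` into it
  set N := Nat.lcm (fullLevel W p k) p with hN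
  have hN0 : N ≠ 0 := Nat.lcm_ne_zero (fullLevel_ne_zero W p hp k) hp.ne_zero
  have : NeZero N := ⟨hN0⟩
  have hfac : ∀ q, N.factorization q ≤ if q = p then 1 else 2 := fun q => by
    rw [hN, Nat.factorization_lcm (fullLevel_ne_zero W p hp k) hp.ne_zero, Finsupp.sup_apply,
      hp.factorization, Finsupp.single_apply]
    refine max_le (factorization_fullLevel_le W p hΔ hp k q) ?_
    by_cases h : q = p
    · subst h; simp
    · rw [if_neg fun e : p = q => h e.symm]; exact Nat.zero_le _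
  refine ⟨N, isModularModelOfLevel_of_heckeChar _ _
      (Fermat.Agent.MF.IntStruct.hasIntegralStructure _ 2) W χ hχ N (Nat.dvd_lcm_left _ _) ?_,
    ?_, ?_, ?_⟩
  · intro ℓ hℓ hmem
    rcases Finset.mem_insert.mp (Finset.mem_coe.mp hmem) with rfl | hmem
    · exact Nat.dvd_lcm_right _ _
    · exact ((dvd_fullLevel_iff W p hp k hℓ).mpr (Or.inl hmem)).trans (Nat.dvd_lcm_left _ _)
  · exact not_pow_dvd_of_factorization_lt hN0 hp
      (lt_of_le_of_lt (hfac p) (by simp))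
  · intro ℓ hℓ hd
    by_cases hne : ℓ = p
    · subst hne; exact Nat.dvd_lcm_right _ _
    · exact ((dvd_fullLevel_iff W p hp k hℓ).mpr (Or.inl (hbadmem ℓ hℓ hd hne))).trans
        (Nat.dvd_lcm_left _ _)
  · intro q hq
    exact not_pow_dvd_of_factorization_lt hN0 hq
      (lt_of_le_of_lt (hfac q) (by split_ifs <;> norm_num))

/-- S59 from its inputs. -/
theorem stmt59_of (hLS : StmtLower) (h38 : Stmt38) (h40 : Stmt40) (h58 : Stmt58)
    (hcore : StmtCore) (p : ℕ) (hp35 : p = 3 ∨ p = 5)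
    (W : WeierstrassCurve ℤ) (hΔ : W.Δ ≠ 0) (hW : W.IsSemistableModel)
    (hirr : W.ModRepIsIrreducible p) (M₀ : ℕ) [NeZero M₀]
    (hres₀ : W.IsResiduallyModularOfLevel p M₀) (hM₀ : ¬ p ^ 2 ∣ M₀)
    (hM₀3 : ∀ q : ℕ, q.Prime → q ≠ p → ¬ q ^ 3 ∣ M₀) :
    Mlc1IsModularModelOfExactConductorLevel W := by
  have hp : p.Prime := by rcases hp35 with rfl | rfl <;> decide
  have : Fact p.Prime := ⟨hp⟩
  obtain ⟨k, hk⟩ := exists_admissible hLS h38 h40 hp35 hΔ hW hirr hres₀ hM₀ hM₀3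
  obtain ⟨N, hN, hp2N, hbadN, hN3⟩ := exists_modular_of_liftingData hp hΔ
    (fun e => by subst e; exact hk.1) (hcore p hp35 W hΔ hW hirr k hk)
  exact ⟨W.conductorLevel, W.conductorLevel_pos, W.squarefree_conductorLevel,
    fun q hq => W.prime_dvd_conductorLevel_iff hΔ hq,
    h58 W hW N p (by omega) hirr hp2N hN hbadN hN3⟩

end Fermat.Agent.R59
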