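/-
Level raising for the Fricke twisted pairing (owner: helper91).

* `raiseTwoH`, `raiseOneH`: the maps of `CongMod.Raise` on `H(R)`;
* `twistedPairing_raiseTwoH`: on `T_q = t` eigenvectors whose twists are again eigenvectors,
  `⟨i x, i y⟩ = (q - 1)((q + 1)² - t²) ⟨x, y⟩`;
* `twistedPairing_raiseOneH`: `⟨j x, j y⟩ = c ⟨x, y⟩` with `c = t (α² + 1) - 2 α (q + 1)`,
  `c α = (α² - 1)(α² - q)`;
* `length_congModule_eq_add'`: growth of congruence modules without nondegeneracy hypothesis.
-/
import Fermat.Agent.R59.Setup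
import Fermat.Agent.CongMod.Main

set_option autoImplicit false
set_option linter.unusedSectionVars false

noncomputable section

open CongruenceSubgroup Matrix Function
open scoped MatrixGroups
open ModularCurve.Period (parabolicHoms)

namespace Fermat.Agent.R59

open LR CongMod

variable (R : Type) [CommRing R] (N q : ℕ) [NeZero N] [NeZero q]

/-- Conjugation by `diag(q,1)` followed by the Fricke automorphism. -/
theorem frickeHom_deltaGamma0 (γ : Gamma0 (N * q)) :
    frickeHom N (deltaGamma0 N q γ) = inclGamma0 N q (frickeHom (N * q) γ) := by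
  have h := lowerLeft_eq_mul N q γ
  obtain ⟨m, hm⟩ := HK.dvd_gamma0_lower_left (N * q) γ
  have hN : (N : ℤ) ≠ 0 := Int.natCast_ne_zero.mpr (NeZero.ne N)
  have hq : (q : ℤ) ≠ 0 := Int.natCast_ne_zero.mpr (NeZero.ne q)
  refine eq_of_matOf_eq ?_
  ext i j
  fin_cases i <;> fin_cases j <;>
    simp [matOf, frickeHom, frickeSL, deltaGamma0, deltaSL, inclGamma0, Subgroup.coe_inclusion,
      hm, mul_assoc]
  all_goals
    rw [show (N : ℤ) * ((q : ℤ) * m) = (q : ℤ) * ((N : ℤ) * m) by ring,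
      Int.mul_ediv_cancel_left _ hq, Int.mul_ediv_cancel_left _ hN,
      show (q : ℤ) * ((N : ℤ) * m) = (N * q : ℤ) * m by ring,
      Int.mul_ediv_cancel_left _ (mul_ne_zero hN hq)]

/-- The Fricke automorphism followed by conjugation by `diag(q,1)`. -/
theorem frickeHom_inclGamma0 (γ : Gamma0 (N * q)) :
    deltaGamma0 N q (frickeHom (N * q) γ) = frickeHom N (inclGamma0 N q γ) := by
  obtain ⟨m, hm⟩ := HK.dvd_gamma0_lower_left (N * q) γ
  have hN : (N : ℤ) ≠ 0 := Int.natCast_ne_zero.mpr (NeZero.ne N)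
  have hq : (q : ℤ) ≠ 0 := Int.natCast_ne_zero.mpr (NeZero.ne q)
  refine eq_of_matOf_eq ?_
  ext i j
  fin_cases i <;> fin_cases j <;>
    simp [matOf, frickeHom, frickeSL, deltaGamma0, deltaSL, inclGamma0, Subgroup.coe_inclusion, hm]
  all_goals
    first
      | rw [Int.mul_ediv_cancel_left _ (mul_ne_zero hN hq),
          show (N : ℤ) * q * m = (N : ℤ) * (q * m) by ring, Int.mul_ediv_cancel_left _ hN]
      | (rw [show (N : ℤ) * q * (γ : SL(2, ℤ)) 0 1 = q * (N * (γ : SL(2, ℤ)) 0 1) by ring,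
          ← mul_neg, Int.mul_ediv_cancel_left _ hq])

/-- The Fricke involution on parabolic homomorphisms. -/
def frickeP : HP R N →ₗ[R] HP R N :=
  (HK.HSpace.toParHom N R).toLinearMap ∘ₗ (fricke N R ∘ₗ (HK.HSpace.toParHom N R).symm.toLinearMap)

theorem frickeP_apply (x : HP R N) (γ : Gamma0 N) :
    (frickeP R N x : Hom1 N R) (Additive.ofMul γ) =
      (x : Hom1 N R) (Additive.ofMul (frickeHom N γ)) := rfl

theorem toParHom_fricke (x : HK.HSpace N R) :
    HK.HSpace.toParHom N R (fricke N R x) = frickeP R N (HK.HSpace.toParHom N R x) := rfl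

theorem frickeP_resP (x : HP R N) :
    frickeP R (N * q) (resP R N q x) = res₂P R N q (frickeP R N x) := by
  refine Subtype.ext (AddMonoidHom.ext fun g => ?_)
  obtain ⟨g, rfl⟩ := Additive.ofMul.surjective g
  show (x : Hom1 N R) (Additive.ofMul (inclGamma0 N q (frickeHom (N * q) g))) =
    (x : Hom1 N R) (Additive.ofMul (frickeHom N (deltaGamma0 N q g)))
  rw [frickeHom_deltaGamma0]

theorem frickeP_res₂P (x : HP R N) :
    frickeP R (N * q) (res₂P R N q x) = resP R N q (frickeP R N x) := by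
  refine Subtype.ext (AddMonoidHom.ext fun g => ?_)
  obtain ⟨g, rfl⟩ := Additive.ofMul.surjective g
  show (x : Hom1 N R) (Additive.ofMul (deltaGamma0 N q (frickeHom (N * q) g))) =
    (x : Hom1 N R) (Additive.ofMul (frickeHom N (inclGamma0 N q g)))
  rw [frickeHom_inclGamma0]

omit [NeZero N] [NeZero q] in
theorem resP_res₂P_comm (x : HP R N) :
    res₂P R (N * q) q (resP R N q x) = resP R (N * q) q (res₂P R N q x) :=
  Subtype.ext (res_res₂_comm (x : Hom1 N R)).symm

/-- `raiseTwo` on `H(R)`. -/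
def raiseTwoH [Fact q.Prime] : HK.HSpace N R →ₗ[R] HK.HSpace (N * q * q) R :=
  (HK.HSpace.toParHom (N * q * q) R).symm.toLinearMap ∘ₗ
    (raiseTwo R N q ∘ₗ (HK.HSpace.toParHom N R).toLinearMap)

/-- `raiseOne` on `H(R)`. -/
def raiseOneH (α : R) : HK.HSpace N R →ₗ[R] HK.HSpace (N * q) R :=
  (HK.HSpace.toParHom (N * q) R).symm.toLinearMap ∘ₗ
    (raiseOne R N q α ∘ₗ (HK.HSpace.toParHom N R).toLinearMap)

variable {R N q}

theorem toParHom_raiseTwoH [Fact q.Prime] (x : HK.HSpace N R) :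
    HK.HSpace.toParHom (N * q * q) R (raiseTwoH R N q x) =
      raiseTwo R N q (HK.HSpace.toParHom N R x) := rfl

theorem toParHom_raiseOneH (α : R) (x : HK.HSpace N R) :
    HK.HSpace.toParHom (N * q) R (raiseOneH R N q α x) =
      raiseOne R N q α (HK.HSpace.toParHom N R x) := rfl

omit [NeZero q] in
theorem toParHom_heckeEnd (l : ℕ) [Fact l.Prime] (x : HK.HSpace N R) :
    HK.HSpace.toParHom N R (HK.heckeEnd N l R x) = heckeP R N l (HK.HSpace.toParHom N R x) :=
  rfl

omit [NeZero q] in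
theorem heckeP_eq_of_heckeEnd {l : ℕ} [Fact l.Prime] {x : HK.HSpace N R} {c : R}
    (h : HK.heckeEnd N l R x = c • x) :
    heckeP R N l (HK.HSpace.toParHom N R x) = c • HK.HSpace.toParHom N R x := by
  rw [← toParHom_heckeEnd, h, map_smul]

omit [NeZero q] in
theorem heckeEnd_eq_of_heckeP {l : ℕ} [Fact l.Prime] {x : HK.HSpace N R} {c : R}
    (h : heckeP R N l (HK.HSpace.toParHom N R x) = c • HK.HSpace.toParHom N R x) :
    HK.heckeEnd N l R x = c • x := by
  apply (HK.HSpace.toParHom N R).injective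
  rw [toParHom_heckeEnd, h, map_smul]

variable [IsAddTorsionFree R]

omit [NeZero q] in
theorem twistedPairing_eq (x y : HK.HSpace N R) :
    twistedPairing N R x y =
      pairP R N (HK.HSpace.toParHom N R x) (frickeP R N (HK.HSpace.toParHom N R y)) := rfl

variable [hq : Fact q.Prime]

/-- **The twisted pairing on the image of `raiseTwo`.** -/
theorem twistedPairing_raiseTwoH (hqN : ¬ q ∣ N) {t : R} {x y : HK.HSpace N R}
    (hx : HK.heckeEnd N q R x = t • x) (hy : HK.heckeEnd N q R y = t • y)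
    (hWy : HK.heckeEnd N q R (fricke N R y) = t • fricke N R y) :
    twistedPairing (N * q * q) R (raiseTwoH R N q x) (raiseTwoH R N q y) =
      ((q : R) - 1) * (((q : R) + 1) ^ 2 - t ^ 2) * twistedPairing N R x y := by
  rw [twistedPairing_eq, twistedPairing_eq, toParHom_raiseTwoH, toParHom_raiseTwoH]
  have hx' := heckeP_eq_of_heckeEnd hx
  have hy' := heckeP_eq_of_heckeEnd hy
  have hz' := heckeP_eq_of_heckeEnd hWy
  rw [toParHom_fricke] at hz'
  set a := HK.HSpace.toParHom N R x
  set b := HK.HSpace.toParHom N R y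
  set z := frickeP R N b with hz
  have e : frickeP R (N * q * q) (raiseTwo R N q b) =
      (q : R) • res₂P R (N * q) q (res₂P R N q z) - t • resP R (N * q) q (res₂P R N q z)
        + resP R (N * q) q (resP R N q z) := by
    rw [raiseTwo_apply, hy']
    simp only [map_add, map_sub, map_smul, frickeP_resP, frickeP_res₂P, resP_res₂P_comm, hz]
  have aa := pairP_res_res_prime (R := R) hqN
  have bb := pairP_res₂_res₂ (R := R) hqN
  have ab := pairP_res_res₂ (R := R) hqN
  have ba := pairP_res₂_res (R := R) hqN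
  have lev := pairP_res_res_level (R := R) (N := N) (q := q)
  have c2 := pairP_res_res₂res₂ (R := R) (N := N) (q := q) (t := t) (y := z) hqN
  have c1 : ∀ u : HP R (N * q),
      pairP R (N * q * q) (res₂P R (N * q) q (res₂P R N q a)) (resP R (N * q) q u) =
        -pairP R (N * q) u (t • res₂P R N q a - resP R N q a) := fun u => by
    rw [Pairing.pairing_skew, pairP_res_res₂res₂ hqN u hx']
  have swap : pairP R N z a = -pairP R N a z := Pairing.pairing_skew z a
  rw [e]
  simp only [raiseTwo_apply, hx', hz', map_add, map_sub, map_smul, LinearMap.add_apply,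
    LinearMap.sub_apply, LinearMap.smul_apply, smul_eq_mul, lev, aa, bb, ab, ba, c1, c2,
    pairP_res₂res₂_res₂res₂ hqN, swap]
  push_cast
  ring

/-- **The twisted pairing on the image of `raiseOne`.** -/
theorem twistedPairing_raiseOneH (hqN : ¬ q ∣ N) (α : R) {t : R} {x y : HK.HSpace N R}
    (hx : HK.heckeEnd N q R x = t • x) (hy : HK.heckeEnd N q R y = t • y)
    (hWy : HK.heckeEnd N q R (fricke N R y) = t • fricke N R y) :
    twistedPairing (N * q) R (raiseOneH R N q α x) (raiseOneH R N q α y) =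
      (t * (α ^ 2 + 1) - 2 * α * ((q : R) + 1)) * twistedPairing N R x y := by
  rw [twistedPairing_eq, twistedPairing_eq, toParHom_raiseOneH, toParHom_raiseOneH]
  have hx' := heckeP_eq_of_heckeEnd hx
  have hy' := heckeP_eq_of_heckeEnd hy
  have hz' := heckeP_eq_of_heckeEnd hWy
  rw [toParHom_fricke] at hz'
  set a := HK.HSpace.toParHom N R x
  set b := HK.HSpace.toParHom N R y
  set z := frickeP R N b with hz
  have swap : pairP R N z a = -pairP R N a z := Pairing.pairing_skew z a
  simp only [raiseOne_apply, map_sub, map_smul, frickeP_resP, frickeP_res₂P, ← hz,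
    LinearMap.sub_apply, LinearMap.smul_apply, smul_eq_mul, pairP_res_res_prime hqN,
    pairP_res₂_res₂ hqN, pairP_res_res₂ hqN, pairP_res₂_res hqN, hx', hz', swap]
  push_cast
  ring

section Length

open NumCrit

variable {𝒪 : Type*} [CommRing 𝒪] [IsDomain 𝒪] [IsDiscreteValuationRing 𝒪]
  {M M₁ : Type*} [AddCommGroup M] [Module 𝒪 M] [Module.Finite 𝒪 M] [Module.Free 𝒪 M]
  [AddCommGroup M₁] [Module 𝒪 M₁] [Module.Finite 𝒪 M₁] [Module.Free 𝒪 M₁]

/-- A degenerate pairing has congruence module of infinite length. -/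
theorem length_congModule_eq_top (B : M →ₗ[𝒪] M →ₗ[𝒪] 𝒪) (L : Submodule 𝒪 M)
    (h : ¬ Injective (gram B L)) : Module.length 𝒪 (CongModule B L) = ⊤ := by
  have hr : Module.finrank 𝒪 (LinearMap.range (gram B L)) < Module.finrank 𝒪 L := by
    have h1 := Submodule.finrank_quotient_add_finrank (LinearMap.ker (gram B L))
    rw [(LinearMap.quotKerEquivRange (gram B L)).finrank_eq] at h1
    have h2 : Module.finrank 𝒪 (LinearMap.ker (gram B L)) ≠ 0 := fun h0 =>
      h (LinearMap.ker_eq_bot.mp (Submodule.finrank_eq_zero.mp h0))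
    omega
  have hd : Module.finrank 𝒪 (CongModule B L) ≠ 0 := by
    have h1 := Submodule.finrank_quotient_add_finrank (LinearMap.range (gram B L))
    have h2 : Module.finrank 𝒪 (Module.Dual 𝒪 L) = Module.finrank 𝒪 L :=
      (Module.finBasis 𝒪 L).toDualEquiv.finrank_eq.symm
    have h3 : Module.finrank 𝒪 (CongModule B L) + Module.finrank 𝒪 (LinearMap.range (gram B L)) =
      Module.finrank 𝒪 L := h1.trans h2
    intro h0
    omega
  have hnt : ¬ Module.IsTorsion 𝒪 (CongModule B L) := fun ht =>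
    hd (Module.finrank_eq_zero_iff.mpr fun x => by
      obtain ⟨⟨c, hc⟩, hcx⟩ := @ht x
      exact ⟨c, nonZeroDivisors.ne_zero hc, hcx⟩)
  obtain ⟨x, hx⟩ : ∃ x : CongModule B L, ∀ c : 𝒪, c ≠ 0 → c • x ≠ 0 := by
    by_contra hc
    push Not at hc
    exact hnt fun x => by
      obtain ⟨c, hc0, hcx⟩ := hc x
      exact ⟨⟨c, mem_nonZeroDivisors_of_ne_zero hc0⟩, hcx⟩
  have hinj : Injective (LinearMap.toSpanSingleton 𝒪 (CongModule B L) x) :=
    (injective_iff_map_eq_zero _).mpr fun c hc => by_contra fun hne => hx c hne hc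
  refine top_le_iff.mp (le_trans ?_ (Module.length_le_of_injective _ hinj))
  by_contra hlt
  rw [top_le_iff] at hlt
  have hfin := Module.length_ne_top_iff.mp hlt
  have : IsArtinianRing 𝒪 := (isFiniteLength_iff_isNoetherian_isArtinian.mp hfin).2
  exact IsDiscreteValuationRing.not_isField 𝒪 (IsArtinianRing.isField_of_isDomain 𝒪)

/-- Growth of congruence modules along a map injective on the lattice, degenerate case included. -/
theorem length_congModule_eq_add' (B₀ : M →ₗ[𝒪] M →ₗ[𝒪] 𝒪) (B₁ : M₁ →ₗ[𝒪] M₁ →ₗ[𝒪] 𝒪)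
    (L₀ : Submodule 𝒪 M) (L₁ : Submodule 𝒪 M₁) (i : M →ₗ[𝒪] M₁)
    (hinj : ∀ x ∈ L₀, i x = 0 → x = 0) (hL : L₀.map i = L₁) {c : 𝒪}
    (hB : ∀ x ∈ L₀, ∀ y ∈ L₀, B₁ (i x) (i y) = c * B₀ x y) :
    Module.length 𝒪 (CongModule B₁ L₁) =
      Module.length 𝒪 (CongModule B₀ L₀) + Module.finrank 𝒪 L₀ * Ring.ord 𝒪 c := by
  by_cases hB₀ : Injective (gram B₀ L₀)
  · exact length_congModule_eq_add B₀ B₁ L₀ L₁ i hinj hL hB hB₀
  obtain ⟨x, hx, hx0⟩ : ∃ x, gram B₀ L₀ x = 0 ∧ x ≠ 0 := by
    by_contra hne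
    exact hB₀ ((injective_iff_map_eq_zero _).mpr fun x hx => by_contra fun h0 => hne ⟨x, hx, h0⟩)
  have h1 : ¬ Injective (gram B₁ L₁) := by
    subst hL
    intro hinj'
    have e : (⟨i x, Submodule.mem_map_of_mem x.2⟩ : L₀.map i) = 0 := hinj' (by
      rw [map_zero]
      refine LinearMap.ext ?_
      rintro ⟨_, y, hy, rfl⟩
      show B₁ (i x) (i y) = 0
      rw [hB x x.2 y hy, show B₀ (x : M) y = 0 from LinearMap.congr_fun hx ⟨y, hy⟩, mul_zero])
    exact hx0 (Subtype.ext (hinj x x.2 (congrArg Subtype.val e)))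
  rw [length_congModule_eq_top B₁ L₁ h1, length_congModule_eq_top B₀ L₀ hB₀, top_add]

end Length

end Fermat.Agent.R59
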