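/-
The Fricke involution commutes with `T_l`, `l ∤ N`, on `H(R)` (owner: helper91).
-/
import Fermat.Agent.R59.RaiseTwist

set_option autoImplicit false
set_option linter.unusedSectionVars false

noncomputable section

open CongruenceSubgroup Matrix Function
open scoped MatrixGroups

namespace Fermat.Agent.R59

open LR CongMod HK

variable (N : ℕ) [NeZero N]

/-- Conjugation by the Fricke matrix on an integral matrix with `N ∣ c`. -/
def frickeConj (M : Matrix (Fin 2) (Fin 2) ℤ) : Matrix (Fin 2) (Fin 2) ℤ :=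
  !![M 1 1, -(M 1 0 / N); -((N : ℤ) * M 0 1), M 0 0]

theorem frickeConj_mul_frickeMat {M : Matrix (Fin 2) (Fin 2) ℤ} (h : (N : ℤ) ∣ M 1 0) :
    frickeConj N M * frickeMat N = frickeMat N * M := by
  obtain ⟨m, hm⟩ := h
  have hN : (N : ℤ) ≠ 0 := Int.natCast_ne_zero.mpr (NeZero.ne N)
  ext i j
  fin_cases i <;> fin_cases j <;>
    simp [frickeConj, frickeMat, Matrix.mul_apply, Fin.sum_univ_two, hm,
      Int.mul_ediv_cancel_left _ hN] <;>
    ring

theorem matOf_frickeHom (g : Gamma0 N) : matOf (frickeHom N g) = frickeConj N (matOf g) := rfl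

theorem frickeConj_mul {A B : Matrix (Fin 2) (Fin 2) ℤ} (hA : (N : ℤ) ∣ A 1 0)
    (hB : (N : ℤ) ∣ B 1 0) : frickeConj N (A * B) = frickeConj N A * frickeConj N B := by
  have hAB : (N : ℤ) ∣ (A * B) 1 0 := by
    rw [Matrix.mul_apply, Fin.sum_univ_two]
    exact dvd_add (hA.mul_right _) (hB.mul_left _)
  refine frickeMat_mul_left_cancel N ?_
  rw [frickeConj_mul_frickeMat N hAB, Matrix.mul_assoc (frickeConj N A),
    frickeConj_mul_frickeMat N hB, ← Matrix.mul_assoc (frickeConj N A),
    frickeConj_mul_frickeMat N hA, Matrix.mul_assoc]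

theorem frickeConj_injective {A B : Matrix (Fin 2) (Fin 2) ℤ} (hA : (N : ℤ) ∣ A 1 0)
    (hB : (N : ℤ) ∣ B 1 0) (h : frickeConj N A = frickeConj N B) : A = B := by
  have h' := congrArg ((frickeMat N).adjugate * ·)
    ((frickeConj_mul_frickeMat N hA).symm.trans
      ((congrArg (· * frickeMat N) h).trans (frickeConj_mul_frickeMat N hB)))
  simp only [← Matrix.mul_assoc, Matrix.adjugate_mul, det_frickeMat, Matrix.smul_mul,
    Matrix.one_mul] at h'
  exact smul_right_injective _ (Int.natCast_ne_zero.mpr (NeZero.ne N)) h'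

theorem dvd_matOf (g : Gamma0 N) : (N : ℤ) ∣ matOf g 1 0 := Gamma0.dvd_one_zero g

theorem dvd_matOf_mul_heckeMat {l : ℕ} (g : Gamma0 N) (i : HeckeIdx N l) :
    (N : ℤ) ∣ (matOf g * heckeMat i) 1 0 := by
  rw [Matrix.mul_apply, Fin.sum_univ_two, heckeMat_one_zero, mul_zero, add_zero]
  exact (dvd_matOf N g).mul_right _

theorem dvd_heckeMat {l : ℕ} (i : HeckeIdx N l) : (N : ℤ) ∣ heckeMat i 1 0 :=
  (heckeMat_one_zero i).symm ▸ dvd_zero _

variable {N}

/-- `W` commutes with `T_l` for a prime `l ∤ N`. -/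
theorem heckeHom_comp_frickeHom {R A : Type*} [Semiring R] [AddCommGroup A] [Module R A] {l : ℕ}
    [hl : Fact l.Prime] (hlN : ¬ l ∣ N) (φ : Hom1 N A) (g : Gamma0 N) :
    heckeHom N l R A φ (Additive.ofMul (frickeHom N g)) =
      heckeHom N l R A (φ.comp (MonoidHom.toAdditive (frickeHom N))) (Additive.ofMul g) := by
  classical
  have hex : ∀ i : HeckeIdx N l, ∃ (j : HeckeIdx N l) (u : Gamma0 N),
      matOf u * heckeMat j = frickeConj N (heckeMat i) := fun i =>
    exists_eq_mul_heckeMat
      (by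
        rw [← det_heckeMat i, Matrix.det_fin_two, Matrix.det_fin_two]
        simp [frickeConj, heckeMat_one_zero, mul_comm])
      (by simp [frickeConj])
      (fun h => absurd h hlN)
  choose π u hu using hex
  have hinj : Injective π := by
    intro i i' e
    have h1 : frickeConj N (heckeMat i) =
        frickeConj N (matOf (frickeHom N (u i * (u i')⁻¹)) * heckeMat i') := by
      rw [frickeConj_mul N (dvd_matOf N _) (dvd_heckeMat N i'), ← matOf_frickeHom,
        frickeHom_frickeHom, ← hu i, ← hu i', ← Matrix.mul_assoc, ← matOf_mul,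
        inv_mul_cancel_right, e]
    exact (heckeMat_coset_unique (k := (frickeHom N (u i * (u i')⁻¹) : SL(2, ℤ)))
      (frickeConj_injective N (dvd_heckeMat N i) (dvd_matOf_mul_heckeMat N _ i') h1).symm).symm
  refine (heckeHom_apply_eq_of_reps (Equiv.ofBijective π (Finite.injective_iff_bijective.mp hinj)) u
    φ (frickeHom N g) (heckeNext g) (fun i => frickeHom N (heckeCoc g i)) fun i => ?_).trans ?_
  · show matOf (frickeHom N (heckeCoc g i)) * (matOf (u (heckeNext g i)) *
        heckeMat (π (heckeNext g i))) = matOf (u i) * heckeMat (π i) * matOf (frickeHom N g)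
    rw [hu, hu, matOf_frickeHom, matOf_frickeHom,
      ← frickeConj_mul N (dvd_matOf N _) (dvd_heckeMat N _),
      ← frickeConj_mul N (dvd_heckeMat N _) (dvd_matOf N _)]
    exact congrArg _ (heckeCoc_mul_heckeMat g i)
  · rw [heckeHom_apply]
    rfl

/-- `W T_l = T_l W` on `H(R)` for a prime `l ∤ N`. -/
theorem fricke_heckeEnd {R : Type} [CommRing R] {l : ℕ} [Fact l.Prime] (hlN : ¬ l ∣ N)
    (x : HSpace N R) : fricke N R (heckeEnd N l R x) = heckeEnd N l R (fricke N R x) := by
  refine HSpace.hom_injective (AddMonoidHom.ext fun g => ?_)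
  obtain ⟨g, rfl⟩ := Additive.ofMul.surjective g
  exact heckeHom_comp_frickeHom (R := R) hlN x.hom g

theorem heckeEnd_fricke_of_eigen {R : Type} [CommRing R] {l : ℕ} [Fact l.Prime] (hlN : ¬ l ∣ N)
    {x : HSpace N R} {t : R} (h : heckeEnd N l R x = t • x) :
    heckeEnd N l R (fricke N R x) = t • fricke N R x := by
  rw [← fricke_heckeEnd hlN, h, map_smul]

end Fermat.Agent.R59
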