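/-
Eigenspaces of cusp forms under level raising (owner: helper91).

* `mem_spanDegen`: an eigenvector of level `K` of the system of a newform `g` of level `M` is a
  combination of the `g(dτ)`, `d M ∣ K`;
* `finrank_formEigen_raiseTwo_le`, `finrank_formEigen_raiseOne_le`: the eigenspace at level
  `N q q` with `U_q = 0`, resp. at level `N q` with `U_q = α`, is no bigger than the eigenspace
  at level `N`.
-/
import Fermat.Agent.Newforms.StrongMultOne
import Fermat.Agent.Petersson.CuspForm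
import Fermat.Agent.HK.HeckePeriods

set_option autoImplicit false

noncomputable section

open CongruenceSubgroup ModularFormClass
open scoped MatrixGroups

namespace Fermat.Agent.R59

open Newforms

/-- The span of the `g(dτ)` at level `K`. -/
def spanDegen {M : ℕ} (g : S2 M) (K : ℕ) [NeZero K] : Submodule ℂ (S2 K) :=
  Submodule.span ℂ {F | ∃ (d : ℕ) (h : M * d ∣ K), F = degen d h g}

theorem degen_degen {M K L d q : ℕ} [NeZero K] [NeZero L] (hd : M * d ∣ L) (hq : L * q ∣ K)
    (h : M * (d * q) ∣ K) (f : S2 M) : degen q hq (degen d hd f) = degen (d * q) h f := by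
  have hd0 : d ≠ 0 := fun e => NeZero.ne L (by simpa [e] using hd)
  have hq0 : q ≠ 0 := fun e => NeZero.ne K (by simpa [e] using hq)
  refine ext_qCoeff fun n => ?_
  rw [qCoeff_degen, qCoeff_degen, qCoeff_degen]
  by_cases hn : q ∣ n
  · obtain ⟨m, rfl⟩ := hn
    rw [if_pos (dvd_mul_right q m), Nat.mul_div_cancel_left _ (Nat.pos_of_ne_zero hq0), mul_comm d q]
    simp [Nat.mul_dvd_mul_iff_left (Nat.pos_of_ne_zero hq0),
      Nat.mul_div_mul_left _ _ (Nat.pos_of_ne_zero hq0)]
  · rw [if_neg hn, if_neg fun e => hn ((dvd_mul_left q d).trans e)]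

theorem spanDegen_le_comap {M : ℕ} (g : S2 M) {L K q : ℕ} [NeZero L] [NeZero K] (hq : L * q ∣ K) :
    spanDegen g L ≤ (spanDegen g K).comap (degen q hq) := by
  rw [spanDegen, Submodule.span_le]
  rintro _ ⟨d, hd, rfl⟩
  have h : M * (d * q) ∣ K := by
    rw [← mul_assoc]; exact (mul_dvd_mul_right hd q).trans hq
  exact Submodule.subset_span ⟨d * q, h, degen_degen hd hq h g⟩

/-- The joint eigenspace of the good Hecke operators. -/
def chiSpace (K : ℕ) [NeZero K] (χ : {l : ℕ // l.Prime ∧ ¬ l ∣ K} → ℂ) : Submodule ℂ (S2 K) :=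
  ⨅ l, Module.End.eigenspace (CuspForm.heckeTLin (N := K) 2 l.2.1 l.2.2) (χ l)

theorem mem_chiSpace {K : ℕ} [NeZero K] {χ : {l : ℕ // l.Prime ∧ ¬ l ∣ K} → ℂ} {y : S2 K} :
    y ∈ chiSpace K χ ↔ ∀ (l : ℕ) (hl : l.Prime) (hlK : ¬ l ∣ K),
      CuspForm.heckeTLin 2 hl hlK y = χ ⟨l, hl, hlK⟩ • y := by
  simp [chiSpace, Submodule.mem_iInf]

theorem iSup_chiSpace (K : ℕ) [NeZero K] : ⨆ χ, chiSpace K χ = ⊤ :=
  Petersson.heckeTLin_iSup_iInf_eigenspace

/-- **Eigenvectors of the system of a newform are old.** -/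
theorem mem_spanDegen {M : ℕ} [NeZero M] {g : S2 M} (hg : g.IsNewform) :
    ∀ (K : ℕ) [NeZero K] (f : S2 K),
      (∀ (l : ℕ) (hl : l.Prime) (hlK : ¬ l ∣ K),
        CuspForm.heckeTLin 2 hl hlK f = qCoeff g l • f) →
      f ∈ spanDegen g K := by
  intro K
  induction K using Nat.strong_induction_on with
  | _ K ih =>
  intro _ f hf
  classical
  by_cases hMK : M ∣ K
  swap
  · rw [eq_zero_of_not_dvd hg hMK ∅ f fun l hl hlK _ => hf l hl hlK]
    exact zero_mem _
  have h1 : M * 1 ∣ K := by rwa [mul_one]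
  set G := degen 1 h1 g with hG
  have hGeig : ∀ (l : ℕ) (hl : l.Prime) (hlK : ¬ l ∣ K),
      CuspForm.heckeTLin 2 hl hlK G = qCoeff g l • G := fun l hl hlK => by
    rw [hG, ← degen_heckeTLin h1 hl hlK, heckeTLin_apply_of_isNormalizedEigenform hg.1 hl,
      map_smul]
  have hGmem : G ∈ spanDegen g K := Submodule.subset_span ⟨1, h1, rfl⟩
  set f' := f - qCoeff f 1 • G with hf'
  suffices f' ∈ spanDegen g K by
    have e : f = f' + qCoeff f 1 • G := by rw [hf', sub_add_cancel]
    rw [e]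
    exact add_mem this ((spanDegen g K).smul_mem _ hGmem)
  have hf'eig : ∀ (l : ℕ) (hl : l.Prime) (hlK : ¬ l ∣ K),
      CuspForm.heckeTLin 2 hl hlK f' = qCoeff g l • f' := fun l hl hlK => by
    rw [hf', map_sub, map_smul, hf l hl hlK, hGeig l hl hlK, smul_sub, smul_comm]
  have hvan : ∀ n, n.Coprime K → qCoeff f' n = 0 :=
    qCoeff_eq_zero_of_eigen_of_one ∅ (fun l => qCoeff g l) f'
      (by rw [hf', qCoeff_sub, qCoeff_smul, hG, qCoeff_degen, if_pos (dvd_refl 1), Nat.div_one,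
        hg.1.qCoeff_one, mul_one, sub_self])
      (fun l hl hlK _ => hf'eig l hl hlK)
  have hD : ∀ q ∈ K.primeFactors, q.Prime ∧ q ∣ K := fun q hq =>
    ⟨Nat.prime_of_mem_primeFactors hq, Nat.dvd_of_mem_primeFactors hq⟩
  have hold := main_lemma K.primeFactors hD f' fun n hn => by
    rcases eq_or_ne n 0 with rfl | hn0
    · exact qCoeff_cusp_zero f'
    · exact hvan n (Nat.coprime_of_dvd fun r hr hrn hrK =>
        hn r (Nat.mem_primeFactors.2 ⟨hr, hrK, NeZero.ne K⟩) hrn)
  -- the part of other systems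
  set C : Submodule ℂ (S2 K) := ⨆ (l : ℕ) (hl : l.Prime) (hlK : ¬ l ∣ K) (c : ℂ)
    (_ : c ≠ qCoeff g l), Module.End.eigenspace (CuspForm.heckeTLin 2 hl hlK) c with hC
  have hle : K.primeFactors.attach.sup (fun q => oldAt K q.1 (hD q.1 q.2).2) ≤
      spanDegen g K ⊔ C := by
    refine Finset.sup_le fun ⟨q, hq⟩ _ => ?_
    obtain ⟨hqp, hqK⟩ := hD q hq
    have hlt : K / q < K := Nat.div_lt_self (NeZero.pos K) hqp.one_lt
    have : NeZero (K / q) :=
      ⟨fun h0 => NeZero.ne K (by rw [← Nat.div_mul_cancel hqK, h0, zero_mul])⟩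
    have hLK : K / q * q ∣ K := (Nat.div_mul_cancel hqK).dvd
    show LinearMap.range (degen (M := K / q) q hLK) ≤ _
    rw [LinearMap.range_eq_map, ← iSup_chiSpace (K / q), Submodule.map_iSup]
    refine iSup_le fun χ => Submodule.map_le_iff_le_comap.mpr fun y hy => ?_
    rw [mem_chiSpace] at hy
    by_cases hχ : ∀ (l : ℕ) (hl : l.Prime) (hlK : ¬ l ∣ K),
        χ ⟨l, hl, fun d => hlK (d.trans ((dvd_mul_right _ q).trans hLK))⟩ = qCoeff g l
    · refine Submodule.mem_sup_left ?_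
      rcases eq_or_ne y 0 with rfl | hy0
      · rw [map_zero]; exact zero_mem _
      refine spanDegen_le_comap g hLK (ih _ hlt y fun l hl hlL => ?_)
      rw [hy l hl hlL]
      congr 1
      obtain ⟨φ, hφ, hφl⟩ := exists_isNormalizedEigenform_of_eigenvector (N := K / q) ∅
        (fun r => if h : r.Prime ∧ ¬ r ∣ K / q then χ ⟨r, h⟩ else 0) y hy0
        (fun r hr hrL _ => by rw [dif_pos ⟨hr, hrL⟩]; exact hy r hr hrL)
      have hae : ∀ r : ℕ, r.Prime → r ∉ K.primeFactors → qCoeff φ r = qCoeff g r :=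
        fun r hr hrS => by
          have hrK : ¬ r ∣ K := fun d => hrS (Nat.mem_primeFactors.2 ⟨hr, d, NeZero.ne K⟩)
          have hrL : ¬ r ∣ K / q := fun d => hrK (d.trans ((dvd_mul_right _ q).trans hLK))
          rw [hφl r hr hrL (Set.notMem_empty r), dif_pos ⟨hr, hrL⟩]
          exact hχ r hr hrK
      have hML : M ∣ K / q := dvd_of_isNewform_of_eigenform hg hφ K.primeFactors hae
      have := qCoeff_eq_of_almost_all' hφ hg.1 K.primeFactors hae hl hlL
        (fun d => hlL (d.trans hML))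
      rwa [hφl l hl hlL (Set.notMem_empty l), dif_pos ⟨hl, hlL⟩] at this
    · push Not at hχ
      obtain ⟨l, hl, hlK, hne⟩ := hχ
      refine Submodule.mem_sup_right ?_
      refine Submodule.mem_iSup_of_mem l (Submodule.mem_iSup_of_mem hl
        (Submodule.mem_iSup_of_mem hlK (Submodule.mem_iSup_of_mem _
          (Submodule.mem_iSup_of_mem hne ?_))))
      rw [Module.End.mem_eigenspace_iff, ← degen_heckeTLin hLK hl hlK, hy, map_smul]
  obtain ⟨w, hw, v, hv, hwv⟩ := Submodule.mem_sup.1 (hle hold)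
  -- `v` is orthogonal to itself
  have hweig : ∀ (l : ℕ) (hl : l.Prime) (hlK : ¬ l ∣ K),
      CuspForm.heckeTLin 2 hl hlK w = qCoeff g l • w := by
    intro l hl hlK
    have : spanDegen g K ≤ Module.End.eigenspace (CuspForm.heckeTLin 2 hl hlK) (qCoeff g l) := by
      rw [spanDegen, Submodule.span_le]
      rintro _ ⟨d, hd, rfl⟩
      rw [SetLike.mem_coe, Module.End.mem_eigenspace_iff, ← degen_heckeTLin hd hl hlK,
        heckeTLin_apply_of_isNormalizedEigenform hg.1 hl, map_smul]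
    exact Module.End.mem_eigenspace_iff.1 (this hw)
  have hveig : ∀ (l : ℕ) (hl : l.Prime) (hlK : ¬ l ∣ K),
      CuspForm.heckeTLin 2 hl hlK v = qCoeff g l • v := fun l hl hlK => by
    rw [show v = f' - w by rw [← hwv, add_sub_cancel_left],
      map_sub (CuspForm.heckeTLin 2 hl hlK) f' w, hf'eig l hl hlK, hweig l hl hlK, hf', smul_sub, smul_sub]
    rw [smul_sub]
  rcases eq_or_ne v 0 with rfl | hv0
  · rw [add_zero] at hwv
    exact hwv ▸ hw
  have hCle : C ≤ Petersson.petOrtho (Submodule.span ℂ {v}) := by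
    refine iSup_le fun l => iSup_le fun hl => iSup_le fun hlK => iSup_le fun c => iSup_le
      fun hc y hy => Petersson.mem_petOrtho.2 fun z hz => ?_
    obtain ⟨s, rfl⟩ := Submodule.mem_span_singleton.1 hz
    have hT := Petersson.isPetSymm_heckeTLin (k := 2) (N := K) hl hlK
    have h := hT (s • v) y
    have hreal := hT.conj_eigenvalue hv0 (hveig l hl hlK)
    rw [map_smul, hveig l hl hlK, smul_comm, Module.End.mem_eigenspace_iff.1 hy,
      FunLike.coe_smul, FunLike.coe_smul (α := UpperHalfPlane) c,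
      Petersson.pet_smul_left (Petersson.isNice_cuspForm (s • v)) (Petersson.isNice_cuspForm y),
      Petersson.pet_smul_right (Petersson.isNice_cuspForm (s • v)) (Petersson.isNice_cuspForm y),
      hreal, ← sub_eq_zero, ← sub_mul] at h
    exact (mul_eq_zero.1 h).resolve_left (sub_ne_zero.2 (Ne.symm hc))
  exact absurd ((Petersson.pet_self_eq_zero_iff v).1
    (Petersson.mem_petOrtho.1 (hCle hv) v (Submodule.mem_span_singleton_self v))) hv0

/-- The eigenspace of the operators at the primes of `T`. -/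
def formEigen (N : ℕ) [NeZero N] (T : Set ℕ) (c : ℕ → ℂ) : Submodule ℂ (S2 N) :=
  ⨅ (l : ℕ) (hl : l.Prime) (_ : l ∈ T),
    Module.End.eigenspace (haveI := Fact.mk hl; HK.heckeFormsLin N l) (c l)

theorem mem_formEigen {N : ℕ} [NeZero N] {T : Set ℕ} {c : ℕ → ℂ} {f : S2 N} :
    f ∈ formEigen N T c ↔
      ∀ l ∈ T, ∀ [Fact l.Prime], HK.heckeFormsLin N l f = c l • f := by
  simp only [formEigen, Submodule.mem_iInf, Module.End.mem_eigenspace_iff]
  exact ⟨fun h l hl hf => h l hf.out hl, fun h l hp hl => @h l hl ⟨hp⟩⟩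

theorem qCoeff_heckeFormsLin_of_dvd {N l : ℕ} [NeZero N] [Fact l.Prime] (h : l ∣ N) (f : S2 N)
    (n : ℕ) : qCoeff (HK.heckeFormsLin N l f) n = qCoeff f (n * l) := by
  rw [HK.heckeFormsLin, dif_pos h, qCoeff_heckeULin]

theorem qCoeff_heckeFormsLin_of_not_dvd {N l : ℕ} [NeZero N] [hl : Fact l.Prime] (h : ¬ l ∣ N)
    (f : S2 N) (n : ℕ) : qCoeff (HK.heckeFormsLin N l f) n =
      qCoeff f (n * l) + (l : ℂ) * (if l ∣ n then qCoeff f (n / l) else 0) := by
  rw [HK.heckeFormsLin, dif_neg h, qCoeff_heckeTLin]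
  split_ifs <;> simp

/-- A good eigensystem of level `N` is that of a newform. -/
theorem exists_newform_formEigen {N : ℕ} [NeZero N] {T : Set ℕ} {c : ℕ → ℂ}
    (hT : ∀ l : ℕ, l.Prime → ¬ l ∣ N → l ∈ T) (hne : formEigen N T c ≠ ⊥) :
    ∃ M : ℕ, 0 < M ∧ M ∣ N ∧ ∃ g : S2 M, g.IsNewform ∧
      ∀ l : ℕ, l.Prime → ¬ l ∣ N → qCoeff g l = c l := by
  obtain ⟨x, hx, hx0⟩ := (Submodule.ne_bot_iff _).1 hne
  obtain ⟨φ, hφ, hφl⟩ := exists_isNormalizedEigenform_of_eigenvector ∅ c x hx0
    (fun l hl hlN _ => by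
      have := @mem_formEigen.1 hx l (hT l hl hlN) ⟨hl⟩
      rwa [HK.heckeFormsLin, dif_neg hlN] at this)
  obtain ⟨M, hM, hMN, g, hg, hgl⟩ := exists_newform hφ
  exact ⟨M, hM, hMN, g, hg, fun l hl hlN =>
    (hgl l hl hlN).trans (hφl l hl hlN (Set.notMem_empty l))⟩

section Raise

variable {N q M : ℕ} [NeZero N]

/-- Splitting off the powers of `q`. -/
theorem exists_decomp {g : S2 M} {K : ℕ} [NeZero K] (hq : q.Prime) (hqM : ¬ q ∣ M)
    (e : ℕ) (hK : K = N * q ^ e) (hqN : ¬ q ∣ N) {f : S2 K} (hf : f ∈ spanDegen g K) :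
    ∃ x : ℕ → S2 N, (∀ i, x i ∈ spanDegen g N) ∧
      ∀ n, qCoeff f n = ∑ i ∈ Finset.range (e + 1),
        if q ^ i ∣ n then qCoeff (x i) (n / q ^ i) else 0 := by
  induction hf using Submodule.span_induction with
  | mem F hF =>
    obtain ⟨d, hd, rfl⟩ := hF
    have hd0 : d ≠ 0 := fun h => NeZero.ne K (by simpa [h] using hd)
    obtain ⟨i, d', hqd', rfl⟩ := Nat.exists_eq_pow_mul_and_not_dvd hd0 q hq.ne_one
    have hi : i ≤ e := by
      have h1 : q ^ i ∣ N * q ^ e :=
        hK ▸ ((dvd_mul_right _ d').trans (dvd_mul_left _ M)).trans hd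
      exact (Nat.pow_dvd_pow_iff_le_right hq.one_lt).1
        (((hq.coprime_iff_not_dvd.2 hqN).pow_left i).dvd_of_dvd_mul_left h1)
    have hMd' : M * d' ∣ N := by
      have hc : (M * d').Coprime (q ^ e) :=
        (Nat.Coprime.mul_left ((hq.coprime_iff_not_dvd.2 hqM).symm)
          ((hq.coprime_iff_not_dvd.2 hqd').symm)).pow_right e
      exact hc.dvd_of_dvd_mul_right
        (((mul_dvd_mul_left M (dvd_mul_left d' (q ^ i))).trans hd).trans hK.dvd)
    refine ⟨fun j => if j = i then degen d' hMd' g else 0, fun j => ?_, fun n => ?_⟩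
    · dsimp only
      split_ifs
      · exact Submodule.subset_span ⟨d', hMd', rfl⟩
      · exact zero_mem _
    · rw [Finset.sum_eq_single_of_mem i (Finset.mem_range.2 (Nat.lt_succ_of_le hi))
        (fun j _ hj => by simp [hj, qCoeff_zero_fun]), qCoeff_degen]
      simp only [if_true]
      by_cases hn : q ^ i ∣ n
      · obtain ⟨m, rfl⟩ := hn
        rw [if_pos (dvd_mul_right _ m), Nat.mul_div_cancel_left _ (pow_pos hq.pos i), qCoeff_degen]
        simp [Nat.mul_dvd_mul_iff_left (pow_pos hq.pos i), Nat.mul_div_mul_left _ _ (pow_pos hq.pos i)]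
      · rw [if_neg hn, if_neg fun h => hn ((dvd_mul_right _ d').trans h)]
  | zero => exact ⟨0, fun _ => zero_mem _, fun n => by simp [qCoeff_zero_fun]⟩
  | add F F' _ _ h h' =>
    obtain ⟨x, hx, e1⟩ := h
    obtain ⟨x', hx', e2⟩ := h'
    refine ⟨x + x', fun i => add_mem (hx i) (hx' i), fun n => ?_⟩
    rw [qCoeff_add, e1, e2, ← Finset.sum_add_distrib]
    refine Finset.sum_congr rfl fun i _ => ?_
    rw [Pi.add_apply, qCoeff_add]
    split_ifs <;> simp
  | smul a F _ h =>
    obtain ⟨x, hx, e1⟩ := h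
    refine ⟨a • x, fun i => (spanDegen g N).smul_mem a (hx i), fun n => ?_⟩
    rw [qCoeff_smul, e1, Finset.mul_sum]
    refine Finset.sum_congr rfl fun i _ => ?_
    rw [Pi.smul_apply, qCoeff_smul, mul_ite, mul_zero]

/-- Members of `spanDegen` are eigenvectors of `T_q`, `q ∤ N`. -/
theorem qCoeff_mul_of_spanDegen {g : S2 M} (hg : g.IsNormalizedEigenform) (hq : q.Prime)
    (hqN : ¬ q ∣ N) [NeZero M] {x : S2 N} (hx : x ∈ spanDegen g N) (n : ℕ) :
    qCoeff x (n * q) = qCoeff g q * qCoeff x n -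
      (q : ℂ) * (if q ∣ n then qCoeff x (n / q) else 0) := by
  have h : CuspForm.heckeTLin 2 hq hqN x = qCoeff g q • x := by
    have : spanDegen g N ≤ Module.End.eigenspace (CuspForm.heckeTLin 2 hq hqN) (qCoeff g q) := by
      rw [spanDegen, Submodule.span_le]
      rintro _ ⟨d, hd, rfl⟩
      rw [SetLike.mem_coe, Module.End.mem_eigenspace_iff, ← degen_heckeTLin hd hq hqN,
        heckeTLin_apply_of_isNormalizedEigenform hg hq, map_smul]
    exact Module.End.mem_eigenspace_iff.1 (this hx)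
  have h' := congrArg (fun F : S2 N => qCoeff F n) h
  simp only [qCoeff_smul, qCoeff_heckeTLin] at h'
  by_cases hn : q ∣ n
  · rw [if_pos hn] at h' ⊢
    linear_combination h'
  · rw [if_neg hn] at h' ⊢
    linear_combination h'

omit [NeZero N] in
/-- `T_l` on a form of level `N` read at a level `K` with one more prime. -/
theorem qCoeff_heckeFormsLin_eq {K l : ℕ} [NeZero K] [hl : Fact l.Prime] (hlN : l ∣ N ↔ l ∣ K)
    (F : S2 K) (c : ℂ) (hF : HK.heckeFormsLin K l F = c • F) (n : ℕ) :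
    (if l ∣ N then qCoeff F (n * l) else
      qCoeff F (n * l) + (l : ℂ) * (if l ∣ n then qCoeff F (n / l) else 0)) = c * qCoeff F n := by
  have h := congrArg (fun G : S2 K => qCoeff G n) hF
  simp only [qCoeff_smul] at h
  by_cases hl' : l ∣ N
  · rw [if_pos hl']
    rwa [qCoeff_heckeFormsLin_of_dvd (hlN.1 hl')] at h
  · rw [if_neg hl']
    rwa [qCoeff_heckeFormsLin_of_not_dvd (fun d => hl' (hlN.2 d))] at h

/-- The common part of the two rank bounds: `x ↦ f` with `a_n(f) = a_n(x)` for `q ∤ n`. -/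
theorem finrank_le_of_sieve {K : ℕ} [NeZero K] {T : Set ℕ} {c c' : ℕ → ℂ} (hq : q.Prime)
    (hqN : ¬ q ∣ N)
    (hK : ∀ l : ℕ, l.Prime → l ≠ q → (l ∣ N ↔ l ∣ K)) (hc : ∀ l : ℕ, l ≠ q → c' l = c l)
    (hdec : ∀ f ∈ formEigen K T c', ∃ x : S2 N,
      (∀ (_hqT : q ∈ T) [Fact q.Prime], HK.heckeFormsLin N q x = c q • x) ∧
      (∀ n, ¬ q ∣ n → qCoeff f n = qCoeff x n) ∧ (x = 0 → f = 0)) :
    Module.finrank ℂ (formEigen K T c') ≤ Module.finrank ℂ (formEigen N T c) := by
  choose! X hXq hX hX0 using hdec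
  -- the sieved coefficients determine `x`
  have huniq : ∀ a b : S2 N, (∀ n, ¬ q ∣ n → qCoeff a n = qCoeff b n) → a = b := fun a b h =>
    sub_eq_zero.1 (eq_zero_of_supported hq hqN _ fun n hn => by rw [qCoeff_sub, h n hn, sub_self])
  have hmem : ∀ f ∈ formEigen K T c', X f ∈ formEigen N T c := by
    intro f hf
    rw [mem_formEigen]
    intro l hlT _
    by_cases hlq : l = q
    · subst hlq
      exact hXq f hf hlT
    · refine huniq _ _ fun n hn => ?_
      have hcop : ¬ q ∣ n * l := fun d => (hq.dvd_mul.1 d).elim hn fun d' =>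
        hlq ((Nat.prime_dvd_prime_iff_eq hq Fact.out).1 d').symm
      have h := qCoeff_heckeFormsLin_eq (hK l Fact.out hlq) f (c' l)
        (mem_formEigen.1 hf l hlT) n
      rw [qCoeff_smul, ← hc l hlq, ← hX f hf n hn, ← h]
      by_cases hlN : l ∣ N
      · rw [if_pos hlN, qCoeff_heckeFormsLin_of_dvd hlN, hX f hf _ hcop]
      · rw [if_neg hlN, qCoeff_heckeFormsLin_of_not_dvd hlN, hX f hf _ hcop]
        by_cases hln : l ∣ n
        · rw [if_pos hln, if_pos hln,
            hX f hf _ fun d => hn (d.trans (Nat.div_dvd_of_dvd hln))]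
        · rw [if_neg hln, if_neg hln]
  let Φ : formEigen K T c' →ₗ[ℂ] formEigen N T c :=
    { toFun := fun f => ⟨X f, hmem f f.2⟩
      map_add' := fun f g => Subtype.ext (huniq _ _ fun n hn => by
        show qCoeff (X ↑(f + g)) n = qCoeff (X ↑f + X ↑g : S2 N) n
        rw [qCoeff_add, ← hX _ (f + g).2 n hn, ← hX _ f.2 n hn, ← hX _ g.2 n hn,
          Submodule.coe_add, qCoeff_add])
      map_smul' := fun a f => Subtype.ext (huniq _ _ fun n hn => by
        show qCoeff (X ↑(a • f)) n = qCoeff (a • X ↑f : S2 N) n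
        rw [qCoeff_smul, ← hX _ (a • f).2 n hn, ← hX _ f.2 n hn, Submodule.coe_smul,
          qCoeff_smul]) }
  have := MOD.cuspForm_finiteDimensional (N := N) (k := 2)
  exact LinearMap.finrank_le_finrank_of_injective (f := Φ) ((injective_iff_map_eq_zero Φ).2
    fun f h => Subtype.ext (hX0 f f.2 (congrArg Subtype.val h)))

/-- **Rank bound for `N → N q q` with `U_q = 0`.** -/
theorem finrank_formEigen_raiseTwo_le [NeZero (N * q * q)] {T : Set ℕ} {c c' : ℕ → ℂ}
    (hq : q.Prime) (hqN : ¬ q ∣ N) (hT : ∀ l : ℕ, l.Prime → ¬ l ∣ N → l ∈ T)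
    (hc : ∀ l : ℕ, l ≠ q → c' l = c l) (hcq : c' q = 0) (hne : formEigen N T c ≠ ⊥) :
    Module.finrank ℂ (formEigen (N * q * q) T c') ≤ Module.finrank ℂ (formEigen N T c) := by
  obtain ⟨M, hM, hMN, g, hg, hgl⟩ := exists_newform_formEigen hT hne
  have : NeZero M := ⟨hM.ne'⟩
  have : Fact q.Prime := ⟨hq⟩
  have hqM : ¬ q ∣ M := fun d => hqN (d.trans hMN)
  refine finrank_le_of_sieve hq hqN
    (fun l hl hlq => ⟨fun h => (h.mul_right q).mul_right q, fun h => by
      rcases hl.dvd_mul.1 h with h | h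
      · rcases hl.dvd_mul.1 h with h | h
        · exact h
        · exact absurd ((Nat.prime_dvd_prime_iff_eq hl hq).1 h) hlq
      · exact absurd ((Nat.prime_dvd_prime_iff_eq hl hq).1 h) hlq⟩) hc fun f hf => ?_
  have hspan : f ∈ spanDegen g (N * q * q) := mem_spanDegen hg _ f fun l hl hlK => by
    have : Fact l.Prime := ⟨hl⟩
    have hlN : ¬ l ∣ N := fun h => hlK ((h.mul_right q).mul_right q)
    have hlq : l ≠ q := fun h => hlK (by rw [h]; exact dvd_mul_left q _)
    have := mem_formEigen.1 hf l (hT l hl hlN)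
    rwa [HK.heckeFormsLin, dif_neg hlK, hc l hlq, ← hgl l hl hlN] at this
  obtain ⟨x, hx, he⟩ := exists_decomp (N := N) hq hqM 2 (by ring) hqN hspan
  have hT' := qCoeff_mul_of_spanDegen hg.1 hq hqN (hx 0)
  have hU : ∀ n, qCoeff f (n * q) = 0 := fun n => by
    have h := congrArg (fun G : S2 (N * q * q) => qCoeff G n)
      (mem_formEigen.1 hf q (hT q hq hqN))
    simpa [hcq, qCoeff_heckeFormsLin_of_dvd (dvd_mul_left q (N * q)), qCoeff_zero_fun] using h
  have hval : ∀ n, qCoeff f n = qCoeff (x 0) n + (if q ∣ n then qCoeff (x 1) (n / q) else 0) +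
      (if q * q ∣ n then qCoeff (x 2) (n / (q * q)) else 0) := fun n => by
    rw [he, Finset.sum_range_succ, Finset.sum_range_succ, Finset.sum_range_one]
    simp [pow_two]
  have hrel : ∀ n, qCoeff (qCoeff g q • x 0 + x 1 : S2 N) n +
      (if q ∣ n then qCoeff (x 2 - (q : ℂ) • x 0 : S2 N) (n / q) else 0) = 0 := fun n => by
    have h := hU n
    rw [hval, hT', if_pos (dvd_mul_left q n), Nat.mul_div_cancel _ hq.pos] at h
    rw [qCoeff_add, qCoeff_smul, qCoeff_sub, qCoeff_smul]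
    by_cases hn : q ∣ n
    · obtain ⟨m, rfl⟩ := hn
      rw [if_pos (dvd_mul_right q m)] at h ⊢
      rw [Nat.mul_div_cancel_left _ hq.pos] at h ⊢
      rw [mul_comm q m, mul_assoc, if_pos (dvd_mul_left _ m),
        Nat.mul_div_cancel _ (Nat.mul_pos hq.pos hq.pos)] at h
      rw [mul_comm q m]
      linear_combination h
    · rw [if_neg hn] at h ⊢
      rw [if_neg fun d => hn ((Nat.mul_dvd_mul_iff_right hq.pos).1 d)] at h
      linear_combination h
  have h1 : qCoeff g q • x 0 + x 1 = 0 := eq_zero_of_supported hq hqN _ fun n hn => by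
    simpa [hn] using hrel n
  have h2 : x 2 - (q : ℂ) • x 0 = 0 := eq_zero_of_qCoeff fun n => by
    simpa [h1, qCoeff_zero_fun, Nat.mul_div_cancel _ hq.pos] using hrel (n * q)
  refine ⟨x 0, fun _ _ => ?_, fun n hn => ?_, fun h0 => ?_⟩
  · refine ext_qCoeff fun n => ?_
    rw [qCoeff_heckeFormsLin_of_not_dvd hqN, qCoeff_smul, hT', ← hgl q hq hqN]
    ring
  · rw [hval, if_neg hn, if_neg fun d => hn ((dvd_mul_right q q).trans d), add_zero, add_zero]
  · rw [h0, smul_zero, zero_add] at h1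
    rw [h0, smul_zero, sub_zero] at h2
    exact eq_zero_of_qCoeff fun n => by simp [hval, h0, h1, h2, qCoeff_zero_fun]

/-- **Rank bound for `N → N q` with `U_q = α`.** -/
theorem finrank_formEigen_raiseOne_le [NeZero (N * q)] {T : Set ℕ} {c c' : ℕ → ℂ}
    (hq : q.Prime) (hqN : ¬ q ∣ N) (hT : ∀ l : ℕ, l.Prime → ¬ l ∣ N → l ∈ T)
    (hc : ∀ l : ℕ, l ≠ q → c' l = c l) (hne : formEigen N T c ≠ ⊥) :
    Module.finrank ℂ (formEigen (N * q) T c') ≤ Module.finrank ℂ (formEigen N T c) := by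
  obtain ⟨M, hM, hMN, g, hg, hgl⟩ := exists_newform_formEigen hT hne
  have : NeZero M := ⟨hM.ne'⟩
  have : Fact q.Prime := ⟨hq⟩
  have hqM : ¬ q ∣ M := fun d => hqN (d.trans hMN)
  refine finrank_le_of_sieve hq hqN
    (fun l hl hlq => ⟨fun h => h.mul_right q, fun h => by
      rcases hl.dvd_mul.1 h with h | h
      · exact h
      · exact absurd ((Nat.prime_dvd_prime_iff_eq hl hq).1 h) hlq⟩) hc fun f hf => ?_
  have hspan : f ∈ spanDegen g (N * q) := mem_spanDegen hg _ f fun l hl hlK => by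
    have : Fact l.Prime := ⟨hl⟩
    have hlN : ¬ l ∣ N := fun h => hlK (h.mul_right q)
    have hlq : l ≠ q := fun h => hlK (by rw [h]; exact dvd_mul_left q _)
    have := mem_formEigen.1 hf l (hT l hl hlN)
    rwa [HK.heckeFormsLin, dif_neg hlK, hc l hlq, ← hgl l hl hlN] at this
  obtain ⟨x, hx, he⟩ := exists_decomp (N := N) hq hqM 1 (by ring) hqN hspan
  have hT' := qCoeff_mul_of_spanDegen hg.1 hq hqN (hx 0)
  set α := c' q
  have hval : ∀ n, qCoeff f n = qCoeff (x 0) n + (if q ∣ n then qCoeff (x 1) (n / q) else 0) :=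
    fun n => by
      rw [he, Finset.sum_range_succ, Finset.sum_range_one]
      simp
  have hrel : ∀ n, qCoeff ((qCoeff g q - α) • x 0 + x 1 : S2 N) n +
      (if q ∣ n then qCoeff (-((q : ℂ) • x 0) - α • x 1 : S2 N) (n / q) else 0) = 0 := fun n => by
    have h := congrArg (fun G : S2 (N * q) => qCoeff G n) (mem_formEigen.1 hf q (hT q hq hqN))
    simp only [qCoeff_heckeFormsLin_of_dvd (dvd_mul_left q N), qCoeff_smul] at h
    rw [hval, hval, hT', if_pos (dvd_mul_left q n), Nat.mul_div_cancel _ hq.pos] at h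
    rw [qCoeff_add, qCoeff_smul, qCoeff_sub, ← neg_smul, qCoeff_smul, qCoeff_smul]
    by_cases hn : q ∣ n
    · rw [if_pos hn] at h ⊢
      rw [if_pos hn] at h
      linear_combination h
    · rw [if_neg hn] at h ⊢
      rw [if_neg hn] at h
      linear_combination h
  have h1 : (qCoeff g q - α) • x 0 + x 1 = 0 := eq_zero_of_supported hq hqN _ fun n hn => by
    simpa [hn] using hrel n
  refine ⟨x 0, fun _ _ => ?_, fun n hn => ?_, fun h0 => ?_⟩
  · refine ext_qCoeff fun n => ?_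
    rw [qCoeff_heckeFormsLin_of_not_dvd hqN, qCoeff_smul, hT', ← hgl q hq hqN]
    ring
  · rw [hval, if_neg hn, add_zero]
  · rw [h0, smul_zero, zero_add] at h1
    exact eq_zero_of_qCoeff fun n => by simp [hval, h0, h1, qCoeff_zero_fun]

end Raise

end Fermat.Agent.R59
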