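/-
Ranks of eigen lattices through the Eichler–Shimura isomorphism (owner: helper91).

`finrank_eigenClasses_eq`: for algebraic eigenvalues the rank over `𝒪` of the eigen classes is
twice the dimension of the eigenspace of cusp forms.
-/
import Fermat.Agent.R59.Setup
import Fermat.Agent.R59.RaiseForms
import Fermat.Agent.HK.TRep
import Mathlib.LinearAlgebra.LinearIndependent.BaseChange
import Mathlib.RingTheory.Localization.Integer
import Mathlib.LinearAlgebra.Matrix.Rank
import Mathlib.LinearAlgebra.FreeModule.PID

set_option autoImplicit false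

noncomputable section

open CongruenceSubgroup Matrix Function
open scoped MatrixGroups

namespace Fermat.Agent.R59

section Rows

variable {J : Type*} {r : ℕ}

/-- The vectors killed by the rows `v`. -/
def kerRows {R : Type*} [CommRing R] (v : J → Fin r → R) : Submodule R (Fin r → R) :=
  LinearMap.ker (Matrix.of v).mulVecLin

theorem mem_kerRows {R : Type*} [CommRing R] {v : J → Fin r → R} {x : Fin r → R} :
    x ∈ kerRows v ↔ ∀ i, v i ⬝ᵥ x = 0 := by
  rw [kerRows, LinearMap.mem_ker]
  exact funext_iff

theorem map_dotProduct {R S : Type*} [CommRing R] [CommRing S] (φ : R →+* S) (a b : Fin r → R) :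
    φ (a ⬝ᵥ b) = (φ ∘ a) ⬝ᵥ (φ ∘ b) := by
  simp [dotProduct, map_sum, map_mul]

theorem finrank_kerRows_of_linearIndependent {κ : Type*} [Fintype κ] {F : Type*} [Field F]
    {w : κ → Fin r → F} (h : LinearIndependent F w) :
    Fintype.card κ + Module.finrank F (kerRows w) = r := by
  have h1 := LinearMap.finrank_range_add_finrank_ker (Matrix.of w).mulVecLin
  rwa [Module.finrank_pi, Fintype.card_fin,
    show Module.finrank F (LinearMap.range (Matrix.of w).mulVecLin) = Fintype.card κ from
      (h : LinearIndependent F (Matrix.of w).row).rank_matrix] at h1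

/-- Dimensions of solution spaces are invariant under field extensions. -/
theorem finrank_kerRows_map {F L : Type*} [Field F] [Field L] (φ : F →+* L)
    (v : J → Fin r → F) :
    Module.finrank L (kerRows fun i => φ ∘ v i) = Module.finrank F (kerRows v) := by
  obtain ⟨κ, a, -, hspan, hli⟩ := exists_linearIndependent' F v
  have : Finite κ := hli.finite
  let := Fintype.ofFinite κ
  let := φ.toAlgebra
  have hli' : LinearIndependent L fun i => φ ∘ v (a i) :=
    (linearIndependent_algebraMap_comp_iff (R := F) (S := L) (v := v ∘ a)).2 hli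
  have hcomb : ∀ i, ∃ c : κ → F, ∑ j, c j • v (a j) = v i := fun i =>
    Submodule.mem_span_range_iff_exists_fun F |>.1
      (hspan.symm ▸ Submodule.subset_span (Set.mem_range_self i))
  have e1 : kerRows v = kerRows (v ∘ a) := le_antisymm
    (fun x hx => mem_kerRows.2 fun j => mem_kerRows.1 hx (a j))
    fun x hx => mem_kerRows.2 fun i => by
      obtain ⟨c, hc⟩ := hcomb i
      rw [← hc, sum_dotProduct]
      exact Finset.sum_eq_zero fun j _ => by
        rw [smul_dotProduct, show v (a j) ⬝ᵥ x = 0 from mem_kerRows.1 hx j, smul_zero]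
  have e2 : kerRows (fun i => φ ∘ v i) = kerRows (fun j => φ ∘ v (a j)) := le_antisymm
    (fun x hx => mem_kerRows.2 fun j => mem_kerRows.1 hx (a j))
    fun x hx => mem_kerRows.2 fun i => by
      obtain ⟨c, hc⟩ := hcomb i
      have e : φ ∘ v i = ∑ j, φ (c j) • (φ ∘ v (a j)) := by
        ext s; simp [← hc, map_sum, Finset.sum_apply]
      rw [e, sum_dotProduct]
      exact Finset.sum_eq_zero fun j _ => by
        rw [smul_dotProduct, mem_kerRows.1 hx j, smul_zero]
  have h1 := finrank_kerRows_of_linearIndependent hli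
  have h2 := finrank_kerRows_of_linearIndependent hli'
  rw [e1, e2]
  omega

/-- Solution spaces over a principal ideal domain and over its fraction field. -/
theorem finrank_kerRows_fractionRing {R K : Type*} [CommRing R] [IsDomain R]
    [IsPrincipalIdealRing R] [Field K] [Algebra R K] [IsFractionRing R K] (v : J → Fin r → R) :
    Module.finrank K (kerRows fun i => algebraMap R K ∘ v i) =
      Module.finrank R (kerRows v) := by
  let b := Module.Free.chooseBasis R (kerRows v)
  let := Fintype.ofFinite (Module.Free.ChooseBasisIndex R (kerRows v))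
  set w : Module.Free.ChooseBasisIndex R (kerRows v) → kerRows (fun i => algebraMap R K ∘ v i) :=
    fun j => ⟨algebraMap R K ∘ (b j : Fin r → R), mem_kerRows.2 fun i => by
      rw [← map_dotProduct, mem_kerRows.1 (b j).2 i, map_zero]⟩
  have hli : LinearIndependent K w := by
    refine LinearIndependent.of_comp (Submodule.subtype _) ?_
    exact (linearIndependent_algebraMap_comp_iff (R := R) (S := K)
      (v := fun j => (b j : Fin r → R))).2
        (b.linearIndependent.map' (kerRows v).subtype (Submodule.ker_subtype _))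
  have hsp : ⊤ ≤ Submodule.span K (Set.range w) := by
    rintro ⟨x, hx⟩ -
    obtain ⟨c, hc⟩ := IsLocalization.exist_integer_multiples_of_finite (nonZeroDivisors R) x
    choose y hy using hc
    have hcK : algebraMap R K (c : R) ≠ 0 :=
      (map_ne_zero_iff _ (IsFractionRing.injective R K)).2 (nonZeroDivisors.ne_zero c.2)
    have hy' : algebraMap R K ∘ y = algebraMap R K (c : R) • x := funext fun i => by
      rw [Function.comp_apply, hy i, Pi.smul_apply, smul_eq_mul, Algebra.smul_def]
    have hyk : y ∈ kerRows v := mem_kerRows.2 fun i => IsFractionRing.injective R K (by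
      rw [map_dotProduct, hy', dotProduct_smul, mem_kerRows.1 hx i, smul_zero, map_zero])
    refine (Submodule.mem_span_range_iff_exists_fun K).2
      ⟨fun j => (algebraMap R K (c : R))⁻¹ * algebraMap R K (b.repr ⟨y, hyk⟩ j), ?_⟩
    refine Subtype.ext (funext fun i => ?_)
    have e := congrArg (fun z : kerRows v => algebraMap R K ((z : Fin r → R) i))
      (b.sum_repr ⟨y, hyk⟩)
    simp only [Submodule.coe_sum, Submodule.coe_smul, Finset.sum_apply, Pi.smul_apply,
      smul_eq_mul, map_sum, map_mul] at e
    have e' : algebraMap R K (y i) = algebraMap R K (c : R) * x i := congrFun hy' i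
    simp only [w, Submodule.coe_sum, Submodule.coe_smul, Finset.sum_apply, Pi.smul_apply,
      smul_eq_mul, Function.comp_apply, mul_assoc, ← Finset.mul_sum, e, e']
    rw [← mul_assoc, inv_mul_cancel₀ hcK, one_mul]
  rw [Module.finrank_eq_card_basis b, Module.finrank_eq_card_basis (Module.Basis.mk hli hsp)]

end Rows

section Hecke

open HK

variable (N : ℕ) [NeZero N]

/-- The rows of the equations `T_l = e l`, `l ∈ T`, in the natural coordinates. -/
def eigRows {R : Type} [CommRing R] (T : Set ℕ) (e : ℕ → R)
    (x : {l : ℕ // l.Prime ∧ l ∈ T} × Fin (MF.ParHom.parRank N)) :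
    Fin (MF.ParHom.parRank N) → R :=
  fun j => ((haveI := Fact.mk x.1.2.1; heckeMatZ N x.1.1) x.2 j : R) -
    if x.2 = j then e x.1.1 else 0

theorem eigRows_map {R S : Type} [CommRing R] [CommRing S] (φ : R →+* S) (T : Set ℕ) (e : ℕ → R)
    (x : {l : ℕ // l.Prime ∧ l ∈ T} × Fin (MF.ParHom.parRank N)) :
    φ ∘ eigRows N T e x = eigRows N T (φ ∘ e) x := by
  ext j
  simp only [eigRows, Function.comp_apply, map_sub, map_intCast, apply_ite φ, map_zero]

theorem eigRows_dotProduct {R : Type} [CommRing R] [IsAddTorsionFree R] (T : Set ℕ) (e : ℕ → R)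
    (l : ℕ) (hl : l.Prime) (hlT : l ∈ T) (i : Fin (MF.ParHom.parRank N)) (x : HSpace N R) :
    eigRows N T e (⟨l, hl, hlT⟩, i) ⬝ᵥ hCoord N R x =
      hCoord N R (haveI := Fact.mk hl; heckeEnd N l R x) i - e l * hCoord N R x i := by
  have : Fact l.Prime := ⟨hl⟩
  have h : hCoord N R (heckeEnd N l R x) =
      ((heckeMatZ N l).map (Int.castRingHom R)) *ᵥ hCoord N R x := by
    rw [← hMatrix_heckeEnd l R]
    show _ = LinearMap.toMatrix' ((hCoord N R).conjAlgEquiv R (heckeEnd N l R)) *ᵥ hCoord N R x
    rw [LinearMap.toMatrix'_mulVec]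
    simp [LinearEquiv.conjAlgEquiv_apply]
  rw [h]
  simp only [eigRows, dotProduct, mulVec, Matrix.map_apply, eq_intCast, sub_mul,
    Finset.sum_sub_distrib, ite_mul, zero_mul, Finset.sum_ite_eq, Finset.mem_univ, if_true]

theorem finrank_eigenClasses_kerRows {R : Type} [CommRing R] [IsAddTorsionFree R] (T : Set ℕ)
    (e : ℕ → R) :
    Module.finrank R (eigenClasses N R T e) = Module.finrank R (kerRows (eigRows N T e)) := by
  have : (eigenClasses N R T e).map (hCoord N R).toLinearMap = kerRows (eigRows N T e) := by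
    ext y
    obtain ⟨x, rfl⟩ := (hCoord N R).surjective y
    rw [Submodule.mem_map_equiv, LinearEquiv.symm_apply_apply, mem_eigenClasses, mem_kerRows]
    constructor
    · rintro h ⟨⟨l, hl, hlT⟩, i⟩
      rw [eigRows_dotProduct N T e l hl hlT i x, @h l hlT ⟨hl⟩, map_smul, Pi.smul_apply, smul_eq_mul, sub_self]
    · intro h l hlT hf
      refine (hCoord N R).injective (funext fun i => ?_)
      have := h (⟨l, hf.out, hlT⟩, i)
      rw [eigRows_dotProduct N T e l hf.out hlT i x, sub_eq_zero] at this
      rw [map_smul, Pi.smul_apply, smul_eq_mul, ← this]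
  rw [← this, LinearEquiv.finrank_map_eq]

/-- Over `ℂ`: two copies of the eigenspace of cusp forms. -/
theorem finrank_eigenClasses_complex (T : Set ℕ) (c : ℕ → ℂ) :
    Module.finrank ℂ (eigenClasses N ℂ T c) = 2 * Module.finrank ℂ (formEigen N T c) := by
  have := MOD.cuspForm_finiteDimensional (N := N) (k := 2)
  let F : (formEigen N T c × formEigen N T c) →ₗ[ℂ] HSpace N ℂ :=
    (periodEquiv N).toLinearMap.comp ((formEigen N T c).subtype.prodMap (formEigen N T c).subtype)
  have hF : Injective F := (periodEquiv N).injective.comp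
    (Prod.map_injective.2 ⟨Subtype.val_injective, Subtype.val_injective⟩)
  have hrange : LinearMap.range F = eigenClasses N ℂ T c := by
    ext y
    obtain ⟨⟨f, g⟩, rfl⟩ := (periodEquiv N).surjective y
    rw [mem_eigenClasses]
    constructor
    · rintro ⟨⟨a, b⟩, hab⟩ l hlT _
      obtain ⟨rfl, rfl⟩ := Prod.mk.inj ((periodEquiv N).injective hab)
      rw [heckeEnd_periodEquiv, ← map_smul, Prod.smul_mk]
      exact congrArg _ (Prod.ext (mem_formEigen.1 a.2 l hlT) (mem_formEigen.1 b.2 l hlT))
    · intro h
      have hl : ∀ l ∈ T, ∀ [Fact l.Prime], HK.heckeFormsLin N l f = c l • f ∧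
          HK.heckeFormsLin N l g = c l • g := fun l hlT _ => by
        have := h l hlT
        rw [heckeEnd_periodEquiv, ← map_smul, Prod.smul_mk] at this
        exact Prod.mk.inj ((periodEquiv N).injective this)
      exact ⟨(⟨f, mem_formEigen.2 fun l hlT _ => (hl l hlT).1⟩,
        ⟨g, mem_formEigen.2 fun l hlT _ => (hl l hlT).2⟩), rfl⟩
  rw [← hrange, LinearMap.finrank_range_of_inj hF, Module.finrank_prod, two_mul]

/-- **Ranks of eigen lattices and dimensions of eigenspaces of cusp forms.** -/
theorem finrank_eigenClasses_eq {𝒪 : Type} [CommRing 𝒪] [IsDomain 𝒪] [IsPrincipalIdealRing 𝒪]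
    [CharZero 𝒪] {F : Type} [Field F] (ι : F →+* FractionRing 𝒪) (σ : F →+* ℂ) (T : Set ℕ)
    (e : ℕ → 𝒪) (e' : ℕ → F)
    (he : ∀ l : ℕ, l.Prime → l ∈ T → ι (e' l) = algebraMap 𝒪 (FractionRing 𝒪) (e l)) :
    Module.finrank 𝒪 (eigenClasses N 𝒪 T e) =
      2 * Module.finrank ℂ (formEigen N T (σ ∘ e')) := by
  have : IsAddTorsionFree 𝒪 := inferInstance
  have hF : CharZero F := ι.charZero
  have h1 : Module.finrank (FractionRing 𝒪) (kerRows fun x => ι ∘ eigRows N T e' x) =
      Module.finrank 𝒪 (kerRows (eigRows N T e)) := by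
    have e1 : (fun x => ι ∘ eigRows N T e' x) =
        fun x => algebraMap 𝒪 (FractionRing 𝒪) ∘ eigRows N T e x := funext fun x => by
      ext j
      simp only [eigRows, Function.comp_apply, map_sub, map_intCast, apply_ite, map_zero,
        he _ x.1.2.1 x.1.2.2]
      split_ifs <;> rfl
    rw [e1]
    exact finrank_kerRows_fractionRing _
  have h2 : Module.finrank ℂ (kerRows fun x => σ ∘ eigRows N T e' x) =
      2 * Module.finrank ℂ (formEigen N T (σ ∘ e')) := by
    rw [← finrank_eigenClasses_complex, finrank_eigenClasses_kerRows,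
      show (fun x => σ ∘ eigRows N T e' x) = eigRows N T (σ ∘ e') from
        funext (eigRows_map N σ T e')]
  rw [finrank_kerRows_map] at h1 h2
  rw [finrank_eigenClasses_kerRows, ← h1, h2]

end Hecke

end Fermat.Agent.R59
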