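/-
One step of level raising on eigen lattices (owner: helper91).

* `eig_raiseTwo`: `N → N q q` with `U_q = 0`, `q ≠ p`;
* `eig_raiseOne`: `N → N q` with `U_q = α` (also `q = p`).

In both cases the rank is preserved and the length of the congruence module of the twisted pairing
grows by `rank · ord c`.
-/
import Fermat.Agent.R59.RaiseTwist
import Fermat.Agent.R59.FrickeHecke
import Fermat.Agent.R59.RaiseLinAlg
import Mathlib.FieldTheory.IsAlgClosed.Basic
import Mathlib.FieldTheory.AlgebraicClosure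

set_option autoImplicit false

noncomputable section

open CongruenceSubgroup Function IsLocalRing
open scoped MatrixGroups

namespace Fermat.Agent.R59

open CongMod

variable {𝒪 : Type} [CommRing 𝒪] [IsDomain 𝒪] [IsDiscreteValuationRing 𝒪] [CharZero 𝒪]

omit [IsDiscreteValuationRing 𝒪] [CharZero 𝒪] in
theorem hSpace_smul_cancel {N : ℕ} [NeZero N] {c : 𝒪} (hc : c ≠ 0) {x y : HK.HSpace N 𝒪}
    (h : c • x = c • y) : x = y :=
  (HK.HSpace.toParHom N 𝒪).injective (hp_smul_cancel hc (by rw [← map_smul, h, map_smul]))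

omit [IsDiscreteValuationRing 𝒪] in
theorem finite_hSpace (N : ℕ) [NeZero N] : Module.Finite 𝒪 (HK.HSpace N 𝒪) :=
  Module.Finite.equiv (HK.hCoord N 𝒪).symm

omit [IsDiscreteValuationRing 𝒪] in
theorem free_hSpace (N : ℕ) [NeZero N] : Module.Free 𝒪 (HK.HSpace N 𝒪) :=
  Module.Free.of_equiv (HK.hCoord N 𝒪).symm

omit [CharZero 𝒪] [IsDiscreteValuationRing 𝒪] in
/-- `ord` only depends on the associate class. -/
theorem ord_eq_of_associated {a b : 𝒪} (h : Associated a b) : Ring.ord 𝒪 a = Ring.ord 𝒪 b := by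
  rw [Ring.ord, Ring.ord, Ideal.span_singleton_eq_span_singleton.mpr h]

omit [IsDiscreteValuationRing 𝒪] [CharZero 𝒪] in
theorem eigenClasses_saturated (N : ℕ) [NeZero N] (T : Set ℕ) (e : ℕ → 𝒪) (c : 𝒪)
    (x : HK.HSpace N 𝒪) (hc : c ≠ 0) (h : c • x ∈ eigenClasses N 𝒪 T e) :
    x ∈ eigenClasses N 𝒪 T e := by
  rw [mem_eigenClasses] at h ⊢
  intro l hl _
  refine hSpace_smul_cancel hc ?_
  rw [← map_smul, h l hl, smul_comm]

omit [IsDiscreteValuationRing 𝒪] [IsDomain 𝒪] in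
theorem charZero_fractionRing : CharZero (FractionRing 𝒪) :=
  charZero_of_injective_algebraMap (IsFractionRing.injective 𝒪 (FractionRing 𝒪))

/-- The element is algebraic over `ℚ`. -/
def IsAlgVal (x : 𝒪) : Prop :=
  haveI := charZero_fractionRing (𝒪 := 𝒪)
  IsIntegral ℚ (algebraMap 𝒪 (FractionRing 𝒪) x)

/-- Ranks of eigen lattices with algebraic values are dimensions of eigenspaces of forms for a
common embedding. -/
theorem exists_complex_values (T : Set ℕ) (e : ℕ → 𝒪)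
    (he : ∀ l : ℕ, l.Prime → l ∈ T → IsAlgVal (e l)) (q : ℕ) (v : 𝒪) (hv : IsAlgVal v) :
    ∃ (c : ℕ → ℂ) (w : ℂ), (v = 0 → w = 0) ∧
      (∀ (K : ℕ) [NeZero K],
        Module.finrank 𝒪 (eigenClasses K 𝒪 T e) = 2 * Module.finrank ℂ (formEigen K T c)) ∧
      ∀ (K : ℕ) [NeZero K], Module.finrank 𝒪 (eigenClasses K 𝒪 T (update e q v)) =
        2 * Module.finrank ℂ (formEigen K T (update c q w)) := by
  classical
  have := charZero_fractionRing (𝒪 := 𝒪)
  let F := algebraicClosure ℚ (FractionRing 𝒪)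
  have : Algebra.IsAlgebraic ℚ F := algebraicClosure.isAlgebraic ℚ (FractionRing 𝒪)
  let σ : F →ₐ[ℚ] ℂ := IsAlgClosed.lift
  let ι : F →+* FractionRing 𝒪 := F.val.toRingHom
  let lift' : 𝒪 → F := fun x => if h : IsAlgVal x then
    ⟨algebraMap 𝒪 (FractionRing 𝒪) x, mem_algebraicClosure_iff.mpr h.isAlgebraic⟩ else 0
  have hlift : ∀ x, IsAlgVal x → ι (lift' x) = algebraMap 𝒪 (FractionRing 𝒪) x := fun x hx => by
    simp only [lift', dif_pos hx]; rfl
  refine ⟨fun l => σ (lift' (e l)), σ (lift' v), ?_, fun K _ => ?_, fun K _ => ?_⟩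
  · rintro rfl
    have : lift' 0 = 0 := ι.injective (by rw [hlift 0 hv, map_zero, map_zero])
    rw [this, map_zero]
  · exact finrank_eigenClasses_eq K ι σ.toRingHom T e (fun l => lift' (e l))
      fun l hl hlT => hlift _ (he l hl hlT)
  · have hu : update (fun l => σ (lift' (e l))) q (σ (lift' v)) =
        σ.toRingHom ∘ update (fun l => lift' (e l)) q (lift' v) := by
      rw [Function.comp_update]; rfl
    rw [hu]
    refine finrank_eigenClasses_eq K ι σ.toRingHom T _ _ fun l hl hlT => ?_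
    by_cases hlq : l = q
    · subst hlq; rw [update_self, update_self]; exact hlift _ hv
    · rw [update_of_ne hlq, update_of_ne hlq]; exact hlift _ (he l hl hlT)

variable {p : ℕ} [hp : Fact p.Prime] [CharP (ResidueField 𝒪) p] {N q l : ℕ} [NeZero N]

/-- **Raising at `q ≠ p`.** -/
theorem eig_raiseTwo [NeZero (N * q * q)] (hp2 : p ≠ 2) (hq : q.Prime) (hpq : p ≠ q)
    (hqN : ¬ q ∣ N) (hl : l.Prime) (hlN : ¬ l ∣ N) (hlq : l ≠ q) {T : Set ℕ}
    (hT : ∀ r : ℕ, r.Prime → ¬ r ∣ N → r ∈ T) {e : ℕ → 𝒪}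
    (ha : IsUnit (e l - ((l + 1 : ℕ) : 𝒪)))
    (halg : ∀ r : ℕ, r.Prime → r ∈ T → IsAlgVal (e r))
    (hne : Module.finrank 𝒪 (eigenClasses N 𝒪 T e) ≠ 0) :
    Module.finrank 𝒪 (eigenClasses (N * q * q) 𝒪 T (update e q 0)) =
        Module.finrank 𝒪 (eigenClasses N 𝒪 T e) ∧
      Module.length 𝒪 (NumCrit.CongModule (twistedPairing (N * q * q) 𝒪)
          (eigenClasses (N * q * q) 𝒪 T (update e q 0))) =
        Module.length 𝒪 (NumCrit.CongModule (twistedPairing N 𝒪) (eigenClasses N 𝒪 T e)) +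
          Module.finrank 𝒪 (eigenClasses N 𝒪 T e) *
            Ring.ord 𝒪 (((q : 𝒪) - 1) * (e q ^ 2 - ((q : 𝒪) + 1) ^ 2)) := by
  classical
  have : Fact q.Prime := ⟨hq⟩
  have : Fact l.Prime := ⟨hl⟩
  have : NeZero q := ⟨hq.ne_zero⟩
  have := finite_hSpace (𝒪 := 𝒪) N
  have := free_hSpace (𝒪 := 𝒪) N
  have := finite_hSpace (𝒪 := 𝒪) (N * q * q)
  have := free_hSpace (𝒪 := 𝒪) (N * q * q)
  set L₀ := eigenClasses N 𝒪 T e
  set L₁ := eigenClasses (N * q * q) 𝒪 T (update e q 0)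
  set i := raiseTwoH 𝒪 N q
  have hlq' : ¬ l ∣ q := fun h => hlq ((Nat.prime_dvd_prime_iff_eq hl hq).mp h)
  have hqT : q ∈ T := hT q hq hqN
  have hlT : l ∈ T := hT l hl hlN
  have hle : ∀ x ∈ L₀, i x ∈ L₁ := by
    intro x hx
    rw [mem_eigenClasses] at hx ⊢
    intro r hr _
    refine heckeEnd_eq_of_heckeP ?_
    rw [toParHom_raiseTwoH]
    by_cases hrq : r = q
    · subst hrq
      rw [update_self, zero_smul, heckeP_raiseTwo hqN]
    · have hrq' : ¬ r ∣ q := fun h => hrq ((Nat.prime_dvd_prime_iff_eq Fact.out hq).mp h)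
      have h1 := heckeP_eq_of_heckeEnd (hx r hr)
      have h2 := heckeP_eq_of_heckeEnd (hx q hqT)
      rw [update_of_ne hrq, heckeP_raiseTwo_comm hrq' _
        (by rw [h2, map_smul, h1, map_smul, h2, smul_comm]), h1, map_smul]
  have hinj : ∀ x ∈ L₀, i x = 0 → x = 0 := fun x hx h => by
    apply (HK.HSpace.toParHom N 𝒪).injective
    rw [map_zero]
    refine raiseTwo_eq_zero hp2 hpq hqN hlN hlq' ha
      (heckeP_eq_of_heckeEnd (mem_eigenClasses N 𝒪 |>.mp hx l hlT)) ?_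
    rw [← toParHom_raiseTwoH, h, map_zero]
  -- the rank
  have hge : Module.finrank 𝒪 L₀ ≤ Module.finrank 𝒪 L₁ := by
    refine LinearMap.finrank_le_finrank_of_injective
      (f := (i.comp L₀.subtype).codRestrict L₁ fun x => hle x x.2)
      ((injective_iff_map_eq_zero _).mpr fun x h =>
        Subtype.ext (hinj x x.2 (congrArg Subtype.val h)))
  have hrank : Module.finrank 𝒪 L₁ = Module.finrank 𝒪 L₀ := by
    obtain ⟨c, w, hw, hc0, hc1⟩ := exists_complex_values T e halg q 0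
      (by rw [IsAlgVal, map_zero]; exact isIntegral_zero)
    refine le_antisymm ?_ hge
    rw [hw rfl] at hc1
    rw [show Module.finrank 𝒪 L₁ = _ from hc1 (N * q * q), show Module.finrank 𝒪 L₀ = _ from hc0 N]
    refine Nat.mul_le_mul_left 2 (finrank_formEigen_raiseTwo_le hq hqN hT
      (fun r hr => update_of_ne hr _ _) (update_self _ _ _) fun hbot => hne ?_)
    rw [show Module.finrank 𝒪 L₀ = _ from hc0 N, hbot, finrank_bot, mul_zero]
  refine ⟨hrank, ?_⟩
  have hL : L₀.map i = L₁ := by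
    refine map_eq_of_saturated i L₀ L₁ hle hinj hrank fun c x y hc hx hxy => ?_
    obtain ⟨x', hx', he⟩ := raiseTwo_saturated hp2 hpq hqN hlN hlq' ha hc
      (heckeP_eq_of_heckeEnd (mem_eigenClasses N 𝒪 |>.mp hx l hlT))
      (y := HK.HSpace.toParHom (N * q * q) 𝒪 y) (by rw [← map_smul, hxy]; rfl)
    refine ⟨(HK.HSpace.toParHom N 𝒪).symm x', eigenClasses_saturated N T e c _ hc ?_, ?_⟩
    · rw [← map_smul, hx', LinearEquiv.symm_apply_apply]; exact hx
    · apply (HK.HSpace.toParHom (N * q * q) 𝒪).injective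
      rw [toParHom_raiseTwoH, LinearEquiv.apply_symm_apply, he]
  rw [length_congModule_eq_add' (twistedPairing N 𝒪) (twistedPairing (N * q * q) 𝒪) L₀ L₁ i hinj
    hL (c := ((q : 𝒪) - 1) * (((q : 𝒪) + 1) ^ 2 - e q ^ 2)) fun x hx y hy =>
      twistedPairing_raiseTwoH hqN (mem_eigenClasses N 𝒪 |>.mp hx q hqT)
        (mem_eigenClasses N 𝒪 |>.mp hy q hqT)
        (heckeEnd_fricke_of_eigen hqN (mem_eigenClasses N 𝒪 |>.mp hy q hqT))]
  congr 2
  exact ord_eq_of_associated ⟨-1, by push_cast; ring⟩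

/-- **Raising to level `N q` with a unit root.** -/
theorem eig_raiseOne [NeZero (N * q)] (hp2 : p ≠ 2) (hq : q.Prime) (hqN : ¬ q ∣ N) (hl : l.Prime)
    (hlN : ¬ l ∣ N) (hlq : l ≠ q) {T : Set ℕ}
    (hT : ∀ r : ℕ, r.Prime → ¬ r ∣ N → r ∈ T) {e : ℕ → 𝒪}
    (ha : IsUnit (e l - ((l + 1 : ℕ) : 𝒪)))
    (halg : ∀ r : ℕ, r.Prime → r ∈ T → IsAlgVal (e r)) {α : 𝒪} (hα : α ^ 2 + (q : 𝒪) = e q * α)
    (halgα : IsAlgVal α) (hαu : IsUnit α) (hqu : IsUnit (α ^ 2 - (q : 𝒪)))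
    (hne : Module.finrank 𝒪 (eigenClasses N 𝒪 T e) ≠ 0) :
    Module.finrank 𝒪 (eigenClasses (N * q) 𝒪 T (update e q α)) =
        Module.finrank 𝒪 (eigenClasses N 𝒪 T e) ∧
      Module.length 𝒪 (NumCrit.CongModule (twistedPairing (N * q) 𝒪)
          (eigenClasses (N * q) 𝒪 T (update e q α))) =
        Module.length 𝒪 (NumCrit.CongModule (twistedPairing N 𝒪) (eigenClasses N 𝒪 T e)) +
          Module.finrank 𝒪 (eigenClasses N 𝒪 T e) * Ring.ord 𝒪 (α ^ 2 - 1) := by
  classical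
  have : Fact q.Prime := ⟨hq⟩
  have : Fact l.Prime := ⟨hl⟩
  have : NeZero q := ⟨hq.ne_zero⟩
  have := finite_hSpace (𝒪 := 𝒪) N
  have := free_hSpace (𝒪 := 𝒪) N
  have := finite_hSpace (𝒪 := 𝒪) (N * q)
  have := free_hSpace (𝒪 := 𝒪) (N * q)
  set L₀ := eigenClasses N 𝒪 T e
  set L₁ := eigenClasses (N * q) 𝒪 T (update e q α)
  set i := raiseOneH 𝒪 N q α
  have hqT : q ∈ T := hT q hq hqN
  have hlT : l ∈ T := hT l hl hlN
  have hle : ∀ x ∈ L₀, i x ∈ L₁ := by
    intro x hx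
    rw [mem_eigenClasses] at hx ⊢
    intro r hr _
    refine heckeEnd_eq_of_heckeP ?_
    rw [toParHom_raiseOneH]
    by_cases hrq : r = q
    · subst hrq
      rw [update_self]
      exact heckeP_raiseOne hqN hα _ (heckeP_eq_of_heckeEnd (hx r hqT))
    · have hrq' : ¬ r ∣ q := fun h => hrq ((Nat.prime_dvd_prime_iff_eq Fact.out hq).mp h)
      rw [update_of_ne hrq, heckeP_raiseOne_comm hrq', heckeP_eq_of_heckeEnd (hx r hr), map_smul]
  have hinj : ∀ x ∈ L₀, i x = 0 → x = 0 := fun x hx h => by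
    apply (HK.HSpace.toParHom N 𝒪).injective
    rw [map_zero]
    refine raiseOne_eq_zero (α := α) (q := q) hp2 hqN hlN ha
      (heckeP_eq_of_heckeEnd (mem_eigenClasses N 𝒪 |>.mp hx l hlT)) ?_
    rw [← toParHom_raiseOneH, h, map_zero]
  have hge : Module.finrank 𝒪 L₀ ≤ Module.finrank 𝒪 L₁ := by
    refine LinearMap.finrank_le_finrank_of_injective
      (f := (i.comp L₀.subtype).codRestrict L₁ fun x => hle x x.2)
      ((injective_iff_map_eq_zero _).mpr fun x h =>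
        Subtype.ext (hinj x x.2 (congrArg Subtype.val h)))
  have hrank : Module.finrank 𝒪 L₁ = Module.finrank 𝒪 L₀ := by
    obtain ⟨c, w, -, hc0, hc1⟩ := exists_complex_values T e halg q α halgα
    refine le_antisymm ?_ hge
    rw [show Module.finrank 𝒪 L₁ = _ from hc1 (N * q), show Module.finrank 𝒪 L₀ = _ from hc0 N]
    refine Nat.mul_le_mul_left 2 (finrank_formEigen_raiseOne_le hq hqN hT
      (fun r hr => update_of_ne hr _ _) fun hbot => hne ?_)
    rw [show Module.finrank 𝒪 L₀ = _ from hc0 N, hbot, finrank_bot, mul_zero]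
  refine ⟨hrank, ?_⟩
  have hL : L₀.map i = L₁ := by
    refine map_eq_of_saturated i L₀ L₁ hle hinj hrank fun c x y hc hx hxy => ?_
    obtain ⟨x', hx', he⟩ := raiseOne_saturated (α := α) hp2 hqN hlN ha hc
      (heckeP_eq_of_heckeEnd (mem_eigenClasses N 𝒪 |>.mp hx l hlT))
      (y := HK.HSpace.toParHom (N * q) 𝒪 y) (by rw [← map_smul, hxy]; rfl)
    refine ⟨(HK.HSpace.toParHom N 𝒪).symm x', eigenClasses_saturated N T e c _ hc ?_, ?_⟩
    · rw [← map_smul, hx', LinearEquiv.symm_apply_apply]; exact hx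
    · apply (HK.HSpace.toParHom (N * q) 𝒪).injective
      rw [toParHom_raiseOneH, LinearEquiv.apply_symm_apply, he]
  rw [length_congModule_eq_add' (twistedPairing N 𝒪) (twistedPairing (N * q) 𝒪) L₀ L₁ i hinj
    hL (c := e q * (α ^ 2 + 1) - 2 * α * ((q : 𝒪) + 1)) fun x hx y hy =>
      twistedPairing_raiseOneH hqN α (mem_eigenClasses N 𝒪 |>.mp hx q hqT)
        (mem_eigenClasses N 𝒪 |>.mp hy q hqT)
        (heckeEnd_fricke_of_eigen hqN (mem_eigenClasses N 𝒪 |>.mp hy q hqT))]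
  congr 2
  refine ord_eq_of_associated ?_
  obtain ⟨u, hu⟩ := hαu
  obtain ⟨v, hv⟩ := hqu
  refine ⟨u * v⁻¹, mul_right_cancel₀ v.ne_zero ?_⟩
  rw [mul_assoc _ (((u * v⁻¹ : 𝒪ˣ)) : 𝒪), ← Units.val_mul, inv_mul_cancel_right, hu, hv]
  linear_combination (-(α ^ 2 + 1)) * hα

end Fermat.Agent.R59
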