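import Fermat.Agent.R59.TopSplit

/-!
# Hecke Galois representations at mixed levels

`StmtHeckeRep`: at level `(∏ A) * (∏ B)² * p^e` the localised Hecke algebra carries a deformation
of `ρbar` which is unramified outside `A ∪ B ∪ {p}` and unipotent on inertia at the primes of `A`.
`StmtTopRep` and the representations of the base and Taylor–Wiles levels are special cases.
-/

set_option autoImplicit false
set_option synthInstance.maxHeartbeats 400000

noncomputable section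

open IsLocalRing CuspForm

namespace Fermat.Agent.R59

/-- The level `(∏ A) * (∏ B)² * p^e` of a kind. -/
def mixLevel (p : ℕ) (k : Kind) (A B : Finset ℕ) : ℕ :=
  (∏ q ∈ A, q) * (∏ q ∈ B, q) ^ 2 * p ^ k.pExp

theorem fullLevel_eq_mixLevel (W : WeierstrassCurve ℤ) (p : ℕ) (k : Kind) :
    fullLevel W p k = mixLevel p k (ramPrimes W p) (raisePrimes W p) := rfl

variable {W : WeierstrassCurve ℤ} {p : ℕ} {k : Kind}

/-- A residual character given by the base point. -/
def Setup.IsResidChar (U : Setup W p k) (N : ℕ) [NeZero N] (S : Set ℕ)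
    (θ : ↥(CuspForm.heckeAlgebra N 2 S) →+* ResidueField U.𝒪) : Prop :=
  ∀ (ℓ : ℕ) (hℓ : ℓ.Prime) (hℓN : ¬ ℓ ∣ N) (hℓS : ℓ ∉ S),
    θ (CuspForm.heckeAlgebra.T hℓ hℓN hℓS) = IsLocalRing.residue U.𝒪 (U.a ℓ)

/-- The Galois side at mixed levels. -/
def StmtHeckeRep : Prop :=
  ∀ (W : WeierstrassCurve ℤ) (p : ℕ) (k : Kind), CoreHyp W p k → ∀ U : Setup W p k,
    ∀ (k' : Kind), k' = k.base ∨ k' = k →
    ∀ (A B : Finset ℕ), (∀ q ∈ A ∪ B, q.Prime ∧ q ≠ p) → Disjoint A B → ramPrimes W p ⊆ A →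
    ∀ [NeZero (mixLevel p k' A B)] [Fact (CuspForm.HasIntegralStructure (mixLevel p k' A B) 2)]
      (θ : ↥(CuspForm.heckeAlgebra (mixLevel p k' A B) 2 (↑(insert p (A ∪ B)) : Set ℕ)) →+*
        ResidueField U.𝒪), U.IsResidChar _ _ θ →
      ∃ H : CuspForm.HeckeGaloisRepDatum (mixLevel p k' A B)
          (↑(insert p (A ∪ B)) : Set ℕ) U.𝒪 θ
          (CuspForm.heckeLocal (mixLevel p k' A B) (↑(insert p (A ∪ B)) : Set ℕ) U.𝒪 θ),
        H.π = CuspForm.heckeLocal.π _ _ U.𝒪 θ ∧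
        cond k' U.𝒪 p (insert p (A ∪ B)) (insert p A) H.ρ ∧
        H.ρ.residual.IsEquiv (U.ρbar.baseChangeAlong (ResidueField.map (algebraMap U.𝒪
          (CuspForm.heckeLocal (mixLevel p k' A B) (↑(insert p (A ∪ B)) : Set ℕ) U.𝒪 θ))))

end Fermat.Agent.R59
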