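import Fermat.Agent.R59.TWData
import Fermat.Agent.R59.NonEis
import Fermat.Agent.TW.MainS56
import Fermat.Agent.Deform.MatRep

/-!
# Taylor–Wiles primes for a lifting problem

`exists_twPrimes`: for a fixed `r` and every depth `m` there are Taylor–Wiles primes for which the
deformation ring of the enlarged problem is generated by `r` elements.
-/

set_option autoImplicit false

noncomputable section

open IsLocalRing Polynomial

namespace Fermat.Agent.R59

local notation "Γℚ" => (AlgebraicClosure ℚ ≃ₐ[ℚ] AlgebraicClosure ℚ)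

variable {W : WeierstrassCurve ℤ} {p : ℕ} {k : Kind}

theorem minSet_subset_fullSet (W : WeierstrassCurve ℤ) (p : ℕ) : minSet W p ⊆ fullSet W p :=
  Finset.insert_subset_insert _ Finset.subset_union_left

/-- A prime `q ≡ 1 (mod n)` has a generator of units and a character sending it to `1 mod n`. -/
theorem exists_gen_char {q n : ℕ} (hq : q.Prime) (hn : n ∣ q - 1) :
    ∃ (g : (ZMod q)ˣ) (χ : (ZMod q)ˣ →* Multiplicative (ZMod n)),
      (∀ u, ∃ j : ℕ, g ^ j = u) ∧ χ g = Multiplicative.ofAdd 1 := by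
  have : Fact q.Prime := ⟨hq⟩
  have hcard : Nat.card (ZMod q)ˣ = q - 1 := by
    rw [Nat.card_eq_fintype_card, ZMod.card_units]
  let e := zmodCyclicMulEquiv (inferInstance : IsCyclic (ZMod q)ˣ)
  have hd : n ∣ Nat.card (ZMod q)ˣ := hcard ▸ hn
  refine ⟨e (Multiplicative.ofAdd 1),
    (ZMod.castHom hd (ZMod n)).toAddMonoidHom.toMultiplicative.comp e.symm.toMonoidHom,
    fun u => ⟨(Multiplicative.toAdd (e.symm u)).val, ?_⟩, ?_⟩
  · rw [← map_pow, ← ofAdd_nsmul, nsmul_one]
    have : NeZero (Nat.card (ZMod q)ˣ) := ⟨Nat.card_pos.ne'⟩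
    rw [ZMod.natCast_zmod_val, ofAdd_toAdd, MulEquiv.apply_symm_apply]
  · show Multiplicative.ofAdd ((ZMod.castHom hd (ZMod n)) (Multiplicative.toAdd
      (e.symm (e (Multiplicative.ofAdd 1))))) = _
    rw [MulEquiv.symm_apply_apply, toAdd_ofAdd, map_one]

/-- A root of the residual Hecke polynomial at a prime `q ≡ 1 (mod p)` with distinct residual
eigenvalues, of square different from one. -/
theorem exists_root_sq_ne (U : Setup W p k) {q : ℕ} (hq : q.Prime) (hqS : q ∉ minSet W p)
    (hdvd : p ∣ q - 1)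
    (heig : ∀ P : ValuationSubring (AlgebraicClosure ℚ), P.LiesOverPrime q →
      ∀ φ : Γℚ, P.IsFrobeniusAt φ q →
        ∃ a b : ResidueField U.𝒪, a ≠ b ∧
          LinearMap.charpoly (U.ρbar.ρ φ) = (X - C a) * (X - C b)) :
    ∃ a : ResidueField U.𝒪, a ^ 2 - residue U.𝒪 (U.a q) * a + 1 = 0 ∧ a ^ 2 ≠ 1 := by
  obtain ⟨P, hP⟩ := Fermat.Agent.Deform.exists_valuationSubring_liesOverPrime hq
  obtain ⟨σ, hσ⟩ := Fermat.Agent.Deform.exists_isFrobeniusAt hq hP
  obtain ⟨a, b, hab, hf⟩ := heig P hP σ hσ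
  have hq1 : (q : ResidueField U.𝒪) = 1 := by
    have hp0 : (p : ResidueField U.𝒪) = 0 := by
      rw [← map_natCast (residue U.𝒪)]
      exact (residue_eq_zero_iff _).mpr U.p_mem
    obtain ⟨t, ht⟩ := hdvd
    have h' : q = p * t + 1 := by have := hq.one_le; omega
    rw [h']
    simp [hp0]
  rw [U.charpoly_rhobar hq hqS hP hσ, hq1] at hf
  have hroot : a ^ 2 - residue U.𝒪 (U.a q) * a + 1 = 0 := by
    simpa using congrArg (Polynomial.eval a) hf
  have hmul : a * b = 1 := by
    simpa using (congrArg (Polynomial.eval 0) hf).symm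
  exact ⟨a, hroot, fun h => hab (by linear_combination b * h - a * hmul)⟩

/-- Taylor–Wiles primes of every depth, with a fixed number of generators. -/
theorem exists_twPrimes (hyp : CoreHyp W p k) (U : Setup W p k) :
    ∃ r : ℕ, ∀ m : ℕ, ∃ T : TWPrimes U m r,
      ∀ DQ : GaloisRep.DeformationRingData U.𝒪 U.ρbar
          (cond k.base U.𝒪 p (minSet W p ∪ T.primes) (minSet W p)),
        ∃ γ : MvPowerSeries (Fin r) U.𝒪 →ₐ[U.𝒪] DQ.R, Function.Surjective γ := by
  classical
  have hp : Fact p.Prime := ⟨by rcases hyp.1 with rfl | rfl <;> decide⟩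
  have hp2 : p ≠ 2 := by rcases hyp.1 with rfl | rfl <;> decide
  -- the two halves of the existence theorem, read for the condition of kind `k.base`
  have key : ∃ r : ℕ, ∀ n : ℕ, ∃ qv : Fin r → ℕ, Function.Injective qv ∧
      (∀ i, (qv i).Prime ∧ qv i ∉ fullSet W p ∧ p ^ (n + 1) ∣ qv i - 1) ∧
      (∀ i, ∀ P : ValuationSubring (AlgebraicClosure ℚ), P.LiesOverPrime (qv i) →
        ∀ φ : Γℚ, P.IsFrobeniusAt φ (qv i) →
          ∃ a b : ResidueField U.𝒪, a ≠ b ∧
            LinearMap.charpoly (U.ρbar.ρ φ) = (X - C a) * (X - C b)) ∧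
      ∀ DQ : GaloisRep.DeformationRingData U.𝒪 U.ρbar
          (cond k.base U.𝒪 p (minSet W p ∪ Finset.univ.image qv) (minSet W p)),
        ∃ γ : MvPowerSeries (Fin r) U.𝒪 →ₐ[U.𝒪] DQ.R, Function.Surjective γ := by
    have hflat := TW.exists_taylorWilesPrimes_flat p hp2 U.p_mem U.ρbar U.absIrr U.detCyc U.split
      U.tw (fullSet W p) (minSet W p) (Finset.mem_insert_self _ _) (minSet_subset_fullSet W p)
      U.ramified_iff
    have hstrict := TW.exists_taylorWilesPrimes_strictOrdinary p hp2 U.p_mem U.ρbar U.absIrr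
      U.detCyc U.split U.tw (fullSet W p) (minSet W p) (Finset.mem_insert_self _ _)
      (minSet_subset_fullSet W p) U.ramified_iff
    cases k
    · exact hflat
    · exact hstrict
    · exact hflat
  obtain ⟨r, hr⟩ := key
  refine ⟨r, fun m => ?_⟩
  obtain ⟨qv, hinj, hq, heig, hsurj⟩ := hr m
  have hdvd : ∀ i, p ∣ qv i - 1 := fun i => (dvd_pow_self p m.succ_ne_zero).trans (hq i).2.2
  choose a ha ha2 using fun i => exists_root_sq_ne U (hq i).1
    (fun h => (hq i).2.1 (minSet_subset_fullSet W p h)) (hdvd i) (heig i)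
  choose g χ hg hχ using fun i => exists_gen_char (n := p ^ m) (hq i).1
    ((pow_dvd_pow p m.le_succ).trans (hq i).2.2)
  refine ⟨⟨qv, hinj, fun i => (hq i).1,
    fun i h => (hq i).2.1 (h ▸ Finset.mem_insert_self _ _), fun i => (hq i).2.1,
    fun i => (hq i).2.2, g, hg, χ, hχ, Function.extend qv a 0,
    fun i => ?_, fun i => ?_, heig⟩, hsurj⟩
  · rw [hinj.extend_apply]; exact ha i
  · rw [hinj.extend_apply]; exact ha2 i

end Fermat.Agent.R59
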