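import Fermat.Agent.R59.Minimal
import Fermat.Agent.R59.TWExists

/-!
# The base module with its Taylor–Wiles levels

`BaseData U D π`: the non-Eisenstein part `M₀` of the cohomology of the base level with its action
of the minimal deformation ring. `stmtBaseModule_of` adds the Taylor–Wiles levels above it.
-/

set_option autoImplicit false

noncomputable section

open IsLocalRing

namespace Fermat.Agent.R59

open Fermat.Agent.TW.Mod

variable {W : WeierstrassCurve ℤ} {p : ℕ} {k : Kind}

/-- The module of the base level, without auxiliary levels. -/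
structure BaseData (U : Setup W p k) [NeZero (baseLevel W p k)]
    (D : GaloisRep.DeformationRingData U.𝒪 U.ρbar
      (cond k.base U.𝒪 p (minSet W p) (minSet W p)))
    (π : D.R →ₐ[U.𝒪] U.𝒪) : Type 1 where
  h : Occurs U.𝒪 (heckeFam U.𝒪 (baseLevel W p k) (↑(minSet W p) : Set ℕ))
    (TWPrimes.lam (U := U))
  M : Type
  [instAddCommGroupM : AddCommGroup M]
  [instModuleM : Module U.𝒪 M]
  [instModuleRM : Module D.R M]
  [instTower : IsScalarTower U.𝒪 D.R M]
  [instFiniteM : Module.Finite U.𝒪 M]
  [instFreeM : Module.Free U.𝒪 M]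
  [instNontrivial : Nontrivial M]
  e : M ≃ₗ[U.𝒪] ↥(LinearMap.range (h.idem (heckeFam_comm (baseLevel W p k)
    (↑(minSet W p) : Set ℕ))))
  e_trace : ∀ (i : PrimeIdx (↑(minSet W p) : Set ℕ)) (P : ValuationSubring (AlgebraicClosure ℚ)),
    P.LiesOverPrime i.1 → ∀ σ : AlgebraicClosure ℚ ≃ₐ[ℚ] AlgebraicClosure ℚ,
      P.IsFrobeniusAt σ i.1 → ∀ x : M,
        (e (LinearMap.trace D.R D.ρ.V (D.ρ.ρ σ) • x) : LR.Hom1 (baseLevel W p k) U.𝒪) =
          heckeFam U.𝒪 (baseLevel W p k) _ i (e x : LR.Hom1 (baseLevel W p k) U.𝒪)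
  B : M →ₗ[U.𝒪] M →ₗ[U.𝒪] U.𝒪
  smul_eq_zero_of_isNilpotent : ∀ x : D.R, IsNilpotent x → ∀ m : M, x • m = 0
  adj : ∀ (t : D.R) (m : M), ∀ l ∈ NumCrit.eigenSub π M, B (t • m) l = B m (t • l)
  surj : Function.Surjective fun m => (B m).comp (NumCrit.eigenSub π M).subtype
  finrank_eigenSub :
    Module.finrank U.𝒪 (NumCrit.eigenSub π M) = Module.finrank U.𝒪 U.baseEigen
  length_congModule :
    Module.length U.𝒪 (NumCrit.CongModule B (NumCrit.eigenSub π M)) = U.basePsi

attribute [instance] BaseData.instAddCommGroupM BaseData.instModuleM BaseData.instModuleRM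
  BaseData.instTower BaseData.instFiniteM BaseData.instFreeM BaseData.instNontrivial

/-- Existence of the base module. -/
def StmtBaseData : Prop :=
  ∀ (W : WeierstrassCurve ℤ) (p : ℕ) (k : Kind), CoreHyp W p k → ∀ U : Setup W p k,
    ∀ [NeZero (baseLevel W p k)]
      (D : GaloisRep.DeformationRingData U.𝒪 U.ρbar
        (cond k.base U.𝒪 p (minSet W p) (minSet W p)))
      (π : D.R →ₐ[U.𝒪] U.𝒪) (hπ : IsLocalHom (π : D.R →+* U.𝒪)),
      (D.ρ.baseChangeAlong (π : D.R →+* U.𝒪) hπ).IsEquiv U.base →
        Nonempty (BaseData U D π)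

/-- `StmtBaseModule` from the base module and the construction of one level over it. -/
theorem stmtBaseModule_of (hlev : StmtTWLevel) (hdata : StmtBaseData) : StmtBaseModule := by
  intro W p k hyp U _ D π hπ he
  obtain ⟨Md⟩ := hdata W p k hyp U D π hπ he
  have hp : p.Prime := by rcases hyp.1 with rfl | rfl <;> decide
  have : NeZero p := ⟨hp.ne_zero⟩
  obtain ⟨r, hr⟩ := exists_twPrimes hyp U
  refine ⟨{ M := Md.M
            B := Md.B
            smul_eq_zero_of_isNilpotent := Md.smul_eq_zero_of_isNilpotent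
            adj := Md.adj
            surj := Md.surj
            finrank_eigenSub := Md.finrank_eigenSub
            length_congModule := Md.length_congModule
            r := r
            levels := fun n => ?_ }⟩
  exact (hlev W p k hyp U D n r (hr (n + 1)).choose (hr (n + 1)).choose_spec Md.h Md.M Md.e
    Md.e_trace).some

end Fermat.Agent.R59
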