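import Fermat.Agent.R59.Defs
import Fermat.Agent.DefCond.Main
import Fermat.Agent.DefCond.Ordinary
import Fermat.Agent.S53

/-!
# Deformation rings of the conditions `cond k`

Each `cond k` (with `p` odd) is a deformation condition with finite tangent space; a lift of `ρbar`
of that type shows that `ρbar` has the type, so the universal deformation ring exists.
-/

set_option autoImplicit false
set_option maxHeartbeats 400000

noncomputable section

open IsLocalRing

namespace Fermat.Agent.R59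

open DefCond

variable {𝒪 : Type} [CommRing 𝒪] [IsLocalRing 𝒪] [Finite (ResidueField 𝒪)]
  {p : ℕ} [Fact p.Prime]

theorem closed_baseCond (hp2 : p ≠ 2) (k : Kind) (S : Finset ℕ) :
    Closed 𝒪 (baseCond k 𝒪 p S) := by
  cases k with
  | flat => exact closed_flatCondition p S
  | strict => exact closed_strictOrdinaryCondition p hp2 S
  | ord => exact closed_ordinaryCondition p hp2 S

theorem closed_cond (hp2 : p ≠ 2) (k : Kind) (S Smin : Finset ℕ) :
    Closed 𝒪 (cond k 𝒪 p S Smin) :=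
  (closed_baseCond hp2 k S).and (closed_unipotentOn p Smin)

theorem isDeformationCondition_cond (hp2 : p ≠ 2) (k : Kind) (S Smin : Finset ℕ) :
    GaloisRep.IsDeformationCondition 𝒪 (cond k 𝒪 p S Smin) :=
  (closed_cond hp2 k S Smin).isDeformationCondition

omit [Fact p.Prime] in
theorem tangentFinite_cond (ρbar : ResidualGaloisRep (ResidueField 𝒪)) (k : Kind)
    (S Smin : Finset ℕ) : GaloisRep.TangentFinite 𝒪 ρbar (cond k 𝒪 p S Smin) :=
  tangentFinite_of_unramified ρbar S _ fun A _ _ _ ρ h => by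
    cases k <;> exact h.1.2.2

omit [Finite (ResidueField 𝒪)] in
lemma isArtinianTestAlgebra_residueField :
    GaloisRep.IsArtinianTestAlgebra 𝒪 (ResidueField 𝒪) where
  isLocalHom := IsLocalHom.of_surjective _ Ideal.Quotient.mk_surjective
  residue_surjective :=
    residue_surjective.comp (residue_surjective : Function.Surjective (residue 𝒪))
  isArtinian := inferInstance

section Residual

variable {k : Type} [Field k]

lemma baseChangeAlong_of_eq_id (φ : k →+* k) (h : φ = RingHom.id k) (ρ : ResidualGaloisRep k) :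
    (ρ.baseChangeAlong φ).IsEquiv ρ := by
  subst h
  refine ⟨⟨TensorProduct.lid k ρ.V, fun σ x => ?_⟩⟩
  show TensorProduct.lid k ρ.V ((ρ.ρ σ).baseChange k x) = ρ.ρ σ (TensorProduct.lid k ρ.V x)
  induction x using TensorProduct.induction_on with
  | zero => simp only [map_zero]
  | tmul c v =>
    rw [LinearMap.baseChange_tmul, TensorProduct.lid_tmul, TensorProduct.lid_tmul, map_smul]
  | add x y hx hy => simp only [map_add, hx, hy]

lemma ofResidualGaloisRep_isEquiv {ρ₁ ρ₂ : ResidualGaloisRep k} (h : ρ₁.IsEquiv ρ₂) :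
    (GaloisRepAdic.ofResidualGaloisRep ρ₁).IsEquiv (GaloisRepAdic.ofResidualGaloisRep ρ₂) :=
  h.map fun e => ⟨e.toLinearEquiv, e.map_apply⟩

end Residual

omit [Finite (ResidueField 𝒪)] in
/-- A lift of type `𝒟` makes the residual representation of type `𝒟`. -/
theorem ofResidual_of_lift {𝒟 : Cond 𝒪} (h : Closed 𝒪 𝒟)
    {ρbar : ResidualGaloisRep (ResidueField 𝒪)} {ρ : GaloisRepAdic 𝒪}
    [IsLocalHom (algebraMap 𝒪 𝒪)]
    (hres : ρ.residual.IsEquiv (ρbar.baseChangeAlong (ResidueField.map (algebraMap 𝒪 𝒪))))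
    (hρ : 𝒟 ρ) : 𝒟 (GaloisRepAdic.ofResidualGaloisRep ρbar) := by
  have hq : IsLocalHom ((Algebra.ofId 𝒪 (ResidueField 𝒪)) : 𝒪 →+* ResidueField 𝒪) :=
    IsLocalHom.of_surjective _ Ideal.Quotient.mk_surjective
  have h1 := h.push isArtinianTestAlgebra_residueField (Algebra.ofId 𝒪 (ResidueField 𝒪)) hq hρ
  refine h.of_isEquiv ?_ h1
  have e1 : (ρ.baseChangeAlong _ hq).IsEquiv (GaloisRepAdic.ofResidualGaloisRep ρ.residual) :=
    ⟨⟨LinearEquiv.refl _ _, fun _ _ => rfl⟩⟩
  obtain ⟨a⟩ := e1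
  obtain ⟨b⟩ := hres
  obtain ⟨c⟩ := baseChangeAlong_of_eq_id (ResidueField.map (algebraMap 𝒪 𝒪))
    (ResidueField.map_id (R := 𝒪)) ρbar
  obtain ⟨d⟩ := ofResidualGaloisRep_isEquiv ⟨b.trans c⟩
  exact ⟨a.trans d⟩

/-- The universal deformation ring for `cond k`, given one lift of that type. -/
theorem nonempty_deformationRingData_cond {𝒪 : Type} [CommRing 𝒪] [IsDomain 𝒪]
    [IsDiscreteValuationRing 𝒪] [IsAdicComplete (maximalIdeal 𝒪) 𝒪]
    [Finite (ResidueField 𝒪)] (hp2 : p ≠ 2) (k : Kind) (S Smin : Finset ℕ)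
    (ρbar : ResidualGaloisRep (ResidueField 𝒪)) (habs : ρbar.IsAbsolutelyIrreducible)
    [IsLocalHom (algebraMap 𝒪 𝒪)] (ρ : GaloisRepAdic 𝒪)
    (hres : ρ.residual.IsEquiv (ρbar.baseChangeAlong (ResidueField.map (algebraMap 𝒪 𝒪))))
    (hρ : cond k 𝒪 p S Smin ρ) :
    Nonempty (GaloisRep.DeformationRingData 𝒪 ρbar (cond k 𝒪 p S Smin)) :=
  S53.result 𝒪 ρbar _ habs (isDeformationCondition_cond hp2 k S Smin)
    (ofResidual_of_lift (closed_cond hp2 k S Smin) hres hρ) (tangentFinite_cond ρbar k S Smin)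

end Fermat.Agent.R59
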