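import Fermat.Agent.R59.Interfaces
import Fermat.Agent.R59.DefRings

/-!
# The deformation rings of the lifting problem

`stmtDefRing` proves `StmtDefRing`: the base point and the curve are lifts of the two types.
-/

set_option autoImplicit false

noncomputable section

open IsLocalRing

namespace Fermat.Agent.R59

/-- `StmtDefRing` holds. -/
theorem stmtDefRing : StmtDefRing := by
  intro W p k h U
  have hp : Fact p.Prime := ⟨by rcases h.1 with rfl | rfl <;> decide⟩
  have hp2 : p ≠ 2 := by rcases h.1 with rfl | rfl <;> decide
  have hloc : IsLocalHom (algebraMap U.𝒪 U.𝒪) := ⟨fun _ h => h⟩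
  exact ⟨nonempty_deformationRingData_cond hp2 k.base (minSet W p) (minSet W p) U.ρbar U.absIrr
      U.base U.base_residual U.base_cond,
    nonempty_deformationRingData_cond hp2 k (fullSet W p) (minSet W p) U.ρbar U.absIrr
      U.curve U.isCurveLift.residual U.curve_cond⟩

end Fermat.Agent.R59
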