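/-
`StmtRaise`: congruence modules grow by exactly `d · ord (raiseFactor)` (owner: helper91).
-/
import Fermat.Agent.R59.RaiseStep
import Fermat.Agent.R59.Interfaces
import Fermat.Agent.LR.NonEisenstein
import Fermat.Agent.Eigen.Points
import Fermat.Agent.MF.IntStruct.Main

set_option autoImplicit false

noncomputable section

open CongruenceSubgroup Function IsLocalRing
open scoped MatrixGroups IsMulCommutative

namespace Fermat.Agent.R59

variable {W : WeierstrassCurve ℤ} {p : ℕ} {k : Kind}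

theorem charP_residueField (U : Setup W p k) (hp : p.Prime) : CharP (ResidueField U.𝒪) p := by
  have h : ((p : ℕ) : ResidueField U.𝒪) = 0 := by
    rw [← map_natCast (residue U.𝒪)]
    exact (residue_eq_zero_iff _).mpr U.p_mem
  exact ringChar.of_eq (CharP.ringChar_of_prime_eq_zero hp h)

/-- Irreducibility gives an auxiliary prime at which the base point is not Eisenstein. -/
theorem exists_nonEisenstein (U : Setup W p k) (hp : p.Prime) (hΔ : W.Δ ≠ 0)
    (hirr : W.ModRepIsIrreducible p) [NeZero (fullLevel W p k)] :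
    ∃ l : ℕ, l.Prime ∧ l ∉ fullSet W p ∧ ¬ l ∣ fullLevel W p k ∧
      IsUnit (U.a l - ((l + 1 : ℕ) : U.𝒪)) := by
  classical
  have := charP_residueField U hp
  have : (W.map (Int.castRingHom ℚ)).IsElliptic := by
    rw [WeierstrassCurve.isElliptic_iff, WeierstrassCurve.map_Δ]
    exact isUnit_iff_ne_zero.mpr (Int.cast_ne_zero.mpr hΔ)
  obtain ⟨l, hl, hlS, -, -, hne⟩ := LR.exists_prime_apOfModel_ne (W.map (Int.castRingHom ℚ))
    (W := W) ⟨1, by rw [one_smul]⟩ hp hirr (fullSet W p ∪ (fullLevel W p k).primeFactors)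
  rw [Finset.mem_union, not_or] at hlS
  refine ⟨l, hl, hlS.1, fun h => hlS.2 (Nat.mem_primeFactors.mpr ⟨hl, h, NeZero.ne _⟩),
    of_not_not fun hu => hne ?_⟩
  have h0 : residue U.𝒪 (U.a l - ((l + 1 : ℕ) : U.𝒪)) = 0 :=
    (residue_eq_zero_iff _).mpr ((mem_maximalIdeal _).mpr hu)
  rw [map_sub, map_natCast, U.a_congr l hl hlS.1, sub_eq_zero] at h0
  have h1 : ((W.apOfModel l - (l + 1 : ℤ) : ℤ) : ResidueField U.𝒪) = 0 := by
    push_cast
    rw [h0]; push_cast; ring
  rw [CharP.intCast_eq_zero_iff (ResidueField U.𝒪) p, ← ZMod.intCast_zmod_eq_zero_iff_dvd] at h1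
  push_cast at h1
  linear_combination h1

theorem isAlgVal_of_isIntegral {𝒪 : Type} [CommRing 𝒪] [IsDomain 𝒪] [IsDiscreteValuationRing 𝒪]
    [CharZero 𝒪] {x : 𝒪} (hx : IsIntegral ℤ x) : IsAlgVal x := by
  have := charZero_fractionRing (𝒪 := 𝒪)
  obtain ⟨P, hP, hP0⟩ := hx
  refine ⟨P.map (Int.castRingHom ℚ), hP.map _, ?_⟩
  have h : (algebraMap ℚ (FractionRing 𝒪)).comp (Int.castRingHom ℚ) =
      (algebraMap 𝒪 (FractionRing 𝒪)).comp (algebraMap ℤ 𝒪) := RingHom.ext_int _ _
  rw [Polynomial.eval₂_map, h, ← Polynomial.hom_eval₂, hP0, map_zero]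

theorem isIntegral_ringHom {A C : Type*} [CommRing A] [CommRing C] (g : A →+* C) {x : A}
    (hx : IsIntegral ℤ x) : IsIntegral ℤ (g x) := by
  obtain ⟨P, hP, hP0⟩ := hx
  refine ⟨P, hP, ?_⟩
  rw [show algebraMap ℤ C = g.comp (algebraMap ℤ A) from RingHom.ext_int _ _,
    ← Polynomial.hom_eval₂, hP0, map_zero]

theorem isIntegral_a (U : Setup W p k) [NeZero (baseLevel W p k)] {l : ℕ} (hl : l.Prime)
    (hlN : ¬ l ∣ baseLevel W p k) : IsIntegral ℤ (U.a l) := by
  obtain ⟨χ, hχ⟩ := U.point
  have hS : l ∉ (↑(baseLevel W p k).primeFactors : Set ℕ) :=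
    fun h => hlN (Nat.mem_primeFactors.mp h).2.1
  have := Eigen.moduleFinite_heckeAlgebra (MF.IntStruct.hasIntegralStructure (baseLevel W p k) 2)
    (↑(baseLevel W p k).primeFactors : Set ℕ)
  rw [← hχ l hl hlN hS]
  exact isIntegral_ringHom χ (IsIntegral.of_finite ℤ (CuspForm.heckeAlgebra.T hl hlN hS))

/-- The base lattice is nonzero. -/
theorem finrank_baseEigen_ne_zero (U : Setup W p k) [NeZero (baseLevel W p k)] :
    Module.finrank U.𝒪 U.baseEigen ≠ 0 := by
  classical
  set B := baseLevel W p k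
  obtain ⟨χ, hχ⟩ := U.point
  have hint := MF.IntStruct.hasIntegralStructure B 2
  have := Eigen.moduleFinite_heckeAlgebra hint (↑B.primeFactors : Set ℕ)
  have := charZero_fractionRing (𝒪 := U.𝒪)
  let K := FractionRing U.𝒪
  let F := algebraicClosure ℚ K
  have : Algebra.IsAlgebraic ℚ F := algebraicClosure.isAlgebraic ℚ K
  let σ : F →ₐ[ℚ] ℂ := IsAlgClosed.lift
  let χK : ↥(CuspForm.heckeAlgebra B 2 (↑B.primeFactors : Set ℕ)) →+* K :=
    (algebraMap U.𝒪 K).comp χ
  have hmem : ∀ t, χK t ∈ F.toSubfield := fun t => by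
    show χK t ∈ F
    rw [mem_algebraicClosure_iff]
    exact (isAlgVal_of_isIntegral (isIntegral_ringHom χ (IsIntegral.of_finite ℤ t))).isAlgebraic
  let χF : ↥(CuspForm.heckeAlgebra B 2 (↑B.primeFactors : Set ℕ)) →+* F :=
    χK.codRestrict F.toSubfield hmem
  let e' : ℕ → F := fun l => if h : l.Prime ∧ ¬ l ∣ B then
    χF (CuspForm.heckeAlgebra.T h.1 h.2 fun hm => h.2 (Nat.mem_primeFactors.mp hm).2.1) else 0
  have he : ∀ l : ℕ, l.Prime → l ∈ {ℓ | ¬ ℓ ∣ B} →
      (F.val.toRingHom (e' l)) = algebraMap U.𝒪 K (U.a l) := fun l hl hlB => by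
    rw [show e' l = χF (CuspForm.heckeAlgebra.T hl hlB fun hm =>
      hlB (Nat.mem_primeFactors.mp hm).2.1) from dif_pos ⟨hl, hlB⟩]
    show algebraMap U.𝒪 K (χ _) = _
    rw [hχ l hl hlB]
  obtain ⟨f, hf, hfc⟩ := Eigen.exists_eigenform_of_char hint (σ.toRingHom.comp χF)
  have hfmem : f ∈ formEigen B {ℓ | ¬ ℓ ∣ B} (σ.toRingHom ∘ e') := by
    rw [mem_formEigen]
    intro l hlB hl
    have hS : l ∉ (↑B.primeFactors : Set ℕ) := fun h => hlB (Nat.mem_primeFactors.mp h).2.1
    rw [HK.heckeFormsLin, dif_neg (show ¬ l ∣ B from hlB), Eigen.heckeTLin_eigenform hf]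
    congr 1
    rw [← Eigen.eigenChar_T hf (↑B.primeFactors : Set ℕ) hl.out hlB hS, hfc]
    simp only [Function.comp_apply, e', dif_pos (And.intro hl.out (show ¬ l ∣ B from hlB))]
    rfl
  show Module.finrank U.𝒪 (eigenClasses B U.𝒪 {ℓ | ¬ ℓ ∣ B} U.a) ≠ 0
  rw [finrank_eigenClasses_eq B F.val.toRingHom σ.toRingHom _ U.a e' he]
  have := MOD.cuspForm_finiteDimensional (N := B) (k := 2)
  refine mul_ne_zero two_ne_zero fun h => hf.ne_zero ?_
  rw [Submodule.finrank_eq_zero.mp h] at hfmem
  exact (Submodule.mem_bot ℂ).mp hfmem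

/-- The eigenvalues after raising the primes of `D`. -/
def Setup.partValue (U : Setup W p k) (D : Finset ℕ) (l : ℕ) : U.𝒪 :=
  if l ∈ D then 0 else U.a l

theorem ord_mul_general {𝒪 : Type} [CommRing 𝒪] [IsDomain 𝒪] [IsDiscreteValuationRing 𝒪]
    (a b : 𝒪) : Ring.ord 𝒪 (a * b) = Ring.ord 𝒪 a + Ring.ord 𝒪 b := by
  rcases eq_or_ne b 0 with rfl | hb
  · have htop : Ring.ord 𝒪 (0 : 𝒪) = ⊤ := by
      rw [Ring.ord_zero]
      by_contra hlt
      have hfin := Module.length_ne_top_iff.mp hlt
      have : IsArtinianRing 𝒪 := (isFiniteLength_iff_isNoetherian_isArtinian.mp hfin).2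
      exact IsDiscreteValuationRing.not_isField 𝒪 (IsArtinianRing.isField_of_isDomain 𝒪)
    rw [mul_zero, htop, add_top]
  · exact Ring.ord_mul 𝒪 (mem_nonZeroDivisors_of_ne_zero hb)

theorem not_dvd_baseLevel (hp : p.Prime) {q : ℕ} (hq : q ∈ raisePrimes W p) :
    ¬ q ∣ baseLevel W p k := by
  intro h
  have hqp := prime_of_mem_raisePrimes W p hq
  simp only [raisePrimes, Finset.mem_filter] at hq
  rcases hqp.dvd_mul.mp h with h | h
  · have := (dvd_minLevel_iff W p hqp).mp h
    simp only [ramPrimes, Finset.mem_filter] at this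
    exact this.2.2 hq.2.2
  · exact hq.2.1 ((Nat.prime_dvd_prime_iff_eq hqp hp).mp (hqp.dvd_of_dvd_pow h))

/-- Raising the primes of `D`. -/
theorem eig_chain (U : Setup W p k) (hp : p.Prime) (hp2 : p ≠ 2) (hΔ : W.Δ ≠ 0)
    (hirr : W.ModRepIsIrreducible p) [NeZero (baseLevel W p k)] [NeZero (fullLevel W p k)]
    (D : Finset ℕ) (hD : D ⊆ raisePrimes W p) :
    ∀ (N : ℕ) [NeZero N], N = baseLevel W p k * ∏ q ∈ D, q * q →
      Module.finrank U.𝒪 (eigenClasses N U.𝒪 {ℓ | ¬ ℓ ∣ baseLevel W p k} (U.partValue D)) =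
          Module.finrank U.𝒪 U.baseEigen ∧
        Module.length U.𝒪 (NumCrit.CongModule (twistedPairing N U.𝒪)
            (eigenClasses N U.𝒪 {ℓ | ¬ ℓ ∣ baseLevel W p k} (U.partValue D))) =
          U.basePsi + Module.finrank U.𝒪 U.baseEigen *
            Ring.ord U.𝒪 (∏ q ∈ D, ((q : U.𝒪) - 1) * (U.a q ^ 2 - ((q : U.𝒪) + 1) ^ 2)) := by
  classical
  have : Fact p.Prime := ⟨hp⟩
  have := charP_residueField U hp
  obtain ⟨l, hl, hlS, hlfull, ha⟩ := exists_nonEisenstein U hp hΔ hirr
  induction D using Finset.induction_on with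
  | empty =>
    intro N _ hN
    rw [Finset.prod_empty, mul_one] at hN
    subst hN
    have e : U.partValue ∅ = U.a := funext fun r => by simp [Setup.partValue]
    rw [e, Finset.prod_empty, Ring.ord_one, mul_zero, add_zero]
    exact ⟨rfl, rfl⟩
  | @insert q D hqD ih =>
    intro N _ hN
    obtain ⟨hqR, hDR⟩ := Finset.insert_subset_iff.mp hD
    have hq := prime_of_mem_raisePrimes W p hqR
    rw [Finset.prod_insert hqD,
      show baseLevel W p k * (q * q * ∏ r ∈ D, r * r) =
        baseLevel W p k * (∏ r ∈ D, r * r) * q * q by ring] at hN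
    subst hN
    set B := baseLevel W p k * ∏ r ∈ D, r * r with hB
    have hB0 : B ≠ 0 := fun h => by
      have := NeZero.ne (B * q * q)
      simp [h] at this
    have : NeZero B := ⟨hB0⟩
    obtain ⟨h1, h2⟩ := ih hDR B hB
    have hdiv : ∀ r : ℕ, r.Prime → r ∣ B → r ∣ baseLevel W p k ∨ r ∈ D := fun r hr h => by
      rcases hr.dvd_mul.mp h with h | h
      · exact Or.inl h
      · obtain ⟨x, hx, hrx⟩ := (hr.prime.dvd_finsetProd_iff _).mp h
        refine Or.inr ?_
        have hxp := prime_of_mem_raisePrimes W p (hDR hx)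
        rwa [(Nat.prime_dvd_prime_iff_eq hr hxp).mp ((hr.dvd_mul.mp hrx).elim id id)]
    have hqB : ¬ q ∣ B := fun h => (hdiv q hq h).elim (not_dvd_baseLevel hp hqR) hqD
    have hraise : ∀ x ∈ raisePrimes W p, l ≠ x := fun x hx he =>
      hlS (Finset.mem_insert_of_mem (Finset.mem_union_right _ (he ▸ hx)))
    have hlbase : ¬ l ∣ baseLevel W p k := fun h => by
      rcases hl.dvd_mul.mp h with h | h
      · exact hlS (Finset.mem_insert_of_mem
          (Finset.mem_union_left _ ((dvd_minLevel_iff W p hl).mp h)))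
      · exact hlS (by
          rw [(Nat.prime_dvd_prime_iff_eq hl hp).mp (hl.dvd_of_dvd_pow h)]
          exact Finset.mem_insert_self _ _)
    have hlB : ¬ l ∣ B := fun h => (hdiv l hl h).elim hlbase fun hx => hraise l (hDR hx) rfl
    have hval : U.partValue (insert q D) = update (U.partValue D) q 0 := funext fun r => by
      by_cases hr : r = q
      · subst hr; simp [Setup.partValue]
      · simp [Setup.partValue, hr]
    have hT : ∀ r : ℕ, r.Prime → ¬ r ∣ B → r ∈ {ℓ | ¬ ℓ ∣ baseLevel W p k} :=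
      fun r _ h hd => h (hd.mul_right _)
    have hlval : U.partValue D l = U.a l := by
      rw [Setup.partValue, if_neg fun hx => hraise l (hDR hx) rfl]
    have hqval : U.partValue D q = U.a q := by rw [Setup.partValue, if_neg hqD]
    have hqp : p ≠ q := fun h => by
      have := (Finset.mem_filter.mp hqR).2.1
      exact this h.symm
    obtain ⟨h3, h4⟩ := eig_raiseTwo (p := p) hp2 hq hqp hqB hl hlB (hraise q hqR) hT
      (e := U.partValue D) (by rw [hlval]; exact ha)
      (fun r hr hrT => by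
        rw [Setup.partValue]
        split_ifs
        · exact isAlgVal_of_isIntegral isIntegral_zero
        · exact isAlgVal_of_isIntegral (isIntegral_a U hr hrT))
      (by rw [h1]; exact finrank_baseEigen_ne_zero U)
    rw [hval, Finset.prod_insert hqD, ord_mul_general, mul_add, h3, h4, h1, h2, hqval, add_comm
      (_ * Ring.ord U.𝒪 (((q : U.𝒪) - 1) * _)), add_assoc]
    exact ⟨rfl, rfl⟩

theorem fullLevel_eq_mul (W : WeierstrassCurve ℤ) (p : ℕ) (k : Kind) :
    fullLevel W p k = minLevel W p * (∏ q ∈ raisePrimes W p, q * q) * p ^ k.pExp := by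
  rw [fullLevel, sq, ← Finset.prod_mul_distrib]

/-- **`StmtRaise`.** -/
theorem stmtRaise : StmtRaise := by
  intro W p k hC U _ _
  classical
  obtain ⟨hp35, hΔ, -, hirr, hadm⟩ := hC
  have hp : p.Prime := by rcases hp35 with rfl | rfl <;> norm_num
  have hp2 : p ≠ 2 := by rcases hp35 with rfl | rfl <;> norm_num
  have : Fact p.Prime := ⟨hp⟩
  have := charP_residueField U hp
  have hpR : p ∉ raisePrimes W p := fun h => (Finset.mem_filter.mp h).2.1 rfl
  by_cases hk : k = .ord
  swap
  · -- no change at `p`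
    have hlev : fullLevel W p k = baseLevel W p k * ∏ q ∈ raisePrimes W p, q * q := by
      rw [fullLevel_eq_mul, baseLevel]
      cases k <;> simp_all [Kind.base, Kind.pExp, mul_comm, mul_assoc]
    have htv : U.topValue = U.partValue (raisePrimes W p) := funext fun r => by
      simp [Setup.topValue, Setup.partValue, hk]
    obtain ⟨h1, h2⟩ := eig_chain U hp hp2 hΔ hirr _ subset_rfl (fullLevel W p k) hlev
    rw [← htv] at h1 h2
    refine ⟨h1, h2.trans ?_⟩
    rw [Setup.raiseFactor, if_neg hk, mul_one]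
  · subst hk
    set B := baseLevel W p Kind.ord * ∏ q ∈ raisePrimes W p, q * q with hB
    have hbase : baseLevel W p Kind.ord = minLevel W p := by
      simp [baseLevel, Kind.base, Kind.pExp]
    have hlev : fullLevel W p Kind.ord = B * p := by
      rw [hB, fullLevel_eq_mul, hbase]; simp [Kind.pExp]
    have hB0 : B ≠ 0 := fun h => NeZero.ne (fullLevel W p Kind.ord) (by rw [hlev, h, zero_mul])
    have : NeZero B := ⟨hB0⟩
    obtain ⟨h1, h2⟩ := eig_chain U hp hp2 hΔ hirr _ subset_rfl B hB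
    obtain ⟨l, hl, hlS, hlfull, ha⟩ := exists_nonEisenstein U hp hΔ hirr
    have hpB : ¬ p ∣ B := by
      intro h
      rcases hp.dvd_mul.mp h with h | h
      · rw [hbase, dvd_minLevel_iff W p hp] at h
        exact (Finset.mem_filter.mp h).2.1 rfl
      · obtain ⟨x, hx, hrx⟩ := (hp.prime.dvd_finsetProd_iff _).mp h
        have hxp := prime_of_mem_raisePrimes W p hx
        exact hpR ((Nat.prime_dvd_prime_iff_eq hp hxp).mp ((hp.dvd_mul.mp hrx).elim id id) ▸ hx)
    have hlB : ¬ l ∣ B := fun h => hlfull (hlev ▸ h.mul_right p)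
    have hlp : l ≠ p := fun h => hlS (h ▸ Finset.mem_insert_self _ _)
    have hlR : l ∉ raisePrimes W p := fun h =>
      hlS (Finset.mem_insert_of_mem (Finset.mem_union_right _ h))
    obtain ⟨hαu, hα, -⟩ := U.alpha_spec rfl
    have hpbase : ¬ p ∣ baseLevel W p Kind.ord := fun h => hpB (h.mul_right _)
    have halgα : IsAlgVal U.α := by
      refine isAlgVal_of_isIntegral ?_
      have hap := isIntegral_a U hp hpbase
      let C := integralClosure ℤ U.𝒪
      refine isIntegral_trans (R := ℤ) (A := C) U.α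
        ⟨Polynomial.X ^ 2 - Polynomial.C (⟨U.a p, hap⟩ : C) * Polynomial.X +
          Polynomial.C (p : C), ?_, ?_⟩
      · monicity!
      · simp only [Polynomial.eval₂_add, Polynomial.eval₂_sub, Polynomial.eval₂_pow,
          Polynomial.eval₂_X, Polynomial.eval₂_mul, Polynomial.eval₂_C, Polynomial.eval₂_natCast,
          map_natCast]
        show U.α ^ 2 - U.a p * U.α + (p : U.𝒪) = 0
        linear_combination hα
    have hval : U.topValue = update (U.partValue (raisePrimes W p)) p U.α := funext fun r => by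
      by_cases hr : r = p
      · subst hr; simp [Setup.topValue, hpR]
      · simp [Setup.topValue, Setup.partValue, hr]
    have hpv : U.partValue (raisePrimes W p) p = U.a p := by simp [Setup.partValue, hpR]
    have hqu : IsUnit (U.α ^ 2 - (p : U.𝒪)) := by
      by_contra hu
      have h0 := (mem_maximalIdeal _).mpr hu
      have h' := add_mem h0 U.p_mem
      rw [sub_add_cancel] at h'
      exact (mem_maximalIdeal _).mp h' (hαu.pow 2)
    have key : ∀ (K : ℕ) [NeZero K], K = B * p →
        Module.finrank U.𝒪 (eigenClasses K U.𝒪 {ℓ | ¬ ℓ ∣ baseLevel W p Kind.ord} U.topValue) =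
            Module.finrank U.𝒪 U.baseEigen ∧
          Module.length U.𝒪 (NumCrit.CongModule (twistedPairing K U.𝒪)
              (eigenClasses K U.𝒪 {ℓ | ¬ ℓ ∣ baseLevel W p Kind.ord} U.topValue)) =
            U.basePsi + Module.finrank U.𝒪 U.baseEigen * Ring.ord U.𝒪 U.raiseFactor := by
      intro K _ hK
      subst hK
      obtain ⟨h3, h4⟩ := eig_raiseOne (p := p) hp2 hp hpB hl hlB hlp
        (T := {ℓ | ¬ ℓ ∣ baseLevel W p Kind.ord}) (fun r _ h hd => h (hd.mul_right _))
        (e := U.partValue (raisePrimes W p)) (by simpa [Setup.partValue, hlR] using ha)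
        (fun r hr hrT => by
          rw [Setup.partValue]
          split_ifs
          · exact isAlgVal_of_isIntegral isIntegral_zero
          · exact isAlgVal_of_isIntegral (isIntegral_a U hr hrT))
        (α := U.α) (by rw [hpv]; exact hα) halgα hαu hqu
        (by rw [h1]; exact finrank_baseEigen_ne_zero U)
      rw [hval, h3, h4, h1, h2, Setup.raiseFactor, if_pos rfl, ord_mul_general, mul_add, add_assoc]
      exact ⟨rfl, rfl⟩
    exact key (fullLevel W p Kind.ord) hlev

end Fermat.Agent.R59
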