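/-
A good prime `ℓ ≡ 1` modulo a given level with `a_ℓ ≢ ℓ + 1 (mod p)`, from irreducibility of
`E[p]` (owner: helper87).
-/
import Fermat.Agent.R59.Setup.TW
import Fermat.Agent.LR.NonEisenstein
import Fermat.Agent.TW.Killing

set_option autoImplicit false

noncomputable section

namespace Fermat.Agent.R59

open Module WeierstrassCurve
open Fermat.Agent.Galois (Qbar GalQ)
open Fermat.Agent.CondLevel (Tors rhoTors)
open scoped WeierstrassCurve.Affine

/-- A group of automorphisms of a plane with a set closed under products, conjugation and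
containing the commutators, all fixing a nonzero vector, has a stable line or is commutative. -/
theorem exists_stable_or_commute {k : Type*} [Field k] {V : Type*} [AddCommGroup V] [Module k V]
    (hV : Module.finrank k V = 2) {G : Type*} [Group G] (ρ : G →* Module.End k V) (H : Set G)
    (hmul : ∀ g ∈ H, ∀ h ∈ H, g * h ∈ H) (hconj : ∀ g, ∀ h ∈ H, g⁻¹ * h * g ∈ H)
    (hcomm : ∀ g h, g⁻¹ * h⁻¹ * g * h ∈ H) (hfix : ∀ g ∈ H, ∃ v : V, v ≠ 0 ∧ ρ g v = v) :
    (∃ L : Submodule k V, L ≠ ⊥ ∧ L ≠ ⊤ ∧ ∀ g, ∀ x ∈ L, ρ g x ∈ L) ∨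
      ∀ g h, ρ g * ρ h = ρ h * ρ g := by
  classical
  have : FiniteDimensional k V := FiniteDimensional.of_finrank_pos (by omega)
  by_cases hall : ∃ g ∈ H, LinearMap.det (ρ g) = 1 ∧ ρ g ≠ 1
  · obtain ⟨g₀, hgH, hd₀, hg₀⟩ := hall
    obtain ⟨v, hv, hgv⟩ := hfix g₀ hgH
    have fix_line : ∀ x : V, ρ g₀ x = x → x ∈ Submodule.span k {v} := by
      intro x hx
      by_contra hxv
      apply hg₀
      have hli : LinearIndependent k ![v, x] := by
        rw [LinearIndependent.pair_iff' hv]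
        intro a ha
        exact hxv (Submodule.mem_span_singleton.mpr ⟨a, ha⟩)
      refine (basisOfLinearIndependentOfCardEqFinrank hli (by simp [hV])).ext fun i => ?_
      fin_cases i <;> simp [hgv, hx]
    have hfixv : ∀ h ∈ H, LinearMap.det (ρ h) = 1 → ρ h v = v := by
      intro h hh hd
      obtain ⟨w, hw, hhw⟩ := hfix h hh
      by_cases hwv : w ∈ Submodule.span k {v}
      · obtain ⟨a, rfl⟩ := Submodule.mem_span_singleton.mp hwv
        have ha : a ≠ 0 := by rintro rfl; simp at hw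
        rw [map_smul] at hhw
        exact smul_right_injective V ha hhw
      · have hli : LinearIndependent k ![v, w] := by
          rw [LinearIndependent.pair_iff' hv]
          intro a ha
          exact hwv (Submodule.mem_span_singleton.mpr ⟨a, ha⟩)
        let b := basisOfLinearIndependentOfCardEqFinrank hli (by simp [hV])
        have hb0 : b 0 = v := by simp [b]
        have hb1 : b 1 = w := by simp [b]
        set P := LinearMap.toMatrix b b (ρ g₀) with hP
        set Q := LinearMap.toMatrix b b (ρ h) with hQ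
        have p00 : P 0 0 = 1 := by rw [hP, LinearMap.toMatrix_apply, hb0, hgv, ← hb0]; simp
        have p10 : P 1 0 = 0 := by rw [hP, LinearMap.toMatrix_apply, hb0, hgv, ← hb0]; simp
        have q01 : Q 0 1 = 0 := by rw [hQ, LinearMap.toMatrix_apply, hb1, hhw, ← hb1]; simp
        have q11 : Q 1 1 = 1 := by rw [hQ, LinearMap.toMatrix_apply, hb1, hhw, ← hb1]; simp
        have dP : P.det = 1 := by rw [hP, LinearMap.det_toMatrix, hd₀]
        have dQ : Q.det = 1 := by rw [hQ, LinearMap.det_toMatrix, hd]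
        rw [Matrix.det_fin_two, p00, p10, mul_zero, sub_zero, one_mul] at dP
        rw [Matrix.det_fin_two, q01, q11, zero_mul, sub_zero, mul_one] at dQ
        obtain ⟨u, hu, hmu⟩ := hfix (g₀ * h) (hmul _ hgH _ hh)
        have h0 : (P * Q - 1).det = 0 := by
          have e : LinearMap.toMatrix b b (ρ (g₀ * h) - 1) = P * Q - 1 := by
            rw [map_sub, map_mul, LinearMap.toMatrix_one, LinearMap.toMatrix_mul]
          rw [← e, LinearMap.det_toMatrix]
          by_contra hne0
          have hinj : Function.Injective (ρ (g₀ * h) - 1 : Module.End k V) :=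
            ((Module.End.isUnit_iff _).mp
              ((LinearMap.isUnit_iff_isUnit_det _).mpr (Ne.isUnit hne0))).1
          exact hu (hinj (by
            rw [LinearMap.sub_apply, hmu, Module.End.one_apply, sub_self, _root_.map_zero]))
        simp only [Matrix.det_fin_two, Matrix.sub_apply, Matrix.mul_apply, Fin.sum_univ_two,
          p00, p10, dP, dQ, q01, q11] at h0
        simp at h0
        rcases h0 with h0 | h0
        · exfalso
          apply hg₀
          apply (LinearMap.toMatrix b b).injective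
          rw [LinearMap.toMatrix_one]
          ext i j
          fin_cases i <;> fin_cases j <;> simp [← hP, p00, p10, dP, h0]
        · apply b.repr.injective
          refine Finsupp.ext fun i => ?_
          have e0 : Q 0 0 = (b.repr (ρ h v)) 0 := by rw [hQ, LinearMap.toMatrix_apply, hb0]
          have e1 : Q 1 0 = (b.repr (ρ h v)) 1 := by rw [hQ, LinearMap.toMatrix_apply, hb0]
          conv_rhs => rw [← hb0, Module.Basis.repr_self]
          fin_cases i <;> simp [← e0, ← e1, dQ, h0]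
    refine Or.inl ⟨Submodule.span k {v}, by simpa using hv, fun ht => ?_, fun g x hx => ?_⟩
    · have := finrank_span_singleton (K := k) hv
      rw [ht, finrank_top, hV] at this
      omega
    obtain ⟨a, rfl⟩ := Submodule.mem_span_singleton.mp hx
    rw [map_smul]
    refine Submodule.smul_mem _ _ (fix_line _ ?_)
    have hdc : LinearMap.det (ρ (g⁻¹ * g₀ * g)) = 1 := by
      rw [map_mul, map_mul, map_mul, map_mul, hd₀, mul_one, ← map_mul LinearMap.det, ← map_mul,
        inv_mul_cancel, map_one, map_one]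
    have hfv := hfixv _ (hconj g _ hgH) hdc
    rw [map_mul, map_mul, Module.End.mul_apply, Module.End.mul_apply] at hfv
    have := congrArg (ρ g) hfv
    rwa [← Module.End.mul_apply (ρ g) (ρ g⁻¹), ← map_mul, mul_inv_cancel, map_one,
      Module.End.one_apply] at this
  · push Not at hall
    refine Or.inr fun g h => ?_
    have e1 : LinearMap.det (ρ g⁻¹) * LinearMap.det (ρ g) = 1 := by
      rw [← map_mul, ← map_mul, inv_mul_cancel, map_one, map_one]
    have e2 : LinearMap.det (ρ h⁻¹) * LinearMap.det (ρ h) = 1 := by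
      rw [← map_mul, ← map_mul, inv_mul_cancel, map_one, map_one]
    have h1 := hall _ (hcomm g h) (by
      simp only [map_mul]
      linear_combination (LinearMap.det (ρ h⁻¹) * LinearMap.det (ρ h)) * e1 + e2)
    calc ρ g * ρ h = ρ (g * h) := (map_mul ρ g h).symm
      _ = ρ (h * g) * ρ (g⁻¹ * h⁻¹ * g * h) := by rw [← map_mul]; group
      _ = ρ h * ρ g := by rw [h1, mul_one, map_mul]

/-- A primitive root of unity and the action on it. -/
theorem galois_comm_rootOfUnity {L : ℕ} [NeZero L] {μ : Qbar} (hμ : μ ^ L = 1) (g h : GalQ) :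
    g (h μ) = h (g μ) := by
  obtain ⟨ζ, hζ⟩ := HasEnoughRootsOfUnity.exists_primitiveRoot Qbar L
  obtain ⟨i, -, rfl⟩ := hζ.eq_pow_of_pow_eq_one hμ
  have hg : ∀ g : GalQ, ∃ a : ℕ, g ζ = ζ ^ a := fun g => by
    obtain ⟨a, -, ha⟩ := hζ.eq_pow_of_pow_eq_one
      (show g ζ ^ L = 1 by rw [← map_pow, hζ.pow_eq_one, map_one])
    exact ⟨a, ha.symm⟩
  obtain ⟨a, ha⟩ := hg g
  obtain ⟨b, hb⟩ := hg h
  simp only [map_pow, ha, hb, ← pow_mul]
  ring_nf

/-- An element fixing the `L`-th roots of unity agrees at a finite level with a power of a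
Frobenius element at a prime `≡ 1 (mod L)`. -/
theorem exists_frobenius_one_mod (F₀ : IntermediateField ℚ Qbar) [FiniteDimensional ℚ F₀]
    (L : ℕ) [NeZero L] (B : Finset ℕ) {g : GalQ} (hg : ∀ μ : Qbar, μ ^ L = 1 → g μ = μ) :
    ∃ q : ℕ, q.Prime ∧ q ∉ B ∧ ¬ q ∣ L ∧ (q : ZMod L) = 1 ∧
      ∃ A : ValuationSubring Qbar, A.LiesOverPrime q ∧ ∃ σ : GalQ, A.IsFrobeniusAt σ q ∧
        ∃ j : ℤ, ∀ x ∈ F₀, (σ ^ j) x = g x := by
  have := TW.Killing.finiteDimensional_rootsField L
  have := Density.normal_qbar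
  set F₁ : IntermediateField ℚ Qbar := F₀ ⊔ TW.Killing.rootsField L with hF₁
  set F : IntermediateField ℚ Qbar := IntermediateField.normalClosure ℚ F₁ Qbar with hF
  haveI : FiniteDimensional ℚ F := inferInstance
  haveI : Normal ℚ F := normalClosure.normal ℚ F₁ Qbar
  have hle : F₁ ≤ F := IntermediateField.le_normalClosure F₁
  obtain ⟨q, hq, hqB, A, hA, σ, hσ, hz⟩ :=
    @Density.exists_frobenius_zpowers_restrictNormal F (inferInstance : FiniteDimensional ℚ F)
      (normalClosure.normal ℚ F₁ Qbar : Normal ℚ F) g (B ∪ L.primeFactors)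
  simp only [Finset.mem_union, not_or] at hqB
  have hqL : ¬ q ∣ L := fun h => hqB.2 (Nat.mem_primeFactors.mpr ⟨hq, h, NeZero.ne L⟩)
  obtain ⟨i, hi⟩ := TW.Killing.exists_zpow_eqOn (F := F) hz
  obtain ⟨j, hj⟩ := TW.Killing.exists_zpow_eqOn (F := F) hz.symm
  obtain ⟨ζ, hζ⟩ := HasEnoughRootsOfUnity.exists_primitiveRoot Qbar L
  have hσζ : σ ζ = ζ := by
    rw [← hi ζ (hle (le_sup_right (a := F₀) (TW.Killing.apply_mem_rootsField hζ.pow_eq_one)))]
    exact MulAction.mem_stabilizer_iff.1 (Subgroup.zpow_mem _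
      (MulAction.mem_stabilizer_iff.2 (hg ζ hζ.pow_eq_one) : g ∈ MulAction.stabilizer GalQ ζ) i)
  have hq1 : (q : ZMod L) = 1 := by
    have h1 : σ ζ = ζ ^ q :=
      Galois.isFrobeniusAt_apply_rootOfUnity hA hq hσ hqL hζ.pow_eq_one
    rw [hσζ] at h1
    have hd : L ∣ q - 1 := by
      refine hζ.dvd_of_pow_eq_one _ (mul_right_cancel₀ (hζ.ne_zero (NeZero.ne L)) ?_)
      rw [← pow_succ, Nat.sub_add_cancel hq.one_le, one_mul, ← h1]
    rw [← Nat.sub_add_cancel hq.one_le, Nat.cast_add, (ZMod.natCast_eq_zero_iff _ _).2 hd,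
      Nat.cast_one, zero_add]
  exact ⟨q, hq, hqB.1, hqL, hq1, A, hA, σ, hσ, j,
    fun x hx => hj x (hle (le_sup_left (b := TW.Killing.rootsField L) hx))⟩

variable (W : WeierstrassCurve ℤ) (hΔ : W.Δ ≠ 0) {p : ℕ} [Fact p.Prime]

include hΔ in
/-- Irreducibility gives good primes `ℓ ≡ 1 (mod L)` with `a_ℓ ≢ ℓ + 1 (mod p)`. -/
theorem exists_prime_one_mod_apOfModel_ne (hp2 : p ≠ 2) (hirr : W.ModRepIsIrreducible p)
    (L : ℕ) [NeZero L] (S : Finset ℕ) :
    ∃ ℓ : ℕ, ℓ.Prime ∧ ℓ ∉ S ∧ ¬ ℓ ∣ L ∧ (ℓ : ZMod L) = 1 ∧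
      (W.apOfModel ℓ : ZMod p) ≠ (ℓ : ZMod p) + 1 := by
  classical
  have hp : p.Prime := Fact.out
  by_contra hcon
  push Not at hcon
  obtain ⟨F₀, hF₀, hFρ⟩ := CondLevel.rhoTors_finiteLevel W hΔ hp.ne_zero
  let H : Set GalQ := {g | ∀ μ : Qbar, μ ^ L = 1 → g μ = μ}
  have hfix : ∀ g ∈ H, ∃ v : Tors W p, v ≠ 0 ∧ rhoTors W p g v = v := by
    intro g hg
    obtain ⟨q, hq, hqB, hqL, hq1, A, hA, σ, hσ, j, hj⟩ :=
      exists_frobenius_one_mod F₀ L (insert p (S ∪ W.Δ.natAbs.primeFactors)) hg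
    simp only [Finset.mem_insert, Finset.mem_union, not_or] at hqB
    have hgood : W.IsGoodPrimeFor q := fun hd => hqB.2.2 (Nat.mem_primeFactors.mpr
      ⟨hq, Int.natCast_dvd.mp hd, Int.natAbs_ne_zero.mpr hΔ⟩)
    obtain ⟨ht, hd⟩ := CondLevel.frobenius_trace_det W hΔ hq hqB.1 hgood hA hσ
    rw [hcon q hq hqB.2.1 hqL hq1, ← hd] at ht
    obtain ⟨v, hv, hσv⟩ :=
      LR.exists_fixed_of_trace_det (CondLevel.finrank_tors W hΔ p) (rhoTors W p σ) ht
    refine ⟨v, hv, ?_⟩
    have h3 : rhoTors W p (σ ^ j) v = v := by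
      have h4 : σ ∈ MulAction.stabilizer GalQ v :=
        MulAction.mem_stabilizer_iff.2 (by rw [← rhoTors_apply]; exact hσv)
      rw [rhoTors_apply]
      exact MulAction.mem_stabilizer_iff.1 (Subgroup.zpow_mem _ h4 j)
    have h5 : rhoTors W p ((σ ^ j)⁻¹ * g) = 1 := hFρ _ fun x hx => by
      rw [AlgEquiv.mul_apply, ← hj x hx]
      exact (σ ^ j).symm_apply_apply x
    calc rhoTors W p g v = (rhoTors W p (σ ^ j) * rhoTors W p ((σ ^ j)⁻¹ * g)) v := by
          rw [← map_mul, mul_inv_cancel_left]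
      _ = v := by rw [h5, mul_one, h3]
  rcases exists_stable_or_commute (CondLevel.finrank_tors W hΔ p) (rhoTors W p) H
    (fun g hg h hh μ hμ => by rw [AlgEquiv.mul_apply, hh μ hμ, hg μ hμ])
    (fun g h hh μ hμ => by
      rw [AlgEquiv.mul_apply, AlgEquiv.mul_apply, hh (g μ) (by rw [← map_pow, hμ, map_one])]
      exact g.symm_apply_apply μ)
    (fun g h μ hμ => by
      rw [AlgEquiv.mul_apply, AlgEquiv.mul_apply, AlgEquiv.mul_apply,
        galois_comm_rootOfUnity hμ g h,
        show h⁻¹ (h (g μ)) = g μ from h.symm_apply_apply _]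
      exact g.symm_apply_apply μ)
    hfix with ⟨N, hbot, htop, hN⟩ | hc
  · rcases hirr.2 N fun σ x hx => hN σ x hx with h | h
    · exact hbot h
    · exact htop h
  · exact not_commute_of_irreducible W hΔ hp2 hirr hc

end Fermat.Agent.R59
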