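/-
The group ring modulo one generator minus one is torsion-free (owner: helper87).
-/
import Fermat.Agent.R59.GroupRing

set_option autoImplicit false

noncomputable section

namespace Fermat.Agent.R59

variable (𝒪 : Type) [CommRing 𝒪] (p m r : ℕ)

/-- Forgetting the `i`-th coordinate. -/
def twKill (i : Fin r) : TWGroup p m r →* TWGroup p m r where
  toFun g := Function.update g i 1
  map_one' := Function.update_eq_self_iff.2 rfl
  map_mul' g h := by
    funext j
    by_cases hj : j = i
    · subst hj; simp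
    · simp [hj]

theorem isAddTorsionFree_quot_twGen [IsAddTorsionFree 𝒪] [NeZero p] (i : Fin r) :
    IsAddTorsionFree (TWAlg 𝒪 p m r ⧸ Ideal.span {twGen 𝒪 p m r i - 1}) := by
  set I := Ideal.span {twGen 𝒪 p m r i - 1}
  let π : TWAlg 𝒪 p m r →ₐ[𝒪] TWAlg 𝒪 p m r :=
    MonoidAlgebra.lift 𝒪 _ (TWGroup p m r) ((MonoidAlgebra.of 𝒪 _).comp (twKill p m r i))
  have hπof : ∀ g, π (MonoidAlgebra.of 𝒪 _ g) = MonoidAlgebra.of 𝒪 _ (twKill p m r i g) :=
    fun g => by simp [π]
  have hπ : ∀ x ∈ I, π x = 0 := by
    intro x hx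
    obtain ⟨y, rfl⟩ := Ideal.mem_span_singleton'.1 hx
    rw [map_mul, map_sub, map_one, twGen, hπof,
      show twKill p m r i (Pi.mulSingle i (Multiplicative.ofAdd 1)) = 1 by
        funext j
        by_cases hj : j = i
        · subst hj; simp [twKill]
        · simp [twKill, hj],
      map_one, sub_self, mul_zero]
  have hof : ∀ g, MonoidAlgebra.of 𝒪 _ g - MonoidAlgebra.of 𝒪 _ (twKill p m r i g) ∈ I := by
    intro g
    have hg : g = twKill p m r i g *
        Pi.mulSingle i (Multiplicative.ofAdd (1 : ZMod (p ^ m))) ^ (Multiplicative.toAdd (g i)).val := by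
      funext j
      by_cases hj : j = i
      · subst hj
        rw [Pi.mul_apply, Pi.pow_apply, Pi.mulSingle_eq_same]
        apply Multiplicative.toAdd.injective
        simp [twKill, toAdd_pow]
      · simp [twKill, hj]
    obtain ⟨a, n, ha, hg'⟩ : ∃ a n, twKill p m r i g = a ∧
        g = a * Pi.mulSingle i (Multiplicative.ofAdd (1 : ZMod (p ^ m))) ^ n := ⟨_, _, rfl, hg⟩
    rw [ha, hg']
    rw [map_mul, map_pow, ← mul_sub_one]
    refine I.mul_mem_left _ ?_
    exact Ideal.mem_span_singleton.2 (sub_one_dvd_pow_sub_one _ n)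
  have key : ∀ x, x - π x ∈ I := by
    intro x
    induction x using MonoidAlgebra.induction_on with
    | of g => rw [hπof]; exact hof g
    | add a b ha hb => rw [map_add, add_sub_add_comm]; exact add_mem ha hb
    | smul c a ha =>
      rw [map_smul, ← smul_sub, Algebra.smul_def]
      exact I.mul_mem_left _ ha
  refine Function.Injective.isAddTorsionFree
    (Ideal.Quotient.lift I π.toRingHom hπ).toAddMonoidHom ?_
  intro x y
  obtain ⟨x, rfl⟩ := Ideal.Quotient.mk_surjective x
  obtain ⟨y, rfl⟩ := Ideal.Quotient.mk_surjective y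
  intro h
  refine Ideal.Quotient.eq.2 ?_
  have h' : π (x - y) = 0 := by rw [map_sub, sub_eq_zero]; exact h
  simpa [h'] using key (x - y)

end Fermat.Agent.R59
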