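import Fermat.Agent.Patching.Main
import Fermat.Agent.Deform.PowerSeriesLocal
import Fermat.Agent.Tangent.PowerSeries

/-!
# Patching from Taylor–Wiles levels with a group ring basis

A `TWLevel` at `n` is a quotient `R` of `𝒪[[X₁..X_r]]`, a map `res : R → R₀`, units `u₁..u_r` of
`R` going to `1`, and an `R`-module `M` which is free over `𝒪[u₁..u_r]/(u_j^(ℓ^n) - 1)` with
`M/(u_j - 1) = M₀`. Such levels for all `n` make `M₀` free over `R₀` and `R₀` a complete
intersection.
-/

set_option autoImplicit false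

noncomputable section

open IsLocalRing

namespace Fermat.Agent.R59

variable {𝒪 : Type} [CommRing 𝒪] [IsDomain 𝒪] [IsDiscreteValuationRing 𝒪]
  [IsAdicComplete (maximalIdeal 𝒪) 𝒪] [Finite (ResidueField 𝒪)]

local notation3 "Λ[" r "]" => MvPowerSeries (Fin r) 𝒪

section Reduction

variable (ℓ r n : ℕ) [NeZero ℓ]

/-- The product of powers of `1 + X_j`. -/
def groupElt (e : Fin r → ℕ) : Λ[r] := ∏ j, (1 + MvPowerSeries.X j) ^ e j

/-- The power series congruent to combinations of the `groupElt`s of small exponent. -/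
def reducible : Submodule 𝒪 Λ[r] :=
  (Patching.relIdeal 𝒪 ℓ r n).restrictScalars 𝒪 ⊔
    Submodule.span 𝒪 (Set.range fun e : Fin r → Fin (ℓ ^ n) => groupElt r fun j => (e j : ℕ))

theorem groupElt_mem_reducible (e : Fin r → ℕ) :
    (groupElt r e : Λ[r]) ∈ reducible (𝒪 := 𝒪) ℓ r n := by
  have hpos : 0 < ℓ ^ n := pow_pos (NeZero.pos ℓ) n
  have hmk : Ideal.Quotient.mk (Patching.relIdeal 𝒪 ℓ r n) (groupElt r e) =
      Ideal.Quotient.mk _ (groupElt r fun j => e j % ℓ ^ n) := by
    simp only [groupElt, map_prod, map_pow]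
    refine Finset.prod_congr rfl fun j _ => ?_
    have h1 : Ideal.Quotient.mk (Patching.relIdeal 𝒪 ℓ r n)
        (1 + MvPowerSeries.X j : Λ[r]) ^ (ℓ ^ n) = 1 := by
      rw [← map_pow, ← map_one (Ideal.Quotient.mk _), Ideal.Quotient.eq]
      exact Ideal.subset_span ⟨j, rfl⟩
    conv_lhs => rw [← Nat.mod_add_div (e j) (ℓ ^ n), pow_add, pow_mul, h1, one_pow, mul_one]
  rw [← sub_add_cancel (groupElt r e : Λ[r]) (groupElt r fun j => e j % ℓ ^ n)]
  refine Submodule.add_mem_sup ?_ (Submodule.subset_span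
    ⟨fun j => ⟨e j % ℓ ^ n, Nat.mod_lt _ hpos⟩, rfl⟩)
  exact Ideal.Quotient.eq.mp hmk

theorem monomial_mem_reducible (d : Fin r →₀ ℕ) (c : 𝒪) :
    MvPowerSeries.monomial d c ∈ reducible (𝒪 := 𝒪) ℓ r n := by
  classical
  have hmul : ∀ (j : Fin r) (f : Λ[r]), f ∈ Submodule.span 𝒪 (Set.range (groupElt (𝒪 := 𝒪) r)) →
      f * MvPowerSeries.X j ∈ Submodule.span 𝒪 (Set.range (groupElt (𝒪 := 𝒪) r)) := by
    intro j f hf
    induction hf using Submodule.span_induction with
    | mem x hx =>
      obtain ⟨e, rfl⟩ := hx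
      have : (groupElt r e : Λ[r]) * MvPowerSeries.X j =
          groupElt r (Function.update e j (e j + 1)) - groupElt r e := by
        rw [eq_sub_iff_add_eq, groupElt, groupElt,
          ← Finset.mul_prod_erase Finset.univ _ (Finset.mem_univ j),
          ← Finset.mul_prod_erase Finset.univ
            (fun i => (1 + MvPowerSeries.X i : Λ[r]) ^ Function.update e j (e j + 1) i)
            (Finset.mem_univ j), Function.update_self]
        rw [show ∏ i ∈ Finset.univ.erase j,
            (1 + MvPowerSeries.X i : Λ[r]) ^ Function.update e j (e j + 1) i =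
            ∏ i ∈ Finset.univ.erase j, (1 + MvPowerSeries.X i : Λ[r]) ^ e i from
          Finset.prod_congr rfl fun i hi => by
            rw [Function.update_of_ne (Finset.ne_of_mem_erase hi)]]
        ring
      rw [this]
      exact Submodule.sub_mem _ (Submodule.subset_span ⟨_, rfl⟩) (Submodule.subset_span ⟨_, rfl⟩)
    | zero => rw [zero_mul]; exact Submodule.zero_mem _
    | add x y _ _ hx hy => rw [add_mul]; exact Submodule.add_mem _ hx hy
    | smul a x _ hx => rw [smul_mul_assoc]; exact Submodule.smul_mem _ a hx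
  have hone : (MvPowerSeries.monomial d (1 : 𝒪) : Λ[r]) ∈
      Submodule.span 𝒪 (Set.range (groupElt (𝒪 := 𝒪) r)) := by
    induction d using Finsupp.induction₂ with
    | zero =>
      exact Submodule.subset_span ⟨0, by simp [groupElt, MvPowerSeries.monomial_zero_one]⟩
    | add_single i b f _ hb hf =>
      clear hb
      induction b with
      | zero => simpa using hf
      | succ b ih =>
        have := hmul i _ ih
        rwa [MvPowerSeries.X, MvPowerSeries.monomial_mul_monomial, mul_one, add_assoc,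
          ← Finsupp.single_add] at this
  have hle : Submodule.span 𝒪 (Set.range (groupElt (𝒪 := 𝒪) r)) ≤ reducible (𝒪 := 𝒪) ℓ r n :=
    Submodule.span_le.mpr (by rintro _ ⟨e, rfl⟩; exact groupElt_mem_reducible ℓ r n e)
  have heq : (MvPowerSeries.monomial d c : Λ[r]) = c • MvPowerSeries.monomial d (1 : 𝒪) := by
    rw [← map_smul, smul_eq_mul, mul_one]
  rw [heq]
  exact Submodule.smul_mem _ c (hle hone)

/-- Modulo the relations every power series is a combination of group elements. -/
theorem mem_reducible (f : Λ[r]) : f ∈ reducible (𝒪 := 𝒪) ℓ r n := by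
  classical
  obtain ⟨t, h1, h2, h3⟩ := Patching.exists_compact_topology (𝒪 := 𝒪)
  open scoped MvPowerSeries.WithPiTopology in
  have : CompactSpace Λ[r] := Pi.compactSpace
  open scoped MvPowerSeries.WithPiTopology in
  have hJ : IsCompact (X := Λ[r]) (Patching.relIdeal 𝒪 ℓ r n : Set Λ[r]) :=
    (IsNoetherianRing.isClosed_ideal _).isCompact
  open scoped MvPowerSeries.WithPiTopology in
  have hcont : Continuous (fun c : (Fin r → Fin (ℓ ^ n)) → 𝒪 =>
      ∑ e, MvPowerSeries.C (c e) * (groupElt r fun j => (e j : ℕ) : Λ[r])) :=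
    continuous_finset_sum _ fun e _ =>
      ((MvPowerSeries.WithPiTopology.continuous_C).comp (continuous_apply e)).mul continuous_const
  open scoped MvPowerSeries.WithPiTopology in
  have hclosed : IsClosed (X := Λ[r]) (reducible (𝒪 := 𝒪) ℓ r n : Set Λ[r]) := by
    have : (reducible (𝒪 := 𝒪) ℓ r n : Set Λ[r]) =
        (fun x : Λ[r] × Λ[r] => x.1 + x.2) '' ((Patching.relIdeal 𝒪 ℓ r n : Set Λ[r]) ×ˢ
          Set.range (fun c : (Fin r → Fin (ℓ ^ n)) → 𝒪 =>
            ∑ e, MvPowerSeries.C (c e) * (groupElt r fun j => (e j : ℕ) : Λ[r]))) := by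
      ext x
      simp only [reducible, SetLike.mem_coe, Submodule.mem_sup, Submodule.mem_span_range_iff_exists_fun,
        Submodule.restrictScalars_mem, Set.mem_image, Set.mem_prod, Set.mem_range, Prod.exists,
        ← MvPowerSeries.smul_eq_C_mul]
      constructor
      · rintro ⟨y, hy, z, ⟨c, rfl⟩, rfl⟩; exact ⟨y, _, ⟨hy, c, rfl⟩, rfl⟩
      · rintro ⟨y, z, ⟨hy, c, rfl⟩, rfl⟩; exact ⟨y, hy, _, ⟨c, rfl⟩, rfl⟩
    rw [this]
    exact ((hJ.prod (isCompact_range hcont)).image continuous_add).isClosed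
  open scoped MvPowerSeries.WithPiTopology in
  have hsum := MvPowerSeries.WithPiTopology.hasSum_of_monomials_self f
  exact hclosed.mem_of_tendsto hsum (Filter.Eventually.of_forall fun s =>
    Submodule.sum_mem _ fun d _ => monomial_mem_reducible ℓ r n d _)

end Reduction

/-- A Taylor–Wiles level over `(R₀, M₀)`. -/
structure TWLevel (ℓ r : ℕ) (R₀ : Type) [CommRing R₀] [Algebra 𝒪 R₀] (M₀ : Type) [AddCommGroup M₀]
    [Module R₀ M₀] (n : ℕ) : Type 1 where
  R : Type
  [instCommRing : CommRing R]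
  [instAlgebra : Algebra 𝒪 R]
  γ : MvPowerSeries (Fin r) 𝒪 →ₐ[𝒪] R
  γ_surjective : Function.Surjective γ
  res : R →ₐ[𝒪] R₀
  res_surjective : Function.Surjective res
  u : Fin r → R
  res_u : ∀ j, res (u j) = 1
  M : Type
  [instAddCommGroup : AddCommGroup M]
  [instModule : Module R M]
  π : M →+ M₀
  π_smul : ∀ (a : R) (x : M), π (a • x) = res a • π x
  π_surjective : Function.Surjective π
  ker_π : ∀ x : M, π x = 0 ↔
    x ∈ Ideal.span (Set.range fun j => u j - 1) • (⊤ : Submodule R M)
  u_pow_smul : ∀ (j : Fin r) (x : M), u j ^ ℓ ^ n • x = x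
  d : ℕ
  b : Fin d → M
  basis : Function.Bijective fun c : Fin d → (Fin r → Fin (ℓ ^ n)) → 𝒪 =>
    ∑ i, ∑ e, (algebraMap 𝒪 R (c i e) * ∏ j, u j ^ (e j : ℕ)) • b i

attribute [instance] TWLevel.instCommRing TWLevel.instAlgebra TWLevel.instAddCommGroup
  TWLevel.instModule

variable {ℓ r : ℕ} [NeZero ℓ] {R₀ : Type} [CommRing R₀] [Algebra 𝒪 R₀] [Nontrivial R₀]
  {M₀ : Type} [AddCommGroup M₀] [Module R₀ M₀]

/-- A Taylor–Wiles level gives a patching level. -/
theorem TWLevel.nonempty_patchingLevel {n : ℕ}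
    (L : TWLevel (𝒪 := 𝒪) ℓ r R₀ M₀ n) :
    Nonempty (Algebra.PatchingLevel 𝒪 r R₀ M₀ (Patching.relIdeal 𝒪 ℓ r n)) := by
  classical
  have : IsAdicComplete (maximalIdeal Λ[r]) Λ[r] := Deform.isAdicComplete_mvPowerSeries
  have hψ : Function.Surjective (L.res.comp L.γ) := L.res_surjective.comp L.γ_surjective
  have : IsLocalHom ((L.res.comp L.γ : Λ[r] →ₐ[𝒪] R₀) : Λ[r] →+* R₀) :=
    IsLocalHom.of_surjective _ hψ
  choose f hf using fun j => L.γ_surjective (L.u j - 1)
  have hfm : ∀ j, f j ∈ maximalIdeal Λ[r] := by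
    intro j hu
    have := hu.map ((L.res.comp L.γ : Λ[r] →ₐ[𝒪] R₀) : Λ[r] →+* R₀)
    rw [show ((L.res.comp L.γ : Λ[r] →ₐ[𝒪] R₀) : Λ[r] →+* R₀) (f j) = L.res (L.γ (f j)) from rfl,
      hf, map_sub, L.res_u, map_one, sub_self, isUnit_zero_iff] at this
    exact zero_ne_one this
  obtain ⟨φ, hφ⟩ :=
    Tangent.exists_algHom_mvPowerSeries_of_mem (𝒪 := 𝒪) (maximalIdeal Λ[r]) f hfm
  let : Module Λ[r] L.M := Module.compHom L.M (L.γ : Λ[r] →+* L.R)
  have hsmul : ∀ (g : Λ[r]) (x : L.M), g • x = L.γ g • x := fun _ _ => rfl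
  have hX : ∀ j, L.γ (φ (MvPowerSeries.X j)) = L.u j - 1 := fun j => by rw [hφ, hf]
  have hgrp : ∀ e : Fin r → ℕ, L.γ (φ (groupElt r e)) = ∏ j, L.u j ^ e j := by
    intro e
    simp only [groupElt, map_prod, map_pow, map_add, map_one, hX, add_sub_cancel]
  have hrel : ∀ g ∈ Patching.relIdeal 𝒪 ℓ r n, ∀ x : L.M, L.γ (φ g) • x = 0 := by
    intro g hg
    induction hg using Submodule.span_induction with
    | mem y hy =>
      obtain ⟨j, rfl⟩ := hy
      intro x
      simp only [map_sub, map_pow, map_add, map_one, hX, add_sub_cancel, sub_smul, one_smul,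
        L.u_pow_smul, sub_self]
    | zero => intro x; simp
    | add y z _ _ hy hz => intro x; simp [add_smul, hy x, hz x]
    | smul a y _ hy => intro x; simp [mul_smul, hy x]
  -- a power series acts through its reduction
  have hdec : ∀ g : Λ[r], ∃ a : (Fin r → Fin (ℓ ^ n)) → 𝒪,
      g - ∑ e, a e • groupElt r (fun j => (e j : ℕ)) ∈ Patching.relIdeal 𝒪 ℓ r n := by
    intro g
    obtain ⟨y, hy, z, hz, rfl⟩ := Submodule.mem_sup.mp (mem_reducible ℓ r n g)
    obtain ⟨a, rfl⟩ := (Submodule.mem_span_range_iff_exists_fun 𝒪).mp hz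
    exact ⟨a, by simpa using hy⟩
  choose a ha using hdec
  have hact : ∀ (g : Λ[r]) (x : L.M), φ g • x =
      ∑ e, (algebraMap 𝒪 L.R (a g e) * ∏ j, L.u j ^ (e j : ℕ)) • x := by
    intro g x
    have := hrel _ (ha g) x
    rw [map_sub, map_sub, sub_smul, sub_eq_zero, map_sum, map_sum, Finset.sum_smul] at this
    rw [hsmul, this]
    refine Finset.sum_congr rfl fun e _ => ?_
    rw [Algebra.smul_def, map_mul, map_mul, AlgHom.commutes, AlgHom.commutes, hgrp]
  have hker : ∀ x : L.M, L.π x = 0 ↔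
      x ∈ Ideal.span (Set.range fun i => φ (MvPowerSeries.X i)) • (⊤ : Submodule Λ[r] L.M) := by
    intro x
    rw [L.ker_π]
    constructor
    · intro hx
      refine Submodule.smul_induction_on hx (fun t ht y _ => ?_)
        (fun y z hy hz => Submodule.add_mem _ hy hz)
      induction ht using Submodule.span_induction generalizing y with
      | mem t ht =>
        obtain ⟨j, rfl⟩ := ht
        simp only
        rw [← hX, ← hsmul]
        exact Submodule.smul_mem_smul (Ideal.subset_span ⟨j, rfl⟩) Submodule.mem_top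
      | zero => rw [zero_smul]; exact Submodule.zero_mem _
      | add s t _ _ hs ht => rw [add_smul]; exact Submodule.add_mem _ (hs y trivial) (ht y trivial)
      | smul c t _ ht => rw [smul_eq_mul, mul_comm, mul_smul]; exact ht _ trivial
    · intro hx
      refine Submodule.smul_induction_on hx (fun t ht y _ => ?_)
        (fun y z hy hz => Submodule.add_mem _ hy hz)
      rw [hsmul]
      refine Submodule.smul_mem_smul ?_ Submodule.mem_top
      induction ht using Submodule.span_induction with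
      | mem t ht =>
        obtain ⟨j, rfl⟩ := ht
        rw [hX]
        exact Ideal.subset_span ⟨j, rfl⟩
      | zero => simp
      | add s t _ _ hs ht => rw [map_add]; exact Ideal.add_mem _ hs ht
      | smul c t _ ht => rw [smul_eq_mul, map_mul]; exact Ideal.mul_mem_left _ _ ht
  refine ⟨{ N := L.M
            φ := φ
            ψ := L.res.comp L.γ
            ψ_surjective := hψ
            ψ_φ_X := fun i => by simp [hX, L.res_u]
            π := L.π
            π_smul := fun g x => L.π_smul _ x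
            π_surjective := L.π_surjective
            ker_π := hker
            d := L.d
            b := L.b
            b_span := fun x => ?_
            b_rel := fun c => ?_ }⟩
  · obtain ⟨a', ha'⟩ := L.basis.2 x
    refine ⟨fun i => ∑ e, a' i e • groupElt r (fun j => (e j : ℕ)), ?_⟩
    rw [← ha']
    refine Finset.sum_congr rfl fun i _ => ?_
    rw [hsmul, map_sum, map_sum, Finset.sum_smul]
    refine Finset.sum_congr rfl fun e _ => ?_
    rw [Algebra.smul_def, map_mul, map_mul, AlgHom.commutes, AlgHom.commutes, hgrp]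
  · constructor
    · intro h i
      have h0 : (fun i => a (c i)) = (0 : Fin L.d → (Fin r → Fin (ℓ ^ n)) → 𝒪) := by
        apply L.basis.1
        simp only [Pi.zero_apply, map_zero, zero_mul, zero_smul, Finset.sum_const_zero]
        rw [← h]
        exact Finset.sum_congr rfl fun i _ => (hact (c i) _).symm
      have := ha (c i)
      rwa [show a (c i) = 0 from congrFun h0 i, show ∑ e, (0 : (Fin r → Fin (ℓ ^ n)) → 𝒪) e •
        groupElt (𝒪 := 𝒪) r (fun j => (e j : ℕ)) = 0 by simp, sub_zero] at this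
    · intro h
      exact Finset.sum_eq_zero fun i _ => hrel _ (h i) _

/-- **Patching.** Taylor–Wiles levels for all `n` make `M₀` free over `R₀`, faithful, and `R₀` a
complete intersection. -/
theorem free_of_twLevels [Nontrivial M₀] (hℓ : (ℓ : 𝒪) ∈ maximalIdeal 𝒪)
    (L : ∀ n, TWLevel (𝒪 := 𝒪) ℓ r R₀ M₀ n) :
    Module.Free R₀ M₀ ∧ Module.annihilator R₀ M₀ = ⊥ ∧
      ∃ (γ : MvPowerSeries (Fin r) 𝒪 →ₐ[𝒪] R₀) (g : Fin r → MvPowerSeries (Fin r) 𝒪),
        Function.Surjective γ ∧ RingHom.ker γ = Ideal.span (Set.range g) := by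
  have h : ∀ n, Algebra.PatchingLevel 𝒪 r R₀ M₀ (Patching.relIdeal 𝒪 ℓ r n) :=
    fun n => (L n).nonempty_patchingLevel.some
  obtain ⟨B⟩ := Patching.nonempty_patchingLevel_bot hℓ
    (⟨h⟩ : Algebra.PatchingDatum 𝒪 ℓ r R₀ M₀)
  obtain ⟨hfree, hann, hker⟩ := S57.result B
  exact ⟨hfree, hann, B.ψ, _, B.ψ_surjective, hker⟩

end Fermat.Agent.R59
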