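import Fermat.Agent.R59.HeckeRep
import Fermat.Agent.R59.Patch
import Fermat.Agent.R59.GroupRing
import Fermat.Agent.TW.Mod.Packaged

/-!
# Taylor–Wiles data over a lifting problem, and the statements about their modules

`TWPrimes U m r`: primes `q ≡ 1 (mod p^(m+1))` with characters onto `ℤ/p^m` and a root `α` of the
residual Frobenius. Its module `twPart` lives over `TWAlg 𝒪 p m r`.

* `StmtTWHecke`: the twisted operators `η(ℓ)⁻¹ T_ℓ` come from Hecke algebras of trivial character.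
* `StmtTWRamified`: on a component of conductor `q_i` and order `p`, the diamond operator at `q_i`
  has no fixed vectors.
-/

set_option autoImplicit false
set_option synthInstance.maxHeartbeats 400000

noncomputable section

open IsLocalRing

namespace Fermat.Agent.R59

open Fermat.Agent.TW.Mod

variable {W : WeierstrassCurve ℤ} {p : ℕ} {k : Kind}

/-- Taylor–Wiles primes of depth `m` with their characters. -/
structure TWPrimes (U : Setup W p k) (m r : ℕ) : Type where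
  qv : Fin r → ℕ
  qv_injective : Function.Injective qv
  prime : ∀ i, (qv i).Prime
  ne_p : ∀ i, qv i ≠ p
  notMem_fullSet : ∀ i, qv i ∉ fullSet W p
  dvd : ∀ i, p ^ (m + 1) ∣ qv i - 1
  gen : ∀ i, (ZMod (qv i))ˣ
  gen_spec : ∀ i (u : (ZMod (qv i))ˣ), ∃ j : ℕ, gen i ^ j = u
  char : ∀ i, (ZMod (qv i))ˣ →* Multiplicative (ZMod (p ^ m))
  char_gen : ∀ i, char i (gen i) = Multiplicative.ofAdd 1
  α : ℕ → ResidueField U.𝒪
  α_root : ∀ i, α (qv i) ^ 2 - residue U.𝒪 (U.a (qv i)) * α (qv i) + 1 = 0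
  α_sq_ne : ∀ i, α (qv i) ^ 2 ≠ 1
  eigenvalues : ∀ i, ∀ P : ValuationSubring (AlgebraicClosure ℚ), P.LiesOverPrime (qv i) →
    ∀ φ : AlgebraicClosure ℚ ≃ₐ[ℚ] AlgebraicClosure ℚ, P.IsFrobeniusAt φ (qv i) →
      ∃ a b : ResidueField U.𝒪, a ≠ b ∧
        LinearMap.charpoly (U.ρbar.ρ φ) =
          (Polynomial.X - Polynomial.C a) * (Polynomial.X - Polynomial.C b)

namespace TWPrimes

variable {U : Setup W p k} {m r : ℕ} (T : TWPrimes U m r)

/-- The set of auxiliary primes. -/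
def primes : Finset ℕ := Finset.univ.image T.qv

/-- The level of the twisted module. -/
abbrev level : ℕ := baseLevel W p k * ∏ i, T.qv i

theorem dvd_level (i : Fin r) : T.qv i ∣ T.level :=
  (Finset.dvd_prod_of_mem _ (Finset.mem_univ i)).mul_left _

/-- The character at one auxiliary prime. -/
def etaAt (i : Fin r) : (ZMod (T.qv i))ˣ →* (TWAlg U.𝒪 p m r)ˣ :=
  MonoidHom.toHomUnits ((MonoidAlgebra.of U.𝒪 (TWGroup p m r)).comp
    ((MonoidHom.mulSingle (fun _ : Fin r => Multiplicative (ZMod (p ^ m))) i).comp (T.char i)))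

/-- The character `∏ η_i`. -/
def eta : (ZMod T.level)ˣ →* (TWAlg U.𝒪 p m r)ˣ :=
  ∏ i, (T.etaAt i).comp (ZMod.unitsMap (T.dvd_level i))

/-- The nebentypus `∏ η_i²`. -/
def chi : (ZMod T.level)ˣ →* (TWAlg U.𝒪 p m r)ˣ := T.eta ^ 2

/-- The residual system at the base level. -/
def lam (i : PrimeIdx (↑(minSet W p) : Set ℕ)) : ResidueField U.𝒪 := residue U.𝒪 (U.a i.1)

theorem twAug_etaAt (i : Fin r) (u : (ZMod (T.qv i))ˣ) :
    twAug U.𝒪 p m r (T.etaAt i u : TWAlg U.𝒪 p m r) = 1 := by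
  rw [etaAt, MonoidHom.coe_toHomUnits]
  exact twAug_of ..

theorem twAug_eta (u : (ZMod T.level)ˣ) :
    twAug U.𝒪 p m r (T.eta u : TWAlg U.𝒪 p m r) = 1 := by
  rw [eta, MonoidHom.finsetProd_apply, Units.coe_prod, map_prod]
  exact Finset.prod_eq_one fun i _ => T.twAug_etaAt i _

theorem twAug_chi (u : (ZMod T.level)ˣ) :
    twAug U.𝒪 p m r (T.chi u : TWAlg U.𝒪 p m r) = 1 := by
  rw [chi, MonoidHom.pow_apply, Units.val_pow_eq_pow_val, map_pow, twAug_eta, one_pow]

section Module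

variable [NeZero p] [NeZero T.level] (hadm : TW.Mod.Admissible (epsOf T.chi))
  (hM : Occurs U.𝒪 (heckeFam U.𝒪 T.level (↑(minSet W p) : Set ℕ))
    (raiseLam T.primes T.α (lam (U := U))))

/-- The Taylor–Wiles module. -/
abbrev twMod : Submodule (TWAlg U.𝒪 p m r) (H1 (epsOf T.chi) (TWAlg U.𝒪 p m r)) :=
  twPart hadm T.twAug_chi hM

/-- The operator `T_ℓ` on the module. -/
def twOp (i : PrimeIdx (↑(minSet W p) : Set ℕ)) :
    Module.End (TWAlg U.𝒪 p m r) (T.twMod hadm hM) :=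
  (twFam T.chi _ i).restrict fun _ hx => twPart_stable hadm T.twAug_chi hM i hx

/-- The twisted operator `η(ℓ)⁻¹ T_ℓ`. -/
def untwistedOp (i : PrimeIdx (↑(minSet W p) : Set ℕ)) :
    Module.End (TWAlg U.𝒪 p m r) (T.twMod hadm hM) :=
  (((chiPrime T.eta i.1)⁻¹ : (TWAlg U.𝒪 p m r)ˣ) : TWAlg U.𝒪 p m r) • T.twOp hadm hM i

/-- The ideal cutting out the components trivial at the `i`-th prime. -/
def downIdeal (i : Fin r) : Ideal (TWAlg U.𝒪 p m r) := Ideal.span {twGen U.𝒪 p m r i - 1}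

/-- The ideal cutting out the components of order `p` at the `i`-th prime and trivial elsewhere. -/
def ramIdeal (U : Setup W p k) (m : ℕ) {r : ℕ} (i : Fin r) : Ideal (TWAlg U.𝒪 p m r) :=
  Ideal.span ({∑ j ∈ Finset.range p, twGen U.𝒪 p m r i ^ j} ∪
    (fun j => twGen U.𝒪 p m r j - 1) '' {j | j ≠ i})

end Module

end TWPrimes

/-- The residual system of a Taylor–Wiles level is prime to `S`: the Hecke index of `ℓ`. -/
def primeIdxOf {A B : Finset ℕ} {ℓ : ℕ} (hsub : ramPrimes W p ⊆ A) (hℓ : ℓ.Prime)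
    (hℓS : ℓ ∉ (↑(insert p (A ∪ B)) : Set ℕ)) : PrimeIdx (↑(minSet W p) : Set ℕ) :=
  ⟨ℓ, hℓ, fun h => hℓS (Finset.mem_coe.mpr (by
    rcases Finset.mem_insert.mp (Finset.mem_coe.mp h) with rfl | h
    · exact Finset.mem_insert_self _ _
    · exact Finset.mem_insert_of_mem (Finset.mem_union_left _ (hsub h))))⟩

/-- The twisted operators come from Hecke algebras of trivial character: at the full auxiliary
level, and on the components trivial at one auxiliary prime at the smaller level. -/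
def StmtTWHecke : Prop :=
  ∀ (W : WeierstrassCurve ℤ) (p : ℕ) (k : Kind), CoreHyp W p k → ∀ (U : Setup W p k) [NeZero p]
    (m r : ℕ) (T : TWPrimes U m r) [NeZero (baseLevel W p k)] [NeZero T.level]
    (hadm : TW.Mod.Admissible (epsOf T.chi))
    (hM : Occurs U.𝒪 (heckeFam U.𝒪 T.level (↑(minSet W p) : Set ℕ))
      (raiseLam T.primes T.α (TWPrimes.lam (U := U)))),
    (∀ [NeZero (mixLevel p k.base (ramPrimes W p) T.primes)],
      ∃ Φ : ↥(CuspForm.heckeAlgebra (mixLevel p k.base (ramPrimes W p) T.primes) 2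
          (↑(insert p (ramPrimes W p ∪ T.primes)) : Set ℕ)) →+*
          Module.End (TWAlg U.𝒪 p m r) (T.twMod hadm hM),
        ∀ (ℓ : ℕ) (hℓ : ℓ.Prime) (hℓN : ¬ ℓ ∣ mixLevel p k.base (ramPrimes W p) T.primes)
          (hℓS : ℓ ∉ (↑(insert p (ramPrimes W p ∪ T.primes)) : Set ℕ)),
          Φ (CuspForm.heckeAlgebra.T hℓ hℓN hℓS) =
            T.untwistedOp hadm hM (primeIdxOf (Finset.Subset.refl _) hℓ hℓS)) ∧
    ∀ (i : Fin r),
      ∀ [NeZero (mixLevel p k.base (insert (T.qv i) (ramPrimes W p)) (T.primes.erase (T.qv i)))],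
      ∃ Φ : ↥(CuspForm.heckeAlgebra
          (mixLevel p k.base (insert (T.qv i) (ramPrimes W p)) (T.primes.erase (T.qv i))) 2
          (↑(insert p (insert (T.qv i) (ramPrimes W p) ∪ T.primes.erase (T.qv i))) : Set ℕ)) →+*
          Module.End (TWAlg U.𝒪 p m r) (T.twMod hadm hM ⧸
            TWPrimes.downIdeal (U := U) (m := m) i •
              (⊤ : Submodule (TWAlg U.𝒪 p m r) (T.twMod hadm hM))),
        ∀ (ℓ : ℕ) (hℓ : ℓ.Prime)
          (hℓN : ¬ ℓ ∣
            mixLevel p k.base (insert (T.qv i) (ramPrimes W p)) (T.primes.erase (T.qv i)))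
          (hℓS : ℓ ∉ (↑(insert p (insert (T.qv i) (ramPrimes W p) ∪ T.primes.erase (T.qv i))) :
            Set ℕ)) (x : T.twMod hadm hM),
          Φ (CuspForm.heckeAlgebra.T hℓ hℓN hℓS) (Submodule.Quotient.mk x) =
            Submodule.Quotient.mk (T.untwistedOp hadm hM
              (primeIdxOf (Finset.subset_insert _ _) hℓ hℓS) x)

/-- On a component of conductor `q_i` and order `p` the diamond operator at `q_i` fixes nothing. -/
def StmtTWRamified : Prop :=
  ∀ (W : WeierstrassCurve ℤ) (p : ℕ) (k : Kind), CoreHyp W p k → ∀ (U : Setup W p k) [NeZero p]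
    (m r : ℕ) (T : TWPrimes U m r) [NeZero (baseLevel W p k)] [NeZero T.level], 0 < m →
    ∀ (hadm : TW.Mod.Admissible (epsOf T.chi))
    (hM : Occurs U.𝒪 (heckeFam U.𝒪 T.level (↑(minSet W p) : Set ℕ))
      (raiseLam T.primes T.α (TWPrimes.lam (U := U))))
    [NeZero (mixLevel p k.base (ramPrimes W p) T.primes)]
    [Fact (CuspForm.HasIntegralStructure (mixLevel p k.base (ramPrimes W p) T.primes) 2)]
    (θ : ↥(CuspForm.heckeAlgebra (mixLevel p k.base (ramPrimes W p) T.primes) 2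
        (↑(insert p (ramPrimes W p ∪ T.primes)) : Set ℕ)) →+* ResidueField U.𝒪)
    (H : CuspForm.HeckeGaloisRepDatum (mixLevel p k.base (ramPrimes W p) T.primes)
        (↑(insert p (ramPrimes W p ∪ T.primes)) : Set ℕ) U.𝒪 θ
        (CuspForm.heckeLocal (mixLevel p k.base (ramPrimes W p) T.primes)
          (↑(insert p (ramPrimes W p ∪ T.primes)) : Set ℕ) U.𝒪 θ)),
    H.π = CuspForm.heckeLocal.π _ _ U.𝒪 θ → U.IsResidChar _ _ θ →
    cond k.base U.𝒪 p (insert p (ramPrimes W p ∪ T.primes)) (insert p (ramPrimes W p)) H.ρ →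
    H.ρ.residual.IsEquiv (U.ρbar.baseChangeAlong (ResidueField.map (algebraMap U.𝒪
      (CuspForm.heckeLocal (mixLevel p k.base (ramPrimes W p) T.primes)
        (↑(insert p (ramPrimes W p ∪ T.primes)) : Set ℕ) U.𝒪 θ)))) →
    ∀ (Ψ : CuspForm.heckeLocal (mixLevel p k.base (ramPrimes W p) T.primes)
        (↑(insert p (ramPrimes W p ∪ T.primes)) : Set ℕ) U.𝒪 θ →ₐ[U.𝒪]
        Module.End (TWAlg U.𝒪 p m r) (T.twMod hadm hM)),
      (∀ (ℓ : ℕ) (hℓ : ℓ.Prime) (hℓN : ¬ ℓ ∣ mixLevel p k.base (ramPrimes W p) T.primes)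
        (hℓS : ℓ ∉ (↑(insert p (ramPrimes W p ∪ T.primes)) : Set ℕ)),
        Ψ (H.π (CuspForm.heckeAlgebra.T hℓ hℓN hℓS)) =
          T.untwistedOp hadm hM (primeIdxOf (Finset.Subset.refl _) hℓ hℓS)) →
    ∀ (i : Fin r) [NeZero (T.qv i)] (A : Type) [CommRing A] [IsLocalRing A] (ρ : GaloisRepAdic A)
      (Dm : TWGal.Diamond ρ p (T.qv i))
      (f : A →+* CuspForm.heckeLocal (mixLevel p k.base (ramPrimes W p) T.primes)
        (↑(insert p (ramPrimes W p ∪ T.primes)) : Set ℕ) U.𝒪 θ) (hf : IsLocalHom f),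
      (ρ.baseChangeAlong f hf).IsEquiv H.ρ →
      ∀ x : T.twMod hadm hM,
        Ψ (f (Dm.δ (T.gen i) : A)) x - x ∈ TWPrimes.ramIdeal U m i •
            (⊤ : Submodule (TWAlg U.𝒪 p m r) (T.twMod hadm hM)) →
          x ∈ TWPrimes.ramIdeal U m i • (⊤ : Submodule (TWAlg U.𝒪 p m r) (T.twMod hadm hM))

/-- One Taylor–Wiles level over the base module. -/
def StmtTWLevel : Prop :=
  ∀ (W : WeierstrassCurve ℤ) (p : ℕ) (k : Kind), CoreHyp W p k → ∀ (U : Setup W p k) [NeZero p]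
    (D : GaloisRep.DeformationRingData U.𝒪 U.ρbar
      (cond k.base U.𝒪 p (minSet W p) (minSet W p)))
    (n r : ℕ) (T : TWPrimes U (n + 1) r) [NeZero (baseLevel W p k)],
    (∀ DQ : GaloisRep.DeformationRingData U.𝒪 U.ρbar
        (cond k.base U.𝒪 p (minSet W p ∪ T.primes) (minSet W p)),
      ∃ γ : MvPowerSeries (Fin r) U.𝒪 →ₐ[U.𝒪] DQ.R, Function.Surjective γ) →
    ∀ (h : Occurs U.𝒪 (heckeFam U.𝒪 (baseLevel W p k) (↑(minSet W p) : Set ℕ))
        (TWPrimes.lam (U := U)))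
      (M₀ : Type) [AddCommGroup M₀] [Module U.𝒪 M₀] [Module D.R M₀] [IsScalarTower U.𝒪 D.R M₀]
      (e : M₀ ≃ₗ[U.𝒪] ↥(LinearMap.range (h.idem (heckeFam_comm (baseLevel W p k)
        (↑(minSet W p) : Set ℕ))))),
      (∀ (i : PrimeIdx (↑(minSet W p) : Set ℕ)) (P : ValuationSubring (AlgebraicClosure ℚ)),
        P.LiesOverPrime i.1 → ∀ σ : AlgebraicClosure ℚ ≃ₐ[ℚ] AlgebraicClosure ℚ,
          P.IsFrobeniusAt σ i.1 → ∀ x : M₀,
            (e (LinearMap.trace D.R D.ρ.V (D.ρ.ρ σ) • x) : LR.Hom1 (baseLevel W p k) U.𝒪) =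
              heckeFam U.𝒪 (baseLevel W p k) _ i (e x : LR.Hom1 (baseLevel W p k) U.𝒪)) →
      Nonempty (TWLevel (𝒪 := U.𝒪) p r D.R M₀ n)

end Fermat.Agent.R59
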