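/-
The nebentypus of a Taylor-Wiles level kills the elements of finite order (owner: helper87).
-/
import Fermat.Agent.R59.TWData
import Fermat.Agent.TW.Mod.CharAdmissible

set_option autoImplicit false
set_option synthInstance.maxHeartbeats 400000

noncomputable section

namespace Fermat.Agent.R59

open Fermat.Agent.TW.Mod

variable {W : WeierstrassCurve ℤ} {p : ℕ} {k : Kind} {U : Setup W p k} {m r : ℕ}

theorem TWPrimes.dvd_orderOf_gen (T : TWPrimes U m r) (i : Fin r) :
    p ^ (m + 1) ∣ orderOf (T.gen i) := by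
  haveI : Fact (T.qv i).Prime := ⟨T.prime i⟩
  rw [orderOf_eq_card_of_forall_mem_zpowers (fun u => ?_), Nat.card_eq_fintype_card,
    ZMod.card_units (T.qv i)]
  · exact T.dvd i
  · obtain ⟨j, hj⟩ := T.gen_spec i u
    exact ⟨j, by rw [← hj]; exact zpow_natCast _ j⟩

/-- Each character kills the twelfth roots of unity. -/
theorem TWPrimes.etaAt_eq_one (hp : p.Prime) (hp2 : p ≠ 2) (T : TWPrimes U m r) (i : Fin r)
    {u : (ZMod (T.qv i))ˣ} (hu : u ^ 12 = 1) : T.etaAt i u = 1 := by
  have h : T.char i u = 1 := by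
    refine apply_eq_one_of_pow_twelve (T.char i) (T.gen_spec i) hp hp2 (T.dvd_orderOf_gen i)
      (fun x => ?_) hu
    apply Multiplicative.toAdd.injective
    rw [toAdd_pow, toAdd_one, nsmul_eq_mul, ZMod.natCast_self, zero_mul]
  refine Units.ext ?_
  rw [TWPrimes.etaAt, MonoidHom.coe_toHomUnits, MonoidHom.comp_apply, MonoidHom.comp_apply, h,
    map_one, map_one, Units.val_one]

theorem TWPrimes.eta_eq_one (hp : p.Prime) (hp2 : p ≠ 2) (T : TWPrimes U m r)
    {u : (ZMod T.level)ˣ} (hu : u ^ 12 = 1) : T.eta u = 1 := by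
  rw [TWPrimes.eta, MonoidHom.finsetProd_apply]
  exact Finset.prod_eq_one fun i _ => T.etaAt_eq_one hp hp2 i (by rw [← map_pow, hu, map_one])

/-- The nebentypus is admissible. -/
theorem admissible_chi (hp : p.Prime) (hp2 : p ≠ 2) (T : TWPrimes U m r) :
    TW.Mod.Admissible (epsOf T.chi) :=
  admissible_epsOf _ fun u hu => by
    rw [TWPrimes.chi, MonoidHom.pow_apply, T.eta_eq_one hp hp2 hu, one_pow]

end Fermat.Agent.R59
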