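/-
The twisted Hecke operators of a Taylor-Wiles module come from Hecke algebras of trivial character
(owner: helper87).
-/
import Fermat.Agent.R59.TWChar
import Fermat.Agent.R59.AuxPrimeOne
import Fermat.Agent.R59.GroupRingQuot
import Fermat.Agent.TW.Mod.HeckeAction

set_option autoImplicit false
set_option synthInstance.maxHeartbeats 400000

noncomputable section

open IsLocalRing

namespace Fermat.Agent.R59

open Fermat.Agent.TW.Mod

variable {W : WeierstrassCurve ℤ} {p : ℕ} {k : Kind} {U : Setup W p k} {m r : ℕ}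

theorem natCast_residue_eq_zero (U : Setup W p k) : (p : ResidueField U.𝒪) = 0 := by
  rw [← map_natCast (residue U.𝒪)]
  exact (residue_eq_zero_iff _).2 U.p_mem

theorem prime_mem_minSet_of_dvd (hp : p.Prime) {q : ℕ} (hq : q.Prime)
    (h : q ∣ (∏ x ∈ ramPrimes W p, x) * p ^ k.pExp) : q ∈ minSet W p := by
  classical
  rcases hq.dvd_mul.mp h with h | h
  · obtain ⟨x, hx, hqx⟩ := (hq.prime.dvd_finset_prod_iff _).mp h
    have hxp : x.Prime := Nat.prime_of_mem_primeFactors (Finset.mem_filter.mp hx).1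
    rw [(Nat.prime_dvd_prime_iff_eq hq hxp).mp hqx]
    exact Finset.mem_insert_of_mem hx
  · rw [(Nat.prime_dvd_prime_iff_eq hq hp).mp (hq.dvd_of_dvd_pow h)]
    exact Finset.mem_insert_self _ _

namespace TWPrimes

variable (T : TWPrimes U m r)

theorem qv_mem_primes (i : Fin r) : T.qv i ∈ T.primes :=
  Finset.mem_image_of_mem _ (Finset.mem_univ i)

theorem exists_of_mem_primes {q : ℕ} (h : q ∈ T.primes) : ∃ i, T.qv i = q := by
  obtain ⟨i, -, hi⟩ := Finset.mem_image.mp h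
  exact ⟨i, hi⟩

theorem prod_primes : ∏ q ∈ T.primes, q = ∏ i, T.qv i :=
  Finset.prod_image fun _ _ _ _ h => T.qv_injective h

theorem notMem_minSet (i : Fin r) : T.qv i ∉ minSet W p := fun h =>
  T.notMem_fullSet i (Finset.insert_subset_insert _ Finset.subset_union_left h)

theorem coprime_baseLevel (hp : p.Prime) (i : Fin r) : (T.qv i).Coprime (baseLevel W p k) :=
  (T.prime i).coprime_iff_not_dvd.2 fun h =>
    T.notMem_minSet i (prime_mem_minSet_of_dvd hp (T.prime i) h)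

theorem natCast_qv (i : Fin r) : (T.qv i : ResidueField U.𝒪) = 1 := by
  obtain ⟨c, hc⟩ := T.dvd i
  rw [← Nat.sub_add_cancel (T.prime i).one_le, hc, Nat.cast_add, Nat.cast_mul, Nat.cast_pow,
    natCast_residue_eq_zero U, zero_pow (Nat.succ_ne_zero m), zero_mul, zero_add, Nat.cast_one]

open scoped Classical in
/-- The characters at the auxiliary primes, indexed by natural numbers. -/
def etaFun (q : ℕ) : (ZMod q)ˣ →* (TWAlg U.𝒪 p m r)ˣ :=
  if h : ∃ i, T.qv i = q then (T.etaAt h.choose).comp (ZMod.unitsMap h.choose_spec.dvd) else 1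

theorem etaFun_qv (i : Fin r) : T.etaFun (T.qv i) = T.etaAt i := by
  have key : ∀ (j : Fin r) (h : T.qv j = T.qv i),
      (T.etaAt j).comp (ZMod.unitsMap h.dvd) = T.etaAt i := by
    intro j h
    obtain rfl := T.qv_injective h
    rw [ZMod.unitsMap_self, MonoidHom.comp_id]
  have h : ∃ j, T.qv j = T.qv i := ⟨i, rfl⟩
  rw [etaFun, dif_pos h]
  exact key _ h.choose_spec

theorem twAug_etaFun (q : ℕ) (u : (ZMod q)ˣ) :
    twAug U.𝒪 p m r (T.etaFun q u : TWAlg U.𝒪 p m r) = 1 := by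
  rw [etaFun]
  split_ifs with h
  · exact T.twAug_etaAt _ _
  · rw [MonoidHom.one_apply, Units.val_one, map_one]

theorem chi_eq_chiTot {N : ℕ} (ψ : (ZMod N)ˣ →* (TWAlg U.𝒪 p m r)ˣ) (Q : Finset ℕ)
    (h : dPart ψ T.level * ∏ q ∈ Q, dPart (T.etaFun q ^ 2) T.level =
      ∏ q ∈ T.primes, dPart (T.etaFun q ^ 2) T.level) :
    T.chi = chiTot ψ T.etaFun T.level Q := by
  rw [chiTot, h]
  refine MonoidHom.ext fun u => ?_
  rw [chi, MonoidHom.pow_apply, eta, MonoidHom.finsetProd_apply, ← Finset.prod_pow,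
    MonoidHom.finsetProd_apply, primes, Finset.prod_image fun _ _ _ _ h => T.qv_injective h]
  refine Finset.prod_congr rfl fun i _ => ?_
  rw [dPart_of_dvd _ (T.dvd_level i), liftChar, MonoidHom.comp_apply, MonoidHom.comp_apply,
    MonoidHom.pow_apply, T.etaFun_qv]

theorem chiPrime_eta {ℓ : ℕ} (hℓ : ℓ.Prime) (hℓL : ¬ ℓ ∣ T.level) :
    chiPrime T.eta ℓ = ∏ q ∈ T.primes, TW.Mod.etaAt T.etaFun q ℓ := by
  have hc : ℓ.Coprime T.level := hℓ.coprime_iff_not_dvd.2 hℓL
  rw [chiPrime, dif_pos hc, eta, MonoidHom.finsetProd_apply, primes,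
    Finset.prod_image fun _ _ _ _ h => T.qv_injective h]
  refine Finset.prod_congr rfl fun i _ => ?_
  have hi : ℓ.Coprime (T.qv i) := Nat.Coprime.coprime_dvd_right (T.dvd_level i) hc
  rw [TW.Mod.etaAt, dif_pos hi, T.etaFun_qv, MonoidHom.comp_apply]
  exact congrArg _ (Units.ext (by simp [ZMod.unitsMap, ZMod.castHom_apply]))

/-- A non-Eisenstein prime `≡ 1` modulo any level. -/
theorem exists_nonEisenstein_one_mod (hyp : CoreHyp W p k) (L : ℕ) [NeZero L] :
    ∃ i : PrimeIdx (↑(minSet W p) : Set ℕ), (i.1 : ZMod L) = 1 ∧ ¬ i.1 ∣ L ∧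
      raiseLam T.primes T.α (TWPrimes.lam (U := U)) i ≠ (i.1 : ResidueField U.𝒪) + 1 := by
  classical
  have hp : p.Prime := by rcases hyp.1 with rfl | rfl <;> decide
  haveI : Fact p.Prime := ⟨hp⟩
  have hp2 : p ≠ 2 := by rcases hyp.1 with rfl | rfl <;> decide
  obtain ⟨ℓ, hℓ, hℓS, hℓL, hℓ1, hne⟩ := exists_prime_one_mod_apOfModel_ne W hyp.2.1 hp2
    hyp.2.2.2.1 L (fullSet W p ∪ T.primes)
  rw [Finset.mem_union, not_or] at hℓS
  have : CharP (ResidueField U.𝒪) p :=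
    ringChar.of_eq (CharP.ringChar_of_prime_eq_zero hp (natCast_residue_eq_zero U))
  refine ⟨⟨ℓ, hℓ, fun h => hℓS.1 (Finset.insert_subset_insert _ Finset.subset_union_left h)⟩,
    hℓ1, hℓL, fun h => hne ?_⟩
  rw [raiseLam, if_neg hℓS.2, lam, U.a_congr ℓ hℓ hℓS.1] at h
  apply (ZMod.castHom (dvd_refl p) (ResidueField U.𝒪)).injective
  rw [map_intCast, map_add, map_one, map_natCast]
  exact h

/-- The local structure of the coefficient ring. -/
theorem twData (hp : p.Prime) [Fact p.Prime] [NeZero p] :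
    IsLocalRing (TWAlg U.𝒪 p m r) ∧ ∀ a : ResidueField U.𝒪, p • a = 0 :=
  ⟨isLocalRing_twAlg U.𝒪 p m r U.p_mem, fun a => by
    rw [nsmul_eq_mul, natCast_residue_eq_zero U, zero_mul]⟩

theorem etaAt_sub_one_mem [NeZero p] (i : Fin r) (u : (ZMod (T.qv i))ˣ) :
    (T.etaAt i u : TWAlg U.𝒪 p m r) - 1 ∈ Ideal.span {twGen U.𝒪 p m r i - 1} := by
  obtain ⟨n, hn⟩ : ∃ n : ℕ, (T.etaAt i u : TWAlg U.𝒪 p m r) = twGen U.𝒪 p m r i ^ n := by
    refine ⟨(Multiplicative.toAdd (T.char i u)).val, ?_⟩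
    rw [TWPrimes.etaAt, MonoidHom.coe_toHomUnits, twGen, ← map_pow]
    refine congrArg (MonoidAlgebra.of U.𝒪 (TWGroup p m r)) ?_
    show Pi.mulSingle (M := fun _ : Fin r => Multiplicative (ZMod (p ^ m))) i (T.char i u) = _
    rw [← Pi.mulSingle_pow]
    congr 1
    apply Multiplicative.toAdd.injective
    simp [toAdd_pow]
  rw [hn]
  exact Ideal.mem_span_singleton.2 (sub_one_dvd_pow_sub_one _ n)

/-- The character left when the twist omits the `i`-th prime. -/
def downChar (i : Fin r) : (ZMod (baseLevel W p k * T.qv i))ˣ →* (TWAlg U.𝒪 p m r)ˣ :=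
  liftChar (T.etaFun (T.qv i) ^ 2) (dvd_mul_left (T.qv i) _)

theorem downChar_apply (i : Fin r) (u : (ZMod (baseLevel W p k * T.qv i))ˣ) :
    T.downChar i u = T.etaAt i (ZMod.unitsMap (dvd_mul_left (T.qv i) _) u) ^ 2 := by
  rw [downChar, liftChar, MonoidHom.comp_apply, MonoidHom.pow_apply, T.etaFun_qv]

theorem twAug_downChar (i : Fin r) (u : (ZMod (baseLevel W p k * T.qv i))ˣ) :
    twAug U.𝒪 p m r (T.downChar i u : TWAlg U.𝒪 p m r) = 1 := by
  rw [downChar_apply, Units.val_pow_eq_pow_val, map_pow, T.twAug_etaAt, one_pow]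

theorem downChar_sub_one_mem [NeZero p] (i : Fin r) (u : (ZMod (baseLevel W p k * T.qv i))ˣ) :
    (T.downChar i u : TWAlg U.𝒪 p m r) - 1 ∈ Ideal.span {twGen U.𝒪 p m r i - 1} := by
  rw [downChar_apply, pow_two, Units.val_mul]
  set a : TWAlg U.𝒪 p m r :=
    (T.etaAt i (ZMod.unitsMap (dvd_mul_left (T.qv i) _) u) : TWAlg U.𝒪 p m r)
  rw [show a * a - 1 = (a + 1) * (a - 1) by ring]
  exact Ideal.mul_mem_left _ _ (T.etaAt_sub_one_mem i _)

theorem dPart_downChar (i : Fin r) {M : ℕ} (h : baseLevel W p k * T.qv i ∣ M) :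
    dPart (T.downChar i) M = dPart (T.etaFun (T.qv i) ^ 2) M := by
  rw [dPart_of_dvd _ h, dPart_of_dvd _ ((dvd_mul_left (T.qv i) _).trans h), downChar, liftChar,
    liftChar, liftChar, MonoidHom.comp_assoc, ZMod.unitsMap_comp]

theorem admissible_downChar (hp : p.Prime) (hp2 : p ≠ 2) (i : Fin r) (L : ℕ)
    (h : baseLevel W p k * T.qv i ∣ L) : TW.Mod.Admissible (epsOf (dPart (T.downChar i) L)) :=
  admissible_epsOf _ fun u hu => by
    rw [T.dPart_downChar i h, dPart_of_dvd _ ((dvd_mul_left (T.qv i) _).trans h), liftChar,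
      MonoidHom.comp_apply, MonoidHom.pow_apply, T.etaFun_qv,
      T.etaAt_eq_one hp hp2 i (by rw [← map_pow, hu, map_one]), one_pow]

theorem chi_eq_downChar (i : Fin r) (h : baseLevel W p k * T.qv i ∣ T.level) :
    T.chi = chiTot (T.downChar i) T.etaFun T.level (T.primes.erase (T.qv i)) := by
  classical
  refine T.chi_eq_chiTot _ _ ?_
  rw [T.dPart_downChar i h]
  exact Finset.mul_prod_erase _ (fun q => dPart (T.etaFun q ^ 2) T.level) (T.qv_mem_primes i)

theorem mem_of_dvd_prod {Q : Finset ℕ} (hQ : Q ⊆ T.primes) {q : ℕ} (hq : q.Prime)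
    (h : q ∣ ∏ x ∈ Q, x) : q ∈ Q := by
  obtain ⟨x, hx, hqx⟩ := (hq.prime.dvd_finset_prod_iff _).mp h
  obtain ⟨j, rfl⟩ := T.exists_of_mem_primes (hQ hx)
  exact (Nat.prime_dvd_prime_iff_eq hq (T.prime j)).mp hqx ▸ hx

/-- Dropping the factor at one prime does not change the operator on the components trivial
there. -/
theorem smul_sub_smul_mem [NeZero p] (i : Fin r) (ℓ : ℕ) (w : (TWAlg U.𝒪 p m r)ˣ) {M : Type}
    [AddCommGroup M] [Module (TWAlg U.𝒪 p m r) M] (y : M) :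
    ((w⁻¹ : (TWAlg U.𝒪 p m r)ˣ) : TWAlg U.𝒪 p m r) • y -
      (((TW.Mod.etaAt T.etaFun (T.qv i) ℓ * w)⁻¹ : (TWAlg U.𝒪 p m r)ˣ) : TWAlg U.𝒪 p m r) • y ∈
      Ideal.span {twGen U.𝒪 p m r i - 1} • (⊤ : Submodule (TWAlg U.𝒪 p m r) M) := by
  set b : (TWAlg U.𝒪 p m r)ˣ := TW.Mod.etaAt T.etaFun (T.qv i) ℓ with hb
  have hb1 : (b : TWAlg U.𝒪 p m r) - 1 ∈ Ideal.span {twGen U.𝒪 p m r i - 1} := by
    rw [hb, TW.Mod.etaAt]
    split_ifs with h
    · rw [T.etaFun_qv]
      exact T.etaAt_sub_one_mem i _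
    · rw [Units.val_one, sub_self]; exact zero_mem _
  have hdiff : ((w⁻¹ : (TWAlg U.𝒪 p m r)ˣ) : TWAlg U.𝒪 p m r) -
      (((b * w)⁻¹ : (TWAlg U.𝒪 p m r)ˣ) : TWAlg U.𝒪 p m r) =
        (((b * w)⁻¹ : (TWAlg U.𝒪 p m r)ˣ) : TWAlg U.𝒪 p m r) * ((b : TWAlg U.𝒪 p m r) - 1) := by
    rw [mul_sub, mul_one, ← Units.val_mul, mul_inv_rev, mul_assoc, inv_mul_cancel, mul_one]
  rw [← sub_smul, hdiff]
  exact Submodule.smul_mem_smul (Ideal.mul_mem_left _ _ hb1) Submodule.mem_top

variable [NeZero p] [NeZero T.level] (hadm : TW.Mod.Admissible (epsOf T.chi))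
  (hM : Occurs U.𝒪 (heckeFam U.𝒪 T.level (↑(minSet W p) : Set ℕ))
    (raiseLam T.primes T.α (lam (U := U))))

theorem hypQ {Q : Finset ℕ} (hQ : Q ⊆ T.primes) {N : ℕ}
    (hN : ∀ q ∈ Q, q.Coprime N) :
    ∀ q ∈ Q, ∃ (hq : q.Prime) (hS : q ∉ (↑(minSet W p) : Set ℕ)), q.Coprime N ∧ q ≠ p ∧
      (q : ResidueField U.𝒪) = 1 ∧
      raiseLam T.primes T.α (lam (U := U)) ⟨q, hq, hS⟩ ^ 2 ≠ 1 := by
  intro q hq
  obtain ⟨i, rfl⟩ := T.exists_of_mem_primes (hQ hq)
  refine ⟨T.prime i, T.notMem_minSet i, hN _ hq, T.ne_p i, T.natCast_qv i, ?_⟩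
  rw [raiseLam, if_pos (T.qv_mem_primes i)]
  exact T.α_sq_ne i

set_option maxHeartbeats 800000 in
/-- The action at the full auxiliary level. -/
theorem exists_fullHecke (hyp : CoreHyp W p k) [NeZero (baseLevel W p k)]
    [NeZero (mixLevel p k.base (ramPrimes W p) T.primes)] :
    ∃ Φ : ↥(CuspForm.heckeAlgebra (mixLevel p k.base (ramPrimes W p) T.primes) 2
        (↑(insert p (ramPrimes W p ∪ T.primes)) : Set ℕ)) →+*
        Module.End (TWAlg U.𝒪 p m r) (T.twMod hadm hM),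
      ∀ (ℓ : ℕ) (hℓ : ℓ.Prime) (hℓN : ¬ ℓ ∣ mixLevel p k.base (ramPrimes W p) T.primes)
        (hℓS : ℓ ∉ (↑(insert p (ramPrimes W p ∪ T.primes)) : Set ℕ)),
        Φ (CuspForm.heckeAlgebra.T hℓ hℓN hℓS) =
          T.untwistedOp hadm hM (primeIdxOf (Finset.Subset.refl _) hℓ hℓS) := by
  classical
  have hp : p.Prime := by rcases hyp.1 with rfl | rfl <;> decide
  haveI : Fact p.Prime := ⟨hp⟩
  have hp2 : p ≠ 2 := by rcases hyp.1 with rfl | rfl <;> decide
  haveI := (twData (U := U) (m := m) (r := r) hp).1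
  set L := mixLevel p k.base (ramPrimes W p) T.primes with hL
  have hlev : T.level = baseLevel W p k * ∏ q ∈ T.primes, q := by rw [prod_primes, level]
  have hL' : L = T.level * ∏ q ∈ T.primes, q := by
    rw [hlev, hL, mixLevel, baseLevel, minLevel]; ring
  have hbase : baseLevel W p k ∣ T.level := Dvd.intro _ hlev.symm
  have hχ : T.chi = chiTot (1 : (ZMod (baseLevel W p k))ˣ →* (TWAlg U.𝒪 p m r)ˣ) T.etaFun
      T.level T.primes := by
    refine T.chi_eq_chiTot 1 T.primes ?_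
    rw [dPart_of_dvd _ hbase, liftChar, MonoidHom.one_comp]
    exact one_mul (∏ q ∈ T.primes, dPart (T.etaFun q ^ 2) T.level)
  have hd0 : Ideal.span {(0 : TWAlg U.𝒪 p m r)} = ⊥ := Ideal.span_singleton_eq_bot.2 rfl
  haveI : IsAddTorsionFree (TWAlg U.𝒪 p m r ⧸ Ideal.span {(0 : TWAlg U.𝒪 p m r)}) :=
    Function.Injective.isAddTorsionFree
      ((Ideal.quotEquivOfEq hd0).trans (RingEquiv.quotientBot _)).toRingHom.toAddMonoidHom
      ((Ideal.quotEquivOfEq hd0).trans (RingEquiv.quotientBot _)).injective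
  have hΦ := exists_twHecke hadm T.twAug_chi hM hp2 (twData (U := U) (m := m) (r := r) hp).2 hlev
    hL' 1 T.etaFun hχ (fun u => by simp) T.twAug_etaFun
    (T.hypQ (Finset.Subset.refl _) fun q hq => by
      obtain ⟨i, rfl⟩ := T.exists_of_mem_primes hq
      exact T.coprime_baseLevel hp i)
    (T.exists_nonEisenstein_one_mod hyp L)
    (admissible_epsOf _ fun u _ => by
      rw [dPart_of_dvd _ (hbase.trans (Dvd.intro _ hL'.symm)), liftChar, MonoidHom.one_comp,
        MonoidHom.one_apply])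
    0 (fun u => by simp) (↑(insert p (ramPrimes W p ∪ T.primes)) : Set ℕ)
    (fun q hq hqL => by
      rw [hL', hlev] at hqL
      rw [Finset.mem_coe, Finset.mem_insert, Finset.mem_union]
      rcases hq.dvd_mul.mp hqL with h | h
      · rcases hq.dvd_mul.mp h with h | h
        · rcases Finset.mem_insert.mp (prime_mem_minSet_of_dvd hp hq h) with h | h
          · exact Or.inl h
          · exact Or.inr (Or.inl h)
        · obtain ⟨x, hx, hqx⟩ := (hq.prime.dvd_finset_prod_iff _).mp h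
          obtain ⟨i, rfl⟩ := T.exists_of_mem_primes hx
          exact Or.inr (Or.inr ((Nat.prime_dvd_prime_iff_eq hq (T.prime i)).mp hqx ▸ hx))
      · obtain ⟨x, hx, hqx⟩ := (hq.prime.dvd_finset_prod_iff _).mp h
        obtain ⟨i, rfl⟩ := T.exists_of_mem_primes hx
        exact Or.inr (Or.inr ((Nat.prime_dvd_prime_iff_eq hq (T.prime i)).mp hqx ▸ hx)))
    (fun ℓ hℓ hℓS => (primeIdxOf (Finset.Subset.refl _) hℓ hℓS).2.2)
  refine hΦ.elim fun Φ hΦ => ?_
  let e := (Submodule.quotEquivOfEqBot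
    (Ideal.span {(0 : TWAlg U.𝒪 p m r)} • (⊤ : Submodule (TWAlg U.𝒪 p m r) (T.twMod hadm hM)))
    (by rw [hd0, Submodule.bot_smul])).conjAlgEquiv (TWAlg U.𝒪 p m r)
  refine ⟨(RingHomClass.toRingHom e).comp Φ, fun ℓ hℓ hℓN hℓS => LinearMap.ext fun x => ?_⟩
  show (Submodule.quotEquivOfEqBot _ (by rw [hd0, Submodule.bot_smul]))
    (Φ (CuspForm.heckeAlgebra.T hℓ hℓN hℓS) (Submodule.Quotient.mk x)) = _
  refine (congrArg (Submodule.quotEquivOfEqBot _ _) (hΦ ℓ hℓ hℓN hℓS x)).trans ?_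
  refine (Submodule.quotEquivOfEqBot_apply_mk _ _ _).trans ?_
  show _ = (((chiPrime T.eta ℓ)⁻¹ : (TWAlg U.𝒪 p m r)ˣ) : TWAlg U.𝒪 p m r) •
    twPartOp hadm T.twAug_chi hM (primeIdxOf (Finset.Subset.refl _) hℓ hℓS) x
  rw [T.chiPrime_eta hℓ fun h => hℓN (h.trans (Dvd.intro _ hL'.symm))]
  rfl

set_option maxHeartbeats 800000 in
/-- The action on the components trivial at one auxiliary prime. -/
theorem exists_downHecke (hyp : CoreHyp W p k) [NeZero (baseLevel W p k)] (i : Fin r)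
    [NeZero (mixLevel p k.base (insert (T.qv i) (ramPrimes W p)) (T.primes.erase (T.qv i)))] :
    ∃ Φ : ↥(CuspForm.heckeAlgebra
        (mixLevel p k.base (insert (T.qv i) (ramPrimes W p)) (T.primes.erase (T.qv i))) 2
        (↑(insert p (insert (T.qv i) (ramPrimes W p) ∪ T.primes.erase (T.qv i))) : Set ℕ)) →+*
        Module.End (TWAlg U.𝒪 p m r) (T.twMod hadm hM ⧸
          downIdeal (U := U) (m := m) i •
            (⊤ : Submodule (TWAlg U.𝒪 p m r) (T.twMod hadm hM))),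
      ∀ (ℓ : ℕ) (hℓ : ℓ.Prime)
        (hℓN : ¬ ℓ ∣
          mixLevel p k.base (insert (T.qv i) (ramPrimes W p)) (T.primes.erase (T.qv i)))
        (hℓS : ℓ ∉ (↑(insert p (insert (T.qv i) (ramPrimes W p) ∪ T.primes.erase (T.qv i))) :
          Set ℕ)) (x : T.twMod hadm hM),
        Φ (CuspForm.heckeAlgebra.T hℓ hℓN hℓS) (Submodule.Quotient.mk x) =
          Submodule.Quotient.mk (T.untwistedOp hadm hM
            (primeIdxOf (Finset.subset_insert _ _) hℓ hℓS) x) := by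
  classical
  have hp : p.Prime := by rcases hyp.1 with rfl | rfl <;> decide
  haveI : Fact p.Prime := ⟨hp⟩
  have hp2 : p ≠ 2 := by rcases hyp.1 with rfl | rfl <;> decide
  haveI := (twData (U := U) (m := m) (r := r) hp).1
  haveI : NeZero (baseLevel W p k * T.qv i) :=
    ⟨mul_ne_zero (NeZero.ne _) (T.prime i).ne_zero⟩
  have hnot : T.qv i ∉ ramPrimes W p := fun h => T.notMem_minSet i (Finset.mem_insert_of_mem h)
  have hlev : T.level = baseLevel W p k * T.qv i * ∏ q ∈ T.primes.erase (T.qv i), q := by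
    rw [mul_assoc, Finset.mul_prod_erase _ (fun q => q) (T.qv_mem_primes i), prod_primes, level]
  have hL' : mixLevel p k.base (insert (T.qv i) (ramPrimes W p)) (T.primes.erase (T.qv i)) =
      T.level * ∏ q ∈ T.primes.erase (T.qv i), q := by
    rw [hlev, mixLevel, baseLevel, minLevel, Finset.prod_insert hnot]; ring
  have hNdvd : baseLevel W p k * T.qv i ∣ T.level := Dvd.intro _ hlev.symm
  haveI := isAddTorsionFree_quot_twGen U.𝒪 p m r i
  have hΦ := exists_twHecke hadm T.twAug_chi hM hp2 (twData (U := U) (m := m) (r := r) hp).2 hlev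
    hL' (T.downChar i) T.etaFun (T.chi_eq_downChar i hNdvd) (T.twAug_downChar i) T.twAug_etaFun
    (T.hypQ (Finset.erase_subset _ _) fun q hq => by
      obtain ⟨j, rfl⟩ := T.exists_of_mem_primes (Finset.mem_of_mem_erase hq)
      exact Nat.Coprime.mul_right (T.coprime_baseLevel hp j)
        ((Nat.coprime_primes (T.prime j) (T.prime i)).2 (Finset.ne_of_mem_erase hq)))
    (T.exists_nonEisenstein_one_mod hyp _)
    (T.admissible_downChar hp hp2 i _ (hNdvd.trans (Dvd.intro _ hL'.symm)))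
    (twGen U.𝒪 p m r i - 1) (T.downChar_sub_one_mem i)
    (↑(insert p (insert (T.qv i) (ramPrimes W p) ∪ T.primes.erase (T.qv i))) : Set ℕ)
    (fun q hq hqL => by
      rw [hL', hlev] at hqL
      rw [Finset.mem_coe, Finset.mem_insert, Finset.mem_union, Finset.mem_insert]
      rcases hq.dvd_mul.mp hqL with h | h
      · rcases hq.dvd_mul.mp h with h | h
        · rcases hq.dvd_mul.mp h with h | h
          · rcases Finset.mem_insert.mp (prime_mem_minSet_of_dvd hp hq h) with h | h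
            · exact Or.inl h
            · exact Or.inr (Or.inl (Or.inr h))
          · exact Or.inr (Or.inl (Or.inl ((Nat.prime_dvd_prime_iff_eq hq (T.prime i)).mp h)))
        · exact Or.inr (Or.inr (T.mem_of_dvd_prod (Finset.erase_subset _ _) hq h))
      · exact Or.inr (Or.inr (T.mem_of_dvd_prod (Finset.erase_subset _ _) hq h)))
    (fun ℓ hℓ hℓS => (primeIdxOf (Finset.subset_insert _ _) hℓ hℓS).2.2)
  refine hΦ.elim fun Φ hΦ => ⟨Φ, fun ℓ hℓ hℓN hℓS x => ?_⟩
  refine (hΦ ℓ hℓ hℓN hℓS x).trans ((Submodule.Quotient.eq _).2 ?_)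
  show _ - (((chiPrime T.eta ℓ)⁻¹ : (TWAlg U.𝒪 p m r)ˣ) : TWAlg U.𝒪 p m r) •
    twPartOp hadm T.twAug_chi hM (primeIdxOf (Finset.subset_insert _ _) hℓ hℓS) x ∈ _
  rw [T.chiPrime_eta hℓ fun h => hℓN (hL' ▸ h.mul_right _),
    ← Finset.mul_prod_erase T.primes (fun q => TW.Mod.etaAt T.etaFun q ℓ) (T.qv_mem_primes i)]
  exact T.smul_sub_smul_mem i ℓ _ _

end TWPrimes

/-- The twisted Hecke operators come from Hecke algebras of trivial character. -/
theorem stmtTWHecke : StmtTWHecke := by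
  intro W p k hyp U _ m r T _ _ hadm hM
  refine ⟨?_, fun i => ?_⟩
  · intro _
    exact T.exists_fullHecke hadm hM hyp
  · intro _
    exact T.exists_downHecke hadm hM hyp i

end Fermat.Agent.R59
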