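import Fermat.Agent.R59.TWRamified.Embedding
import Fermat.Agent.R59.TWRamified.PrimeOne
import Fermat.Agent.R59.TWRamified.Point
import Fermat.Agent.R59.TWRamified.Contra
import Fermat.Agent.R59.TWRamified.Eigen
import Fermat.Agent.R59.CotGrowth.Restrict
import Fermat.Agent.TWGal.Augmentation
import Fermat.Agent.Tangent.Conditions

/-!
# The diamond operator fixes nothing on a component of conductor `q`

A fixed class would give an eigen class with nebentypus of conductor `q` and a point of the Hecke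
algebra at which the diamond character is trivial, so a representation which is both unramified and,
by Carayol's theorem, not unipotent on inertia at `q`.
-/

set_option autoImplicit false
set_option synthInstance.maxHeartbeats 400000

noncomputable section

open IsLocalRing Polynomial CuspForm Fermat.Agent.TW.Mod

namespace Fermat.Agent.R59

open TWRam

/-- The residual trace of a Hecke representation at a Frobenius element. -/
theorem TWRam.residual_trace_frobenius {N : ℕ} [NeZero N] {S : Set ℕ} {O : Type} [CommRing O]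
    [IsDomain O] [IsDiscreteValuationRing O] [IsAdicComplete (maximalIdeal O) O]
    {θ : heckeAlgebra N 2 S →+* ResidueField O} {T : Type} [CommRing T] [IsLocalRing T]
    [IsNoetherianRing T] [IsAdicComplete (maximalIdeal T) T] [Algebra O T]
    [IsLocalHom (algebraMap O T)] [Module.Finite O T] [Module.Free O T]
    (H : HeckeGaloisRepDatum N S O θ T) {ℓ : ℕ} (hℓ : ℓ.Prime) (hℓN : ¬ ℓ ∣ N) (hℓS : ℓ ∉ S)
    {A : ValuationSubring (AlgebraicClosure ℚ)} (hA : A.LiesOverPrime ℓ)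
    {σ : AlgebraicClosure ℚ ≃ₐ[ℚ] AlgebraicClosure ℚ} (hσ : A.IsFrobeniusAt σ ℓ) :
    LinearMap.trace (ResidueField T) H.ρ.residual.V (H.ρ.residual.ρ σ) =
      residue T (H.π (heckeAlgebra.T hℓ hℓN hℓS)) :=
  (LinearMap.trace_baseChange _ _).trans (congrArg (residue T)
    (CondLevel.trace_det_of_charpoly H.ρ.finrank_eq _ (H.charpoly_frob ℓ hℓ hℓN hℓS A hA σ hσ)).1)

set_option maxHeartbeats 1600000 in
/-- On a component of conductor `q_i` and order `p` the diamond operator at `q_i` fixes nothing,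
given Carayol's theorem. -/
theorem stmtTWRamified_of (h36 : CondLevel.CarayolNotUnipotent) : StmtTWRamified := by
  intro W p k hcore U _ m r T _ _ hm hadm hM _ _ θ H _ hres hcond _ Ψ hΨ i _ A _ _ ρ Dm f hf heq x
    hx
  classical
  obtain ⟨hp35, -, -, -, -⟩ := hcore
  have hp : p.Prime := by rcases hp35 with rfl | rfl <;> norm_num
  have hp2 : p ≠ 2 := by rcases hp35 with rfl | rfl <;> norm_num
  have : Fact p.Prime := ⟨hp⟩
  have hq := T.prime i
  have : Fact (T.qv i).Prime := ⟨hq⟩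
  have hdet := cond_detIsCyclotomic hcond
  have hirr := isIrreducible_of_absIrr _ H.residual_absIrr
  -- a non-Eisenstein prime congruent to one
  have : NeZero (T.level * T.qv i * p) :=
    ⟨mul_ne_zero (mul_ne_zero (NeZero.ne _) hq.ne_zero) hp.ne_zero⟩
  obtain ⟨ℓ₀, hℓ₀, hℓ₀S, hℓ₀n, hℓ₀1, P₀, hP₀, σ₀, hσ₀, htr⟩ :=
    exists_frobenius_one_mod_trace_ne H.ρ.residual H.residual_absIrr p
      (fun σ hσ => by
        rw [residual_det_eq_natCast H.ρ hdet σ 1 (fun μ hμ => by rw [pow_one]; exact hσ μ hμ),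
          Nat.cast_one])
      (T.level * T.qv i * p) (dvd_mul_left p _) (badSet T)
  have hℓ₀S' : ℓ₀ ∉ (↑(badSet T) : Set ℕ) := fun h => hℓ₀S (Finset.mem_coe.1 h)
  have hℓ₀N : ¬ ℓ₀ ∣ mixLevel p k.base (ramPrimes W p) T.primes := fun h =>
    hℓ₀S (mem_badSet_of_dvd_mixLevel T hp k.base hℓ₀ h)
  have : Fact ℓ₀.Prime := ⟨hℓ₀⟩
  rw [residual_trace_frobenius H hℓ₀ hℓ₀N hℓ₀S' hP₀ hσ₀] at htr
  have hℓ₀T : ((ℓ₀ : ℕ) : ResidueField (heckeLocal (mixLevel p k.base (ramPrimes W p) T.primes)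
      (↑(badSet T) : Set ℕ) U.𝒪 θ)) = 1 := by
    obtain ⟨d, hd⟩ := (Int.natCast_dvd_natCast.2 (dvd_mul_left p (T.level * T.qv i))).trans hℓ₀1
    have hp0 : ((p : ℕ) : ResidueField (heckeLocal (mixLevel p k.base (ramPrimes W p) T.primes)
        (↑(badSet T) : Set ℕ) U.𝒪 θ)) = 0 := by
      rw [← map_natCast (residue _), residue_eq_zero_iff]
      exact hdet.1
    have h1 := congrArg (Int.cast : ℤ → ResidueField (heckeLocal
      (mixLevel p k.base (ramPrimes W p) T.primes) (↑(badSet T) : Set ℕ) U.𝒪 θ)) hd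
    push_cast at h1
    rwa [hp0, zero_mul, sub_eq_zero] at h1
  have hunit : IsUnit (H.π (heckeAlgebra.T hℓ₀ hℓ₀N hℓ₀S') - ((ℓ₀ : ℕ) + 1)) := by
    refine residue_ne_zero_iff_isUnit _ |>.1 ?_
    rw [map_sub, map_add, map_natCast, map_one, hℓ₀T, sub_ne_zero, one_add_one_eq_two]
    exact htr
  -- freeness
  have hpm : (p : U.𝒪) ∈ maximalIdeal U.𝒪 := U.p_mem
  have := isLocalRing_twAlg U.𝒪 p m r hpm
  have hne : ∃ j : PrimeIdx (↑(minSet W p) : Set ℕ), ¬ j.1 ∣ T.level ∧
      raiseLam T.primes T.α (TWPrimes.lam (U := U)) j ≠ (j.1 : ResidueField U.𝒪) + 1 := by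
    refine ⟨⟨ℓ₀, hℓ₀, notMem_minSet_of_notMem_badSet T hℓ₀S⟩,
      fun h => hℓ₀n ((h.mul_right _).mul_right _), ?_⟩
    show (if ℓ₀ ∈ T.primes then _ else residue U.𝒪 (U.a ℓ₀)) ≠ _
    rw [if_neg fun h => hℓ₀S (Finset.mem_insert_of_mem (Finset.mem_union_right _ h)),
      ← hres ℓ₀ hℓ₀ hℓ₀N hℓ₀S']
    intro h0
    refine htr ?_
    rw [H.residue_π, h0, map_add, map_natCast, map_one, hℓ₀T, one_add_one_eq_two]
  obtain ⟨hfree, -⟩ := free_twPart hadm T.twAug_chi hM hne
  -- a component over `ℂ` which sees `x`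
  obtain ⟨ι, hι⟩ := exists_injective_complex U.𝒪
  by_contra hnot
  obtain ⟨ζ, hζ, hxne⟩ : ∃ (ζ : ℂ) (hζ : IsPrimitiveRoot ζ p),
      pushMod T hadm hM ι i hζ hm x ≠ 0 := by
    by_contra hc
    push Not at hc
    exact hnot (mem_smul_of_forall_push_eq_zero T hadm hM ι i hp hp2 hm hι x hc)
  obtain ⟨e, lam, φ, he0, heig, hφO, hφT, hφ1, hlamq⟩ := exists_eigen T hadm hM ι i hζ hm H hp
    (fun l hl h => mem_badSet_of_dvd_mixLevel T hp k.base hl h) Ψ hΨ
    (f (Dm.δ (T.gen i) : A)) x hx hxne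
  -- the point
  obtain ⟨O, _, _, _, _, _, _, g, hg, hgφ⟩ := exists_dvr_point φ (fun a b h => hι (by
    rw [← hφO, ← hφO]; exact h))
  let θR : φ.range →+* O := φ.rangeRestrict.liftOfSurjective φ.rangeRestrict_surjective
    ⟨g, fun a ha => by
      rw [RingHom.mem_ker] at ha ⊢
      rw [hgφ a 0 ((congrArg Subtype.val ha).trans (map_zero φ).symm), map_zero]⟩
  have hθR : ∀ a, θR (φ.rangeRestrict a) = g a := fun a =>
    RingHom.liftOfSurjective_comp_apply φ.rangeRestrict φ.rangeRestrict_surjective _ a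
  have hR : ∀ l : ℕ, l.Prime → l ∉ badSet T →
      TWLoc.twistedLam (chiZ T ι i hζ hm) lam l ∈ φ.range := fun l hl hlS =>
    ⟨_, hφT l hl (fun h => hlS (mem_badSet_of_dvd_mixLevel T hp k.base hl h))
      fun h => hlS (Finset.mem_coe.1 h)⟩
  have hpO : (p : O) ∈ maximalIdeal O := by
    rw [← map_natCast g]
    exact map_nonunit g _ hdet.1
  have : CharP (ResidueField O) p := CondLevel.charP_residueField p hpO
  have h2 : (2 : ResidueField O) ≠ 0 :=
    Ring.two_ne_zero (by rw [ringChar.eq (ResidueField O) p]; exact hp2)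
  let ρ' := H.ρ.baseChangeAlong g hg
  have hres' : ρ'.residual.IsAbsolutelyIrreducible ∧ ρ'.residual.IsOdd := by
    let _ := g.toAlgebra
    have : IsLocalHom (algebraMap (heckeLocal (mixLevel p k.base (ramPrimes W p) T.primes)
      (↑(badSet T) : Set ℕ) U.𝒪 θ) O) := hg
    exact TWLoc.residual_absIrr_of_charpoly h2 H.ρ hirr (residual_isOdd H.ρ hp2 hdet) ρ'
      fun σ => TWLoc.charpoly_baseChangeAlong g hg H.ρ σ
  -- it is unramified at `q`
  have hgf : IsLocalHom (g.comp f) := @RingHom.isLocalHom_comp _ _ _ _ _ _ g f hg hf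
  have hgen : g (f (Dm.δ (T.gen i) : A)) = 1 := by
    rw [hgφ _ 1 (hφ1.trans (map_one φ).symm), map_one]
  have hun : ρ'.IsUnramifiedAt (T.qv i) := by
    have h1 : (ρ.baseChangeAlong (g.comp f) hgf).IsUnramifiedAt (T.qv i) := by
      rw [Dm.isUnramifiedAt_baseChange_iff hq, TWGal.Diamond.augIdeal_le_ker_iff]
      intro u
      obtain ⟨j, rfl⟩ := T.gen_spec i u
      rw [map_pow, Units.val_pow_eq_pow_val, map_pow, RingHom.comp_apply, hgen, one_pow]
    obtain ⟨E1⟩ := heq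
    obtain ⟨E2⟩ := TWGal.baseChangeAlong_comp ρ f hf g hg hgf
    exact Tangent.isUnramifiedAt_of_isEquiv ⟨E2.symm.trans (E1.baseChangeAlong g hg)⟩ h1
  -- contradiction with Carayol
  have := neZero_otherLevel T i
  have hlam0 : lam ℓ₀ ≠ (ℓ₀ : ℂ) + 1 := by
    have h1 := hφT ℓ₀ hℓ₀ hℓ₀N hℓ₀S'
    have hu1 : ((ℓ₀ : ℕ) : ZMod (T.qv i)) = ((1 : (ZMod (T.qv i))ˣ) : ZMod (T.qv i)) := by
      have h2 : (T.qv i : ℤ) ∣ (ℓ₀ : ℤ) - 1 :=
        (Int.natCast_dvd_natCast.2 ((dvd_mul_left (T.qv i) T.level).mul_right p)).trans hℓ₀1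
      rw [← ZMod.intCast_zmod_eq_zero_iff_dvd] at h2
      push_cast at h2
      rw [Units.val_one]
      exact sub_eq_zero.1 h2
    rw [hu1, extChar_coe, map_one, Units.val_one, one_mul] at h1
    rw [← h1, ← sub_ne_zero]
    have h3 := (hunit.map φ).ne_zero
    rwa [map_sub, map_add, map_natCast, map_one] at h3
  refine false_of_eigen h36 (p := p) (S := badSet T) (R := φ.range) (θ := θR) (ρ := ρ')
    (ℓ₀ := ℓ₀) (not_dvd_otherLevel T hp i) (level_eq T i) hp2 (T.ne_p i) (chiZ T ι i hζ hm)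
    ⟨T.gen i, chiZ_gen_sq_ne T ι i hζ hm hp hp2⟩ _ (T.dvd_level i)
    (pushChar_chi T ι i hζ hm) e he0 lam heig hlamq
    (fun h => hℓ₀n (h.mul_right p))
    ((Int.natCast_dvd_natCast.2 (dvd_mul_right _ p)).trans hℓ₀1) hlam0
    (Finset.mem_insert_self _ _) (Finset.mem_insert_of_mem (Finset.mem_union_right _
      (mem_primes T i))) (fun l hl h => mem_badSet_of_dvd_level T hp hl
        (level_eq T i ▸ h.mul_right _))
    hpO hR (isIrreducible_of_absIrr _ hres'.1) hres'.2 (fun l hl hlS P hP σ hσ => ?_) hun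
  have hlS' : l ∉ (↑(badSet T) : Set ℕ) := fun h => hlS (Finset.mem_coe.1 h)
  have hlN : ¬ l ∣ mixLevel p k.base (ramPrimes W p) T.primes := fun h =>
    hlS (mem_badSet_of_dvd_mixLevel T hp k.base hl h)
  rw [TWLoc.charpoly_baseChangeAlong g hg, H.charpoly_frob l hl hlN hlS' P hP σ hσ]
  have hθ : θR ⟨_, hR l hl hlS⟩ = g (H.π (heckeAlgebra.T hl hlN hlS')) := by
    rw [← hθR]
    exact congrArg θR (Subtype.ext (hφT l hl hlN hlS').symm)
  rw [hθ]
  simp

end Fermat.Agent.R59
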