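import Fermat.Agent.R59.Interfaces
import Fermat.Agent.R59.DefRings
import Fermat.Agent.R59.Core
import Fermat.Agent.TWGal.Augmentation
import Fermat.Agent.MF.IntStruct.Main
import Fermat.Prelude.Def_CuspForm_HeckeLocal

/-!
# The full-level Hecke ring, split into its Galois side and its module side

* `StmtTopRep`: the Hecke Galois representation of full level has type `cond k`.
* `StmtTopModule`: the module of full level with its pairing and congruence length.
* `stmtTop_of`: these give `StmtTop`.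
-/

set_option autoImplicit false
set_option synthInstance.maxHeartbeats 400000

noncomputable section

open IsLocalRing CuspForm

namespace Fermat.Agent.R59

local notation "Γℚ" => (AlgebraicClosure ℚ ≃ₐ[ℚ] AlgebraicClosure ℚ)

variable {W : WeierstrassCurve ℤ} {p : ℕ} {k : Kind} (U : Setup W p k)

/-- The Hecke algebra of full level away from the primes of the full problem. -/
abbrev TopAlg (W : WeierstrassCurve ℤ) (p : ℕ) (k : Kind) [NeZero (fullLevel W p k)] : Type :=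
  ↥(CuspForm.heckeAlgebra (fullLevel W p k) 2 (↑(fullSet W p) : Set ℕ))

/-- A residual character of full level given by the base point. -/
def Setup.IsBaseChar [NeZero (fullLevel W p k)]
    (θ : TopAlg W p k →+* ResidueField U.𝒪) : Prop :=
  ∀ (ℓ : ℕ) (hℓ : ℓ.Prime) (hℓN : ¬ ℓ ∣ fullLevel W p k)
    (hℓS : ℓ ∉ (↑(fullSet W p) : Set ℕ)),
    θ (CuspForm.heckeAlgebra.T hℓ hℓN hℓS) = IsLocalRing.residue U.𝒪 (U.a ℓ)

/-- The local Hecke ring of full level. -/
abbrev Setup.TopLocal [NeZero (fullLevel W p k)]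
    (θ : TopAlg W p k →+* ResidueField U.𝒪) : Type :=
  CuspForm.heckeLocal (fullLevel W p k) (↑(fullSet W p) : Set ℕ) U.𝒪 θ

/-- A module of full level for the local Hecke ring. -/
structure TopModule [NeZero (fullLevel W p k)] (θ : TopAlg W p k →+* ResidueField U.𝒪) :
    Type 1 where
  isBaseChar : U.IsBaseChar θ
  M : Type
  [instAddCommGroupM : AddCommGroup M]
  [instModuleM : Module U.𝒪 M]
  [instModuleTM : Module (U.TopLocal θ) M]
  [instTower : IsScalarTower U.𝒪 (U.TopLocal θ) M]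
  [instFiniteM : Module.Finite U.𝒪 M]
  [instFreeM : Module.Free U.𝒪 M]
  B : M →ₗ[U.𝒪] M →ₗ[U.𝒪] U.𝒪
  π : U.TopLocal θ →ₐ[U.𝒪] U.𝒪
  π_T : ∀ (ℓ : ℕ) (hℓ : ℓ.Prime) (hℓN : ¬ ℓ ∣ fullLevel W p k)
    (hℓS : ℓ ∉ (↑(fullSet W p) : Set ℕ)),
    π (CuspForm.heckeLocal.π _ _ U.𝒪 θ (CuspForm.heckeAlgebra.T hℓ hℓN hℓS)) = U.a ℓ
  congIdeal_ne_bot : NumCrit.congIdeal π ≠ ⊥
  π_eq_zero_of_smul_eq_zero : ∀ t : U.TopLocal θ, (∀ m : M, t • m = 0) → π t = 0
  adj : ∀ (t : U.TopLocal θ) (m : M), ∀ l ∈ NumCrit.eigenSub π M, B (t • m) l = B m (t • l)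
  surj : Function.Surjective fun m => (B m).comp (NumCrit.eigenSub π M).subtype
  finrank_eigenSub :
    Module.finrank U.𝒪 (NumCrit.eigenSub π M) = Module.finrank U.𝒪 U.topEigen
  length_congModule :
    Module.length U.𝒪 (NumCrit.CongModule B (NumCrit.eigenSub π M)) = U.topPsi

attribute [instance] TopModule.instAddCommGroupM TopModule.instModuleM TopModule.instModuleTM
  TopModule.instTower TopModule.instFiniteM TopModule.instFreeM

/-- The Galois side at full level. -/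
def StmtTopRep : Prop :=
  ∀ (W : WeierstrassCurve ℤ) (p : ℕ) (k : Kind), CoreHyp W p k → ∀ U : Setup W p k,
    ∀ [NeZero (fullLevel W p k)] [Fact (CuspForm.HasIntegralStructure (fullLevel W p k) 2)]
      (θ : TopAlg W p k →+* ResidueField U.𝒪), U.IsBaseChar θ →
      ∃ H : CuspForm.HeckeGaloisRepDatum (fullLevel W p k) (↑(fullSet W p) : Set ℕ) U.𝒪 θ
          (U.TopLocal θ),
        H.π = CuspForm.heckeLocal.π _ _ U.𝒪 θ ∧
        cond k U.𝒪 p (fullSet W p) (minSet W p) H.ρ ∧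
        H.ρ.residual.IsEquiv
          (U.ρbar.baseChangeAlong (ResidueField.map (algebraMap U.𝒪 (U.TopLocal θ)))) ∧
        ∀ (π : U.TopLocal θ →ₐ[U.𝒪] U.𝒪),
          (∀ (ℓ : ℕ) (hℓ : ℓ.Prime) (hℓN : ¬ ℓ ∣ fullLevel W p k)
            (hℓS : ℓ ∉ (↑(fullSet W p) : Set ℕ)),
            π (H.π (CuspForm.heckeAlgebra.T hℓ hℓN hℓS)) = U.a ℓ) →
          ∀ hπ : IsLocalHom (π : U.TopLocal θ →+* U.𝒪),
            (H.ρ.baseChangeAlong (π : U.TopLocal θ →+* U.𝒪) hπ).IsEquiv U.base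

/-- The module side at full level. -/
def StmtTopModule : Prop :=
  ∀ (W : WeierstrassCurve ℤ) (p : ℕ) (k : Kind), CoreHyp W p k → ∀ U : Setup W p k,
    ∀ [NeZero (fullLevel W p k)] [Fact (CuspForm.HasIntegralStructure (fullLevel W p k) 2)],
      ∃ θ : TopAlg W p k →+* ResidueField U.𝒪, Nonempty (TopModule U θ)

/-- A type of deformation passes to quotients of complete rings. -/
theorem cond_baseChangeAlong_surjective {𝒪 A B : Type} [CommRing 𝒪] [IsLocalRing 𝒪] [CommRing A]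
    [IsLocalRing A] [Algebra 𝒪 A] [CommRing B] [IsLocalRing B] [IsNoetherianRing B] [Algebra 𝒪 B]
    [hB : IsLocalHom (algebraMap 𝒪 B)]
    (hres : Function.Surjective (IsLocalRing.residue B ∘ algebraMap 𝒪 B))
    {𝒟 : DefCond.Cond 𝒪} (h : DefCond.Closed 𝒪 𝒟) (φ : A →ₐ[𝒪] B)
    (hφ : IsLocalHom (φ : A →+* B)) {ρ : GaloisRepAdic A} (hρ : 𝒟 ρ) :
    𝒟 (ρ.baseChangeAlong (φ : A →+* B) hφ) := by
  refine h.limit hB hres fun n _ hq => ?_
  have hc := @RingHom.isLocalHom_comp _ _ _ _ _ _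
    ((Ideal.Quotient.mkₐ 𝒪 (maximalIdeal B ^ (n + 1))) : B →+* B ⧸ maximalIdeal B ^ (n + 1))
    (φ : A →+* B) hq hφ
  exact h.of_isEquiv (Deform.isEquiv_symm' (baseChangeAlong_comp_isEquiv _ hφ _ hq hc ρ))
    (h.push (DefCond.isArtinianTestAlgebra_quotient n hB hres)
      ((Ideal.Quotient.mkₐ 𝒪 (maximalIdeal B ^ (n + 1))).comp φ) hc hρ)

/-- The trace from a characteristic polynomial. -/
theorem trace_eq_of_charpoly {A : Type} [CommRing A] [IsLocalRing A] {ρ : GaloisRepAdic A} {σ : Γℚ}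
    {s d : A} (h : LinearMap.charpoly (ρ.ρ σ) =
      Polynomial.X ^ 2 - Polynomial.C s * Polynomial.X + Polynomial.C d) :
    LinearMap.trace A ρ.V (ρ.ρ σ) = s := by
  let b := Module.finBasisOfFinrankEq A ρ.V ρ.finrank_eq
  rw [← LinearMap.charpoly_toMatrix (ρ.ρ σ) b, Matrix.charpoly_fin_two,
    ← LinearMap.trace_eq_matrix_trace] at h
  have h1 := congrArg (Polynomial.coeff · 1) h
  simpa [Polynomial.coeff_X] using h1

/-- The full-level Hecke ring from its Galois side and its module side. -/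
theorem stmtTop_of (hrep : StmtTopRep) (hmod : StmtTopModule) : StmtTop := by
  intro W p k h U _
  have hp : p.Prime := by rcases h.1 with rfl | rfl <;> decide
  have : Fact p.Prime := ⟨hp⟩
  have hp2 : p ≠ 2 := by rcases h.1 with rfl | rfl <;> decide
  have : Fact (CuspForm.HasIntegralStructure (fullLevel W p k) 2) :=
    ⟨Fermat.Agent.MF.IntStruct.hasIntegralStructure _ 2⟩
  obtain ⟨θ, ⟨Md⟩⟩ := hmod W p k h U
  obtain ⟨H, hHπ, hcond, hres, hbase⟩ := hrep W p k h U θ Md.isBaseChar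
  set I : Ideal (U.TopLocal θ) := Module.annihilator (U.TopLocal θ) Md.M with hI
  have hIne : I ≠ ⊤ := fun e => by
    have := Md.π_eq_zero_of_smul_eq_zero 1
      (Module.mem_annihilator.mp (by rw [← hI, e]; exact Submodule.mem_top))
    rw [map_one] at this
    exact one_ne_zero this
  have : Nontrivial (U.TopLocal θ ⧸ I) := Ideal.Quotient.nontrivial_iff.2 hIne
  have hT : IsLocalRing (U.TopLocal θ ⧸ I) :=
    IsLocalRing.of_surjective' (Ideal.Quotient.mk I) Ideal.Quotient.mk_surjective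
  have hmk : IsLocalHom ((Ideal.Quotient.mkₐ U.𝒪 I) : U.TopLocal θ →+* U.TopLocal θ ⧸ I) :=
    IsLocalHom.of_surjective _ Ideal.Quotient.mk_surjective
  have hlocT : IsLocalHom (algebraMap U.𝒪 (U.TopLocal θ ⧸ I)) := by
    rw [IsScalarTower.algebraMap_eq U.𝒪 (U.TopLocal θ) (U.TopLocal θ ⧸ I)]
    exact @RingHom.isLocalHom_comp _ _ _ _ _ _ _ _ hmk (CuspForm.heckeLocal.instIsLocalHom _ _ _ _)
  have : IsNoetherianRing (U.TopLocal θ ⧸ I) :=
    isNoetherianRing_of_surjective _ _ _ Ideal.Quotient.mk_surjective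
  have : Module.Finite U.𝒪 (U.TopLocal θ ⧸ I) :=
    Module.Finite.of_surjective (Ideal.Quotient.mkₐ U.𝒪 I).toLinearMap Ideal.Quotient.mk_surjective
  have : IsAdicComplete (maximalIdeal (U.TopLocal θ ⧸ I)) (U.TopLocal θ ⧸ I) :=
    IsLocalRing.isAdicComplete_of_module_finite (𝒪 := U.𝒪)
  let : Module (U.TopLocal θ ⧸ I) Md.M :=
    Module.IsTorsionBySet.module (fun m ⟨t, ht⟩ => Module.mem_annihilator.mp ht m :
      Module.IsTorsionBySet (U.TopLocal θ) Md.M I)
  have hsmul : ∀ (t : U.TopLocal θ) (m : Md.M), Ideal.Quotient.mk I t • m = t • m := fun _ _ => rfl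
  have : IsScalarTower U.𝒪 (U.TopLocal θ ⧸ I) Md.M := ⟨fun c x m => by
    obtain ⟨t, rfl⟩ := Ideal.Quotient.mk_surjective x
    show Ideal.Quotient.mk I (c • t) • m = c • Ideal.Quotient.mk I t • m
    rw [hsmul, hsmul, smul_assoc]⟩
  have : FaithfulSMul (U.TopLocal θ ⧸ I) Md.M := ⟨fun {x y} hxy => by
    obtain ⟨s, rfl⟩ := Ideal.Quotient.mk_surjective x
    obtain ⟨t, rfl⟩ := Ideal.Quotient.mk_surjective y
    refine Ideal.Quotient.eq.mpr (Module.mem_annihilator.mpr fun m => ?_)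
    rw [sub_smul, sub_eq_zero]
    exact hxy m⟩
  let π : (U.TopLocal θ ⧸ I) →ₐ[U.𝒪] U.𝒪 :=
    Ideal.Quotient.liftₐ I Md.π fun t ht =>
      Md.π_eq_zero_of_smul_eq_zero t (Module.mem_annihilator.mp ht)
  have hπmk : ∀ t, π (Ideal.Quotient.mk I t) = Md.π t := fun _ => rfl
  have heig : NumCrit.eigenSub π Md.M = NumCrit.eigenSub Md.π Md.M := by
    refine Submodule.ext fun m => ?_
    rw [NumCrit.mem_eigenSub, NumCrit.mem_eigenSub]
    refine ⟨fun hm t ht => (hsmul t m).symm.trans (hm _ ((hπmk t).trans ht)), fun hm x hx => ?_⟩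
    obtain ⟨t, rfl⟩ := Ideal.Quotient.mk_surjective x
    rw [hsmul]; exact hm t ((hπmk t).symm.trans hx)
  have hπloc : IsLocalHom (π : U.TopLocal θ ⧸ I →+* U.𝒪) :=
    IsLocalHom.of_surjective _ (NumCrit.aug_surjective π)
  have hπ₀loc : IsLocalHom (Md.π : U.TopLocal θ →+* U.𝒪) :=
    IsLocalHom.of_surjective _ (NumCrit.aug_surjective Md.π)
  have hresT : Function.Surjective
      (IsLocalRing.residue (U.TopLocal θ ⧸ I) ∘ algebraMap U.𝒪 (U.TopLocal θ ⧸ I)) := by
    intro y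
    obtain ⟨x, rfl⟩ := IsLocalRing.residue_surjective y
    obtain ⟨t, rfl⟩ := Ideal.Quotient.mk_surjective x
    obtain ⟨c, hc⟩ := H.residue_surjective (IsLocalRing.residue _ t)
    refine ⟨c, ?_⟩
    simp only [Function.comp_apply] at hc ⊢
    rw [← Ideal.Quotient.mk_algebraMap]
    exact congrArg (ResidueField.map ((Ideal.Quotient.mkₐ U.𝒪 I) : U.TopLocal θ →+* U.TopLocal θ ⧸ I)) hc
  refine ⟨{
    T := U.TopLocal θ ⧸ I
    residue_surjective := hresT
    tau := (Ideal.Quotient.mk I).comp H.π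
    adjoin_range := ?_
    ρ := H.ρ.baseChangeAlong ((Ideal.Quotient.mkₐ U.𝒪 I) : U.TopLocal θ →+* U.TopLocal θ ⧸ I) hmk
    ρ_cond := cond_baseChangeAlong_surjective hresT (closed_cond hp2 k _ _)
      (Ideal.Quotient.mkₐ U.𝒪 I) hmk hcond
    ρ_residual := ?_
    trace_frob := ?_
    M := Md.M
    B := Md.B
    π := π
    congIdeal_ne_bot := ?_
    base_equiv := ⟨hπloc, ?_⟩
    adj := fun x _ m l hl => ?_
    surj := heig ▸ Md.surj
    finrank_eigenSub := heig ▸ Md.finrank_eigenSub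
    length_congModule := heig ▸ Md.length_congModule }⟩
  · rw [RingHom.coe_comp, Set.range_comp]
    show Algebra.adjoin U.𝒪 ((Ideal.Quotient.mkₐ U.𝒪 I) '' Set.range H.π) = ⊤
    rw [← AlgHom.map_adjoin, H.adjoin_range_π, Algebra.map_top, AlgHom.range_eq_top]
    exact Ideal.Quotient.mk_surjective
  · exact TWGal.residual_baseChangeAlong_isEquiv H.ρ hres (Ideal.Quotient.mkₐ U.𝒪 I) hmk
  · intro ℓ hℓ hℓN hℓS A hA σ hσ
    rw [trace_baseChangeAlong]
    show Ideal.Quotient.mk I _ = Ideal.Quotient.mk I _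
    rw [trace_eq_of_charpoly (H.charpoly_frob ℓ hℓ hℓN hℓS A hA σ hσ)]
  · intro hbot
    refine Md.congIdeal_ne_bot (eq_bot_iff.mpr fun c hc => ?_)
    obtain ⟨t, ht, rfl⟩ := NumCrit.mem_congIdeal.mp hc
    rw [← hbot]
    refine NumCrit.mem_congIdeal.mpr ⟨Ideal.Quotient.mk I t, fun y hy => ?_, rfl⟩
    obtain ⟨s, rfl⟩ := Ideal.Quotient.mk_surjective y
    rw [← map_mul, ht s hy, map_zero]
  · have hc : IsLocalHom ((π : U.TopLocal θ ⧸ I →+* U.𝒪).comp
        ((Ideal.Quotient.mkₐ U.𝒪 I) : U.TopLocal θ →+* U.TopLocal θ ⧸ I)) := hπ₀loc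
    refine Deform.isEquiv_trans' (baseChangeAlong_comp_isEquiv _ hmk _ hπloc hc H.ρ) ?_
    exact hbase Md.π (fun ℓ hℓ hℓN hℓS => by rw [hHπ]; exact Md.π_T ℓ hℓ hℓN hℓS) hπ₀loc
  · obtain ⟨t, rfl⟩ := Ideal.Quotient.mk_surjective x
    rw [hsmul, hsmul]
    exact Md.adj t m l (heig ▸ hl)

end Fermat.Agent.R59
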