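import Fermat.Agent.R59.Core
import Fermat.Agent.R59.Setup.Final
import Fermat.Agent.R59.DefRingProof
import Fermat.Agent.R59.BaseModule
import Fermat.Agent.R59.BaseData.Module
import Fermat.Agent.R59.Raise
import Fermat.Agent.R59.Top.Module
import Fermat.Agent.R59.TopRep.Main
import Fermat.Agent.R59.TopRep.Mixed
import Fermat.Agent.R59.TopRep.NotFlat
import Fermat.Agent.R59.CotBound.Main
import Fermat.Agent.R59.Assembly
import Fermat.Agent.R59.TWHecke
import Fermat.Agent.R59.TWLevelProof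
import Fermat.Agent.R59.TWRamified
import Fermat.Agent.S31
import Fermat.Agent.S32
import Fermat.Agent.S33
import Fermat.Agent.S34
import Fermat.Agent.S37

/-!
# The `R = T` core from its remaining leaves

S31, S32, S33, S34 and S37 are supplied; what is left are the type of S36 and flat
lowering at `p`.
-/

set_option autoImplicit false
set_option synthInstance.maxHeartbeats 400000

noncomputable section

open IsLocalRing

namespace Fermat.Agent.R59

theorem stmtSpec : StmtSpec := fun N p _ hcomm => Fermat.Agent.S37.result N p hcomm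

theorem topRepStmt31 : TopRep.Stmt31 := by
  intro p N _ S 𝒪 _ _ _ _ θ T _ _ _ _ _ _ _ _ hp hp𝒪 hpS hNS H q hq hqS
  exact Fermat.Agent.S31.result hp hp𝒪 hpS hNS H q hq hqS

theorem stmt32 : Stmt32 := by
  intro p N _ S 𝒪 _ _ _ _ θ T _ _ _ _ _ _ _ _ _ _ hp hp2 hp𝒪 hpN hpS hNS H
  exact Fermat.Agent.S32.result hp hp2 hp𝒪 hpN hpS hNS H

theorem stmt33 : Stmt33 := by
  intro p N _ S 𝒪 _ _ _ _ θ T _ _ _ _ _ _ _ _ _ _ hp hp2 hp𝒪 hN hNS H hres
  exact Fermat.Agent.S33.result hp hp2 hp𝒪 hN hNS H hres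

theorem stmt34 : Stmt34 := by
  intro 𝒪 _ _ _ _ _ _ p hp hp𝒪 N _ S hpS hNS θ T _ _ _ _ _ _ _ _ H q hq hqp hqN hq2
  exact Fermat.Agent.S34.result hp hp𝒪 hpS hNS H q hq hqp hqN hq2

/-- The Hecke representations at mixed levels. -/
theorem stmtHeckeRep_of_flatLower (hfl : TopRep.StmtFlatLower) : StmtHeckeRep :=
  TopRep.stmtHeckeRep_of topRepStmt31 stmt32 stmt33 stmt34 stmtSpec
    (TopRep.stmtStrictNotFlat_of hfl)

/-- The `R = T` core from its remaining leaves. -/
theorem stmtCore_of_leaves (h36 : CondLevel.CarayolNotUnipotent)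
    (hfl : TopRep.StmtFlatLower) : StmtCore :=
  stmtCore_of (stmtSetup_of_inputs stmtSpec stmt32 stmt33 stmt34 hfl) stmtDefRing
    (stmtMinimal_of (stmtBaseModule_of
      (stmtTWLevel_of (stmtHeckeRep_of_flatLower hfl) stmtTWHecke (stmtTWRamified_of h36))
      (stmtBaseData_of (stmtHeckeRep_of_flatLower hfl))))
    stmtRaise
    (stmtTop_of
      (TopRep.stmtTopRep_of topRepStmt31 stmt32 stmt33 stmt34 stmtSpec
        (TopRep.stmtStrictNotFlat_of hfl))
      stmtTopModule) stmtCotBound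

end Fermat.Agent.R59
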