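import Fermat.Agent.R59.Patch
import Fermat.Agent.R59.Interfaces
import Fermat.Agent.R59.DefRingProof
import Fermat.Agent.NumCrit.Packaged

/-!
# The minimal level from Taylor–Wiles levels

`stmtMinimal_of` proves `StmtMinimal` from `StmtBaseModule`: the Hecke module of the base level
with an action of the minimal deformation ring, and Taylor–Wiles levels above it.
-/

set_option autoImplicit false

noncomputable section

open IsLocalRing

namespace Fermat.Agent.R59

variable {W : WeierstrassCurve ℤ} {p : ℕ} {k : Kind}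

/-- The module of the base level with its Taylor–Wiles levels. -/
structure BaseModule (U : Setup W p k) [NeZero (baseLevel W p k)]
    (D : GaloisRep.DeformationRingData U.𝒪 U.ρbar
      (cond k.base U.𝒪 p (minSet W p) (minSet W p)))
    (π : D.R →ₐ[U.𝒪] U.𝒪) : Type 1 where
  M : Type
  [instAddCommGroupM : AddCommGroup M]
  [instModuleM : Module U.𝒪 M]
  [instModuleRM : Module D.R M]
  [instTower : IsScalarTower U.𝒪 D.R M]
  [instFiniteM : Module.Finite U.𝒪 M]
  [instFreeM : Module.Free U.𝒪 M]
  [instNontrivial : Nontrivial M]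
  B : M →ₗ[U.𝒪] M →ₗ[U.𝒪] U.𝒪
  smul_eq_zero_of_isNilpotent : ∀ x : D.R, IsNilpotent x → ∀ m : M, x • m = 0
  adj : ∀ (t : D.R) (m : M), ∀ l ∈ NumCrit.eigenSub π M, B (t • m) l = B m (t • l)
  surj : Function.Surjective fun m => (B m).comp (NumCrit.eigenSub π M).subtype
  finrank_eigenSub :
    Module.finrank U.𝒪 (NumCrit.eigenSub π M) = Module.finrank U.𝒪 U.baseEigen
  length_congModule :
    Module.length U.𝒪 (NumCrit.CongModule B (NumCrit.eigenSub π M)) = U.basePsi
  r : ℕ
  levels : ∀ n, TWLevel (𝒪 := U.𝒪) p r D.R M n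

attribute [instance] BaseModule.instAddCommGroupM BaseModule.instModuleM BaseModule.instModuleRM
  BaseModule.instTower BaseModule.instFiniteM BaseModule.instFreeM BaseModule.instNontrivial

/-- Existence of the base module with its Taylor–Wiles levels. -/
def StmtBaseModule : Prop :=
  ∀ (W : WeierstrassCurve ℤ) (p : ℕ) (k : Kind), CoreHyp W p k → ∀ U : Setup W p k,
    ∀ [NeZero (baseLevel W p k)]
      (D : GaloisRep.DeformationRingData U.𝒪 U.ρbar
        (cond k.base U.𝒪 p (minSet W p) (minSet W p)))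
      (π : D.R →ₐ[U.𝒪] U.𝒪) (hπ : IsLocalHom (π : D.R →+* U.𝒪)),
      (D.ρ.baseChangeAlong (π : D.R →+* U.𝒪) hπ).IsEquiv U.base →
        Nonempty (BaseModule U D π)

/-- `StmtMinimal` from the base module and its levels. -/
theorem stmtMinimal_of (h : StmtBaseModule) : StmtMinimal := by
  intro W p k hyp U _
  have hp : p.Prime := by rcases hyp.1 with rfl | rfl <;> decide
  have : NeZero p := ⟨hp.ne_zero⟩
  have main : ∀ (D : GaloisRep.DeformationRingData U.𝒪 U.ρbar
        (cond k.base U.𝒪 p (minSet W p) (minSet W p)))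
      (π : D.R →ₐ[U.𝒪] U.𝒪) (hπ : IsLocalHom (π : D.R →+* U.𝒪)),
      (D.ρ.baseChangeAlong (π : D.R →+* U.𝒪) hπ).IsEquiv U.base →
        Module.finrank U.𝒪 U.baseEigen ≠ 0 ∧
        U.basePsi = Module.finrank U.𝒪 U.baseEigen *
          Module.length U.𝒪 (RingHom.ker π).Cotangent := by
    intro D π hπ he
    obtain ⟨Md⟩ := h W p k hyp U D π hπ he
    obtain ⟨hfree, hann, γ, g, hγ, hker⟩ := free_of_twLevels U.p_mem Md.levels
    have : FaithfulSMul D.R Md.M := ⟨fun {x y} hxy => sub_eq_zero.mp (by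
      have : x - y ∈ Module.annihilator D.R Md.M := Module.mem_annihilator.mpr fun m => by
        rw [sub_smul, sub_eq_zero]; exact hxy m
      rwa [hann, Ideal.mem_bot] at this)⟩
    obtain ⟨hfin, hfr⟩ := NumCrit.finite_free_of_faithful (O := U.𝒪) (T := D.R) (M := Md.M)
    have : Module.Finite D.R Md.M := Module.Finite.of_restrictScalars_finite U.𝒪 _ _
    have : IsReduced D.R := ⟨fun x hx => by
      have : x ∈ Module.annihilator D.R Md.M :=
        Module.mem_annihilator.mpr (Md.smul_eq_zero_of_isNilpotent x hx)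
      rwa [hann, Ideal.mem_bot] at this⟩
    have hη : NumCrit.congIdeal π ≠ ⊥ := NumCrit.congIdeal_ne_bot_of_isReduced π
    obtain ⟨c, hc⟩ := IsPrincipalIdealRing.principal (NumCrit.congIdeal π)
    replace hc : NumCrit.congIdeal π = Ideal.span {c} := hc
    have hc0 : c ≠ 0 := fun h => hη (by rw [hc, h, Ideal.span_singleton_zero])
    obtain ⟨t, ht, htc⟩ := NumCrit.mem_congIdeal.1 (hc ▸ Ideal.mem_span_singleton_self c :
      c ∈ NumCrit.congIdeal π)
    set b := Module.finBasis D.R Md.M
    have hd := (NumCrit.finrank_eigenSub_of_free b π hc hc0 ht htc).1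
    rw [Md.finrank_eigenSub] at hd
    have hpos : Module.finrank D.R Md.M ≠ 0 := by
      intro h0
      have := b.index_nonempty
      rw [h0] at this
      exact this.elim fun i => i.elim0
    refine ⟨hd ▸ hpos, ?_⟩
    rw [hd, ← Md.length_congModule]
    exact NumCrit.length_congModule_eq_length_cotangent γ hγ g hker π hη b Md.B
      (fun t _ m l hl => Md.adj t m l hl) Md.surj
  refine ⟨?_, fun D π hπ he => (main D π hπ he).2⟩
  obtain ⟨⟨D⟩, -⟩ := stmtDefRing W p k hyp U
  have hsurj : Function.Surjective (IsLocalRing.residue U.𝒪 ∘ algebraMap U.𝒪 U.𝒪) :=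
    IsLocalRing.residue_surjective
  have hloc : IsLocalHom (algebraMap U.𝒪 U.𝒪) := ⟨fun _ h => h⟩
  obtain ⟨π, ⟨hπ, he⟩, -⟩ := D.universal U.𝒪 hsurj U.base U.base_cond U.base_residual
  exact (main D π hπ he).1

end Fermat.Agent.R59
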