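import Fermat.Agent.HK.TRep
import Fermat.Agent.Petersson.CuspForm
import Mathlib.LinearAlgebra.Semisimple
import Mathlib.RingTheory.Localization.FractionRing

/-!
# The good Hecke operators on `H(R)` generate reduced algebras
-/

set_option autoImplicit false

noncomputable section

open Polynomial CongruenceSubgroup

namespace Fermat.Agent.R59

variable (N : ℕ) [NeZero N]

/-- A squarefree rational polynomial kills the matrix of a good Hecke operator. -/
theorem exists_squarefree_aeval_heckeMatZ {ℓ : ℕ} [hℓ : Fact ℓ.Prime] (hℓN : ¬ ℓ ∣ N) :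
    ∃ R : ℚ[X], Squarefree R ∧
      aeval ((HK.heckeMatZ N ℓ).map (Int.castRingHom ℚ)) R = 0 := by
  classical
  set A := (HK.heckeMatZ N ℓ).map (Int.castRingHom ℚ)
  have hP0 : minpoly ℚ A ≠ 0 := minpoly.ne_zero (IsIntegral.of_finite ℚ A)
  set P := minpoly ℚ A
  refine ⟨UniqueFactorizationMonoid.radical P, UniqueFactorizationMonoid.squarefree_radical, ?_⟩
  obtain ⟨e, he⟩ : ∃ e, P ∣ UniqueFactorizationMonoid.radical P ^ e :=
    UniqueFactorizationMonoid.exists_dvd_radical_self_pow hP0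
  set R := UniqueFactorizationMonoid.radical P
  let c : Matrix (Fin (MF.ParHom.parRank N)) (Fin (MF.ParHom.parRank N)) ℚ →ₐ[ℚ]
      Matrix (Fin (MF.ParHom.parRank N)) (Fin (MF.ParHom.parRank N)) ℂ :=
    (Algebra.ofId ℚ ℂ).mapMatrix
  have hc : Function.Injective c := Matrix.map_injective (algebraMap ℚ ℂ).injective
  have hAc : c A = HK.coordC N (HK.heckeFormsLin N ℓ) := by
    rw [HK.coordC_heckeFormsLin]
    ext i j
    simp [c, A, Matrix.map_apply]
  let Cal : Module.End ℂ (CuspForm (Gamma0 N) 2) →ₐ[ℂ]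
      Matrix (Fin (MF.ParHom.parRank N)) (Fin (MF.ParHom.parRank N)) ℂ :=
    { HK.coordC N with
      commutes' := fun a => by
        show HK.coordC N (algebraMap ℂ _ a) = _
        rw [Algebra.algebraMap_eq_smul_one, HK.coordC_smul, map_one,
          ← Algebra.algebraMap_eq_smul_one] }
  have key : ∀ Q : ℚ[X], c (aeval A Q) =
      HK.coordC N (aeval (HK.heckeFormsLin N ℓ) (Q.map (algebraMap ℚ ℂ))) := fun Q => by
    rw [← aeval_algHom_apply, hAc, ← aeval_map_algebraMap ℂ]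
    exact aeval_algHom_apply Cal (HK.heckeFormsLin N ℓ) _
  have hT : aeval (HK.heckeFormsLin N ℓ) (R.map (algebraMap ℚ ℂ)) = 0 := by
    rw [← LinearMap.ker_eq_top, eq_top_iff,
      ← Petersson.heckeTLin_iSup_iInf_eigenspace (N := N) (k := 2)]
    refine iSup_le fun χ f hf => ?_
    rw [LinearMap.mem_ker]
    simp only [Submodule.mem_iInf] at hf
    have hef := Module.End.mem_eigenspace_iff.mp (hf ⟨ℓ, hℓ.out, hℓN⟩)
    rw [show CuspForm.heckeTLin 2 hℓ.out hℓN = HK.heckeFormsLin N ℓ by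
      rw [HK.heckeFormsLin, dif_neg hℓN]] at hef
    rcases eq_or_ne f 0 with rfl | hf0
    · rw [map_zero]
    have hev : Module.End.HasEigenvector (HK.heckeFormsLin N ℓ) (χ ⟨ℓ, hℓ.out, hℓN⟩) f :=
      ⟨Module.End.mem_eigenspace_iff.mpr hef, hf0⟩
    rw [Module.End.aeval_apply_of_hasEigenvector hev]
    have hPe : (P.map (algebraMap ℚ ℂ)).eval (χ ⟨ℓ, hℓ.out, hℓN⟩) = 0 := by
      have h0 : aeval (HK.heckeFormsLin N ℓ) (P.map (algebraMap ℚ ℂ)) = 0 :=
        HK.coordC_injective N (by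
          rw [← key, show aeval A P = 0 from minpoly.aeval ℚ A, map_zero, map_zero])
      have := LinearMap.congr_fun h0 f
      rw [Module.End.aeval_apply_of_hasEigenvector hev, LinearMap.zero_apply, smul_eq_zero] at this
      exact this.resolve_right hf0
    obtain ⟨T, hT⟩ := he
    have hmul := congrArg (fun Q : ℚ[X] => (Q.map (algebraMap ℚ ℂ)).eval (χ ⟨ℓ, hℓ.out, hℓN⟩)) hT
    simp only [Polynomial.map_pow, Polynomial.map_mul, eval_pow, eval_mul, hPe, zero_mul] at hmul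
    rw [eq_zero_of_pow_eq_zero hmul, zero_smul]
  exact hc (by rw [key, hT, map_zero, map_zero])

variable (𝒪 : Type) [CommRing 𝒪] [IsDomain 𝒪] [CharZero 𝒪]

/-- The good Hecke operators of level `N`. -/
def goodHeckeSet : Set (Module.End 𝒪 (HK.HSpace N 𝒪)) :=
  {x | ∃ (ℓ : ℕ) (hℓ : ℓ.Prime), ¬ ℓ ∣ N ∧ x = haveI := Fact.mk hℓ; HK.heckeEnd N ℓ 𝒪}

/-- Semisimplicity of commuting semisimple generators passes to the generated algebra. -/
theorem isSemisimple_of_mem_adjoin {K M : Type} [Field K] [PerfectField K] [AddCommGroup M]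
    [Module K M] [FiniteDimensional K M] {G : Set (Module.End K M)}
    (hss : ∀ x ∈ G, x.IsSemisimple) (hcomm : ∀ x ∈ G, ∀ y ∈ G, Commute x y)
    {z : Module.End K M} (hz : z ∈ Algebra.adjoin K G) : z.IsSemisimple := by
  have hcomm' : ∀ a ∈ Algebra.adjoin K G, ∀ b ∈ Algebra.adjoin K G, Commute a b := by
    intro a ha b hb
    have := Algebra.isMulCommutative_adjoin K (s := G) hcomm
    exact congrArg Subtype.val (mul_comm' (⟨a, ha⟩ : Algebra.adjoin K G) ⟨b, hb⟩)
  induction hz using Algebra.adjoin_induction with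
  | mem x hx => exact hss x hx
  | algebraMap c =>
    refine Module.End.isSemisimple_of_squarefree_aeval_eq_zero (p := X - C c)
      (irreducible_X_sub_C c).squarefree ?_
    rw [map_sub, aeval_X, aeval_C, sub_self]
  | add x y hx hy ihx ihy => exact ihx.add_of_commute (hcomm' x hx y hy) ihy
  | mul x y hx hy ihx ihy => exact ihx.mul_of_commute (hcomm' x hx y hy) ihy

/-- A nilpotent element of the algebra of good Hecke operators is zero. -/
theorem eq_zero_of_isNilpotent_mem_adjoin {x : Module.End 𝒪 (HK.HSpace N 𝒪)}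
    (hx : x ∈ Algebra.adjoin 𝒪 (goodHeckeSet N 𝒪)) (hn : IsNilpotent x) : x = 0 := by
  classical
  let K := FractionRing 𝒪
  have : CharZero K := charZero_of_injective_algebraMap (IsFractionRing.injective 𝒪 K)
  let n := MF.ParHom.parRank N
  let Φ : Module.End 𝒪 (HK.HSpace N 𝒪) →+* Module.End K (Fin n → K) :=
    (Matrix.toLinAlgEquiv' (R := K)).toRingEquiv.toRingHom.comp
      ((algebraMap 𝒪 K).mapMatrix.comp (HK.hMatrix N 𝒪).toRingEquiv.toRingHom)
  have hΦ : Function.Injective Φ :=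
    (Matrix.toLinAlgEquiv' (R := K)).injective.comp
      ((Matrix.map_injective (IsFractionRing.injective 𝒪 K)).comp (HK.hMatrix N 𝒪).injective)
  have hgen : ∀ (ℓ : ℕ) [Fact ℓ.Prime], Φ (HK.heckeEnd N ℓ 𝒪) =
      Matrix.toLinAlgEquiv' ((HK.heckeMatZ N ℓ).map (Int.castRingHom K)) := fun ℓ _ => by
    show Matrix.toLinAlgEquiv' ((algebraMap 𝒪 K).mapMatrix
      (HK.hMatrix N 𝒪 (HK.heckeEnd N ℓ 𝒪))) = _
    congr 1
    rw [HK.hMatrix_heckeEnd, RingHom.mapMatrix_apply, Matrix.map_map]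
    congr 1
    ext a
    simp
  have hscal : ∀ c : 𝒪, Φ (algebraMap 𝒪 _ c) = algebraMap K _ (algebraMap 𝒪 K c) := fun c => by
    show Matrix.toLinAlgEquiv' ((algebraMap 𝒪 K).mapMatrix (HK.hMatrix N 𝒪 (algebraMap 𝒪 _ c))) = _
    rw [AlgEquiv.commutes, RingHom.mapMatrix_apply, Matrix.algebraMap_eq_diagonal,
      Matrix.diagonal_map (map_zero _)]
    refine Eq.trans (congrArg (Matrix.toLinAlgEquiv' (R := K)) ?_)
      ((Matrix.toLinAlgEquiv' (R := K) (n := Fin n)).commutes (algebraMap 𝒪 K c))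
    rw [Matrix.algebraMap_eq_diagonal]
    ext i j
    simp [Matrix.diagonal, Function.comp_def]
  let G : Set (Module.End K (Fin n → K)) := Φ '' goodHeckeSet N 𝒪
  have hcomm : ∀ a ∈ G, ∀ b ∈ G, Commute a b := by
    rintro _ ⟨_, ⟨ℓ, hℓ, hℓN, rfl⟩, rfl⟩ _ ⟨_, ⟨ℓ', hℓ', hℓN', rfl⟩, rfl⟩
    have := Fact.mk hℓ
    have := Fact.mk hℓ'
    refine Commute.map ?_ Φ
    rw [← HK.heckeAct_heckeFormsGen N 𝒪 ⟨ℓ, hℓ⟩, ← HK.heckeAct_heckeFormsGen N 𝒪 ⟨ℓ', hℓ'⟩]
    exact (Commute.all _ _).map (HK.heckeAct N 𝒪)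
  have hss : ∀ a ∈ G, a.IsSemisimple := by
    rintro _ ⟨_, ⟨ℓ, hℓ, hℓN, rfl⟩, rfl⟩
    have := Fact.mk hℓ
    obtain ⟨R, hR, hRA⟩ := exists_squarefree_aeval_heckeMatZ N hℓN
    have hsep : (R.map (algebraMap ℚ K)).Separable :=
      (PerfectField.separable_iff_squarefree.mpr hR).map
    refine Module.End.isSemisimple_of_squarefree_aeval_eq_zero (p := R.map (algebraMap ℚ K))
      hsep.squarefree ?_
    rw [hgen, aeval_algEquiv, AlgHom.comp_apply, aeval_map_algebraMap K]
    let c : Matrix (Fin n) (Fin n) ℚ →ₐ[ℚ] Matrix (Fin n) (Fin n) K :=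
      (Algebra.ofId ℚ K).mapMatrix
    have hAc : c ((HK.heckeMatZ N ℓ).map (Int.castRingHom ℚ)) =
        (HK.heckeMatZ N ℓ).map (Int.castRingHom K) := by
      ext i j
      simp [c, Matrix.map_apply]
    rw [← hAc, aeval_algHom_apply, hRA, map_zero]
    exact map_zero _
  have hmem : Φ x ∈ Algebra.adjoin K G := by
    clear hn
    induction hx using Algebra.adjoin_induction with
    | mem y hy => exact Algebra.subset_adjoin ⟨y, hy, rfl⟩
    | algebraMap c => rw [hscal]; exact Subalgebra.algebraMap_mem _ _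
    | add a b _ _ ha hb => rw [map_add]; exact add_mem ha hb
    | mul a b _ _ ha hb => rw [map_mul]; exact mul_mem ha hb
  refine hΦ ?_
  rw [map_zero]
  exact Module.End.eq_zero_of_isNilpotent_isSemisimple (hn.map Φ)
    (isSemisimple_of_mem_adjoin hss hcomm hmem)

end Fermat.Agent.R59
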