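import Fermat.Agent.R59.Assembly
import Fermat.Agent.CondLevel.Main
import Fermat.Agent.S29
import Fermat.Agent.S35

/-!
# The type of S58 from the type of S36

S29 and S35 are supplied to the comparison with the conductor level.
-/

set_option autoImplicit false

noncomputable section

namespace Fermat.Agent.R59

/-- The type of S35, as used by the conductor level. -/
theorem steinbergFrobenius : CondLevel.SteinbergFrobenius := by
  intro M _ g hg lam _ S O' _ _ _ _ _ _ hlamO' chig hchig iota hlamS hMS
  exact S35.result hg lam S O' hlamO' chig hchig iota hlamS hMS

/-- The type of S58 from that of S36. -/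
theorem stmt58_of (h36 : CondLevel.CarayolNotUnipotent) : Stmt58 :=
  fun W hss N p _ hp2 hirr hp2N hN hbad hN3 =>
    CondLevel.conductorLevel_matching (fun hg _ hp _ _ _ φ => S29.result hg hp φ)
      steinbergFrobenius h36 W hss N p hp2 hirr hp2N hN hbad hN3

end Fermat.Agent.R59
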