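import Mathlib

/-!
# Changing the generators of a free group-ring module by units

If `M` is free over the group ring of `∏ ⟨d_j⟩` (`d_j` of order `N_j`, a power of `p`) and
`(u_j - 1) = (d_j - 1) x_j` with units `x_j` and `u_j ^ N_j = 1`, then the same basis works for the
`u_j`; and it still works after dividing by `u_j ^ n_j - 1` for `n_j ∣ N_j`.
-/

set_option autoImplicit false

noncomputable section

namespace Fermat.Agent.R59.UnitBasis

variable {𝒪 T M : Type} [CommRing 𝒪] [CommRing T] [Algebra 𝒪 T] [AddCommGroup M] [Module 𝒪 M]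
  [Module T M] [IsScalarTower 𝒪 T M]
variable {r d : ℕ}

/-- `c ↦ ∑ c i e • ∏ u_j ^ e_j • b_i`. -/
def combine (u : Fin r → T) (N : Fin r → ℕ) (b : Fin d → M) :
    (Fin d → (∀ j, Fin (N j)) → 𝒪) →ₗ[𝒪] M where
  toFun c := ∑ i, ∑ e : ∀ j, Fin (N j), c i e • (∏ j, u j ^ (e j : ℕ)) • b i
  map_add' c c' := by simp [add_smul, Finset.sum_add_distrib]
  map_smul' a c := by simp [mul_smul, Finset.smul_sum]

theorem combine_apply (u : Fin r → T) (N : Fin r → ℕ) (b : Fin d → M)
    (c : Fin d → (∀ j, Fin (N j)) → 𝒪) :
    combine u N b c = ∑ i, ∑ e, c i e • (∏ j, u j ^ (e j : ℕ)) • b i := rfl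

theorem combine_single (u : Fin r → T) (N : Fin r → ℕ) (b : Fin d → M) [∀ j, NeZero (N j)]
    (i : Fin d) (e : ∀ j, Fin (N j)) :
    combine (𝒪 := 𝒪) u N b (Pi.single i (Pi.single e 1)) = (∏ j, u j ^ (e j : ℕ)) • b i := by
  classical
  rw [combine_apply, Finset.sum_eq_single i (fun i' _ h => by simp [Pi.single_eq_of_ne h])
    (fun h => absurd (Finset.mem_univ i) h), Pi.single_eq_same,
    Finset.sum_eq_single e (fun e' _ h => by simp [Pi.single_eq_of_ne h])
    (fun h => absurd (Finset.mem_univ e) h), Pi.single_eq_same, one_smul]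

theorem pow_smul_of_smul_eq (u : T) {N : ℕ} (hu : ∀ m : M, u ^ N • m = m) (k : ℕ) (m : M) :
    u ^ (N * k) • m = m := by
  induction k with
  | zero => simp
  | succ k ih => rw [Nat.mul_succ, pow_add, mul_smul, hu, ih]

theorem prod_smul_eq_mod (u : Fin r → T) (N : Fin r → ℕ) (hu : ∀ j (m : M), u j ^ N j • m = m)
    (e : Fin r → ℕ) (m : M) :
    (∏ j, u j ^ e j) • m = (∏ j, u j ^ (e j % N j)) • m := by
  suffices ∀ s : Finset (Fin r), ∀ m : M,
      (∏ j ∈ s, u j ^ e j) • m = (∏ j ∈ s, u j ^ (e j % N j)) • m from this _ m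
  classical
  intro s
  induction s using Finset.induction_on with
  | empty => intro m; simp
  | insert a s ha ih =>
    intro m
    rw [Finset.prod_insert ha, Finset.prod_insert ha, mul_smul, mul_smul, ih]
    conv_lhs => rw [← Nat.mod_add_div (e a) (N a), pow_add, mul_smul]
    rw [pow_smul_of_smul_eq _ (hu a)]

theorem prod_mem_range (u : Fin r → T) (N : Fin r → ℕ) [∀ j, NeZero (N j)] (b : Fin d → M)
    (hu : ∀ j (m : M), u j ^ N j • m = m) (e : Fin r → ℕ) (i : Fin d) :
    (∏ j, u j ^ e j) • b i ∈ LinearMap.range (combine (𝒪 := 𝒪) u N b) := by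
  classical
  exact ⟨Pi.single i (Pi.single (fun j => (⟨e j % N j, Nat.mod_lt _ (NeZero.pos _)⟩ : Fin (N j))) 1),
    by rw [combine_single, prod_smul_eq_mod u N hu e]⟩

variable (u : Fin r → T) (N : Fin r → ℕ) [∀ j, NeZero (N j)] (b : Fin d → M)

theorem range_combine_stable (hu : ∀ j (m : M), u j ^ N j • m = m) (a : Fin r) {w : M}
    (hw : w ∈ LinearMap.range (combine (𝒪 := 𝒪) u N b)) :
    u a • w ∈ LinearMap.range (combine (𝒪 := 𝒪) u N b) := by
  classical
  obtain ⟨c, rfl⟩ := hw
  rw [combine_apply, Finset.smul_sum]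
  refine Submodule.sum_mem _ fun i _ => ?_
  rw [Finset.smul_sum]
  refine Submodule.sum_mem _ fun e _ => ?_
  rw [smul_comm (u a) (c i e), ← mul_smul]
  refine Submodule.smul_mem _ _ ?_
  have : u a * ∏ j, u j ^ (e j : ℕ) = ∏ j, u j ^ ((e j : ℕ) + if j = a then 1 else 0) := by
    simp_rw [pow_add]
    rw [Finset.prod_mul_distrib, mul_comm]
    simp
  rw [this]
  exact prod_mem_range u N b hu _ i

/-- Operators nilpotent on a quotient cannot generate it. -/
theorem eq_top_of_sum_nilpotent {P : Submodule 𝒪 M} (t : Fin r → T) (k : Fin r → ℕ)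
    (hstab : ∀ j, ∀ x ∈ P, t j • x ∈ P) (hnil : ∀ j (x : M), t j ^ k j • x ∈ P)
    (s : Finset (Fin r))
    (hgen : ∀ x : M, ∃ y : Fin r → M, x - ∑ j ∈ s, t j • y j ∈ P) : P = ⊤ := by
  classical
  induction s using Finset.induction_on with
  | empty =>
    refine eq_top_iff.2 fun x _ => ?_
    obtain ⟨y, hy⟩ := hgen x
    simpa using hy
  | insert a s ha ih =>
    refine ih fun x => ?_
    have hiter : ∀ n, ∃ (z : M) (y : Fin r → M), x - (t a ^ n • z + ∑ j ∈ s, t j • y j) ∈ P := by
      intro n
      induction n with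
      | zero => exact ⟨x, 0, by simp⟩
      | succ n ihn =>
        obtain ⟨z, y, hz⟩ := ihn
        obtain ⟨y', hy'⟩ := hgen z
        refine ⟨y' a, fun j => y j + t a ^ n • y' j, ?_⟩
        rw [Finset.sum_insert ha] at hy'
        have hP : ∀ n : ℕ, ∀ w ∈ P, t a ^ n • w ∈ P := by
          intro n
          induction n with
          | zero => intro w hw; simpa using hw
          | succ n ih2 => intro w hw; rw [pow_succ', mul_smul]; exact hstab a _ (ih2 w hw)
        have := P.add_mem hz (hP n _ hy')
        convert this using 1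
        simp only [smul_add, smul_sub, Finset.smul_sum, Finset.sum_add_distrib, ← mul_smul,
          pow_succ]
        simp only [mul_comm (t a ^ n) (t _)]
        abel
    obtain ⟨z, y, hz⟩ := hiter (k a)
    refine ⟨y, ?_⟩
    have := P.add_mem hz (hnil a z)
    convert this using 1
    abel

variable [IsLocalRing 𝒪] [Module.Finite 𝒪 M]

/-- The basis survives a change of generators by units. -/
theorem combine_bijective_of_units (dd : Fin r → T) (x : Fin r → T) (hx : ∀ j, IsUnit (x j))
    {p : ℕ} [Fact p.Prime] (hp : (p : 𝒪) ∈ IsLocalRing.maximalIdeal 𝒪) (v : Fin r → ℕ)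
    (hN : ∀ j, N j = p ^ v j) (hu : ∀ j (m : M), u j ^ N j • m = m)
    (hrel : ∀ j (m : M), (u j - 1) • m = ((dd j - 1) * x j) • m)
    (hbij : Function.Bijective (combine (𝒪 := 𝒪) dd N b)) :
    Function.Bijective (combine (𝒪 := 𝒪) u N b) := by
  classical
  have hW := range_combine_stable (𝒪 := 𝒪) u N b hu
  set W := LinearMap.range (combine (𝒪 := 𝒪) u N b) with hWdef
  set mM : Submodule 𝒪 M := IsLocalRing.maximalIdeal 𝒪 • ⊤
  have hmT : ∀ (a : T), ∀ y ∈ mM, a • y ∈ mM := fun a y hy => by
    refine Submodule.smul_induction_on hy (fun c hc z _ => ?_) fun y z hy hz => ?_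
    · rw [smul_comm]
      exact Submodule.smul_mem_smul hc Submodule.mem_top
    · rw [smul_add]; exact add_mem hy hz
  have hsurj : W = ⊤ := by
    have key : W ⊔ mM = ⊤ := by
      refine eq_top_of_sum_nilpotent (fun j => u j - 1) (fun j => N j) (fun j y hy => ?_)
        (fun j y => Submodule.mem_sup_right ?_) Finset.univ fun y => ?_
      · obtain ⟨w, hw, m, hm, rfl⟩ := Submodule.mem_sup.1 hy
        rw [smul_add]
        refine Submodule.add_mem_sup ?_ (hmT _ _ hm)
        rw [sub_smul, one_smul]
        exact sub_mem (hW j hw) hw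
      · have hco : ∃ c : T, (u j - 1) ^ N j = u j ^ N j - 1 + (p : T) * c := by
          obtain ⟨q, hq⟩ : ∃ q : Polynomial ℤ, (Polynomial.X - 1) ^ p ^ v j =
              Polynomial.X ^ p ^ v j - 1 + (p : Polynomial ℤ) * q := by
            have hz : Polynomial.map (Int.castRingHom (ZMod p))
                ((Polynomial.X - 1) ^ p ^ v j - (Polynomial.X ^ p ^ v j - 1)) = 0 := by
              simp [sub_pow_char_pow]
            have hdvd : Polynomial.C (p : ℤ) ∣
                (Polynomial.X - 1) ^ p ^ v j - (Polynomial.X ^ p ^ v j - 1) := by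
              refine Polynomial.C_dvd_iff_dvd_coeff _ _ |>.2 fun i => ?_
              have := congrArg (fun f => Polynomial.coeff f i) hz
              simp only [Polynomial.coeff_map, Polynomial.coeff_zero] at this
              exact (ZMod.intCast_zmod_eq_zero_iff_dvd _ _).1 this
            obtain ⟨q, hq⟩ := hdvd
            refine ⟨q, ?_⟩
            rw [← sub_eq_iff_eq_add', hq]
            simp
          refine ⟨Polynomial.aeval (u j) q, ?_⟩
          have := congrArg (Polynomial.aeval (u j)) hq
          simpa [hN j] using this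
        obtain ⟨c, hc⟩ := hco
        rw [hc, add_smul, sub_smul, hu, one_smul, sub_self, zero_add, mul_smul,
          show (p : T) = algebraMap 𝒪 T (p : 𝒪) by simp, algebraMap_smul]
        exact Submodule.smul_mem_smul hp Submodule.mem_top
      · obtain ⟨c, rfl⟩ := hbij.2 y
        have hone : ∀ (e : Fin r → ℕ), ∃ z : Fin r → T,
            ∏ j, dd j ^ e j = 1 + ∑ j, (dd j - 1) * z j := by
          intro e
          suffices ∀ s : Finset (Fin r), ∃ z : Fin r → T,
              ∏ j ∈ s, dd j ^ e j = 1 + ∑ j, (dd j - 1) * z j from this _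
          intro s
          induction s using Finset.induction_on with
          | empty => exact ⟨0, by simp⟩
          | insert a s ha ih =>
            obtain ⟨z, hz⟩ := ih
            obtain ⟨g, hg⟩ := sub_one_dvd_pow_sub_one (dd a) (e a)
            refine ⟨fun j => dd a ^ e a * z j + if j = a then g else 0, ?_⟩
            rw [Finset.prod_insert ha, hz]
            simp only [mul_add, mul_ite, mul_zero, Finset.sum_add_distrib, Finset.sum_ite_eq',
              Finset.mem_univ, if_true, Finset.mul_sum]
            rw [← hg]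
            simp only [mul_left_comm (dd a ^ e a)]
            ring
        choose z hz using hone
        choose y hy using fun j => (hx j).exists_right_inv
        refine ⟨fun j => ∑ i, ∑ e, c i e • (y j * z (fun k => (e k : ℕ)) j) • b i,
          Submodule.mem_sup_left ?_⟩
        have hd1 : ∀ j (m : M), (dd j - 1) • m = (u j - 1) • y j • m := fun j m => by
          rw [hrel, ← mul_smul, mul_assoc, hy, mul_one]
        have : combine dd N b c - ∑ j, (u j - 1) •
            (∑ i, ∑ e, c i e • (y j * z (fun k => (e k : ℕ)) j) • b i) =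
            ∑ i, ∑ e, c i e • b i := by
          rw [sub_eq_iff_eq_add, combine_apply]
          simp only [Finset.smul_sum]
          rw [Finset.sum_comm (γ := Fin r), ← Finset.sum_add_distrib]
          refine Finset.sum_congr rfl fun i _ => ?_
          rw [Finset.sum_comm (γ := Fin r), ← Finset.sum_add_distrib]
          refine Finset.sum_congr rfl fun e _ => ?_
          rw [hz, add_smul, one_smul, Finset.sum_smul, smul_add, Finset.smul_sum]
          refine congrArg _ (Finset.sum_congr rfl fun j _ => ?_)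
          rw [smul_comm (u j - 1) (c i e), mul_smul (y j), ← hd1, mul_smul]
        rw [this]
        refine Submodule.sum_mem _ fun i _ => Submodule.sum_mem _ fun e _ =>
          Submodule.smul_mem _ _ ?_
        have := prod_mem_range (𝒪 := 𝒪) u N b hu 0 i
        simpa [hWdef] using this
    exact top_le_iff.1 (Submodule.le_of_le_smul_of_le_jacobson_bot (N := W)
      (Module.Finite.fg_top) (IsLocalRing.maximalIdeal_le_jacobson _) key.ge)
  have hs : Function.Surjective (combine (𝒪 := 𝒪) u N b) := LinearMap.range_eq_top.1 hsurj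
  refine ⟨?_, hs⟩
  let e := LinearEquiv.ofBijective _ hbij
  have h : Function.Injective (e.symm.toLinearMap ∘ₗ combine (𝒪 := 𝒪) u N b) :=
    OrzechProperty.injective_of_surjective_endomorphism _ (e.symm.surjective.comp hs)
  exact fun a a' haa => h (congrArg e.symm haa)

omit [IsLocalRing 𝒪] [Module.Finite 𝒪 M] in
/-- Passing to the quotient by `u_j ^ n_j - 1`. -/
theorem combine_bijective_quotient (n : Fin r → ℕ) [∀ j, NeZero (n j)] (hn : ∀ j, n j ∣ N j)
    (hu : ∀ j (m : M), u j ^ N j • m = m) (hbij : Function.Bijective (combine (𝒪 := 𝒪) u N b)) :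
    Function.Bijective (combine (𝒪 := 𝒪) (M := M ⧸ (Ideal.span (Set.range fun j => u j ^ n j - 1) •
      (⊤ : Submodule T M))) u n fun i => Submodule.Quotient.mk (b i)) := by
  classical
  set J : Submodule T M := Ideal.span (Set.range fun j => u j ^ n j - 1) • (⊤ : Submodule T M)
  have hu' : ∀ j (m : M ⧸ J), u j ^ n j • m = m := fun j m => by
    induction m using Submodule.Quotient.induction_on with
    | _ m =>
      rw [← Submodule.Quotient.mk_smul, Submodule.Quotient.eq, ← one_smul T m, ← mul_smul, mul_one]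
      rw [← sub_smul]
      exact Submodule.smul_mem_smul (Ideal.subset_span ⟨j, rfl⟩) Submodule.mem_top
  let π : (∀ j, Fin (N j)) → ∀ j, Fin (n j) := fun e j => ⟨(e j : ℕ) % n j, Nat.mod_lt _ (NeZero.pos _)⟩
  let fold : (Fin d → (∀ j, Fin (N j)) → 𝒪) →ₗ[𝒪] (Fin d → (∀ j, Fin (n j)) → 𝒪) :=
    { toFun := fun c i f => ∑ e, if π e = f then c i e else 0
      map_add' := fun c c' => funext fun i => funext fun f => by
        simp only [Pi.add_apply, ← Finset.sum_add_distrib]
        exact Finset.sum_congr rfl fun e _ => by split_ifs <;> simp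
      map_smul' := fun a c => funext fun i => funext fun f => by
        simp only [Pi.smul_apply, RingHom.id_apply, smul_eq_mul, Finset.mul_sum]
        exact Finset.sum_congr rfl fun e _ => by split_ifs <;> simp }
  let e₀ := LinearEquiv.ofBijective _ hbij
  let G : M →ₗ[𝒪] (Fin d → (∀ j, Fin (n j)) → 𝒪) := fold ∘ₗ e₀.symm.toLinearMap
  have hG : ∀ (e : Fin r → ℕ) (i : Fin d), G ((∏ j, u j ^ e j) • b i) =
      Pi.single i (Pi.single (fun j => (⟨e j % n j, Nat.mod_lt _ (NeZero.pos _)⟩ : Fin (n j))) 1) := by
    intro e i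
    set e' : ∀ j, Fin (N j) := fun j => ⟨e j % N j, Nat.mod_lt _ (NeZero.pos _)⟩
    have h1 : e₀.symm ((∏ j, u j ^ e j) • b i) = Pi.single i (Pi.single e' 1) := by
      apply e₀.injective
      rw [e₀.apply_symm_apply, LinearEquiv.ofBijective_apply, combine_single,
        prod_smul_eq_mod u N hu e]
    have hπ : π e' = fun j => (⟨e j % n j, Nat.mod_lt _ (NeZero.pos _)⟩ : Fin (n j)) :=
      funext fun j => Fin.ext (Nat.mod_mod_of_dvd _ (hn j))
    change fold (e₀.symm _) = _
    rw [h1, ← hπ]
    funext i' f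
    change ∑ x, (if π x = f then (Pi.single i (Pi.single e' (1 : 𝒪)) :
      Fin d → (∀ j, Fin (N j)) → 𝒪) i' x else 0) = _
    by_cases hi : i' = i
    · subst hi
      rw [Pi.single_eq_same, Pi.single_eq_same, Finset.sum_eq_single e'
        (fun x _ hx => by simp [Pi.single_eq_of_ne hx]) (fun h => absurd (Finset.mem_univ e') h),
        Pi.single_eq_same, Pi.single_apply]
      exact if_congr eq_comm rfl rfl
    · simp [Pi.single_eq_of_ne hi]
  have hJ : ∀ m ∈ J, G m = 0 := by
    intro m hm
    refine Submodule.smul_induction_on hm (fun a ha y _ => ?_) fun y z hy hz => by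
      rw [map_add, hy, hz, add_zero]
    induction ha using Submodule.span_induction generalizing y with
    | mem a ha =>
      obtain ⟨j, rfl⟩ := ha
      obtain ⟨c, rfl⟩ := hbij.2 y
      rw [combine_apply]
      simp only [Finset.smul_sum, map_sum]
      refine Finset.sum_eq_zero fun i _ => Finset.sum_eq_zero fun e _ => ?_
      rw [smul_comm, map_smul, ← mul_smul, sub_mul, one_mul, sub_smul, map_sub,
        show u j ^ n j * ∏ k, u k ^ (e k : ℕ) =
          ∏ k, u k ^ ((e k : ℕ) + if k = j then n j else 0) by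
            simp_rw [pow_add]
            rw [Finset.prod_mul_distrib, mul_comm]
            simp, hG, hG]
      have : (fun k => (⟨((e k : ℕ) + if k = j then n j else 0) % n k, Nat.mod_lt _ (NeZero.pos _)⟩ :
          Fin (n k))) = fun k => ⟨(e k : ℕ) % n k, Nat.mod_lt _ (NeZero.pos _)⟩ :=
        funext fun k => Fin.ext (by
          by_cases hk : k = j
          · subst hk; simp
          · simp [hk])
      rw [this, sub_self, smul_zero]
    | zero => simp
    | add a a' _ _ iha iha' => rw [add_smul, map_add, iha y trivial, iha' y trivial, add_zero]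
    | smul s a _ iha => rw [smul_eq_mul, mul_comm, mul_smul]; exact iha _ trivial
  have hsurj : Function.Surjective (combine (𝒪 := 𝒪) (M := M ⧸ J) u n
      fun i => Submodule.Quotient.mk (b i)) := by
    rw [← LinearMap.range_eq_top, eq_top_iff]
    intro m _
    obtain ⟨m, rfl⟩ := Submodule.Quotient.mk_surjective J m
    obtain ⟨c, rfl⟩ := hbij.2 m
    rw [combine_apply, ← Submodule.mkQ_apply, map_sum]
    refine Submodule.sum_mem _ fun i _ => ?_
    rw [map_sum]
    refine Submodule.sum_mem _ fun e _ => ?_
    rw [LinearMap.map_smul_of_tower, Submodule.mkQ_apply, Submodule.Quotient.mk_smul]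
    exact Submodule.smul_mem _ _ (prod_mem_range u n _ hu' _ i)
  refine ⟨fun c c' hcc => ?_, hsurj⟩
  have hlift : ∀ c, G (∑ i, ∑ f : ∀ j, Fin (n j), c i f • (∏ j, u j ^ (f j : ℕ)) • b i) = c := by
    intro c
    simp only [map_sum, map_smul, hG]
    funext i f
    simp only [Finset.sum_apply, Pi.smul_apply, smul_eq_mul]
    rw [Finset.sum_eq_single i (fun i' _ h => by simp [Pi.single_eq_of_ne (Ne.symm h)])
      (fun h => absurd (Finset.mem_univ i) h), Finset.sum_eq_single f
      (fun f' _ h => ?_) (fun h => absurd (Finset.mem_univ f) h)]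
    · simp [Nat.mod_eq_of_lt (f _).2]
    · have : (fun j => (⟨(f' j : ℕ) % n j, Nat.mod_lt _ (NeZero.pos _)⟩ : Fin (n j))) = f' :=
        funext fun j => Fin.ext (Nat.mod_eq_of_lt (f' j).2)
      rw [this, Pi.single_eq_same, Pi.single_eq_of_ne (Ne.symm h), mul_zero]
  have : G (∑ i, ∑ f : ∀ j, Fin (n j), c i f • (∏ j, u j ^ (f j : ℕ)) • b i) =
      G (∑ i, ∑ f : ∀ j, Fin (n j), c' i f • (∏ j, u j ^ (f j : ℕ)) • b i) := by
    rw [← sub_eq_zero, ← map_sub]
    refine hJ _ ((Submodule.Quotient.eq J).1 ?_)
    simp only [← Submodule.mkQ_apply, map_sum, LinearMap.map_smul_of_tower]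
    exact hcc
  rwa [hlift, hlift] at this

end Fermat.Agent.R59.UnitBasis
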