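import Fermat.Agent.R59.TWLevel.Action
import Fermat.Agent.R59.TWLevel.Diamond
import Fermat.Agent.R59.NonEis
import Fermat.Agent.R59.TWChar
import Fermat.Agent.Deform.FrobExist

/-!
# A Taylor–Wiles level from the Hecke side

`stmtTWLevel_of`: Galois representations at mixed levels, the twisted Hecke actions and the absence
of fixed vectors on ramified components give the Taylor–Wiles levels.
-/

set_option autoImplicit false
set_option synthInstance.maxHeartbeats 400000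
set_option linter.unusedSectionVars false

noncomputable section

open IsLocalRing CuspForm

namespace Fermat.Agent.R59

open Fermat.Agent.TW.Mod

local notation "Γℚ" => (AlgebraicClosure ℚ ≃ₐ[ℚ] AlgebraicClosure ℚ)

namespace TWLevel

variable {W : WeierstrassCurve ℤ} {p : ℕ} {k : Kind} {U : Setup W p k} {m r : ℕ}
  (T : TWPrimes U m r)

theorem ramPrimes_prime {q : ℕ} (hq : q ∈ ramPrimes W p) : q.Prime ∧ q ≠ p := by
  classical
  rw [ramPrimes, Finset.mem_filter] at hq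
  exact ⟨Nat.prime_of_mem_primeFactors hq.1, hq.2.1⟩

theorem qv_notMem_minSet (i : Fin r) : T.qv i ∉ minSet W p := fun h => by
  refine T.notMem_fullSet i ?_
  rcases Finset.mem_insert.1 h with h' | h'
  · exact Finset.mem_insert.2 (Or.inl h')
  · exact Finset.mem_insert.2 (Or.inr (Finset.mem_union_left _ h'))

theorem prime_union {q : ℕ} (hq : q ∈ ramPrimes W p ∪ T.primes) : q.Prime ∧ q ≠ p := by
  rcases Finset.mem_union.1 hq with h | h
  · exact ramPrimes_prime h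
  · obtain ⟨i, -, rfl⟩ := Finset.mem_image.1 h
    exact ⟨T.prime i, T.ne_p i⟩

theorem notMem_primes {S : Finset ℕ} {ℓ : ℕ}
    (hℓ : ℓ ∉ (↑(insert p (S ∪ T.primes)) : Set ℕ)) : ℓ ∉ T.primes :=
  fun h => hℓ (Finset.mem_coe.2 (Finset.mem_insert_of_mem (Finset.mem_union_right _ h)))

set_option maxHeartbeats 1000000 in
/-- The module of a Taylor–Wiles level over the base module. -/
theorem exists_twModule (hp : p.Prime) (hp2 : p ≠ 2) (_hm : 0 < m) [NeZero p]
    [NeZero (baseLevel W p k)] [NeZero T.level] [IsLocalRing (TWAlg U.𝒪 p m r)]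
    (h : Occurs U.𝒪 (heckeFam U.𝒪 (baseLevel W p k) (↑(minSet W p) : Set ℕ))
        (TWPrimes.lam (U := U))) :
    ∃ (hadm : TW.Mod.Admissible (epsOf T.chi))
      (hM : Occurs U.𝒪 (heckeFam U.𝒪 T.level (↑(minSet W p) : Set ℕ))
        (raiseLam T.primes T.α (TWPrimes.lam (U := U))))
      (π : T.twMod hadm hM →ₗ[U.𝒪] LinearMap.range (h.idem (heckeFam_comm (baseLevel W p k)
        (↑(minSet W p) : Set ℕ)))),
      Module.Free (TWAlg U.𝒪 p m r) (T.twMod hadm hM) ∧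
      Module.Finite (TWAlg U.𝒪 p m r) (T.twMod hadm hM) ∧
      Function.Surjective π ∧
      (∀ x, π x = 0 ↔ x ∈ RingHom.ker (twAug U.𝒪 p m r) •
        (⊤ : Submodule (TWAlg U.𝒪 p m r) (T.twMod hadm hM))) ∧
      ∀ i : PrimeIdx (↑(minSet W p) : Set ℕ), i.1 ∉ T.primes → ∀ x,
        (π (T.untwistedOp hadm hM i x) : LR.Hom1 (baseLevel W p k) U.𝒪) =
          heckeFam U.𝒪 (baseLevel W p k) _ i (π x : LR.Hom1 (baseLevel W p k) U.𝒪) := by
  classical
  have hadm := admissible_chi hp hp2 T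
  have hlev : T.level = baseLevel W p k * ∏ q ∈ T.primes, q := by
    rw [TWPrimes.primes, Finset.prod_image T.qv_injective.injOn]
  have hQ : ∀ q ∈ T.primes, ∃ (hq : q.Prime) (hS : q ∉ (↑(minSet W p) : Set ℕ)),
      q.Coprime (baseLevel W p k) ∧ (q : ResidueField U.𝒪) = 1 ∧
        T.α q ^ 2 - TWPrimes.lam (U := U) ⟨q, hq, hS⟩ * T.α q + 1 = 0 ∧ T.α q ^ 2 ≠ 1 := by
    intro q hq
    obtain ⟨i, -, rfl⟩ := Finset.mem_image.1 hq
    refine ⟨T.prime i, fun hS => qv_notMem_minSet T i (Finset.mem_coe.1 hS), ?_, ?_, T.α_root i,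
      T.α_sq_ne i⟩
    · rw [baseLevel, Nat.coprime_mul_iff_right]
      refine ⟨Nat.Coprime.prod_right fun q hq => (Nat.coprime_primes (T.prime i)
        (ramPrimes_prime hq).1).2 fun h => qv_notMem_minSet T i
          (h ▸ Finset.mem_insert_of_mem hq), ?_⟩
      exact ((Nat.coprime_primes (T.prime i) hp).2 (T.ne_p i)).pow_right _
    · obtain ⟨t, ht⟩ := (dvd_pow_self p (Nat.succ_ne_zero m)).trans (T.dvd i)
      have hp0 : (p : ResidueField U.𝒪) = 0 := by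
        rw [← map_natCast (residue U.𝒪)]
        exact (residue_eq_zero_iff _).mpr U.p_mem
      rw [show T.qv i = p * t + 1 by have := (T.prime i).one_le; omega]
      simp [hp0]
  have hne : ∃ i : PrimeIdx (↑(minSet W p) : Set ℕ),
      ¬ i.1 ∣ T.level ∧ TWPrimes.lam (U := U) i ≠ (i.1 : ResidueField U.𝒪) + 1 := by
    obtain ⟨ℓ, hℓ, hℓS, -, hℓne⟩ := U.exists_prime_one_mod hp 1 (minSet W p ∪ T.level.primeFactors)
    rw [Finset.mem_union, not_or] at hℓS
    exact ⟨⟨ℓ, hℓ, fun h => hℓS.1 (Finset.mem_coe.1 h)⟩,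
      fun h => hℓS.2 (Nat.mem_primeFactors.2 ⟨hℓ, h, NeZero.ne T.level⟩), hℓne⟩
  obtain ⟨hM, hfree, hfin, π, hπs, hπk, hπr, hπT⟩ := exists_freeModule_levelN
    (baseLevel W p k) T.primes hlev hadm T.twAug_chi (↑(minSet W p) : Set ℕ) h T.α hQ hne
  refine ⟨hadm, hM, π, hfree, hfin, hπs, hπk, fun i hi x => ?_⟩
  rw [TWPrimes.untwistedOp, LinearMap.smul_apply, hπr]
  have hc : twAug U.𝒪 p m r
      (((chiPrime T.eta i.1)⁻¹ : (TWAlg U.𝒪 p m r)ˣ) : TWAlg U.𝒪 p m r) = 1 := by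
    rw [chiPrime]
    split_ifs
    · rw [← map_inv]; exact T.twAug_eta _
    · rw [inv_one, Units.val_one, map_one]
  rw [hc, one_smul]
  exact hπT i hi x

section Steps

variable [hp : Fact p.Prime] {M : Type} [AddCommGroup M] [Module (TWAlg U.𝒪 p m r) M]
  [Module U.𝒪 M] [IsScalarTower U.𝒪 (TWAlg U.𝒪 p m r) M]
  (op : PrimeIdx (↑(minSet W p) : Set ℕ) → Module.End (TWAlg U.𝒪 p m r) M)

set_option maxHeartbeats 1000000 in
/-- Diamond operators are unipotent where the character at their prime is trivial. -/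
theorem diamond_sq_zero_down (hR : StmtHeckeRep) (hyp : CoreHyp W p k)
    [NeZero p] [IsLocalRing (TWAlg U.𝒪 p m r)]
    [Module.Finite (TWAlg U.𝒪 p m r) M] [Nontrivial M]
    (hnil : ∀ j, j.1 ∉ T.primes →
      NilpModM (𝒪 := U.𝒪) (op j - algebraMap U.𝒪 _ (U.a j.1)))
    (DQ : GaloisRep.DeformationRingData U.𝒪 U.ρbar
      (cond k.base U.𝒪 p (minSet W p ∪ T.primes) (minSet W p)))
    (i : Fin r) [NeZero (T.qv i)] (Dm : TWGal.Diamond DQ.ρ p (T.qv i))
    (hdown : ∀ [NeZero (mixLevel p k.base (insert (T.qv i) (ramPrimes W p))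
        (T.primes.erase (T.qv i)))],
      ∃ Φ : ↥(heckeAlgebra
          (mixLevel p k.base (insert (T.qv i) (ramPrimes W p)) (T.primes.erase (T.qv i))) 2
          (↑(insert p (insert (T.qv i) (ramPrimes W p) ∪ T.primes.erase (T.qv i))) : Set ℕ)) →+*
          Module.End (TWAlg U.𝒪 p m r) (M ⧸ TWPrimes.downIdeal (U := U) (m := m) i •
            (⊤ : Submodule (TWAlg U.𝒪 p m r) M)),
        ∀ (ℓ : ℕ) (hℓ : ℓ.Prime)
          (hℓN : ¬ ℓ ∣
            mixLevel p k.base (insert (T.qv i) (ramPrimes W p)) (T.primes.erase (T.qv i)))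
          (hℓS : ℓ ∉ (↑(insert p (insert (T.qv i) (ramPrimes W p) ∪ T.primes.erase (T.qv i))) :
            Set ℕ)) (x : M),
          Φ (heckeAlgebra.T hℓ hℓN hℓS) (Submodule.Quotient.mk x) =
            Submodule.Quotient.mk (op (primeIdxOf (Finset.subset_insert _ _) hℓ hℓS) x))
    [NeZero (mixLevel p k.base (ramPrimes W p) T.primes)]
    [Fact (HasIntegralStructure (mixLevel p k.base (ramPrimes W p) T.primes) 2)]
    {θ : ↥(heckeAlgebra (mixLevel p k.base (ramPrimes W p) T.primes) 2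
      (↑(insert p (ramPrimes W p ∪ T.primes)) : Set ℕ)) →+* ResidueField U.𝒪}
    (Ψ : heckeLocal (mixLevel p k.base (ramPrimes W p) T.primes)
      (↑(insert p (ramPrimes W p ∪ T.primes)) : Set ℕ) U.𝒪 θ →ₐ[U.𝒪]
        Module.End (TWAlg U.𝒪 p m r) M)
    (hΨ : ∀ (ℓ : ℕ) (hℓ : ℓ.Prime)
      (hℓN : ¬ ℓ ∣ mixLevel p k.base (ramPrimes W p) T.primes)
      (hℓS : ℓ ∉ (↑(insert p (ramPrimes W p ∪ T.primes)) : Set ℕ)),
      Ψ (heckeLocal.π _ _ U.𝒪 θ (heckeAlgebra.T hℓ hℓN hℓS)) =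
        op (primeIdxOf (Finset.Subset.refl _) hℓ hℓS))
    (F : DQ.R →ₐ[U.𝒪] Module.End (TWAlg U.𝒪 p m r) M)
    (hF : ∀ d, F d ∈ Ψ.range)
    (hFT : ∀ (ℓ : ℕ) (hℓ : ℓ.Prime)
      (hℓS : ℓ ∉ (↑(insert p (ramPrimes W p ∪ T.primes)) : Set ℕ))
      (P : ValuationSubring (AlgebraicClosure ℚ)), P.LiesOverPrime ℓ →
      ∀ σ : Γℚ, P.IsFrobeniusAt σ ℓ → F (LinearMap.trace DQ.R DQ.ρ.V (DQ.ρ.ρ σ)) =
        op (primeIdxOf (Finset.Subset.refl _) hℓ hℓS)) :
    (descend (Ideal.span {twGen U.𝒪 p m r i - 1}) (F (Dm.δ (T.gen i) : DQ.R)) - 1) ^ 2 = 0 := by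
  classical
  have hp2 : p ≠ 2 := by rcases hyp.1 with rfl | rfl <;> decide
  have hqQ : T.qv i ∈ T.primes := Finset.mem_image_of_mem _ (Finset.mem_univ i)
  let A : Finset ℕ := insert (T.qv i) (ramPrimes W p)
  let B : Finset ℕ := T.primes.erase (T.qv i)
  have hun : A ∪ B = ramPrimes W p ∪ T.primes := by
    show insert (T.qv i) (ramPrimes W p) ∪ T.primes.erase (T.qv i) = _
    rw [Finset.insert_union, ← Finset.union_insert, Finset.insert_erase hqQ]
  have hAB : ∀ q ∈ A ∪ B, q.Prime ∧ q ≠ p := hun ▸ fun q hq => prime_union T hq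
  have hdisj : Disjoint A B := by
    rw [Finset.disjoint_insert_left]
    refine ⟨Finset.notMem_erase _ _, Finset.disjoint_left.2 fun q hq hq' => ?_⟩
    obtain ⟨j, -, rfl⟩ := Finset.mem_image.1 (Finset.mem_of_mem_erase hq')
    exact qv_notMem_minSet T j (Finset.mem_insert_of_mem hq)
  have hS : insert p (A ∪ B) = minSet W p ∪ T.primes := by rw [hun, minSet, Finset.insert_union]
  have : NeZero (mixLevel p k.base A B) :=
    ⟨mixLevel_ne_zero hp.out.ne_zero fun q hq => (hAB q hq).1⟩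
  have : Fact (HasIntegralStructure (mixLevel p k.base A B) 2) :=
    ⟨MF.IntStruct.hasIntegralStructure _ 2⟩
  show (descend (TWPrimes.downIdeal (U := U) (m := m) i) (F (Dm.δ (T.gen i) : DQ.R)) - 1) ^ 2 = 0
  let I : Ideal (TWAlg U.𝒪 p m r) := TWPrimes.downIdeal (U := U) (m := m) i
  have hI : I ≤ maximalIdeal (TWAlg U.𝒪 p m r) := span_twGen_sub_one_le i
  have := nontrivial_quotient (M := M) hI
  have : Module.Finite U.𝒪 M := Module.Finite.trans (TWAlg U.𝒪 p m r) M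
  have := finite_quotient (𝒪' := U.𝒪) (M := M) I
  obtain ⟨Φ, hΦ⟩ := hdown
  have hΦ' : ∀ (ℓ : ℕ) (hℓ : ℓ.Prime) (hℓN : ¬ ℓ ∣ mixLevel p k.base A B)
      (hℓS : ℓ ∉ (↑(insert p (A ∪ B)) : Set ℕ)),
      Φ (heckeAlgebra.T hℓ hℓN hℓS) = descend I
        (op (primeIdxOf (Finset.subset_insert _ _) hℓ hℓS)) := by
    intro ℓ hℓ hℓN hℓS
    refine LinearMap.ext fun z => ?_
    obtain ⟨x, rfl⟩ := Submodule.Quotient.mk_surjective _ z
    exact hΦ ℓ hℓ hℓN hℓS x
  obtain ⟨θB, HB, ΨB, fB, hfB, hHπ, -, hcond, -, heB, hΨB, htr⟩ := exists_action hR hyp U A B hAB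
    hdisj (Finset.subset_insert _ _) hS
    (show minSet W p ⊆ insert p A from Finset.insert_subset_insert _ (Finset.subset_insert _ _)) DQ
    Φ fun ℓ hℓ hℓN hℓS => by
      have h := nilpModM_descend I (hnil
        (primeIdxOf (Finset.subset_insert _ _) hℓ hℓS)
        (notMem_primes T (S := ramPrimes W p) (hun ▸ hℓS)))
      rw [map_sub] at h
      rw [hΦ' ℓ hℓ hℓN hℓS]
      exact h
  have hSN := mem_of_prime_dvd_mixLevel (k := k.base) hp.out fun q hq => (hAB q hq).1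
  have hSN' := mem_of_prime_dvd_mixLevel (k := k.base) (A := ramPrimes W p) (B := T.primes) hp.out
    fun q hq => (prime_union T hq).1
  let f1 : DQ.R →ₐ[U.𝒪] Module.End (TWAlg U.𝒪 p m r)
      (M ⧸ I • (⊤ : Submodule (TWAlg U.𝒪 p m r) M)) :=
    ((descend I).restrictScalars U.𝒪).comp F
  have hf1 : ∀ d, f1 d ∈ ΨB.range := by
    intro d
    obtain ⟨z, hz⟩ := hF d
    show descend I (F d) ∈ _
    rw [← hz]
    refine mem_of_forall_T hSN' Ψ (ΨB.range.comap ((descend I).restrictScalars U.𝒪)) ?_ z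
    intro ℓ hℓ hℓN hℓS
    show descend I _ ∈ ΨB.range
    rw [hΨ ℓ hℓ hℓN hℓS]
    have hℓS' : ℓ ∉ (↑(insert p (A ∪ B)) : Set ℕ) := by rw [hun]; exact hℓS
    have hℓN' : ¬ ℓ ∣ mixLevel p k.base A B := fun h => hℓS' (hSN ℓ hℓ h)
    exact ⟨HB.π (heckeAlgebra.T hℓ hℓN' hℓS'), (hΨB _).trans (hΦ' ℓ hℓ hℓN' hℓS')⟩
  have key : f1 = ΨB.comp fB := algHom_eq_of_frobenius hp2 DQ HB.residue_surjective ΨB f1 _ hf1
    (fun d => ⟨fB d, rfl⟩) (minSet W p ∪ T.primes) fun ℓ hℓ hℓS P hP σ hσ => by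
      have hℓS' : ℓ ∉ (↑(insert p (A ∪ B)) : Set ℕ) := by
        rw [hS]; exact fun h => hℓS (Finset.mem_coe.1 h)
      have hℓN' : ¬ ℓ ∣ mixLevel p k.base A B := fun h => hℓS' (hSN ℓ hℓ h)
      have hℓS'' : ℓ ∉ (↑(insert p (ramPrimes W p ∪ T.primes)) : Set ℕ) := by
        rw [← hun]; exact hℓS'
      show descend I (F _) = ΨB (fB _)
      rw [hFT ℓ hℓ hℓS'' P hP σ hσ, htr ℓ hℓ hℓN' hℓS' P hP σ hσ, hΦ' ℓ hℓ hℓN' hℓS']
      rfl
  have hu : HB.ρ.IsUnipotentOnInertiaAt (T.qv i) := hcond.2 _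
    (Finset.mem_insert_of_mem (Finset.mem_insert_self _ _)) (T.prime i) (T.ne_p i)
  have h0 := congrArg ΨB (diamond_sq_zero (T.prime i) Dm _ hfB heB hu (T.gen i))
  rw [map_pow, map_sub, map_one, map_zero] at h0
  rw [show descend I (F (Dm.δ (T.gen i) : DQ.R)) = ΨB (fB (Dm.δ (T.gen i) : DQ.R)) from
    AlgHom.congr_fun key _]
  exact h0

end Steps

end TWLevel

open TWLevel in
set_option maxHeartbeats 4000000 in
/-- One Taylor–Wiles level over the base module. -/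
theorem stmtTWLevel_of (hR : StmtHeckeRep) (hH : StmtTWHecke) (hRam : StmtTWRamified) :
    StmtTWLevel := by
  classical
  intro W p k hyp U _ D n r T _ hgen h M₀ _ _ _ _ e htrace
  have hp : Fact p.Prime := ⟨by rcases hyp.1 with rfl | rfl <;> decide⟩
  have hp2 : p ≠ 2 := by rcases hyp.1 with rfl | rfl <;> decide
  have hloc : IsLocalRing (TWAlg U.𝒪 p (n + 1) r) := isLocalRing_twAlg U.𝒪 p (n + 1) r U.p_mem
  have : NeZero T.level := ⟨mul_ne_zero (NeZero.ne _)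
    (Finset.prod_ne_zero_iff.2 fun i _ => (T.prime i).ne_zero)⟩
  have hqne : ∀ i, NeZero (T.qv i) := fun i => ⟨(T.prime i).ne_zero⟩
  -- the module
  obtain ⟨hadm, hM, π₁, hfree, hfin, hπs, hπk, hπT⟩ := exists_twModule T hp.out hp2 n.succ_pos h
  let π : T.twMod hadm hM →ₗ[U.𝒪] M₀ := e.symm.toLinearMap ∘ₗ π₁
  have hπsurj : Function.Surjective π := e.symm.surjective.comp hπs
  have hπker : ∀ x, π x = 0 ↔ x ∈ RingHom.ker (twAug U.𝒪 p (n + 1) r) •
      (⊤ : Submodule (TWAlg U.𝒪 p (n + 1) r) (T.twMod hadm hM)) := fun x =>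
    e.symm.map_eq_zero_iff.trans (hπk x)
  have : Nontrivial M₀ := by
    obtain ⟨x, hx⟩ : ∃ x, h.idem (heckeFam_comm (baseLevel W p k) (↑(minSet W p) : Set ℕ)) x ≠ 0 := by
      by_contra hall
      push Not at hall
      have h1 := h.char_idem (heckeFam_comm (baseLevel W p k) (↑(minSet W p) : Set ℕ))
      rw [show (⟨h.idem (heckeFam_comm (baseLevel W p k) (↑(minSet W p) : Set ℕ)), h.idem_mem _⟩ :
        famAlg U.𝒪 (heckeFam U.𝒪 (baseLevel W p k) (↑(minSet W p) : Set ℕ))) = 0 from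
          Subtype.ext (LinearMap.ext hall), map_zero] at h1
      exact zero_ne_one h1
    refine ⟨e.symm ⟨_, x, rfl⟩, 0, fun hh => hx ?_⟩
    exact congrArg Subtype.val (e.symm.map_eq_zero_iff.mp hh)
  have : Nontrivial (T.twMod hadm hM) := hπsurj.nontrivial
  have : Module.Finite U.𝒪 (T.twMod hadm hM) := finite_twMod T hadm hM
  -- the deformation ring
  have himage : T.primes = Finset.univ.image T.qv := rfl
  have hnot : ∀ i, T.qv i ∉ minSet W p := qv_notMem_minSet T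
  obtain ⟨DQ⟩ := nonempty_deformationRingData_cond hp2 k.base (minSet W p ∪ T.primes) (minSet W p)
    U.ρbar U.absIrr U.base U.base_residual
    ((cond_union_iff k.base T.prime hnot U.base).1 U.base_cond).1
  have hdet := detIsCyclotomic_of_cond DQ.isOfType
  have hdm : ∀ i, Nonempty (TWGal.Diamond DQ.ρ p (T.qv i)) := fun i =>
    TWGal.exists_diamond_universal DQ hp.out (T.prime i)
      ((dvd_pow_self p (Nat.succ_ne_zero _)).trans (T.dvd i)) hdet
      (not_not.1 fun hu => hnot i ((U.ramified_iff _ (T.prime i) (T.ne_p i)).2 hu))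
      (T.eigenvalues i)
  let Dm : ∀ i, TWGal.Diamond DQ.ρ p (T.qv i) := fun i => (hdm i).some
  obtain ⟨res, hress, hresu, hresloc, hrese⟩ := exists_reduction hp2 DQ D T.prime hnot Dm T.gen
  obtain ⟨γ, hγ⟩ := hgen DQ
  -- the Hecke action
  have hAB : ∀ q ∈ ramPrimes W p ∪ T.primes, q.Prime ∧ q ≠ p := fun q => prime_union T
  have hdisj : Disjoint (ramPrimes W p) T.primes := Finset.disjoint_right.2 fun q hq hq' => by
    obtain ⟨i, -, rfl⟩ := Finset.mem_image.1 hq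
    exact hnot i (Finset.mem_insert_of_mem hq')
  have hS : insert p (ramPrimes W p ∪ T.primes) = minSet W p ∪ T.primes := by
    rw [minSet, Finset.insert_union]
  have : NeZero (mixLevel p k.base (ramPrimes W p) T.primes) :=
    ⟨mixLevel_ne_zero hp.out.ne_zero fun q hq => (hAB q hq).1⟩
  have : Fact (HasIntegralStructure (mixLevel p k.base (ramPrimes W p) T.primes) 2) :=
    ⟨MF.IntStruct.hasIntegralStructure _ 2⟩
  have hSN := mem_of_prime_dvd_mixLevel (k := k.base) (A := ramPrimes W p) (B := T.primes) hp.out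
    fun q hq => (hAB q hq).1
  obtain ⟨Φ, hΦ⟩ := (hH W p k hyp U (n + 1) r T hadm hM).1
  obtain ⟨θ, H, Ψ, fA, hfA, hHπ, hθ, hcond, hres, heA, hΨ, htr⟩ := exists_action hR hyp U
    (ramPrimes W p) T.primes hAB hdisj (Finset.Subset.refl _) hS
    (Finset.Subset.refl (minSet W p)) DQ Φ fun ℓ hℓ hℓN hℓS => by
      rw [hΦ ℓ hℓ hℓN hℓS]
      exact nilpModM_untwistedOp T hadm hM _ (notMem_primes T hℓS)
  have hΨT : ∀ (ℓ : ℕ) (hℓ : ℓ.Prime) (hℓN : ¬ ℓ ∣ mixLevel p k.base (ramPrimes W p) T.primes)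
      (hℓS : ℓ ∉ (↑(insert p (ramPrimes W p ∪ T.primes)) : Set ℕ)),
      Ψ (H.π (heckeAlgebra.T hℓ hℓN hℓS)) =
        T.untwistedOp hadm hM (primeIdxOf (Finset.Subset.refl _) hℓ hℓS) :=
    fun ℓ hℓ hℓN hℓS => (hΨ _).trans (hΦ ℓ hℓ hℓN hℓS)
  let F : DQ.R →ₐ[U.𝒪] Module.End (TWAlg U.𝒪 p (n + 1) r) (T.twMod hadm hM) := Ψ.comp fA
  have hFT : ∀ (ℓ : ℕ) (hℓ : ℓ.Prime)
      (hℓS : ℓ ∉ (↑(insert p (ramPrimes W p ∪ T.primes)) : Set ℕ))
      (P : ValuationSubring (AlgebraicClosure ℚ)), P.LiesOverPrime ℓ →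
      ∀ σ : Γℚ, P.IsFrobeniusAt σ ℓ → F (LinearMap.trace DQ.R DQ.ρ.V (DQ.ρ.ρ σ)) =
        T.untwistedOp hadm hM (primeIdxOf (Finset.Subset.refl _) hℓ hℓS) :=
    fun ℓ hℓ hℓS P hP σ hσ => (htr ℓ hℓ (fun hd => hℓS (hSN ℓ hℓ hd)) hℓS P hP σ hσ).trans
      (hΦ ℓ hℓ _ hℓS)
  -- the diamond operators
  let u : Fin r → DQ.R := fun i => ((Dm i).δ (T.gen i) : DQ.R)
  let v : Fin r → ℕ := fun i => padicValNat p (T.qv i - 1)
  have hv : ∀ i, u i ^ p ^ v i = 1 := fun i => by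
    show ((Dm i).δ (T.gen i) : DQ.R) ^ _ = 1
    rw [← Units.val_pow_eq_pow_val, (Dm i).δ_pow, Units.val_one]
  have hFv : ∀ i, F (u i) ^ p ^ v i = 1 := fun i => by rw [← map_pow, hv, map_one]
  have hx : ∀ i, ∃ x : Module.End (TWAlg U.𝒪 p (n + 1) r) (T.twMod hadm hM),
      F (u i) = 1 + algebraMap (TWAlg U.𝒪 p (n + 1) r) _ (twGen U.𝒪 p (n + 1) r i - 1) * x :=
    fun i => exists_eq_one_add i (F (u i)) (diamond_sq_zero_down T (T.untwistedOp hadm hM) hR hyp
      (nilpModM_untwistedOp T hadm hM) DQ i (Dm i)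
      ((hH W p k hyp U (n + 1) r T hadm hM).2 i) Ψ
      (fun ℓ hℓ hℓN hℓS => by rw [← hHπ]; exact hΨT ℓ hℓ hℓN hℓS) F (fun d => ⟨fA d, rfl⟩) hFT)
      (hFv i)
  choose x hx using hx
  have hxs : ∀ i, Function.Surjective (x i) := fun i =>
    surjective_of_ramified hp2 U.p_mem n.succ_pos i (F (u i)) (x i) (hx i) (hFv i)
      (TWPrimes.ramIdeal U (n + 1) i) rfl
      (hRam W p k hyp U (n + 1) r T n.succ_pos hadm hM θ H hHπ hθ hcond hres Ψ hΨT i DQ.R DQ.ρ
        (Dm i) (fA : DQ.R →+* _) hfA heA)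
  -- compatibility with the base module
  have hπR : ∀ (a : DQ.R) (y : T.twMod hadm hM), π (F a y) = res a • π y := by
    let φ : D.R →ₐ[U.𝒪] Module.End U.𝒪 M₀ := Algebra.lsmul U.𝒪 U.𝒪 M₀
    have hT : ∀ (ℓ : ℕ) (hℓ : ℓ.Prime)
        (hℓS : ℓ ∉ (↑(insert p (ramPrimes W p ∪ T.primes)) : Set ℕ))
        (P : ValuationSubring (AlgebraicClosure ℚ)), P.LiesOverPrime ℓ →
        ∀ σ : Γℚ, P.IsFrobeniusAt σ ℓ → ∀ y,
          π (T.untwistedOp hadm hM (primeIdxOf (Finset.Subset.refl _) hℓ hℓS) y) =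
            LinearMap.trace D.R D.ρ.V (D.ρ.ρ σ) • π y := by
      intro ℓ hℓ hℓS P hP σ hσ y
      apply e.injective
      apply Subtype.ext
      rw [htrace (primeIdxOf (Finset.Subset.refl _) hℓ hℓS) P hP σ hσ]
      simp only [π, LinearMap.comp_apply, LinearEquiv.coe_coe, LinearEquiv.apply_symm_apply]
      exact hπT _ (notMem_primes T hℓS) y
    obtain ⟨g, hg, hgr⟩ := exists_descent π hπsurj Ψ φ.range fun z => by
      let S' : Subalgebra U.𝒪 (Module.End (TWAlg U.𝒪 p (n + 1) r) (T.twMod hadm hM)) :=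
        { carrier := {b | ∃ a ∈ φ.range, ∀ y, π (b y) = a (π y)}
          mul_mem' := by
            rintro b b' ⟨a, ha, hb⟩ ⟨a', ha', hb'⟩
            exact ⟨a * a', mul_mem ha ha', fun y => by
              rw [Module.End.mul_apply, Module.End.mul_apply, hb, hb']⟩
          add_mem' := by
            rintro b b' ⟨a, ha, hb⟩ ⟨a', ha', hb'⟩
            exact ⟨a + a', add_mem ha ha', fun y => by
              rw [LinearMap.add_apply, LinearMap.add_apply, map_add, hb, hb']⟩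
          algebraMap_mem' := fun c => ⟨algebraMap U.𝒪 _ c, φ.range.algebraMap_mem c, fun y => by
            rw [Module.algebraMap_end_apply, Module.algebraMap_end_apply, map_smul]⟩ }
      refine mem_of_forall_T (E := Module.End (TWAlg U.𝒪 p (n + 1) r) (T.twMod hadm hM)) hSN Ψ S' (fun ℓ hℓ hℓN hℓS => ?_) z
      obtain ⟨P, hP⟩ := Deform.exists_valuationSubring_liesOverPrime hℓ
      obtain ⟨σ, hσ⟩ := Deform.exists_isFrobeniusAt hℓ hP
      refine ⟨φ (LinearMap.trace D.R D.ρ.V (D.ρ.ρ σ)), ⟨_, rfl⟩, fun y => ?_⟩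
      rw [← hHπ, hΨT ℓ hℓ hℓN hℓS]
      exact hT ℓ hℓ hℓS P hP σ hσ y
    have : Nontrivial (Module.End U.𝒪 M₀) := inferInstance
    have key : g.comp fA = φ.comp res := algHom_eq_of_frobenius hp2 DQ D.residue_surjective φ _ _
      (fun d => hgr _) (fun d => ⟨res d, rfl⟩) (minSet W p ∪ T.primes)
      fun ℓ hℓ hℓS P hP σ hσ => by
        have hℓS' : ℓ ∉ (↑(insert p (ramPrimes W p ∪ T.primes)) : Set ℕ) := by
          rw [hS]; exact fun h => hℓS (Finset.mem_coe.1 h)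
        refine LinearMap.ext fun z => ?_
        obtain ⟨y, rfl⟩ := hπsurj z
        show g (fA _) (π y) = res (LinearMap.trace DQ.R DQ.ρ.V (DQ.ρ.ρ σ)) • π y
        have htr' := trace_baseChangeAlong (res : DQ.R →+* D.R) hresloc DQ.ρ σ
        rw [trace_eq_of_isEquiv hrese σ] at htr'
        rw [← hg, show Ψ (fA _) = _ from hFT ℓ hℓ hℓS' P hP σ hσ, hT ℓ hℓ hℓS' P hP σ hσ, htr']
        rfl
    intro a y
    show π (Ψ (fA a) y) = _
    rw [hg]
    exact LinearMap.congr_fun (AlgHom.congr_fun key a) (π y)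
  exact nonempty_twLevel hp2 U.p_mem n.le_succ γ hγ res hress u hresu v hv F x hxs hx π hπsurj
    hπker hπR

end Fermat.Agent.R59
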